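/-
Program B (bad reduction), node B7.5-PRODUCER, part 1 (helper21): the LEVEL DATA of the tube of a
crossing point.

`F / K` a function field, `A ⊆ K` a valuation ring (not discrete), `T` the set of places of the tube
of a crossing point `n` of the special fibre, `u v : F` the two local coordinates at `n`,
`u * v = thick • ε₀` with `ε₀` a unit at `n`.

* `NodeLevel A T u v ε₀ thick` : ONE finite level: `R = O_{n,W'}`, the local ring at `n` of the
  noetherian normal model over the discrete valuation ring `W' = A ∩ K'` with uniformizer `ϖ`: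
  noetherian, integrally closed, local, containing `A ∩ K'`, maximal ideal `(ϖ, u, v)`, the two
  vertical primes `p1 ∋ u`, `p2 ∋ v`, residue field `k`, the places of the tube are centred at `R`,
  - `horiz` : every horizontal height-one prime of `R` is the kernel of the evaluation at a place of
    the tube (the K-point existence lemma, `BR/PlaceLift`, same shape as `SmoothLevel.horiz`),
  - `n2` : the class-group lemma (N2) of `BR/LocalDivNode`: a function without horizontal divisor
    through the point is `constant * u ^ β * unit`;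
* `AnnulusLevels A T ι` : a directed family of levels exhausting `F` and `K`
  (same shape as `SmoothFamily` of `BR/S0/SmoothDescent` and `NodeLevels` of `BR/S0/NodeDescent`).

The consumer is `BR/S0/AnnulusDescent.lean` : `AnnulusLevels.core : Circle.AnnulusCore A T`.
-/
import Mathlib
import Fermat.Agent.BR.Circle.Defs
import Fermat.Agent.BR.CentreOrd

set_option autoImplicit false

namespace Fermat.Agent.BR.S0

open AlgebraicCurve IsLocalRing Fermat.Agent.Red Fermat.Agent.BR.Centre

variable {K F : Type*} [Field K] [Field F] [Algebra K F]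

/-- One finite level `R = O_{n,W'}` of the local ring of the normal model at a crossing point `n`
with tube `T`: a noetherian normal local subring of `F` containing `W' = A ∩ K'`, with maximal
ideal `(ϖ, u, v)`, the two vertical primes `p1 ∋ u`, `p2 ∋ v`, and the places of the tube centred
on it. -/
structure NodeLevel (A : ValuationSubring K) (T : Set (Place K F)) (u v ε₀ : F) (thick : K) where
  /-- the local ring of the level -/
  R : Subring F
  /-- the constant field of the level -/
  K' : Subfield K
  /-- the uniformizer of `A ∩ K'` -/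
  ϖ : K
  noeth : IsNoetherianRing R
  intClosed : IsIntegrallyClosed R
  isLocal : IsLocalRing R
  /-- the constants `A ∩ K'` lie in `R` -/
  const_mem : ∀ c ∈ K', c ∈ A → algebraMap K F c ∈ R
  unif_mem : ϖ ∈ K'
  unif_ne : ϖ ≠ 0
  unif_lt : A.valuation ϖ < 1
  /-- `ϖ` is a uniformizer of `A ∩ K'` -/
  unif_max : ∀ c ∈ K', A.valuation c < 1 → A.valuation c ≤ A.valuation ϖ
  thick_mem : thick ∈ K'
  unif_memR : algebraMap K F ϖ ∈ R
  u_mem : u ∈ R
  v_mem : v ∈ R
  ε₀_mem : ε₀ ∈ R
  ε₀_inv_mem : ε₀⁻¹ ∈ R
  /-- the maximal ideal is `(ϖ, u, v)` -/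
  nonunit_mem : ∀ x : R, ¬ IsUnit x →
    x ∈ Ideal.span {(⟨algebraMap K F ϖ, unif_memR⟩ : R), ⟨u, u_mem⟩, ⟨v, v_mem⟩}
  /-- the first vertical prime (`u = 0`) -/
  p1 : Ideal R
  /-- the second vertical prime (`v = 0`) -/
  p2 : Ideal R
  prime1 : p1.IsPrime
  prime2 : p2.IsPrime
  unif_mem_p1 : (⟨algebraMap K F ϖ, unif_memR⟩ : R) ∈ p1
  unif_mem_p2 : (⟨algebraMap K F ϖ, unif_memR⟩ : R) ∈ p2
  u_mem_p1 : (⟨u, u_mem⟩ : R) ∈ p1
  v_mem_p2 : (⟨v, v_mem⟩ : R) ∈ p2
  v_notMem_p1 : (⟨v, v_mem⟩ : R) ∉ p1
  u_notMem_p2 : (⟨u, u_mem⟩ : R) ∉ p2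
  /-- the only vertical height-one primes are `p1` and `p2` -/
  vertical : ∀ Q : Ideal R, Q.IsPrime → Q.height = 1 →
    (⟨algebraMap K F ϖ, unif_memR⟩ : R) ∈ Q → Q = p1 ∨ Q = p2
  /-- the residue field of `R` is the residue field of `A` -/
  residue : ∀ y : R, ∃ (a : A) (h : algebraMap K F a ∈ R),
    ¬ IsUnit (y - ⟨algebraMap K F a, h⟩)
  /-- the places of the tube are centred at the closed point -/
  centred : ∀ P ∈ T, CentredAt A R P
  /-- every horizontal height-one prime is the kernel of the evaluation at a place of the tube -/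
  horiz : ∀ Q : Ideal R, Q.IsPrime → Q.height = 1 →
    (⟨algebraMap K F ϖ, unif_memR⟩ : R) ∉ Q →
    ∃ P ∈ T, ∀ x : R, x ∈ Q ↔ evalAt P (x : F) = 0
  /-- **(N2)** (class-group lemma, `BR/LocalDivNode`): a function without horizontal divisor
  through the point is `constant * u ^ β * unit` -/
  n2 : ∀ z : F, z ≠ 0 → (∃ a b : R, b ≠ 0 ∧ z * (b : F) = (a : F)) →
    (∀ Q : Ideal R, Q.IsPrime → Q.height = 1 → (⟨algebraMap K F ϖ, unif_memR⟩ : R) ∉ Q →
      ∃ s t : R, s ∉ Q ∧ t ∉ Q ∧ z * (s : F) = (t : F)) →
    ∃ (d : K) (β : ℤ) (ε : F), d ≠ 0 ∧ ε ∈ R ∧ ε⁻¹ ∈ R ∧ z = algebraMap K F d * u ^ β * ε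

/-- A directed family of finite levels of the tube of a crossing point, exhausting `F` and `K`. -/
structure AnnulusLevels (A : ValuationSubring K) (T : Set (Place K F)) (ι : Type*) where
  /-- the first coordinate -/
  u : F
  /-- the second coordinate -/
  v : F
  /-- the unit `u * v / thick` -/
  ε₀ : F
  /-- the thickness element -/
  thick : K
  thick_ne : thick ≠ 0
  thick_lt : A.valuation thick < 1
  uv : u * v = thick • ε₀
  level : ι → NodeLevel A T u v ε₀ thick
  /-- the family is directed -/
  directed : ∀ i j, ∃ l, (level i).R ≤ (level l).R ∧ (level j).R ≤ (level l).R ∧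
    (level i).K' ≤ (level l).K' ∧ (level j).K' ≤ (level l).K'
  /-- every function is a quotient of functions of some level -/
  frac : ∀ y : F, ∃ i, ∃ a b : (level i).R, b ≠ 0 ∧ y * (b : F) = (a : F)
  /-- every constant lies in the constant field of some level -/
  const : ∀ c : K, ∃ i, c ∈ (level i).K'
  /-- zeros and poles of a function: finite support -/
  finite_div : ∀ y : F, y ≠ 0 → {P : Place K F | P.ord y ≠ 0}.Finite

end Fermat.Agent.BR.S0
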