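/-
Program B (bad reduction), node B6.6-CONS (helper24): the `conservation` fields of a semistable
setup from a local chart at a smooth (non-crossing) point of a component.

`F / K` a function field, `A ⊆ K` a valuation ring with residue map `π : A → k`, `O` a component
valuation ring of `F` with residue map `res : O → Ft`, `Q` a place of `Ft / k` which is not a
crossing point, and `T` the set of places of `F / K` of its tube (the open disc of `Q`).

* `SmoothChart A O res Q T` : the local ring `R ⊆ F` of the model (over `A`) at the point `Q`: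
  contained in `O`, with residue field `k`, whose non-units reduce to functions vanishing at `Q`,
  **normal** in the sense that every function of `O` without poles on the tube lies in `R`
  (Krull-normality of the local ring of the normal model, only ONE component passes through the
  point), together with a parameter `t ∈ R` whose reduction is a uniformizer at `Q`, which takes
  values of absolute value `< 1` on the tube, separates the places of the tube and has a simple
  zero `t - t(P)` at every place `P` of the tube (the tube is the open unit disc with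
  coordinate `t`).
* `SmoothChart.conservation` : the field `conservation` of `SS.SemistableSetup` at `Q`:
  `∑_{P ∈ T} ord_P y = ord_Q (res y)` for every unit `y` of `O`; no condition on the other
  components.
* `TwoCompInput.ofAllCharts` : helper12's two-component bundle with `conservation₀`,
  `conservation₁` discharged by smooth charts and `node_match`, `node_unit` discharged by
  helper19's node charts.
-/
import Mathlib
import Fermat.Agent.Red.Values
import Fermat.Agent.X0.Alg.PlaceBasic
import Fermat.Agent.BR.S0.OfCharts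

set_option autoImplicit false

namespace Fermat.Agent.BR.S0

open AlgebraicCurve Fermat.Agent.Red Fermat.Agent.X0

/-- The order of a product of integral powers. -/
theorem ord_prod_zpow {K F : Type*} [Field K] [Field F] [Algebra K F] (P : Place K F)
    {ι : Type*} (s : Finset ι) (x : ι → F) (n : ι → ℤ) (hx : ∀ i ∈ s, x i ≠ 0) :
    P.ord (∏ i ∈ s, x i ^ n i) = ∑ i ∈ s, n i * P.ord (x i) := by
  classical
  induction s using Finset.induction_on with
  | empty => simp
  | insert i s hi ih =>
    have hxi : x i ≠ 0 := hx i (Finset.mem_insert_self i s)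
    have hxs : ∀ j ∈ s, x j ≠ 0 := fun j hj => hx j (Finset.mem_insert_of_mem hj)
    have hprod : ∏ j ∈ s, x j ^ n j ≠ 0 :=
      Finset.prod_ne_zero_iff.mpr fun j hj => zpow_ne_zero _ (hxs j hj)
    rw [Finset.prod_insert hi, Finset.sum_insert hi, P.ord_mul (zpow_ne_zero _ hxi) hprod,
      P.ord_zpow, ih hxs]

variable {K F k : Type*} [Field K] [Field F] [Algebra K F] [Field k]
  {Ft : Type*} [Field Ft] [Algebra k Ft]

/-- The local ring of the model at a smooth point `Q` of the component `(O, res)`, with a
parameter, in the form needed for the field `conservation` of a semistable setup. -/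
structure SmoothChart (A : ValuationSubring K) (O : ValuationSubring F) (res : O →+* Ft)
    (Q : Place k Ft) (T : Set (Place K F)) where
  /-- the local ring at the point -/
  R : Subring F
  le : ∀ y ∈ R, y ∈ O
  algebraMap_mem : ∀ a ∈ A, algebraMap K F a ∈ R
  /-- the residue field of `R` is the residue field of `A` -/
  residue : ∀ y : R, ∃ a : A, ¬ IsUnit (y - ⟨algebraMap K F a, algebraMap_mem a a.2⟩)
  /-- non-units vanish at the point -/
  branch : ∀ y : R, ¬ IsUnit y → Q.adicValuation (res ⟨y, le y y.2⟩) < 1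
  /-- normality: a function integral on the component and without poles on the tube lies in
  `R` -/
  normal : ∀ y : F, y ∈ O → (∀ P ∈ T, 0 ≤ P.ord y) → y ∈ R
  /-- the parameter -/
  t : F
  t_mem : t ∈ R
  /-- the reduction of the parameter is a uniformizer at the point -/
  ord_res_t : Q.ord (res ⟨t, le t t_mem⟩) = 1
  /-- the parameter maps the tube into the open unit disc -/
  value : ∀ P ∈ T, ∃ c : K, A.valuation c < 1 ∧ IsValueAt P t c
  /-- the zero of `t - t(P)` at `P` is simple -/
  simple : ∀ P ∈ T, ∀ c : K, IsValueAt P t c → P.ord (t - algebraMap K F c) = 1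
  /-- the parameter separates the places of the tube -/
  inj : ∀ P ∈ T, ∀ P' ∈ T, ∀ c : K, IsValueAt P t c → IsValueAt P' t c → P = P'

namespace SmoothChart

variable {A : ValuationSubring K} {π : A →+* k} {O : ValuationSubring F} {res : O →+* Ft}
  {Q : Place k Ft} {T : Set (Place K F)} (C : SmoothChart A O res Q T)

/-- The value at the point: for `y ∈ R` there is `a ∈ A` such that the reduction of `y` takes the
value `π a` at `Q`. -/
theorem exists_isValueAt
    (hres : ∀ (a : K) (ha : a ∈ A) (h : algebraMap K F a ∈ O),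
      res ⟨algebraMap K F a, h⟩ = algebraMap k Ft (π ⟨a, ha⟩))
    {y : F} (hy : y ∈ C.R) : ∃ a : A, IsValueAt Q (res ⟨y, C.le y hy⟩) (π a) := by
  obtain ⟨a, ha⟩ := C.residue ⟨y, hy⟩
  refine ⟨a, ?_⟩
  have h1 := C.branch _ ha
  have e : (⟨((⟨y, hy⟩ : C.R) - ⟨algebraMap K F a, C.algebraMap_mem a a.2⟩ : C.R), C.le _
      ((⟨y, hy⟩ : C.R) - ⟨algebraMap K F a, C.algebraMap_mem a a.2⟩ : C.R).2⟩ : O) =
      ⟨y, C.le y hy⟩ - ⟨algebraMap K F a, C.le _ (C.algebraMap_mem a a.2)⟩ := rfl
  rw [e, map_sub, hres a a.2] at h1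
  exact h1

include C in
/-- A unit of `O` without zeros and poles on the tube reduces to a unit at the point. -/
theorem ord_res_eq_zero
    (hres : ∀ (a : K) (ha : a ∈ A) (h : algebraMap K F a ∈ O),
      res ⟨algebraMap K F a, h⟩ = algebraMap k Ft (π ⟨a, ha⟩))
    (z : Oˣ) (hz : ∀ P ∈ T, P.ord ((z : O) : F) = 0) : Q.ord (res (z : O)) = 0 := by
  have hinv : (((z⁻¹ : Oˣ) : O) : F) = (((z : O) : F))⁻¹ := by
    have h4 : ((z : O) * ((z⁻¹ : Oˣ) : O) : O) = 1 := z.mul_inv
    have h5 : ((z : O) : F) * (((z⁻¹ : Oˣ) : O) : F) = 1 := by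
      rw [← MulMemClass.coe_mul, h4, OneMemClass.coe_one]
    exact eq_inv_of_mul_eq_one_right h5
  have hz1 : ((z : O) : F) ∈ C.R := C.normal _ (z : O).2 fun P hP => (hz P hP).ge
  have hz2 : (((z⁻¹ : Oˣ) : O) : F) ∈ C.R := by
    refine C.normal _ ((z⁻¹ : Oˣ) : O).2 fun P hP => ?_
    rw [hinv, Place.ord_inv, hz P hP, neg_zero]
  obtain ⟨a, ha⟩ := C.exists_isValueAt hres hz1
  obtain ⟨a', ha'⟩ := C.exists_isValueAt hres hz2
  have hmul := ha.mul ha'
  have e1 : (⟨((z : O) : F), C.le _ hz1⟩ : O) = (z : O) := rfl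
  have e2 : (⟨(((z⁻¹ : Oˣ) : O) : F), C.le _ hz2⟩ : O) = ((z⁻¹ : Oˣ) : O) := rfl
  rw [e1, e2, ← map_mul, z.mul_inv, map_one] at hmul
  have h1 : π a * π a' = 1 := hmul.unique (isValueAt_one Q)
  have ha0 : π a ≠ 0 := left_ne_zero_of_mul_eq_one h1
  rw [e1] at ha
  exact ha.ord_eq_zero ha0

include C in
/-- **`conservation`** from a smooth chart: for a unit `y` of the component the number of zeros
minus poles of `y` in the tube of `Q` is the order at `Q` of the reduction of `y`. The tube is
given as a fibre `{P | r P = b}` of a reduction map. -/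
theorem conservation
    (hres : ∀ (a : K) (ha : a ∈ A) (h : algebraMap K F a ∈ O),
      res ⟨algebraMap K F a, h⟩ = algebraMap k Ft (π ⟨a, ha⟩))
    (hπ : ∀ a : A, A.valuation (a : K) < 1 → π a = 0)
    (hunit : ∀ x : O, res x ≠ 0 → IsUnit x)
    {β : Type*} (r : Place K F → β) (b : β) (hT : ∀ P, P ∈ T ↔ r P = b)
    (y : O) (hy : res y ≠ 0) (D : Divisor K F) (hD : ∀ P, D P = P.ord (y : F)) :
    Finsupp.mapDomain r D b = Q.ord (res y) := by
  classical
  -- the coordinate of a place of the tube
  have hval : ∀ P ∈ T, A.valuation (evalAt P C.t) < 1 ∧ IsValueAt P C.t (evalAt P C.t) := by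
    intro P hP
    obtain ⟨c, hc1, hc⟩ := C.value P hP
    rw [evalAt_eq_of_isValueAt hc]
    exact ⟨hc1, hc⟩
  have htO : C.t ∈ O := C.le _ C.t_mem
  have hrest : res ⟨C.t, htO⟩ ≠ 0 := by
    intro h0
    have := C.ord_res_t
    rw [h0, Place.ord_zero] at this
    exact zero_ne_one this
  -- the factors `t - t(P)` are units of the component with reduction `res t`
  have hfac : ∀ P ∈ T, ∃ u : Oˣ, ((u : O) : F) = C.t - algebraMap K F (evalAt P C.t) ∧
      res (u : O) = res ⟨C.t, htO⟩ := by
    intro P hP
    have hcA : evalAt P C.t ∈ A :=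
      (A.valuation_le_one_iff _).mp (hval P hP).1.le
    have hcO : algebraMap K F (evalAt P C.t) ∈ O := C.le _ (C.algebraMap_mem _ hcA)
    have hr : res (⟨C.t, htO⟩ - ⟨algebraMap K F (evalAt P C.t), hcO⟩) = res ⟨C.t, htO⟩ := by
      rw [map_sub, hres _ hcA, hπ ⟨_, hcA⟩ (hval P hP).1, map_zero, sub_zero]
    obtain ⟨u, hu⟩ := hunit _ (by rw [hr]; exact hrest)
    refine ⟨u, ?_, ?_⟩
    · rw [hu]
      rfl
    · rw [hu, hr]
  choose! u hu hures using hfac
  set s : Finset (Place K F) := D.support.filter fun P => P ∈ T with hs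
  have hsT : ∀ P ∈ s, P ∈ T := fun P hP => (Finset.mem_filter.mp hP).2
  -- the product of the factors, as a unit of the component
  set g : Oˣ := ∏ P ∈ s, u P ^ D P with hg
  obtain ⟨yu, hyu⟩ := hunit y hy
  set z : Oˣ := yu * g⁻¹ with hz
  -- coercion to `F` as a monoid homomorphism
  let φ : Oˣ →* F := (O.subtype : O →* F).comp (Units.coeHom O)
  have hφ : ∀ w : Oˣ, φ w = ((w : O) : F) := fun _ => rfl
  have hgF : ((g : O) : F) = ∏ P ∈ s, (C.t - algebraMap K F (evalAt P C.t)) ^ D P := by
    rw [← hφ, hg, map_prod]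
    refine Finset.prod_congr rfl fun P hP => ?_
    rw [map_zpow, hφ, hu P (hsT P hP)]
  have hne : ∀ P ∈ s, C.t - algebraMap K F (evalAt P C.t) ≠ 0 := by
    intro P hP h0
    have := C.simple P (hsT P hP) _ (hval P (hsT P hP)).2
    rw [h0, Place.ord_zero] at this
    exact zero_ne_one this
  have hgne : ((g : O) : F) ≠ 0 := by
    rw [hgF]
    exact Finset.prod_ne_zero_iff.mpr fun P hP => zpow_ne_zero _ (hne P hP)
  have hyne : (y : F) ≠ 0 := by
    intro h0
    apply hy
    have : y = 0 := Subtype.ext h0
    rw [this, map_zero]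
  -- the order of the product at a place of the tube
  have hordg : ∀ P' ∈ T, P'.ord ((g : O) : F) = D P' := by
    intro P' hP'
    rw [hgF, ord_prod_zpow P' s _ _ hne]
    have hterm : ∀ P ∈ s, D P * P'.ord (C.t - algebraMap K F (evalAt P C.t)) =
        if P = P' then D P else 0 := by
      intro P hP
      by_cases hPP : P = P'
      · subst hPP
        rw [if_pos rfl, C.simple P hP' _ (hval P hP').2, mul_one]
      · rw [if_neg hPP]
        have hne' : evalAt P' C.t - evalAt P C.t ≠ 0 := by
          intro h0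
          apply hPP
          have h1 : evalAt P' C.t = evalAt P C.t := sub_eq_zero.mp h0
          have h2 := (hval P' hP').2
          rw [h1] at h2
          exact C.inj P (hsT P hP) P' hP' _ (hval P (hsT P hP)).2 h2
        have h3 : IsValueAt P' (C.t - algebraMap K F (evalAt P C.t))
            (evalAt P' C.t - evalAt P C.t) :=
          (hval P' hP').2.sub (isValueAt_algebraMap P' _)
        rw [h3.ord_eq_zero hne', mul_zero]
    rw [Finset.sum_congr rfl hterm, Finset.sum_ite_eq' s P' fun P => D P]
    split_ifs with hmem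
    · rfl
    · have : P' ∉ D.support := fun h => hmem (Finset.mem_filter.mpr ⟨h, hP'⟩)
      exact (Finsupp.notMem_support_iff.mp this).symm
  -- `z = y / g` has neither zeros nor poles on the tube
  have hzF : ((z : O) : F) = (y : F) * (((g : O) : F))⁻¹ := by
    have h1 : ((g : O) * ((g⁻¹ : Oˣ) : O) : O) = 1 := g.mul_inv
    have h2 : ((g : O) : F) * (((g⁻¹ : Oˣ) : O) : F) = 1 := by
      rw [← MulMemClass.coe_mul, h1, OneMemClass.coe_one]
    have h3 : (((g⁻¹ : Oˣ) : O) : F) = (((g : O) : F))⁻¹ :=
      eq_inv_of_mul_eq_one_right h2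
    rw [hz, Units.val_mul, hyu, ← h3]
    rfl
  have hzord : ∀ P ∈ T, P.ord ((z : O) : F) = 0 := by
    intro P hP
    rw [hzF, P.ord_mul hyne (inv_ne_zero hgne), Place.ord_inv, hordg P hP, ← hD P]
    ring
  have hz0 := C.ord_res_eq_zero hres z hzord
  -- the reduction of `y`
  have hy_eq : y = (z : O) * (g : O) := by
    rw [← hyu, hz, Units.val_mul, mul_assoc, ← Units.val_mul, inv_mul_cancel, Units.val_one,
      mul_one]
  let ψ : Oˣ →* Ft := (res : O →* Ft).comp (Units.coeHom O)
  have hψ : ∀ w : Oˣ, ψ w = res (w : O) := fun _ => rfl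
  have hresg : res (g : O) = ∏ P ∈ s, (res ⟨C.t, htO⟩) ^ D P := by
    rw [← hψ, hg, map_prod]
    refine Finset.prod_congr rfl fun P hP => ?_
    rw [map_zpow, hψ, hures P (hsT P hP)]
  have hresz : res (z : O) ≠ 0 := by
    intro h0
    have h1 : IsUnit (res (z : O)) := z.isUnit.map res
    rw [h0] at h1
    exact not_isUnit_zero h1
  have hresg0 : res (g : O) ≠ 0 := by
    intro h0
    have h1 : IsUnit (res (g : O)) := g.isUnit.map res
    rw [h0] at h1
    exact not_isUnit_zero h1
  have hQ : Q.ord (res y) = ∑ P ∈ s, D P := by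
    rw [hy_eq, map_mul, Q.ord_mul hresz hresg0, hz0, zero_add, hresg,
      ord_prod_zpow Q s _ _ fun _ _ => hrest]
    refine Finset.sum_congr rfl fun P _ => ?_
    rw [C.ord_res_t, mul_one]
  rw [hQ, mapDomain_apply_eq_sum, hs, Finset.sum_filter]
  refine Finset.sum_congr rfl fun P _ => ?_
  by_cases hP : P ∈ T
  · rw [if_pos hP, if_pos ((hT P).mp hP)]
  · rw [if_neg hP, if_neg fun h => hP ((hT P).mpr h)]

end SmoothChart

/-! ### The two-component bundle from charts at all points -/

open Fermat.Agent.Val Fermat.Agent.BR.SS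

variable {A : ValuationSubring K} {π : A →+* k} {ν : Type*}

/-- The field `conservation` at the point `Q` of the component `C` from a smooth chart. -/
theorem conservation_of_smoothChart (C : ConstRed (F := F) (Ft := Ft) A π) {β : Type*}
    (r : Place K F → β) (b : β) (Q : Place k Ft)
    (chart : SmoothChart A C.O C.res Q {P | r P = b})
    (y : C.O) (hy : C.res y ≠ 0) (D : Divisor K F) (hD : ∀ P, D P = P.ord (y : F)) :
    Finsupp.mapDomain r D b = Q.ord (C.res y) := by
  refine chart.conservation C.res_algebraMap ?_ ?_ r b (fun P => Iff.rfl) y hy D hD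
  · intro a ha
    rw [C.pi_eq_zero_iff]
    exact (ValuationSubring.mem_nonunits_iff A).mpr ha
  · intro x hx
    by_contra hu
    exact hx ((C.res_eq_zero_iff x).mpr hu)

/-- The two-component bundle from local charts at all points: the fields `conservation₀`,
`conservation₁` of `TwoCompInput` are replaced by a `SmoothChart` at every non-crossing point of
either component, and `node_match`, `node_unit` by a `NodeChart` at every crossing. -/
def TwoCompInput.ofAllCharts (C : Fin 2 → ConstRed (F := F) (Ft := Ft) A π)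
    (O_ne : (C 0).O ≠ (C 1).O) (z₁ z₂ : ν → Place k Ft) (z₁_injective : Function.Injective z₁)
    (z₂_injective : Function.Injective z₂) (nonempty_ν : Nonempty ν)
    (r : Place K F → Σ _ : Fin 2, Place k Ft) (r_ne_tgt : ∀ P e, r P ≠ ⟨1, z₂ e⟩)
    (smooth₀ : ∀ Q : Place k Ft, (∀ e, Q ≠ z₁ e) →
      SmoothChart A (C 0).O (C 0).res Q {P | r P = ⟨0, Q⟩})
    (smooth₁ : ∀ Q : Place k Ft, (∀ e, Q ≠ z₂ e) →
      SmoothChart A (C 1).O (C 1).res Q {P | r P = ⟨1, Q⟩})
    (chart : ∀ e, NodeChart A (C 0).O (C 1).O (C 0).res (C 1).res (z₁ e) (z₂ e)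
      {P | r P = ⟨0, z₁ e⟩}) :
    TwoCompInput (F := F) A π Ft ν :=
  TwoCompInput.ofCharts C O_ne z₁ z₂ z₁_injective z₂_injective nonempty_ν r r_ne_tgt
    (fun y hy D hD Q hQ => conservation_of_smoothChart (C 0) r ⟨0, Q⟩ Q (smooth₀ Q hQ) y hy D hD)
    (fun y hy D hD Q hQ => conservation_of_smoothChart (C 1) r ⟨1, Q⟩ Q (smooth₁ Q hQ) y hy D hD)
    chart

end Fermat.Agent.BR.S0
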