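/-
Program B (bad reduction), node B7.5-PRODUCER, part 2 (helper21): the K-LEVEL CONTRACT OF THE ANNULUS
from a directed family of finite levels.

Input: `L : AnnulusLevels A T ι` (`BR/S0/AnnulusLevels.lean`): the local rings `R = O_{n,W'}` of the
normal models at a crossing point `n`, with coordinates `u v`, `u * v = thick • ε₀`.
Output: `AnnulusLevels.core L : Circle.AnnulusCore A T` (`BR/Circle/Defs.lean`).

* `val_mem` : `|thick| < |u(P)| < 1` on the tube (`u(P) v(P) = thick ε₀(P)`, `|ε₀(P)| = 1`,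
  `|v(P)| < 1`);
* `constSat K R g` : the saturation `{x | ∃ d ≠ 0 constant, g ∣ d x}` of `(g)`;
  **the kernel lemma** `NodeLevel.mem_constSat_iff` : at a level whose constant field contains
  `c = u(P)`, the functions of the level vanishing at `P` are exactly `constSat K R (u - c)`
  (`𝔪 = (ϖ) + constSat`, `HorizPrimes.ker_eq_of_maximalIdeal_eq_sup`): no rationality of points is
  needed, only of the coordinate;
* `NodeLevel.exists_pow_mul`, `exists_ord_eq` : factoring out `u - c`: all the places of the tube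
  with coordinate `c` see the same multiplicity;
* `AnnulusLevels.eq_of_isValueAt` : **injectivity** of the coordinate on the tube;
  `AnnulusLevels.simple` : `u - u(P)` has a simple zero at `P`;
* `NodeLevel.exists_horiz_prime` : the divisor of `u - c` is not vertical (else `(u - c) ∣ c` by
  normality, and `v` would vanish on the first component); with `horiz` :
  `AnnulusLevels.exists_place` : **surjectivity** onto the open annulus;
* `AnnulusLevels.factor_strong` : every `y ≠ 0` is `c * u ^ b * ∏ (u - u(Q)) ^ ord_Q y * ε` with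
  `ε` a function of some level `R` and `ε - 1` a non-unit of `R` (class-group lemma `n2` applied to
  `y / ∏ …`, whose divisor on the tube is zero; `residue`); `factor` : `ε` is a tube unit;
* `AnnulusLevels.core`.
-/
import Mathlib
import Fermat.Agent.BR.S0.AnnulusLevels
import Fermat.Agent.BR.S0.SmoothFields
import Fermat.Agent.BR.CentreBridge
import Fermat.Agent.BR.KrullNormal
import Fermat.Agent.BR.HorizPrimes
import Fermat.Agent.X0.Alg.OrdDxLocal

set_option autoImplicit false

namespace Fermat.Agent.BR.S0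

open AlgebraicCurve IsLocalRing Fermat.Agent.Red Fermat.Agent.BR.Centre Fermat.Agent.BR.Circle
  Fermat.Agent.X0

section AD1

variable {K F : Type*} [Field K] [Field F] [Algebra K F]

section Part1

variable {A : ValuationSubring K} {T : Set (Place K F)} {u v ε₀ : F} {thick : K}

namespace NodeLevel

variable (N : NodeLevel A T u v ε₀ thick)

/-- the uniformizer as an element of the level -/
abbrev πR : N.R := ⟨algebraMap K F N.ϖ, N.unif_memR⟩

/-- the first coordinate as an element of the level -/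
abbrev uR : N.R := ⟨u, N.u_mem⟩

/-- the second coordinate as an element of the level -/
abbrev vR : N.R := ⟨v, N.v_mem⟩

theorem integralAt {P : Place K F} (hP : P ∈ T) : IntegralAt A N.R P := (N.centred P hP).choose

theorem isValueAt_evalAt {P : Place K F} (hP : P ∈ T) {y : F} (hy : y ∈ N.R) :
    IsValueAt P y (evalAt P y) := (N.integralAt hP).isValueAt_evalAt hy

theorem evalAt_memA {P : Place K F} (hP : P ∈ T) {y : F} (hy : y ∈ N.R) : evalAt P y ∈ A :=
  (N.integralAt hP).evalAt_mem hy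

theorem valuation_evalAt_lt_one {P : Place K F} (hP : P ∈ T) {y : N.R} (hy : ¬ IsUnit y) :
    A.valuation (evalAt P (y : F)) < 1 :=
  (N.centred P hP).valuation_evalAt_lt_one hy

theorem evalAt_mul {P : Place K F} (hP : P ∈ T) {y z : F} (hy : y ∈ N.R) (hz : z ∈ N.R) :
    evalAt P (y * z) = evalAt P y * evalAt P z :=
  evalAt_eq_of_isValueAt ((N.isValueAt_evalAt hP hy).mul (N.isValueAt_evalAt hP hz))

theorem evalAt_sub {P : Place K F} (hP : P ∈ T) {y z : F} (hy : y ∈ N.R) (hz : z ∈ N.R) :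
    evalAt P (y - z) = evalAt P y - evalAt P z :=
  evalAt_eq_of_isValueAt ((N.isValueAt_evalAt hP hy).sub (N.isValueAt_evalAt hP hz))

theorem evalAt_pow {P : Place K F} (hP : P ∈ T) {y : F} (hy : y ∈ N.R) (m : ℕ) :
    evalAt P (y ^ m) = evalAt P y ^ m :=
  evalAt_eq_of_isValueAt ((N.isValueAt_evalAt hP hy).pow m)

/-- A function of the level with nonzero value has order `0`. -/
theorem ord_eq_zero_of_evalAt_ne_zero {P : Place K F} (hP : P ∈ T) {y : F} (hy : y ∈ N.R)
    (h0 : evalAt P y ≠ 0) : P.ord y = 0 :=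
  (N.isValueAt_evalAt hP hy).ord_eq_zero h0

/-- A nonzero function of the level with value zero has positive order. -/
theorem ord_pos_of_evalAt_eq_zero {P : Place K F} (hP : P ∈ T) {y : F} (hy : y ∈ N.R)
    (hy0 : y ≠ 0) (h0 : evalAt P y = 0) : 0 < P.ord y := by
  have h1 := N.isValueAt_evalAt hP hy
  rw [h0, isValueAt_zero_iff, adicValuation_lt_one_iff] at h1
  exact h1.resolve_left hy0

theorem ord_nonneg {P : Place K F} (hP : P ∈ T) {y : F} (hy : y ∈ N.R) : 0 ≤ P.ord y :=
  (N.integralAt hP).ord_nonneg hy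

theorem not_isUnit_of_mem_p1 {x : N.R} (hx : x ∈ N.p1) : ¬ IsUnit x := fun hu =>
  N.prime1.ne_top (Ideal.eq_top_of_isUnit_mem _ hx hu)

theorem not_isUnit_of_mem_p2 {x : N.R} (hx : x ∈ N.p2) : ¬ IsUnit x := fun hu =>
  N.prime2.ne_top (Ideal.eq_top_of_isUnit_mem _ hx hu)

theorem not_isUnit_πR : ¬ IsUnit N.πR := N.not_isUnit_of_mem_p1 N.unif_mem_p1

theorem not_isUnit_uR : ¬ IsUnit N.uR := N.not_isUnit_of_mem_p1 N.u_mem_p1

theorem not_isUnit_vR : ¬ IsUnit N.vR := N.not_isUnit_of_mem_p2 N.v_mem_p2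

/-- constants of `A ∩ K'` lie in the level -/
theorem const_memR {c : K} (hc : c ∈ N.K') (hcA : A.valuation c ≤ 1) :
    algebraMap K F c ∈ N.R :=
  N.const_mem c hc ((A.valuation_le_one_iff c).mp hcA)

/-- a constant of `K'` of absolute value `< 1` is divisible by the uniformizer -/
theorem unif_dvd {c : K} (hc : c ∈ N.K') (hlt : A.valuation c < 1) :
    ∃ d : K, d ∈ N.K' ∧ A.valuation d ≤ 1 ∧ c = N.ϖ * d := by
  refine ⟨c / N.ϖ, div_mem hc N.unif_mem, ?_, ?_⟩
  · rw [map_div₀]
    have h0 : A.valuation N.ϖ ≠ 0 := (Valuation.ne_zero_iff _).mpr N.unif_ne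
    rw [div_le_one₀ (zero_lt_iff.mpr h0)]
    exact N.unif_max c hc hlt
  · field_simp [N.unif_ne]

/-- a constant of `K'` of absolute value `< 1` lies in `(ϖ)` -/
theorem const_mem_span {c : K} (hc : c ∈ N.K') (hlt : A.valuation c < 1) :
    (⟨algebraMap K F c, N.const_memR hc hlt.le⟩ : N.R) ∈ Ideal.span {N.πR} := by
  obtain ⟨d, hd, hdA, rfl⟩ := N.unif_dvd hc hlt
  rw [Ideal.mem_span_singleton]
  refine ⟨⟨algebraMap K F d, N.const_memR hd hdA⟩, ?_⟩
  apply Subtype.ext
  show algebraMap K F (N.ϖ * d) = algebraMap K F N.ϖ * algebraMap K F d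
  rw [map_mul]

end NodeLevel

end Part1

end AD1

section AD2

variable {K F : Type*} [Field K] [Field F] [Algebra K F]

section Part2

variable {A : ValuationSubring K} {T : Set (Place K F)} {ι : Type*}

namespace AnnulusLevels

variable (L : AnnulusLevels A T ι)

include L in
theorem nonempty : Nonempty ι := by
  obtain ⟨i, -⟩ := L.const 0
  exact ⟨i⟩

/-- the value of the unit `ε₀` at a place of the tube is a unit of `A` -/
theorem valuation_evalAt_ε₀ {P : Place K F} (hP : P ∈ T) (i : ι) :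
    A.valuation (evalAt P L.ε₀) = 1 := by
  have N := L.level i
  have h1 : evalAt P L.ε₀ * evalAt P L.ε₀⁻¹ = 1 := by
    rw [← N.evalAt_mul hP N.ε₀_mem N.ε₀_inv_mem]
    have h0 : L.ε₀ ≠ 0 := by
      intro h0
      have h2 := L.uv
      rw [h0, smul_zero] at h2
      have hu : (L.u : F) = 0 ∨ L.v = 0 := mul_eq_zero.mp h2
      rcases hu with hu | hv
      · exact N.u_notMem_p2 (by
          have : (⟨L.u, N.u_mem⟩ : N.R) = 0 := Subtype.ext hu
          rw [this]; exact N.p2.zero_mem)
      · exact N.v_notMem_p1 (by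
          have : (⟨L.v, N.v_mem⟩ : N.R) = 0 := Subtype.ext hv
          rw [this]; exact N.p1.zero_mem)
    rw [mul_inv_cancel₀ h0]
    exact evalAt_eq_of_isValueAt (isValueAt_one P)
  have h2 : A.valuation (evalAt P L.ε₀) ≤ 1 :=
    (A.valuation_le_one_iff _).mpr (N.evalAt_memA hP N.ε₀_mem)
  have h3 : A.valuation (evalAt P L.ε₀⁻¹) ≤ 1 :=
    (A.valuation_le_one_iff _).mpr (N.evalAt_memA hP N.ε₀_inv_mem)
  have h4 := congrArg A.valuation h1
  rw [map_mul, map_one] at h4
  by_contra hne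
  have hlt : A.valuation (evalAt P L.ε₀) < 1 := lt_of_le_of_ne h2 hne
  have : A.valuation (evalAt P L.ε₀) * A.valuation (evalAt P L.ε₀⁻¹) < 1 :=
    mul_lt_one_of_nonneg_of_lt_one_left zero_le hlt h3
  rw [h4] at this
  exact lt_irrefl _ this

/-- `u(P) * v(P) = thick * ε₀(P)` -/
theorem evalAt_u_mul_evalAt_v {P : Place K F} (hP : P ∈ T) (i : ι) :
    evalAt P L.u * evalAt P L.v = L.thick * evalAt P L.ε₀ := by
  have N := L.level i
  rw [← N.evalAt_mul hP N.u_mem N.v_mem, L.uv]
  exact evalAt_eq_of_isValueAt ((N.isValueAt_evalAt hP N.ε₀_mem).smul L.thick)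

/-- **`val_mem`**: the coordinate maps the tube into the open annulus. -/
theorem val_mem : ∀ P ∈ T, ∃ c : K, IsValueAt P L.u c ∧ A.valuation L.thick < A.valuation c ∧
    A.valuation c < 1 := by
  intro P hP
  obtain ⟨i⟩ := L.nonempty
  have N := L.level i
  refine ⟨evalAt P L.u, N.isValueAt_evalAt hP N.u_mem, ?_, ?_⟩
  · have h1 := congrArg A.valuation (L.evalAt_u_mul_evalAt_v hP i)
    rw [map_mul, map_mul, L.valuation_evalAt_ε₀ hP i, mul_one] at h1
    have hv : A.valuation (evalAt P L.v) < 1 :=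
      N.valuation_evalAt_lt_one hP (y := N.vR) N.not_isUnit_vR
    have hu0 : A.valuation (evalAt P L.u) ≠ 0 := by
      intro h0
      rw [h0, zero_mul] at h1
      exact (Valuation.ne_zero_iff _).mpr L.thick_ne h1.symm
    rw [← h1]
    exact mul_lt_of_lt_one_right (zero_lt_iff.mpr hu0) hv
  · exact N.valuation_evalAt_lt_one hP (y := N.uR) N.not_isUnit_uR

theorem isValueAt_u {P : Place K F} (hP : P ∈ T) : IsValueAt P L.u (evalAt P L.u) := by
  obtain ⟨c, h1, -, -⟩ := L.val_mem P hP
  rwa [evalAt_eq_of_isValueAt h1]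

/-- a level whose constant field contains a given constant and which contains a given level -/
theorem exists_level_const (i : ι) (c : K) : ∃ l, (L.level i).R ≤ (L.level l).R ∧
    (L.level i).K' ≤ (L.level l).K' ∧ c ∈ (L.level l).K' := by
  obtain ⟨j, hj⟩ := L.const c
  obtain ⟨l, h1, -, h3, h4⟩ := L.directed i j
  exact ⟨l, h1, h3, h4 hj⟩

/-- a level containing a given function (as a quotient) and a given constant -/
theorem exists_level_frac (y : F) (c : K) : ∃ l, (∃ a b : (L.level l).R, b ≠ 0 ∧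
    y * (b : F) = (a : F)) ∧ c ∈ (L.level l).K' := by
  obtain ⟨i, a, b, hb, hab⟩ := L.frac y
  obtain ⟨l, h1, -, h3⟩ := L.exists_level_const i c
  refine ⟨l, ⟨⟨a, h1 a.2⟩, ⟨b, h1 b.2⟩, ?_, hab⟩, h3⟩
  intro h0
  apply hb
  apply Subtype.ext
  exact congrArg (fun x : (L.level l).R => (x : F)) h0

end AnnulusLevels

end Part2

end AD2

section AD3

section Part3

/-- The saturation of the principal ideal `(g)` of `R` with respect to the nonzero constants:
`{x | ∃ d ≠ 0 constant of R, g ∣ d * x}`. -/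
def constSat (K : Type*) {F : Type*} [Field K] [Field F] [Algebra K F] (R : Subring F) (g : R) :
    Ideal R where
  carrier := {x | ∃ (d : K) (hd : algebraMap K F d ∈ R), d ≠ 0 ∧
    g ∣ (⟨algebraMap K F d, hd⟩ : R) * x}
  add_mem' := by
    rintro x y ⟨d, hd, hd0, w, hw⟩ ⟨e, he, he0, w', hw'⟩
    refine ⟨d * e, by rw [map_mul]; exact mul_mem hd he, mul_ne_zero hd0 he0,
      ⟨(⟨algebraMap K F e, he⟩ : R) * w + (⟨algebraMap K F d, hd⟩ : R) * w', ?_⟩⟩
    have e1 : (⟨algebraMap K F (d * e), by rw [map_mul]; exact mul_mem hd he⟩ : R) =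
        (⟨algebraMap K F d, hd⟩ : R) * ⟨algebraMap K F e, he⟩ := by
      apply Subtype.ext
      show algebraMap K F (d * e) = algebraMap K F d * algebraMap K F e
      rw [map_mul]
    rw [e1]
    calc (⟨algebraMap K F d, hd⟩ : R) * ⟨algebraMap K F e, he⟩ * (x + y)
        = (⟨algebraMap K F e, he⟩ : R) * ((⟨algebraMap K F d, hd⟩ : R) * x) +
          (⟨algebraMap K F d, hd⟩ : R) * ((⟨algebraMap K F e, he⟩ : R) * y) := by ring
      _ = g * ((⟨algebraMap K F e, he⟩ : R) * w + (⟨algebraMap K F d, hd⟩ : R) * w') := by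
          rw [hw, hw']; ring
  zero_mem' := ⟨1, by rw [map_one]; exact one_mem R, one_ne_zero, ⟨0, by simp⟩⟩
  smul_mem' := by
    rintro r x ⟨d, hd, hd0, w, hw⟩
    refine ⟨d, hd, hd0, ⟨r * w, ?_⟩⟩
    rw [smul_eq_mul]
    calc (⟨algebraMap K F d, hd⟩ : R) * (r * x) = r * ((⟨algebraMap K F d, hd⟩ : R) * x) := by ring
      _ = g * (r * w) := by rw [hw]; ring

variable {K F : Type*} [Field K] [Field F] [Algebra K F]

theorem mem_constSat {R : Subring F} {g x : R} : x ∈ constSat K R g ↔
    ∃ (d : K) (hd : algebraMap K F d ∈ R), d ≠ 0 ∧ g ∣ (⟨algebraMap K F d, hd⟩ : R) * x :=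
  Iff.rfl

theorem self_mem_constSat {R : Subring F} (g : R) : g ∈ constSat K R g :=
  ⟨1, by rw [map_one]; exact one_mem R, one_ne_zero, ⟨⟨algebraMap K F 1, by
    rw [map_one]; exact one_mem R⟩, by ring⟩⟩

/-- the functions of the saturation of `(g)` vanish at the zeros of `g` -/
theorem evalAt_eq_zero_of_mem_constSat {A : ValuationSubring K} {R : Subring F} {P : Place K F}
    (h : IntegralAt A R P) {g : R} (hg : evalAt P (g : F) = 0) {x : R}
    (hx : x ∈ constSat K R g) : evalAt P (x : F) = 0 := by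
  obtain ⟨d, hd, hd0, w, hw⟩ := hx
  have h1 : evalAt P (algebraMap K F d * (x : F)) = d * evalAt P (x : F) :=
    evalAt_eq_of_isValueAt ((isValueAt_algebraMap P d).mul (h.isValueAt_evalAt x.2))
  have h2 : evalAt P ((g : F) * (w : F)) = evalAt P (g : F) * evalAt P (w : F) :=
    evalAt_eq_of_isValueAt ((h.isValueAt_evalAt g.2).mul (h.isValueAt_evalAt w.2))
  have h3 : algebraMap K F d * (x : F) = (g : F) * (w : F) :=
    congrArg (fun z : R => (z : F)) hw
  rw [h3, h2, hg, zero_mul] at h1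
  exact (mul_eq_zero.mp h1.symm).resolve_left hd0

end Part3

end AD3

section AD4

variable {K F : Type*} [Field K] [Field F] [Algebra K F]

section Part4

variable {A : ValuationSubring K} {T : Set (Place K F)} {u v ε₀ : F} {thick : K}

namespace NodeLevel

variable (N : NodeLevel A T u v ε₀ thick) {c : K} (hc : c ∈ N.K')
  (h1 : A.valuation thick < A.valuation c) (h2 : A.valuation c < 1)

/-- the constant `c` as an element of the level -/
abbrev cR : N.R := ⟨algebraMap K F c, N.const_memR hc h2.le⟩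

/-- `u - c` as an element of the level -/
abbrev gR : N.R := N.uR - N.cR hc h2

include h1 in
theorem c_ne_zero : c ≠ 0 := by
  rintro rfl
  rw [map_zero] at h1
  exact not_lt_zero h1

include h1 in
theorem valuation_thick_div_lt : A.valuation (thick / c) < 1 := by
  rw [map_div₀]
  have h0 : A.valuation c ≠ 0 := (Valuation.ne_zero_iff _).mpr (c_ne_zero h1)
  rwa [div_lt_one₀ (zero_lt_iff.mpr h0)]

/-- the conjugate constant `c' = thick * ε₀ / c` as an element of the level -/
abbrev c'R : N.R := ⟨algebraMap K F (thick / c) * ε₀,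
  mul_mem (N.const_memR (div_mem N.thick_mem hc) (valuation_thick_div_lt h1).le) N.ε₀_mem⟩

theorem coe_gR : ((N.gR hc h2 : N.R) : F) = u - algebraMap K F c := rfl

theorem cR_mem_span : N.cR hc h2 ∈ Ideal.span {N.πR} := N.const_mem_span hc h2

theorem c'R_mem_span : N.c'R hc h1 ∈ Ideal.span {N.πR} := by
  have h3 := N.const_mem_span (div_mem N.thick_mem hc) (valuation_thick_div_lt h1)
  have e : N.c'R hc h1 = (⟨algebraMap K F (thick / c), N.const_memR (div_mem N.thick_mem hc)
      (valuation_thick_div_lt h1).le⟩ : N.R) * ⟨ε₀, N.ε₀_mem⟩ := rfl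
  rw [e]
  exact Ideal.mul_mem_right _ _ h3

theorem span_πR_le_p1 : Ideal.span {N.πR} ≤ N.p1 :=
  (Ideal.span_singleton_le_iff_mem _).mpr N.unif_mem_p1

theorem span_πR_le_p2 : Ideal.span {N.πR} ≤ N.p2 :=
  (Ideal.span_singleton_le_iff_mem _).mpr N.unif_mem_p2

/-- `u - c ∉ p2` -/
theorem gR_notMem_p2 : N.gR hc h2 ∉ N.p2 := by
  intro h
  apply N.u_notMem_p2
  have : N.uR = N.gR hc h2 + N.cR hc h2 := by ring
  show N.uR ∈ N.p2
  rw [this]
  exact N.p2.add_mem h (N.span_πR_le_p2 (N.cR_mem_span hc h2))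

theorem gR_ne_zero : N.gR hc h2 ≠ 0 := fun h0 =>
  N.gR_notMem_p2 hc h2 (by rw [h0]; exact N.p2.zero_mem)

/-- `v - c' ∉ p1` -/
theorem v_sub_c'R_notMem_p1 : N.vR - N.c'R hc h1 ∉ N.p1 := by
  intro h
  apply N.v_notMem_p1
  have : N.vR = (N.vR - N.c'R hc h1) + N.c'R hc h1 := by ring
  show N.vR ∈ N.p1
  rw [this]
  exact N.p1.add_mem h (N.span_πR_le_p1 (N.c'R_mem_span hc h1))

variable (huv : u * v = thick • ε₀)

include huv in
/-- `v * (u - c) = - c * (v - c')` -/
theorem vR_mul_gR : N.vR * N.gR hc h2 = -(N.cR hc h2 * (N.vR - N.c'R hc h1)) := by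
  apply Subtype.ext
  show v * (u - algebraMap K F c) = -(algebraMap K F c * (v - algebraMap K F (thick / c) * ε₀))
  have hc0 : algebraMap K F c ≠ 0 := (map_ne_zero _).mpr (c_ne_zero h1)
  rw [Algebra.smul_def] at huv
  rw [map_div₀]
  field_simp
  linear_combination huv

include huv in
/-- `u * (v - c') = - c' * (u - c)` -/
theorem uR_mul_sub : N.uR * (N.vR - N.c'R hc h1) = -(N.c'R hc h1 * N.gR hc h2) := by
  apply Subtype.ext
  show u * (v - algebraMap K F (thick / c) * ε₀) =
    -(algebraMap K F (thick / c) * ε₀ * (u - algebraMap K F c))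
  have hc0 : algebraMap K F c ≠ 0 := (map_ne_zero _).mpr (c_ne_zero h1)
  rw [Algebra.smul_def] at huv
  rw [map_div₀]
  field_simp
  linear_combination (algebraMap K F c) * huv

include huv in
/-- `v - c'` lies in the saturation of `(u - c)` -/
theorem v_sub_c'R_mem_constSat : N.vR - N.c'R hc h1 ∈ constSat K N.R (N.gR hc h2) := by
  refine ⟨c, N.const_memR hc h2.le, c_ne_zero h1, ⟨-N.vR, ?_⟩⟩
  have := N.vR_mul_gR hc h1 h2 huv
  show N.cR hc h2 * (N.vR - N.c'R hc h1) = N.gR hc h2 * -N.vR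
  linear_combination this

include huv h1 in
/-- the maximal ideal is `(ϖ) + J` where `J` is the saturation of `(u - c)` -/
theorem maximalIdeal_le_sup [IsLocalRing N.R] :
    maximalIdeal N.R ≤ Ideal.span {N.πR} ⊔ constSat K N.R (N.gR hc h2) := by
  intro x hx
  have hx' := N.nonunit_mem x hx
  have hspan : Ideal.span {N.πR, N.uR, N.vR} ≤ Ideal.span {N.πR} ⊔ constSat K N.R (N.gR hc h2) := by
    rw [Ideal.span_le]
    rintro y (rfl | rfl | rfl)
    · exact Ideal.mem_sup_left (Ideal.mem_span_singleton_self _)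
    · have : N.uR = N.cR hc h2 + N.gR hc h2 := by ring
      show N.uR ∈ _
      rw [this]
      exact Submodule.add_mem_sup (N.cR_mem_span hc h2) (self_mem_constSat _)
    · have : N.vR = N.c'R hc h1 + (N.vR - N.c'R hc h1) := by ring
      show N.vR ∈ _
      rw [this]
      exact Submodule.add_mem_sup (N.c'R_mem_span hc h1) (N.v_sub_c'R_mem_constSat hc h1 h2 huv)
  exact hspan hx'

end NodeLevel

end Part4

end AD4

section AD5

variable {K F : Type*} [Field K] [Field F] [Algebra K F]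

section Part5

variable {A : ValuationSubring K} {T : Set (Place K F)} {u v ε₀ : F} {thick : K}

namespace NodeLevel

variable (N : NodeLevel A T u v ε₀ thick) {c : K} (hc : c ∈ N.K')
  (h1 : A.valuation thick < A.valuation c) (h2 : A.valuation c < 1)
  (huv : u * v = thick • ε₀)

theorem evalAt_gR {P : Place K F} (hPc : IsValueAt P u c) :
    evalAt P ((N.gR hc h2 : N.R) : F) = 0 := by
  rw [N.coe_gR]
  apply evalAt_eq_of_isValueAt
  have := hPc.sub (isValueAt_algebraMap P c)
  rwa [sub_self] at this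

include h1 huv in
/-- **the kernel lemma**: the functions of the level vanishing at the place of the tube with
coordinate `c` form the saturation of `(u - c)` with respect to the constants. -/
theorem mem_constSat_iff {P : Place K F} (hP : P ∈ T) (hPc : IsValueAt P u c) (x : N.R) :
    x ∈ constSat K N.R (N.gR hc h2) ↔ evalAt P (x : F) = 0 := by
  have := N.isLocal
  have := N.noeth
  have hI := N.integralAt hP
  have hg := N.evalAt_gR hc h2 hPc
  have hJ : constSat K N.R (N.gR hc h2) ≤ RingHom.ker (evHom A N.R P hI) := by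
    intro x hx
    rw [RingHom.mem_ker]
    apply Subtype.ext
    rw [coe_evHom]
    exact evalAt_eq_zero_of_mem_constSat hI hg hx
  have hπ : evHom A N.R P hI N.πR ≠ 0 := by
    intro h0
    have h3 : ((evHom A N.R P hI N.πR : A) : K) = 0 := by rw [h0]; rfl
    rw [coe_evHom] at h3
    have h4 : evalAt P (algebraMap K F N.ϖ) = 0 := h3
    rw [evalAt_algebraMap] at h4
    exact N.unif_ne h4
  have hmax : maximalIdeal N.R = Ideal.span {N.πR} ⊔ constSat K N.R (N.gR hc h2) := by
    apply le_antisymm (N.maximalIdeal_le_sup hc h1 h2 huv)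
    apply sup_le
    · rw [Ideal.span_singleton_le_iff_mem]
      exact N.not_isUnit_πR
    · exact hJ.trans (IsLocalRing.le_maximalIdeal (RingHom.ker_ne_top _))
  have hker := HorizPrimes.ker_eq_of_maximalIdeal_eq_sup (evHom A N.R P hI) hπ hJ hmax
  rw [← hker, RingHom.mem_ker]
  constructor
  · intro h0
    have h3 : ((evHom A N.R P hI x : A) : K) = 0 := by rw [h0]; rfl
    rwa [coe_evHom] at h3
  · intro h0
    apply Subtype.ext
    rw [coe_evHom, h0]
    rfl

include N hc h2 in
/-- the order of `u - c` at a place of the tube with coordinate `c` is positive -/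
theorem ord_gR_pos {P : Place K F} (hP : P ∈ T) (hPc : IsValueAt P u c) :
    0 < P.ord (u - algebraMap K F c) := by
  have h0 : ((N.gR hc h2 : N.R) : F) ≠ 0 := fun h0 => N.gR_ne_zero hc h2 (Subtype.ext h0)
  exact N.ord_pos_of_evalAt_eq_zero hP (N.gR hc h2).2 h0 (N.evalAt_gR hc h2 hPc)

include h1 huv in
/-- **factoring out `u - c`**: every nonzero function of the level is, up to a nonzero constant,
`(u - c) ^ m * a'` with `a'` not vanishing at the place with coordinate `c`. -/
theorem exists_pow_mul {P : Place K F} (hP : P ∈ T) (hPc : IsValueAt P u c) :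
    ∀ (n : ℕ) (a : N.R), a ≠ 0 → P.ord (a : F) ≤ n →
      ∃ (m : ℕ) (d : K) (hd : algebraMap K F d ∈ N.R) (a' : N.R), d ≠ 0 ∧
        a' ∉ constSat K N.R (N.gR hc h2) ∧
        (⟨algebraMap K F d, hd⟩ : N.R) * a = N.gR hc h2 ^ m * a' := by
  intro n
  induction n with
  | zero =>
    intro a ha hn
    refine ⟨0, 1, by rw [map_one]; exact one_mem _, a, one_ne_zero, ?_, ?_⟩
    · intro hmem
      have h0 := (N.mem_constSat_iff hc h1 h2 huv hP hPc a).mp hmem
      have haF : (a : F) ≠ 0 := fun h => ha (Subtype.ext h)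
      have := N.ord_pos_of_evalAt_eq_zero hP a.2 haF h0
      simp only [CharP.cast_eq_zero] at hn
      omega
    · rw [pow_zero, one_mul]
      apply Subtype.ext
      show algebraMap K F 1 * (a : F) = a
      rw [map_one, one_mul]
  | succ n ih =>
    intro a ha hn
    by_cases hmem : a ∈ constSat K N.R (N.gR hc h2)
    · obtain ⟨d, hd, hd0, a₁, ha₁⟩ := hmem
      have haF : (a : F) ≠ 0 := fun h => ha (Subtype.ext h)
      have hdF : algebraMap K F d ≠ 0 := (map_ne_zero _).mpr hd0
      have hgF : ((N.gR hc h2 : N.R) : F) ≠ 0 := fun h0 => N.gR_ne_zero hc h2 (Subtype.ext h0)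
      have e1 : algebraMap K F d * (a : F) = ((N.gR hc h2 : N.R) : F) * (a₁ : F) :=
        congrArg (fun z : N.R => (z : F)) ha₁
      have ha₁F : (a₁ : F) ≠ 0 := by
        intro h0
        rw [h0, mul_zero] at e1
        exact (mul_ne_zero hdF haF) e1
      have ha₁0 : a₁ ≠ 0 := fun h => ha₁F (by rw [h]; rfl)
      have e2 := congrArg P.ord e1
      rw [P.ord_mul hdF haF, P.ord_mul hgF ha₁F, OrdDx.ord_algebraMap, zero_add] at e2
      have hpos := N.ord_gR_pos hc h2 hP hPc
      rw [← N.coe_gR hc h2] at hpos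
      have hn' : P.ord (a₁ : F) ≤ n := by
        push_cast at hn
        omega
      obtain ⟨m, d₁, hd₁, a', hd₁0, ha', e3⟩ := ih a₁ ha₁0 hn'
      refine ⟨m + 1, d₁ * d, by rw [map_mul]; exact mul_mem hd₁ hd, a', mul_ne_zero hd₁0 hd0,
        ha', ?_⟩
      have e4 : (⟨algebraMap K F (d₁ * d), by rw [map_mul]; exact mul_mem hd₁ hd⟩ : N.R) =
          (⟨algebraMap K F d₁, hd₁⟩ : N.R) * ⟨algebraMap K F d, hd⟩ := by
        apply Subtype.ext
        show algebraMap K F (d₁ * d) = algebraMap K F d₁ * algebraMap K F d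
        rw [map_mul]
      rw [e4, mul_assoc, ha₁, mul_left_comm, e3, pow_succ]
      ring
    · refine ⟨0, 1, by rw [map_one]; exact one_mem _, a, one_ne_zero, hmem, ?_⟩
      rw [pow_zero, one_mul]
      apply Subtype.ext
      show algebraMap K F 1 * (a : F) = a
      rw [map_one, one_mul]

include h1 huv in
/-- the order at a place with coordinate `c` of a function factored as in `exists_pow_mul` -/
theorem ord_eq_of_pow_mul {P : Place K F} (hP : P ∈ T) (hPc : IsValueAt P u c) {a a' : N.R}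
    (ha : a ≠ 0) {m : ℕ} {d : K} {hd : algebraMap K F d ∈ N.R} (hd0 : d ≠ 0)
    (ha' : a' ∉ constSat K N.R (N.gR hc h2))
    (e : (⟨algebraMap K F d, hd⟩ : N.R) * a = N.gR hc h2 ^ m * a') :
    P.ord (a : F) = m * P.ord (u - algebraMap K F c) := by
  have haF : (a : F) ≠ 0 := fun h => ha (Subtype.ext h)
  have hdF : algebraMap K F d ≠ 0 := (map_ne_zero _).mpr hd0
  have hgF : ((N.gR hc h2 : N.R) : F) ≠ 0 := fun h0 => N.gR_ne_zero hc h2 (Subtype.ext h0)
  have h0 : evalAt P (a' : F) ≠ 0 := fun h0 =>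
    ha' ((N.mem_constSat_iff hc h1 h2 huv hP hPc a').mpr h0)
  have ha'F : (a' : F) ≠ 0 := by
    intro h
    rw [h] at h0
    exact h0 (evalAt_eq_of_isValueAt (isValueAt_zero P))
  have e1 : algebraMap K F d * (a : F) = ((N.gR hc h2 : N.R) : F) ^ m * (a' : F) :=
    congrArg (fun z : N.R => (z : F)) e
  have e2 := congrArg P.ord e1
  rw [P.ord_mul hdF haF, P.ord_mul (pow_ne_zero _ hgF) ha'F, OrdDx.ord_algebraMap, zero_add,
    N.ord_eq_zero_of_evalAt_ne_zero hP a'.2 h0, add_zero, ← zpow_natCast, P.ord_zpow] at e2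
  rw [e2, N.coe_gR]

include hc h1 h2 huv in
/-- **the order of a function along the fibre `u = c`**: all the places of the tube with coordinate
`c` see the same multiplicity. -/
theorem exists_ord_eq {P : Place K F} (hP : P ∈ T) (hPc : IsValueAt P u c) {y : F} (hy : y ≠ 0)
    (hfrac : ∃ a b : N.R, b ≠ 0 ∧ y * (b : F) = (a : F)) :
    ∃ k : ℤ, ∀ P' ∈ T, IsValueAt P' u c → P'.ord y = k * P'.ord (u - algebraMap K F c) := by
  obtain ⟨a, b, hb, hab⟩ := hfrac
  have hbF : (b : F) ≠ 0 := fun h => hb (Subtype.ext h)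
  have haF : (a : F) ≠ 0 := by rw [← hab]; exact mul_ne_zero hy hbF
  have ha : a ≠ 0 := fun h => haF (by rw [h]; rfl)
  obtain ⟨ma, da, hda, a', hda0, ha', ea⟩ :=
    N.exists_pow_mul hc h1 h2 huv hP hPc (P.ord (a : F)).toNat a ha (Int.self_le_toNat _)
  obtain ⟨mb, db, hdb, b', hdb0, hb', eb⟩ :=
    N.exists_pow_mul hc h1 h2 huv hP hPc (P.ord (b : F)).toNat b hb (Int.self_le_toNat _)
  refine ⟨(ma : ℤ) - mb, fun P' hP' hP'c => ?_⟩
  have e1 := N.ord_eq_of_pow_mul hc h1 h2 huv hP' hP'c ha hda0 ha' ea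
  have e2 := N.ord_eq_of_pow_mul hc h1 h2 huv hP' hP'c hb hdb0 hb' eb
  have e3 := congrArg P'.ord hab
  rw [P'.ord_mul hy hbF] at e3
  rw [sub_mul, ← e1, ← e2]
  omega

end NodeLevel

end Part5

end AD5

section AD6

variable {K F : Type*} [Field K] [Field F] [Algebra K F]

section Part6

variable {A : ValuationSubring K} {T : Set (Place K F)} {ι : Type*}

namespace AnnulusLevels

variable (L : AnnulusLevels A T ι)

/-- **the multiplicity along a fibre of the coordinate**: for `y ≠ 0` and a place `P` of the tube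
with coordinate `c`, the order of `y` at every place of the tube with coordinate `c` is the same
multiple of the order of `u - c`, which is positive. -/
theorem exists_ord_eq {P : Place K F} (hP : P ∈ T) {c : K} (hPc : IsValueAt P L.u c) {y : F}
    (hy : y ≠ 0) :
    ∃ k : ℤ, ∀ P' ∈ T, IsValueAt P' L.u c →
      P'.ord y = k * P'.ord (L.u - algebraMap K F c) ∧ 0 < P'.ord (L.u - algebraMap K F c) := by
  obtain ⟨c', hc', h1, h2⟩ := L.val_mem P hP
  obtain rfl : c' = c := hc'.unique hPc
  obtain ⟨l, hfrac, hc⟩ := L.exists_level_frac y c'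
  obtain ⟨k, hk⟩ := (L.level l).exists_ord_eq hc h1 h2 L.uv hP hPc hy hfrac
  exact ⟨k, fun P' hP' hP'c => ⟨hk P' hP' hP'c, (L.level l).ord_gR_pos hc h2 hP' hP'c⟩⟩

theorem le_of_isValueAt {P P' : Place K F} (hP : P ∈ T) (hP' : P' ∈ T) {c : K}
    (h : IsValueAt P L.u c) (h' : IsValueAt P' L.u c) :
    P.toValuationSubring ≤ P'.toValuationSubring := by
  intro y hy
  rcases eq_or_ne y 0 with rfl | hy0
  · exact zero_mem _
  obtain ⟨k, hk⟩ := L.exists_ord_eq hP h hy0
  obtain ⟨e1, e2⟩ := hk P hP h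
  obtain ⟨e3, e4⟩ := hk P' hP' h'
  have h0 : 0 ≤ P.ord y := OrdDx.ord_nonneg_of_mem P hy
  apply OrdDx.mem_of_ord_nonneg P' hy0
  rw [e3]
  rw [e1] at h0
  have hk0 : 0 ≤ k := by
    by_contra hneg
    push Not at hneg
    have := mul_neg_of_neg_of_pos hneg e2
    omega
  exact mul_nonneg hk0 e4.le

/-- **injectivity of the coordinate on the tube** -/
theorem eq_of_isValueAt {P P' : Place K F} (hP : P ∈ T) (hP' : P' ∈ T) {c : K}
    (h : IsValueAt P L.u c) (h' : IsValueAt P' L.u c) : P = P' :=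
  Place.ext (le_antisymm (L.le_of_isValueAt hP hP' h h') (L.le_of_isValueAt hP' hP h' h))

/-- **`simple`**: `u - u(P)` has a simple zero at `P`. -/
theorem simple : ∀ P ∈ T, P.ord (L.u - algebraMap K F (evalAt P L.u)) = 1 := by
  intro P hP
  have hPc := L.isValueAt_u hP
  obtain ⟨τ, hτ⟩ : ∃ τ : F, P.ord τ = 1 := by
    obtain ⟨ϖP, hirr⟩ := IsDiscreteValuationRing.exists_irreducible P.toValuationSubring
    exact ⟨ϖP, P.ord_coe_irreducible hirr⟩
  have hτ0 : τ ≠ 0 := by
    rintro rfl
    rw [Place.ord_zero] at hτ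
    exact zero_ne_one hτ
  obtain ⟨k, hk⟩ := L.exists_ord_eq hP hPc hτ0
  obtain ⟨e1, e2⟩ := hk P hP hPc
  rw [hτ] at e1
  exact Int.eq_one_of_mul_eq_one_left e2.le e1.symm

end AnnulusLevels

end Part6

end AD6

section AD7

variable {K F : Type*} [Field K] [Field F] [Algebra K F]

section Part7

variable {A : ValuationSubring K} {T : Set (Place K F)} {u v ε₀ : F} {thick : K}

namespace NodeLevel

variable (N : NodeLevel A T u v ε₀ thick) {c : K} (hc : c ∈ N.K')
  (h1 : A.valuation thick < A.valuation c) (h2 : A.valuation c < 1)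
  (huv : u * v = thick • ε₀)

include h1 huv in
/-- **a horizontal prime through `u = c`**: the divisor of `u - c` on the level is not vertical
(otherwise `u - c` would divide `c`, and `v` would vanish on the first component). -/
theorem exists_horiz_prime : ∃ Q : Ideal N.R, Q.IsPrime ∧ Q.height = 1 ∧ N.πR ∉ Q ∧
    N.gR hc h2 ∈ Q := by
  have := N.isLocal
  have := N.noeth
  have := N.intClosed
  by_contra hno
  push Not at hno
  have hdvd : N.gR hc h2 ∣ N.cR hc h2 := by
    apply KrullNormal.dvd_of_forall_height_one (N.gR_ne_zero hc h2)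
    intro p hp hht hg
    have hπ : N.πR ∈ p := by
      by_contra hπ
      exact hno p hp hht hπ hg
    rcases N.vertical p hp hht hπ with rfl | rfl
    · refine ⟨N.vR - N.c'R hc h1, N.v_sub_c'R_notMem_p1 hc h1, ⟨-N.vR, ?_⟩⟩
      have := N.vR_mul_gR hc h1 h2 huv
      linear_combination this
    · exact absurd hg (N.gR_notMem_p2 hc h2)
  obtain ⟨z, hz⟩ := hdvd
  have hz2 : z ∈ N.p2 := by
    have : N.gR hc h2 * z ∈ N.p2 := by
      rw [← hz]
      exact N.span_πR_le_p2 (N.cR_mem_span hc h2)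
    exact (N.prime2.mem_or_mem this).resolve_left (N.gR_notMem_p2 hc h2)
  have e1 : N.vR = -(z * (N.vR - N.c'R hc h1)) := by
    have := N.vR_mul_gR hc h1 h2 huv
    rw [hz] at this
    apply mul_left_cancel₀ (N.gR_ne_zero hc h2)
    linear_combination this
  have e2 : N.vR * (1 + z) = z * N.c'R hc h1 := by linear_combination e1
  have hunit : IsUnit (1 + z) := by
    have hz' : z ∈ maximalIdeal N.R := N.not_isUnit_of_mem_p2 hz2
    by_contra hnu
    have h3 : (1 + z) ∈ maximalIdeal N.R := hnu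
    have h4 : (1 : N.R) ∈ maximalIdeal N.R := by
      have h6 := (maximalIdeal N.R).sub_mem h3 hz'
      rwa [add_sub_cancel_right] at h6
    exact (Ideal.ne_top_iff_one _).mp (IsLocalRing.maximalIdeal.isMaximal N.R).ne_top h4
  have h5 : N.vR * (1 + z) ∈ N.p1 := by
    rw [e2]
    exact N.p1.mul_mem_left _ (N.span_πR_le_p1 (N.c'R_mem_span hc h1))
  rcases N.prime1.mem_or_mem h5 with h | h
  · exact N.v_notMem_p1 h
  · exact N.prime1.ne_top (Ideal.eq_top_of_isUnit_mem _ h hunit)

end NodeLevel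

variable {ι : Type*}

namespace AnnulusLevels

variable (L : AnnulusLevels A T ι)

/-- **surjectivity of the coordinate onto the open annulus** -/
theorem exists_place (c : K) (h1 : A.valuation L.thick < A.valuation c)
    (h2 : A.valuation c < 1) : ∃ P, P ∈ T ∧ IsValueAt P L.u c := by
  obtain ⟨l, hc⟩ := L.const c
  obtain ⟨Q, hQ, hht, hπ, hg⟩ := (L.level l).exists_horiz_prime hc h1 h2 L.uv
  obtain ⟨P, hP, hPQ⟩ := (L.level l).horiz Q hQ hht hπ
  refine ⟨P, hP, ?_⟩
  have h0 := (hPQ _).mp hg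
  have hu := (L.level l).isValueAt_evalAt hP (L.level l).u_mem
  have h3 : evalAt P (L.u - algebraMap K F c) = evalAt P L.u - c :=
    evalAt_eq_of_isValueAt (hu.sub (isValueAt_algebraMap P c))
  rw [NodeLevel.coe_gR, h3, sub_eq_zero] at h0
  rwa [h0] at hu

end AnnulusLevels

end Part7

end AD7

section AD8

section Part8

/-! ### generalities for the factorisation -/

/-- **totality of divisibility at a height-one prime** of a noetherian normal domain -/
theorem exists_mul_eq_mul_of_height_one {R : Type*} [CommRing R] [IsDomain R] [IsNoetherianRing R]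
    [IsIntegrallyClosed R] (Q : Ideal R) [Q.IsPrime] (hQ : Q.height = 1) (a b : R) :
    (∃ s t : R, s ∉ Q ∧ a * s = b * t) ∨ (∃ s t : R, s ∉ Q ∧ b * s = a * t) := by
  have hdvr := KrullNormal.isDiscreteValuationRing_of_height_one R Q hQ
  set Rq := Localization.AtPrime Q with hRq
  have hinj : Function.Injective (algebraMap R Rq) :=
    IsLocalization.injective Rq Q.primeCompl_le_nonZeroDivisors
  have key : ∀ a b : R, algebraMap R Rq b ∣ algebraMap R Rq a →
      ∃ s t : R, s ∉ Q ∧ a * s = b * t := by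
    intro a b hdvd
    obtain ⟨w, hw⟩ := hdvd
    obtain ⟨t, s, rfl⟩ := IsLocalization.exists_mk'_eq Q.primeCompl w
    refine ⟨s, t, s.2, hinj ?_⟩
    rw [map_mul, map_mul, hw, mul_assoc, IsLocalization.mk'_spec]
  rcases ValuationRing.dvd_total (algebraMap R Rq a) (algebraMap R Rq b) with h | h
  · exact Or.inr (key b a h)
  · exact Or.inl (key a b h)

variable {F : Type*} [Field F]

theorem annulus_isUnit_of_inv_mem {R : Subring F} {y : F} (hy : y ∈ R) (hy0 : y ≠ 0)
    (hyi : y⁻¹ ∈ R) : IsUnit (⟨y, hy⟩ : R) := by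
  refine IsUnit.of_mul_eq_one (⟨y⁻¹, hyi⟩ : R) ?_
  apply Subtype.ext
  show y * y⁻¹ = 1
  exact mul_inv_cancel₀ hy0

theorem annulus_inv_mem_of_isUnit {R : Subring F} {y : R} (hy : IsUnit y) : (y : F)⁻¹ ∈ R := by
  obtain ⟨w, hw⟩ := isUnit_iff_exists_inv.mp hy
  have h1 : (y : F) * (w : F) = 1 := congrArg (fun z : R => (z : F)) hw
  have h2 : (y : F)⁻¹ = (w : F) := (eq_inv_of_mul_eq_one_right h1).symm
  rw [h2]
  exact w.2

/-- quotients of elements of a subring: the elements of the subfield it generates -/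
theorem annulus_frac_of_mem_closure {R : Subring F} {z : F}
    (hz : z ∈ Subfield.closure (R : Set F)) : ∃ a b : R, b ≠ 0 ∧ z * (b : F) = (a : F) := by
  rcases eq_or_ne z 0 with rfl | hz0
  · exact ⟨0, 1, one_ne_zero, by simp⟩
  obtain ⟨a, ha, b, hb, rfl⟩ := Subfield.mem_closure_iff.mp hz
  rw [Subring.closure_eq] at ha hb
  have hb0 : b ≠ 0 := by
    rintro rfl
    rw [div_zero] at hz0
    exact hz0 rfl
  refine ⟨⟨a, ha⟩, ⟨b, hb⟩, fun h => hb0 (congrArg (fun x : R => (x : F)) h), ?_⟩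
  show a / b * b = a
  rw [div_mul_cancel₀ _ hb0]

theorem annulus_mem_closure_of_frac {R : Subring F} {z : F}
    (hz : ∃ a b : R, b ≠ 0 ∧ z * (b : F) = (a : F)) : z ∈ Subfield.closure (R : Set F) := by
  obtain ⟨a, b, hb, hab⟩ := hz
  have hbF : (b : F) ≠ 0 := fun h => hb (Subtype.ext h)
  have e : z = (a : F) / (b : F) := by rw [← hab, mul_div_cancel_right₀ _ hbF]
  rw [e]
  exact div_mem (Subfield.subset_closure a.2) (Subfield.subset_closure b.2)

end Part8

end AD8

section AD9

variable {K F : Type*} [Field K] [Field F] [Algebra K F]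

section Part9

variable {A : ValuationSubring K} {T : Set (Place K F)} {u v ε₀ : F} {thick : K}

/-- A function of order `0` on the whole tube is a unit at every horizontal height-one prime of a
level. -/
theorem NodeLevel.unitAt_of_ord_eq_zero (N : NodeLevel A T u v ε₀ thick) {z : F} (hz : z ≠ 0)
    (hfrac : ∃ a b : N.R, b ≠ 0 ∧ z * (b : F) = (a : F)) (hord : ∀ P ∈ T, P.ord z = 0)
    (Q : Ideal N.R) (hQ : Q.IsPrime) (hht : Q.height = 1) (hπ : N.πR ∉ Q) :
    ∃ s t : N.R, s ∉ Q ∧ t ∉ Q ∧ z * (s : F) = (t : F) := by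
  have := N.noeth
  have := N.intClosed
  obtain ⟨P, hP, hPQ⟩ := N.horiz Q hQ hht hπ
  obtain ⟨a, b, hb, hab⟩ := hfrac
  have hbF : (b : F) ≠ 0 := fun h => hb (Subtype.ext h)
  have haF : (a : F) ≠ 0 := by rw [← hab]; exact mul_ne_zero hz hbF
  have hnot : ∀ s t : N.R, s ∉ Q → (t : F) ≠ 0 → P.ord (t : F) = P.ord (s : F) → t ∉ Q := by
    intro s t hs ht0 hord' ht
    have h1 : evalAt P (s : F) ≠ 0 := fun h0 => hs ((hPQ s).mpr h0)
    have h2 := N.ord_eq_zero_of_evalAt_ne_zero hP s.2 h1
    have h3 := N.ord_pos_of_evalAt_eq_zero hP t.2 ht0 ((hPQ t).mp ht)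
    omega
  have hne : ∀ s : N.R, s ∉ Q → (s : F) ≠ 0 := by
    intro s hs h
    apply hs
    have : s = 0 := Subtype.ext h
    rw [this]
    exact Q.zero_mem
  rcases exists_mul_eq_mul_of_height_one Q hht a b with ⟨s, t, hs, e⟩ | ⟨s, t, hs, e⟩
  · have eF : (a : F) * (s : F) = (b : F) * (t : F) := congrArg (fun x : N.R => (x : F)) e
    have hzs : z * (s : F) = (t : F) := by
      apply mul_left_cancel₀ hbF
      rw [← eF, ← hab]
      ring
    have hsF := hne s hs
    have htF : (t : F) ≠ 0 := by rw [← hzs]; exact mul_ne_zero hz hsF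
    refine ⟨s, t, hs, hnot s t hs htF ?_, hzs⟩
    have := congrArg P.ord hzs
    rw [P.ord_mul hz hsF, hord P hP, zero_add] at this
    exact this.symm
  · have eF : (b : F) * (s : F) = (a : F) * (t : F) := congrArg (fun x : N.R => (x : F)) e
    have hzt : z * (t : F) = (s : F) := by
      apply mul_left_cancel₀ hbF
      rw [eF, ← hab]
      ring
    have hsF := hne s hs
    have htF : (t : F) ≠ 0 := by
      intro h
      rw [h, mul_zero] at hzt
      exact hsF hzt.symm
    refine ⟨t, s, hnot s t hs htF ?_, hs, hzt⟩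
    have := congrArg P.ord hzt
    rw [P.ord_mul hz htF, hord P hP, zero_add] at this
    exact this

variable {ι : Type*}

namespace AnnulusLevels

variable (L : AnnulusLevels A T ι)

/-- a level above a given one whose constant field contains finitely many given constants -/
theorem exists_level_finset (i : ι) (s : Finset K) : ∃ l, (L.level i).R ≤ (L.level l).R ∧
    (L.level i).K' ≤ (L.level l).K' ∧ ∀ c ∈ s, c ∈ (L.level l).K' := by
  classical
  induction s using Finset.induction_on with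
  | empty => exact ⟨i, le_rfl, le_rfl, by simp⟩
  | insert c s hc ih =>
    obtain ⟨l, h1, h2, h3⟩ := ih
    obtain ⟨l', h4, h5, h6⟩ := L.exists_level_const l c
    refine ⟨l', h1.trans h4, h2.trans h5, fun d hd => ?_⟩
    rcases Finset.mem_insert.mp hd with rfl | hd
    · exact h6
    · exact h5 (h3 d hd)

/-- `u - u(Q)` is a unit at the other places of the tube -/
theorem ord_sub_evalAt_of_ne {P Q : Place K F} (hP : P ∈ T) (hQ : Q ∈ T) (hne : Q ≠ P) :
    P.ord (L.u - algebraMap K F (evalAt Q L.u)) = 0 := by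
  have hu := L.isValueAt_u hP
  have hv := hu.sub (isValueAt_algebraMap P (evalAt Q L.u))
  apply hv.ord_eq_zero
  intro h0
  rw [sub_eq_zero] at h0
  apply hne
  have hQu := L.isValueAt_u hQ
  rw [← h0] at hQu
  exact L.eq_of_isValueAt hQ hP hQu hu

/-- dividing a function by the product of the `(u - u(Q)) ^ ord_Q` over its zeros and poles in the
tube kills its divisor on the tube -/
theorem ord_div_prod {y : F} (hy : y ≠ 0) (S : Finset (Place K F)) (hST : ∀ Q ∈ S, Q ∈ T)
    (hS : ∀ P ∈ T, P.ord y ≠ 0 → P ∈ S) {P : Place K F} (hP : P ∈ T) :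
    P.ord (y * (∏ Q ∈ S, (L.u - algebraMap K F (evalAt Q L.u)) ^ Q.ord y)⁻¹) = 0 := by
  classical
  have hne : ∀ Q ∈ S, L.u - algebraMap K F (evalAt Q L.u) ≠ 0 := by
    intro Q hQ h0
    have := L.simple Q (hST Q hQ)
    rw [h0, Place.ord_zero] at this
    exact zero_ne_one this
  have hprod : ∏ Q ∈ S, (L.u - algebraMap K F (evalAt Q L.u)) ^ Q.ord y ≠ 0 :=
    Finset.prod_ne_zero_iff.mpr fun Q hQ => zpow_ne_zero _ (hne Q hQ)
  rw [P.ord_mul hy (inv_ne_zero hprod), P.ord_inv,
    ord_prod_zpow P S (fun Q => L.u - algebraMap K F (evalAt Q L.u)) (fun Q => Q.ord y) hne]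
  have hsum : ∑ Q ∈ S, Q.ord y * P.ord (L.u - algebraMap K F (evalAt Q L.u)) =
      ∑ Q ∈ S, if Q = P then P.ord y else 0 := by
    apply Finset.sum_congr rfl
    intro Q hQ
    by_cases h : Q = P
    · subst h
      rw [if_pos rfl, L.simple Q hP, mul_one]
    · rw [if_neg h, L.ord_sub_evalAt_of_ne hP (hST Q hQ) h, mul_zero]
  rw [hsum, Finset.sum_ite_eq']
  split_ifs with hPS
  · ring
  · have : P.ord y = 0 := by
      by_contra h
      exact hPS (hS P hP h)
    rw [this]
    ring

end AnnulusLevels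

end Part9

end AD9

section AD10

variable {K F : Type*} [Field K] [Field F] [Algebra K F]

section Part10

variable {A : ValuationSubring K} {T : Set (Place K F)} {ι : Type*}

namespace AnnulusLevels

variable (L : AnnulusLevels A T ι)

theorem u_ne_zero : L.u ≠ 0 := by
  obtain ⟨i⟩ := L.nonempty
  intro h0
  apply (L.level i).u_notMem_p2
  have : (⟨L.u, (L.level i).u_mem⟩ : (L.level i).R) = 0 := Subtype.ext h0
  rw [this]
  exact (L.level i).p2.zero_mem

/-- **`factor`, strong form**: every `y ≠ 0` is `c * u ^ b * ∏ (u - u(Q)) ^ (n Q) * ε` with `ε` a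
function of some level `R` with `ε - 1` a non-unit of `R`. -/
theorem factor_strong : ∀ y : F, y ≠ 0 → ∃ (S : Finset (Place K F)) (n : Place K F → ℤ) (b : ℤ)
    (c : K), (∀ Q ∈ S, Q ∈ T) ∧ c ≠ 0 ∧ ∃ (i : ι)
      (h : y * (c • (L.u ^ b * ∏ Q ∈ S, (L.u - algebraMap K F (evalAt Q L.u)) ^ n Q))⁻¹ ∈
        (L.level i).R), ¬ IsUnit ((⟨_, h⟩ : (L.level i).R) - 1) := by
  classical
  intro y hy
  have hfin : {P : Place K F | P ∈ T ∧ P.ord y ≠ 0}.Finite :=
    (L.finite_div y hy).subset fun P hP => hP.2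
  set S := hfin.toFinset with hS
  have hST : ∀ Q ∈ S, Q ∈ T := fun Q hQ => ((Set.Finite.mem_toFinset hfin).mp hQ).1
  have hSmem : ∀ P ∈ T, P.ord y ≠ 0 → P ∈ S := fun P hP h =>
    (Set.Finite.mem_toFinset hfin).mpr ⟨hP, h⟩
  set Pr := ∏ Q ∈ S, (L.u - algebraMap K F (evalAt Q L.u)) ^ Q.ord y with hPr
  obtain ⟨i, a, b, hb, hab⟩ := L.frac y
  obtain ⟨l, hil, -, hconst⟩ := L.exists_level_finset i (S.image fun Q => evalAt Q L.u)
  have hgmem : ∀ Q ∈ S, L.u - algebraMap K F (evalAt Q L.u) ∈ (L.level l).R := by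
    intro Q hQ
    obtain ⟨c, hc, -, h2⟩ := L.val_mem Q (hST Q hQ)
    have hcK : c ∈ (L.level l).K' := by
      have := hconst (evalAt Q L.u) (Finset.mem_image_of_mem _ hQ)
      rwa [evalAt_eq_of_isValueAt hc] at this
    rw [evalAt_eq_of_isValueAt hc]
    exact sub_mem (L.level l).u_mem ((L.level l).const_memR hcK h2.le)
  have hne : ∀ Q ∈ S, L.u - algebraMap K F (evalAt Q L.u) ≠ 0 := by
    intro Q hQ h0
    have := L.simple Q (hST Q hQ)
    rw [h0, Place.ord_zero] at this
    exact zero_ne_one this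
  have hPr0 : Pr ≠ 0 := Finset.prod_ne_zero_iff.mpr fun Q hQ => zpow_ne_zero _ (hne Q hQ)
  have hy'0 : y * Pr⁻¹ ≠ 0 := mul_ne_zero hy (inv_ne_zero hPr0)
  have hfrac' : ∃ a b : (L.level l).R, b ≠ 0 ∧ y * Pr⁻¹ * (b : F) = (a : F) := by
    apply annulus_frac_of_mem_closure
    apply mul_mem
    · refine annulus_mem_closure_of_frac ⟨⟨a, hil a.2⟩, ⟨b, hil b.2⟩, ?_, hab⟩
      intro h0
      apply hb
      apply Subtype.ext
      exact congrArg (fun x : (L.level l).R => (x : F)) h0
    · apply inv_mem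
      apply prod_mem
      intro Q hQ
      apply zpow_mem
      exact Subfield.subset_closure (hgmem Q hQ)
  have hord : ∀ P ∈ T, P.ord (y * Pr⁻¹) = 0 := fun P hP => L.ord_div_prod hy S hST hSmem hP
  obtain ⟨d, β, ε, hd0, hε, hεi, e⟩ := (L.level l).n2 (y * Pr⁻¹) hy'0 hfrac'
    (fun Q hQ hht hπ => (L.level l).unitAt_of_ord_eq_zero hy'0 hfrac' hord Q hQ hht hπ)
  have := (L.level l).isLocal
  obtain ⟨a₀, ha₀, hnu⟩ := (L.level l).residue ⟨ε, hε⟩
  have hε0 : ε ≠ 0 := by
    rintro rfl
    rw [mul_zero] at e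
    exact hy'0 e
  have hεu : IsUnit (⟨ε, hε⟩ : (L.level l).R) := annulus_isUnit_of_inv_mem hε hε0 hεi
  have ha₀u : IsUnit (⟨algebraMap K F a₀, ha₀⟩ : (L.level l).R) := by
    by_contra hnu'
    have h3 : (⟨ε, hε⟩ : (L.level l).R) ∈ maximalIdeal (L.level l).R := by
      have h := (maximalIdeal (L.level l).R).add_mem
        (show (⟨ε, hε⟩ : (L.level l).R) - ⟨algebraMap K F a₀, ha₀⟩ ∈ maximalIdeal _ from hnu)
        (show (⟨algebraMap K F a₀, ha₀⟩ : (L.level l).R) ∈ maximalIdeal _ from hnu')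
      rwa [sub_add_cancel] at h
    exact h3 hεu
  have ha₀F : algebraMap K F a₀ ≠ 0 := by
    intro h0
    have : (⟨algebraMap K F a₀, ha₀⟩ : (L.level l).R) = 0 := Subtype.ext h0
    rw [this] at ha₀u
    exact not_isUnit_zero ha₀u
  have ha₀0 : (a₀ : K) ≠ 0 := fun h0 => ha₀F (by rw [h0, map_zero])
  have ha₀i : (algebraMap K F a₀)⁻¹ ∈ (L.level l).R :=
    annulus_inv_mem_of_isUnit (y := ⟨algebraMap K F a₀, ha₀⟩) ha₀u
  have hmem : ε * (algebraMap K F a₀)⁻¹ ∈ (L.level l).R := mul_mem hε ha₀i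
  have hnu'' : ¬ IsUnit ((⟨ε * (algebraMap K F a₀)⁻¹, hmem⟩ : (L.level l).R) - 1) := by
    have e3 : (⟨ε * (algebraMap K F a₀)⁻¹, hmem⟩ : (L.level l).R) - 1 =
        ((⟨ε, hε⟩ : (L.level l).R) - ⟨algebraMap K F a₀, ha₀⟩) *
          ⟨(algebraMap K F a₀)⁻¹, ha₀i⟩ := by
      apply Subtype.ext
      show ε * (algebraMap K F a₀)⁻¹ - 1 =
        (ε - algebraMap K F a₀) * (algebraMap K F a₀)⁻¹
      field_simp
    rw [e3]
    intro hu
    exact hnu (isUnit_of_mul_isUnit_left hu)
  have key : y * ((d * (a₀ : K)) • (L.u ^ β * Pr))⁻¹ = ε * (algebraMap K F a₀)⁻¹ := by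
    have hu0 : L.u ^ β ≠ 0 := zpow_ne_zero _ L.u_ne_zero
    have hdF : algebraMap K F d ≠ 0 := (map_ne_zero _).mpr hd0
    have hy_eq : y = algebraMap K F d * L.u ^ β * ε * Pr := by
      rw [← e, mul_assoc, inv_mul_cancel₀ hPr0, mul_one]
    rw [Algebra.smul_def, map_mul]
    conv_lhs => rw [hy_eq]
    field_simp
  have final : ∀ x : F, x = ε * (algebraMap K F a₀)⁻¹ →
      ∃ h : x ∈ (L.level l).R, ¬ IsUnit ((⟨x, h⟩ : (L.level l).R) - 1) := by
    rintro x rfl
    exact ⟨hmem, hnu''⟩
  exact ⟨S, fun Q => Q.ord y, β, d * a₀, hST, mul_ne_zero hd0 ha₀0, l, final _ key⟩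

/-- **`factor`** -/
theorem factor : ∀ y : F, y ≠ 0 → ∃ (S : Finset (Place K F)) (n : Place K F → ℤ) (b : ℤ) (c : K),
    (∀ Q ∈ S, Q ∈ T) ∧ c ≠ 0 ∧
      TubeUnit A T (y * (c • (L.u ^ b *
        ∏ Q ∈ S, (L.u - algebraMap K F (evalAt Q L.u)) ^ n Q))⁻¹) := by
  intro y hy
  obtain ⟨S, n, b, c, hST, hc, i, h, hnu⟩ := L.factor_strong y hy
  refine ⟨S, n, b, c, hST, hc, fun P hP => ?_⟩
  refine ⟨evalAt P _, (L.level i).isValueAt_evalAt hP h, ?_⟩
  have h1 := (L.level i).valuation_evalAt_lt_one hP hnu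
  have h2 := (L.level i).evalAt_sub hP h (one_mem _)
  rw [evalAt_eq_of_isValueAt (isValueAt_one P)] at h2
  rw [← h2]
  exact h1

/-- **the K-level contract of the annulus from a directed family of finite levels** -/
noncomputable def core : AnnulusCore A T where
  u := L.u
  thick := L.thick
  thick_ne := L.thick_ne
  thick_lt := L.thick_lt
  val_mem := L.val_mem
  bij := fun c h1 h2 => by
    obtain ⟨P, hP, hc⟩ := L.exists_place c h1 h2
    exact ⟨P, ⟨hP, hc⟩, fun P' hP' => L.eq_of_isValueAt hP'.1 hP hP'.2 hc⟩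
  simple := L.simple
  factor := L.factor

@[simp] theorem core_u : L.core.u = L.u := rfl

@[simp] theorem core_thick : L.core.thick = L.thick := rfl

end AnnulusLevels

end Part10

end AD10

end Fermat.Agent.BR.S0
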