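import Mathlib
import Fermat.Agent.BR.Circle.Chart
import Fermat.Agent.BR.S0.AnnulusLevels
import Fermat.Agent.BR.S0.AnnulusDescent

/-!
# Program B (BADRED), block B7.5 (producer), part (ii): the contract `AnnulusChart S₀ e` from the
K-level core and the branch data of the levels

`BR/S0/AnnulusDescent` (helper21) produces from a directed family of finite levels
`L : AnnulusLevels A T ι` the K-level core `AnnulusCore A T` and the finite-level form of the
factorisation (the unit factor lies in some level `R i` and is `≡ 1` modulo its maximal ideal).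
The contract `Circle.AnnulusChart S₀ e` (helper16, `BR/Circle/Chart.lean`) asks in addition:

* the STRONG factorisation: the unit factor has value `1` at the two branches `s₁ e`, `s₂ e`;
* `u_src`, `ord_src` : `u` is integral on the component `src e` and its residue has a simple zero
  at the branch `s₁ e`;
* `v_tgt`, `ord_tgt` : the same for `thick / u` on `tgt e` at `s₂ e`;
* `comp`.

This file derives them from the BRANCH DATA of the levels (`BranchData`: the levels lie in
`O (src e) ∩ O (tgt e)`, non-units vanish at both branches, `v` vanishes identically on `src e`,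
`u` on `tgt e`, some element of some level reduces to a uniformizer at each branch) - the same
per-level fields as `NodeLevels` of `BR/S0/NodeDescent`.

Main exports: `BranchData`, `ord_res_eq_one` (abstract), `tubeUnit_of_level`, `nodeUnit_of_level`,
`u_src`, `ord_src`, `v_tgt`, `ord_tgt`, `annulusChartOfCore`, and the producer
`BranchData.annulusChartOfLevels : AnnulusChart S₀ e`.
-/

set_option autoImplicit false
set_option linter.unusedSectionVars false

noncomputable section

namespace Fermat.Agent.BR.S0.AnnulusChartOfLevels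

open AlgebraicCurve IsLocalRing Fermat.Agent.Red Fermat.Agent.BR.Centre Fermat.Agent.BR.SS
  Fermat.Agent.BR.Refine Fermat.Agent.BR.Circle Fermat.Agent.BR.S0

/-! ### An abstract lemma: the coordinate of a branch is a uniformizer -/

section Abstract

variable {k Ft : Type*} [Field k] [Field Ft] [Algebra k Ft] {R : Type*} [CommRing R]

/-- Let `ρ : R → Ft` be a ring homomorphism whose values are regular at the place `Q`, non-units
having values vanishing at `Q`.  If every non-unit lies in `(a, u, v)`, `ρ a = ρ v = 0`, `u` is a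
non-unit and some `ρ t` is a uniformizer at `Q`, then `ρ u` is a uniformizer at `Q`. -/
theorem ord_res_eq_one (ρ : R →+* Ft) (Q : Place k Ft)
    (hreg : ∀ y : R, Q.adicValuation (ρ y) ≤ 1)
    (hbranch : ∀ y : R, ¬ IsUnit y → Q.adicValuation (ρ y) < 1)
    (a u v : R) (hmax : ∀ x : R, ¬ IsUnit x → x ∈ Ideal.span {a, u, v})
    (ha : ρ a = 0) (hv : ρ v = 0) (hu : ¬ IsUnit u) (t : R) (ht : Q.ord (ρ t) = 1) :
    Q.ord (ρ u) = 1 := by
  have ht0 : ρ t ≠ 0 := by
    intro h0
    rw [h0, Place.ord_zero] at ht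
    exact zero_ne_one ht
  -- `t` is not a unit
  have htnu : ¬ IsUnit t := by
    intro htu
    obtain ⟨t', ht'⟩ := htu.exists_right_inv
    have h1 : ρ t * ρ t' = 1 := by rw [← map_mul, ht', map_one]
    have ht'0 : ρ t' ≠ 0 := by
      intro h0
      rw [h0, mul_zero] at h1
      exact zero_ne_one h1
    have h2 : Q.ord (ρ t) + Q.ord (ρ t') = 0 := by
      rw [← Place.ord_mul Q ht0 ht'0, h1, Place.ord_one]
    have h3 : 0 ≤ Q.ord (ρ t') := by
      rcases (Q.adicValuation_le_one_iff).mp (hreg t') with h | h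
      · exact absurd h ht'0
      · exact h
    omega
  have hmem := hmax t htnu
  rw [Ideal.mem_span_insert] at hmem
  obtain ⟨x, z, hz, rfl⟩ := hmem
  rw [Ideal.mem_span_pair] at hz
  obtain ⟨b, c, rfl⟩ := hz
  have hρt : ρ (x * a + (b * u + c * v)) = ρ b * ρ u := by
    rw [map_add, map_add, map_mul, map_mul, map_mul, ha, hv, mul_zero, mul_zero, zero_add,
      add_zero]
  rw [hρt] at ht ht0
  have hb0 : ρ b ≠ 0 := left_ne_zero_of_mul ht0
  have hu0 : ρ u ≠ 0 := right_ne_zero_of_mul ht0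
  rw [Place.ord_mul Q hb0 hu0] at ht
  have h3 : 0 ≤ Q.ord (ρ b) := by
    rcases (Q.adicValuation_le_one_iff).mp (hreg b) with h | h
    · exact absurd h hb0
    · exact h
  have h4 : 0 < Q.ord (ρ u) := by
    rcases (adicValuation_lt_one_iff Q).mp (hbranch u hu) with h | h
    · exact absurd h hu0
    · exact h
  omega

/-- the value of a unit is a unit at the place -/
theorem ord_res_unit_eq_zero (ρ : R →+* Ft) (Q : Place k Ft)
    (hreg : ∀ y : R, Q.adicValuation (ρ y) ≤ 1) {y : R} (hy : IsUnit y) : Q.ord (ρ y) = 0 := by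
  obtain ⟨y', hy'⟩ := hy.exists_right_inv
  have h1 : ρ y * ρ y' = 1 := by rw [← map_mul, hy', map_one]
  have hy0 : ρ y ≠ 0 := left_ne_zero_of_mul (h1 ▸ one_ne_zero)
  have hy'0 : ρ y' ≠ 0 := right_ne_zero_of_mul (h1 ▸ one_ne_zero)
  have h2 : Q.ord (ρ y) + Q.ord (ρ y') = 0 := by
    rw [← Place.ord_mul Q hy0 hy'0, h1, Place.ord_one]
  have h3 : 0 ≤ Q.ord (ρ y) := by
    rcases (Q.adicValuation_le_one_iff).mp (hreg y) with h | h
    · exact absurd h hy0
    · exact h
  have h4 : 0 ≤ Q.ord (ρ y') := by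
    rcases (Q.adicValuation_le_one_iff).mp (hreg y') with h | h
    · exact absurd h hy'0
    · exact h
  omega

end Abstract

/-! ### The branch data of the levels -/

variable {K : Type} {F : Type*} [Field K] [Field F] [Algebra K F]
  {A : ValuationSubring K} [IsAlgClosed (ResidueField A)]
  {ι₀ : Type} {Ft₀ : ι₀ → Type} [∀ v, Field (Ft₀ v)] [∀ v, Algebra (ResidueField A) (Ft₀ v)]
  {ν₀ : Type}

/-- The branch data of a family of levels of the tube of the node `e`: the levels lie in the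
valuation rings of the two components through `e`, their non-units vanish at both branches, `v`
vanishes identically on `src e`, `u` on `tgt e`, and each branch has a uniformizer which is the
reduction of an element of some level. -/
structure BranchData (S₀ : SemistableSetup (F := F) A (residue A) ι₀ Ft₀ ν₀) (e : ν₀)
    {ι : Type*} (L : AnnulusLevels A (tube S₀ e) ι) : Prop where
  le₁ : ∀ i, ∀ y ∈ (L.level i).R, y ∈ S₀.O (S₀.src e)
  le₂ : ∀ i, ∀ y ∈ (L.level i).R, y ∈ S₀.O (S₀.tgt e)
  /-- non-units vanish at the first branch -/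
  branch₁ : ∀ i, ∀ y : (L.level i).R, ¬ IsUnit y →
    (S₀.s₁ e).adicValuation (S₀.res (S₀.src e) ⟨y, le₁ i y y.2⟩) < 1
  /-- non-units vanish at the second branch -/
  branch₂ : ∀ i, ∀ y : (L.level i).R, ¬ IsUnit y →
    (S₀.s₂ e).adicValuation (S₀.res (S₀.tgt e) ⟨y, le₂ i y y.2⟩) < 1
  /-- `v` vanishes identically on the component `src e` -/
  v_src : L.v ∈ (S₀.O (S₀.src e)).nonunits
  /-- `u` vanishes identically on the component `tgt e` -/
  u_tgt : L.u ∈ (S₀.O (S₀.tgt e)).nonunits
  /-- some element of some level reduces to a uniformizer at the first branch -/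
  unif₁ : ∃ i, ∃ t : (L.level i).R,
    (S₀.s₁ e).ord (S₀.res (S₀.src e) ⟨t, le₁ i t t.2⟩) = 1
  /-- some element of some level reduces to a uniformizer at the second branch -/
  unif₂ : ∃ i, ∃ t : (L.level i).R,
    (S₀.s₂ e).ord (S₀.res (S₀.tgt e) ⟨t, le₂ i t t.2⟩) = 1
  comp : ∀ v, v = S₀.src e ∨ v = S₀.tgt e

namespace BranchData

variable {S₀ : SemistableSetup (F := F) A (residue A) ι₀ Ft₀ ν₀} {e : ν₀} {ι : Type*}
  {L : AnnulusLevels A (tube S₀ e) ι} (X : BranchData S₀ e L)

/-- the reduction on the component `src e`, restricted to the level `i` -/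
def red₁ (i : ι) : (L.level i).R →+* Ft₀ (S₀.src e) :=
  (S₀.res (S₀.src e)).comp (Subring.inclusion (fun y hy => X.le₁ i y hy :
    (L.level i).R ≤ (S₀.O (S₀.src e)).toSubring))

/-- the reduction on the component `tgt e`, restricted to the level `i` -/
def red₂ (i : ι) : (L.level i).R →+* Ft₀ (S₀.tgt e) :=
  (S₀.res (S₀.tgt e)).comp (Subring.inclusion (fun y hy => X.le₂ i y hy :
    (L.level i).R ≤ (S₀.O (S₀.tgt e)).toSubring))

theorem red₁_apply (i : ι) (y : (L.level i).R) :
    X.red₁ i y = S₀.res (S₀.src e) ⟨y, X.le₁ i y y.2⟩ := rfl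

theorem red₂_apply (i : ι) (y : (L.level i).R) :
    X.red₂ i y = S₀.res (S₀.tgt e) ⟨y, X.le₂ i y y.2⟩ := rfl

/-- a constant of `𝔪_A` reduces to `0` -/
theorem res_const_eq_zero (w : ι₀) {c : K} (hc : A.valuation c < 1)
    (h : algebraMap K F c ∈ S₀.O w) : S₀.res w ⟨algebraMap K F c, h⟩ = 0 := by
  have hcA : c ∈ A := (A.valuation_le_one_iff c).mp hc.le
  rw [S₀.res_algebraMap w c hcA h]
  have : residue A ⟨c, hcA⟩ = 0 := by
    rw [IsLocalRing.residue_eq_zero_iff]
    exact (A.valuation_lt_one_iff ⟨c, hcA⟩).mpr hc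
  rw [this, map_zero]

/-- the reduction of a constant of `A` is regular at every place -/
theorem adicValuation_res_const_le_one (w : ι₀) (Q : Place (ResidueField A) (Ft₀ w)) (a : A)
    (h : algebraMap K F (a : K) ∈ S₀.O w) :
    Q.adicValuation (S₀.res w ⟨algebraMap K F (a : K), h⟩) ≤ 1 := by
  rw [S₀.res_algebraMap w a a.2 h]
  exact Q.adicValuation_algebraMap_le_one _

/-- the reductions of the functions of a level are regular at the first branch -/
theorem adicValuation_red₁_le_one (i : ι) (y : (L.level i).R) :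
    (S₀.s₁ e).adicValuation (X.red₁ i y) ≤ 1 := by
  obtain ⟨a, ha, hnu⟩ := (L.level i).residue y
  have h1 := X.branch₁ i _ hnu
  have h2 : X.red₁ i y = X.red₁ i (y - ⟨algebraMap K F a, ha⟩) +
      X.red₁ i ⟨algebraMap K F a, ha⟩ := by
    rw [← map_add, sub_add_cancel]
  rw [h2]
  refine (Valuation.map_add _ _ _).trans (max_le (le_of_lt h1) ?_)
  exact adicValuation_res_const_le_one (S₀ := S₀) (S₀.src e) (S₀.s₁ e) a (X.le₁ i _ ha)

/-- the reductions of the functions of a level are regular at the second branch -/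
theorem adicValuation_red₂_le_one (i : ι) (y : (L.level i).R) :
    (S₀.s₂ e).adicValuation (X.red₂ i y) ≤ 1 := by
  obtain ⟨a, ha, hnu⟩ := (L.level i).residue y
  have h1 := X.branch₂ i _ hnu
  have h2 : X.red₂ i y = X.red₂ i (y - ⟨algebraMap K F a, ha⟩) +
      X.red₂ i ⟨algebraMap K F a, ha⟩ := by
    rw [← map_add, sub_add_cancel]
  rw [h2]
  refine (Valuation.map_add _ _ _).trans (max_le (le_of_lt h1) ?_)
  exact adicValuation_res_const_le_one (S₀ := S₀) (S₀.tgt e) (S₀.s₂ e) a (X.le₂ i _ ha)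

/-- elements of `𝔪(O w)` reduce to `0` -/
theorem res_eq_zero_of_mem_nonunits (w : ι₀) {x : F} (hx : x ∈ (S₀.O w).nonunits)
    (h : x ∈ S₀.O w) : S₀.res w ⟨x, h⟩ = 0 := by
  rw [S₀.res_eq_zero_iff]
  obtain ⟨h', hm⟩ := (ValuationSubring.mem_nonunits_iff_exists_mem_maximalIdeal).mp hx
  exact (IsLocalRing.mem_maximalIdeal _).mp hm

/-- the three generators of the maximal ideal of the level `i` -/
def piR (_ : BranchData S₀ e L) (i : ι) : (L.level i).R :=
  ⟨algebraMap K F (L.level i).ϖ, (L.level i).unif_memR⟩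

def uR (_ : BranchData S₀ e L) (i : ι) : (L.level i).R := ⟨L.u, (L.level i).u_mem⟩

def vR (_ : BranchData S₀ e L) (i : ι) : (L.level i).R := ⟨L.v, (L.level i).v_mem⟩

theorem uR_not_isUnit (i : ι) : ¬ IsUnit (X.uR i) := fun h =>
  (L.level i).prime1.ne_top (Ideal.eq_top_of_isUnit_mem _ (L.level i).u_mem_p1 h)

theorem vR_not_isUnit (i : ι) : ¬ IsUnit (X.vR i) := fun h =>
  (L.level i).prime2.ne_top (Ideal.eq_top_of_isUnit_mem _ (L.level i).v_mem_p2 h)

theorem red₁_piR (i : ι) : X.red₁ i (X.piR i) = 0 :=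
  res_const_eq_zero (S₀ := S₀) (S₀.src e) (L.level i).unif_lt _

theorem red₂_piR (i : ι) : X.red₂ i (X.piR i) = 0 :=
  res_const_eq_zero (S₀ := S₀) (S₀.tgt e) (L.level i).unif_lt _

theorem red₁_vR (i : ι) : X.red₁ i (X.vR i) = 0 :=
  res_eq_zero_of_mem_nonunits (S₀ := S₀) (S₀.src e) X.v_src _

theorem red₂_uR (i : ι) : X.red₂ i (X.uR i) = 0 :=
  res_eq_zero_of_mem_nonunits (S₀ := S₀) (S₀.tgt e) X.u_tgt _

include X in
theorem nonempty : Nonempty ι := by
  obtain ⟨i, -⟩ := L.const 0
  exact ⟨i⟩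

include X in
/-- `u` is integral on the component `src e` -/
theorem u_src : L.u ∈ S₀.O (S₀.src e) := by
  obtain ⟨i⟩ := X.nonempty
  exact X.le₁ i L.u (L.level i).u_mem

include X in
/-- the residue of `u` on `src e` has a simple zero at the branch `s₁ e` -/
theorem ord_src : (S₀.s₁ e).ord (S₀.res (S₀.src e) ⟨L.u, X.u_src⟩) = 1 := by
  obtain ⟨i, t, ht⟩ := X.unif₁
  exact ord_res_eq_one (X.red₁ i) (S₀.s₁ e) (X.adicValuation_red₁_le_one i)
    (fun y hy => X.branch₁ i y hy) (X.piR i) (X.uR i) (X.vR i) (L.level i).nonunit_mem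
    (X.red₁_piR i) (X.red₁_vR i) (X.uR_not_isUnit i) t ht

include X in
theorem u_ne_zero : L.u ≠ 0 := by
  obtain ⟨i⟩ := X.nonempty
  intro h0
  apply (L.level i).u_notMem_p2
  have : (⟨L.u, (L.level i).u_mem⟩ : (L.level i).R) = 0 := Subtype.ext h0
  rw [this]
  exact Ideal.zero_mem _

include X in
theorem eps_ne_zero : L.ε₀ ≠ 0 := by
  obtain ⟨i⟩ := X.nonempty
  intro h0
  have huv := L.uv
  rw [h0, smul_zero] at huv
  rcases mul_eq_zero.mp huv with h | h
  · exact X.u_ne_zero h
  · apply (L.level i).v_notMem_p1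
    have : (⟨L.v, (L.level i).v_mem⟩ : (L.level i).R) = 0 := Subtype.ext h
    rw [this]
    exact Ideal.zero_mem _

include X in
/-- `thick / u = v / ε₀` -/
theorem thick_smul_inv_eq : L.thick • L.u⁻¹ = L.v * L.ε₀⁻¹ := by
  have hu0 := X.u_ne_zero
  have hε0 := X.eps_ne_zero
  have huv := L.uv
  rw [Algebra.smul_def] at huv ⊢
  field_simp
  exact huv.symm

include X in
/-- `thick / u` is integral on the component `tgt e` -/
theorem v_tgt : L.thick • L.u⁻¹ ∈ S₀.O (S₀.tgt e) := by
  obtain ⟨i⟩ := X.nonempty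
  rw [X.thick_smul_inv_eq]
  exact X.le₂ i _ ((L.level i).R.mul_mem (L.level i).v_mem (L.level i).ε₀_inv_mem)

include X in
/-- the residue of `thick / u` on `tgt e` has a simple zero at the branch `s₂ e` -/
theorem ord_tgt :
    (S₀.s₂ e).ord (S₀.res (S₀.tgt e) ⟨L.thick • L.u⁻¹, X.v_tgt⟩) = 1 := by
  obtain ⟨i, t, ht⟩ := X.unif₂
  have hmax : ∀ x : (L.level i).R, ¬ IsUnit x → x ∈ Ideal.span {X.piR i, X.vR i, X.uR i} := by
    intro x hx
    have := (L.level i).nonunit_mem x hx
    rwa [show ({X.piR i, X.vR i, X.uR i} : Set (L.level i).R) = {X.piR i, X.uR i, X.vR i} from by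
      ext y; simp only [Set.mem_insert_iff, Set.mem_singleton_iff]; tauto]
  have hv1 : (S₀.s₂ e).ord (X.red₂ i (X.vR i)) = 1 :=
    ord_res_eq_one (X.red₂ i) (S₀.s₂ e) (X.adicValuation_red₂_le_one i)
      (fun y hy => X.branch₂ i y hy) (X.piR i) (X.vR i) (X.uR i) hmax
      (X.red₂_piR i) (X.red₂_uR i) (X.vR_not_isUnit i) t ht
  -- the unit `ε₀⁻¹`
  let εi : (L.level i).R := ⟨L.ε₀⁻¹, (L.level i).ε₀_inv_mem⟩
  let ε : (L.level i).R := ⟨L.ε₀, (L.level i).ε₀_mem⟩
  have hεu : IsUnit εi := by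
    refine IsUnit.of_mul_eq_one ε ?_
    apply Subtype.ext
    simp only [εi, ε, Subring.coe_mul, Subring.coe_one]
    exact inv_mul_cancel₀ X.eps_ne_zero
  have hε0 : (S₀.s₂ e).ord (X.red₂ i εi) = 0 :=
    ord_res_unit_eq_zero (X.red₂ i) (S₀.s₂ e) (X.adicValuation_red₂_le_one i) hεu
  have hprod : S₀.res (S₀.tgt e) ⟨L.thick • L.u⁻¹, X.v_tgt⟩ =
      X.red₂ i (X.vR i) * X.red₂ i εi := by
    rw [← map_mul, X.red₂_apply]
    congr 1
    apply Subtype.ext
    simp only [vR, εi, Subring.coe_mul]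
    exact X.thick_smul_inv_eq
  have hv0 : X.red₂ i (X.vR i) ≠ 0 := by
    intro h0
    rw [h0, Place.ord_zero] at hv1
    exact zero_ne_one hv1
  have hεne : X.red₂ i εi ≠ 0 := by
    intro h0
    have h1 := hεu.map (X.red₂ i)
    rw [h0] at h1
    exact not_isUnit_zero h1
  rw [hprod, Place.ord_mul _ hv0 hεne, hv1, hε0, add_zero]

omit [IsAlgClosed (ResidueField A)] in
/-- a function of a level which is `≡ 1` modulo the maximal ideal is a unit on the tube -/
theorem tubeUnit_of_level (L : AnnulusLevels A (tube S₀ e) ι) (i : ι) {ε : F} (hε : ε ∈ (L.level i).R)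
    (hnu : ¬ IsUnit ((⟨ε, hε⟩ : (L.level i).R) - 1)) : TubeUnit A (tube S₀ e) ε := by
  intro P hP
  have hc := (L.level i).centred P hP
  obtain ⟨hI, -⟩ := id hc
  have h1 : IsValueAt P ε (evalAt P ε) := hI.isValueAt_evalAt hε
  refine ⟨evalAt P ε, h1, ?_⟩
  have h2 : IsValueAt P (ε - 1) (evalAt P ε - 1) := h1.sub (isValueAt_one P)
  have h3 := hc.valuation_evalAt_lt_one hnu
  have h4 : (((⟨ε, hε⟩ : (L.level i).R) - 1 : (L.level i).R) : F) = ε - 1 := rfl
  rw [h4, evalAt_eq_of_isValueAt h2] at h3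
  exact h3

include X in
/-- **the strong form of the unit factor**: a function of a level which is `≡ 1` modulo the
maximal ideal is `≡ 1` on the tube and at the two branches of the node -/
theorem nodeUnit_of_level (i : ι) {ε : F} (hε : ε ∈ (L.level i).R)
    (hnu : ¬ IsUnit ((⟨ε, hε⟩ : (L.level i).R) - 1)) : NodeUnit S₀ e ε := by
  refine ⟨tubeUnit_of_level L i hε hnu, ⟨X.le₁ i ε hε, ?_⟩, ⟨X.le₂ i ε hε, ?_⟩⟩
  · have h1 := X.branch₁ i _ hnu
    have h2 : S₀.res (S₀.src e) ⟨(((⟨ε, hε⟩ : (L.level i).R) - 1 : (L.level i).R) : F),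
        X.le₁ i _ ((⟨ε, hε⟩ : (L.level i).R) - 1 : (L.level i).R).2⟩ =
        S₀.res (S₀.src e) ⟨ε, X.le₁ i ε hε⟩ -
          algebraMap (ResidueField A) (Ft₀ (S₀.src e)) 1 := by
      rw [map_one, ← map_one (S₀.res (S₀.src e)), ← map_sub]
      rfl
    rw [h2] at h1
    exact h1
  · have h1 := X.branch₂ i _ hnu
    have h2 : S₀.res (S₀.tgt e) ⟨(((⟨ε, hε⟩ : (L.level i).R) - 1 : (L.level i).R) : F),
        X.le₂ i _ ((⟨ε, hε⟩ : (L.level i).R) - 1 : (L.level i).R).2⟩ =
        S₀.res (S₀.tgt e) ⟨ε, X.le₂ i ε hε⟩ -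
          algebraMap (ResidueField A) (Ft₀ (S₀.tgt e)) 1 := by
      rw [map_one, ← map_one (S₀.res (S₀.tgt e)), ← map_sub]
      rfl
    rw [h2] at h1
    exact h1

/-- **The contract `AnnulusChart S₀ e`** from the K-level core of the levels, the finite-level
form of the factorisation and the branch data. -/
def annulusChartOfCore (C : AnnulusCore A (tube S₀ e)) (hu : C.u = L.u)
    (hthick : C.thick = L.thick)
    (hfs : ∀ y : F, y ≠ 0 → ∃ (S : Finset (Place K F)) (n : Place K F → ℤ) (b : ℤ) (c : K),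
      (∀ Q ∈ S, Q ∈ tube S₀ e) ∧ c ≠ 0 ∧ ∃ (i : ι)
      (h : y * (c • (L.u ^ b * ∏ Q ∈ S, (L.u - algebraMap K F (evalAt Q L.u)) ^ n Q))⁻¹ ∈
          (L.level i).R),
        ¬ IsUnit ((⟨_, h⟩ : (L.level i).R) - 1)) :
    AnnulusChart S₀ e where
  u := C.u
  thick := C.thick
  thick_ne := C.thick_ne
  thick_lt := C.thick_lt
  val_mem := C.val_mem
  bij := C.bij
  simple := C.simple
  factor := fun y hy => by
    obtain ⟨S, n, b, c, hS, hc, i, h, hnu⟩ := hfs y hy
    refine ⟨S, n, b, c, hS, hc, ?_⟩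
    rw [hu]
    exact X.nodeUnit_of_level i h hnu
  u_src := hu ▸ X.u_src
  ord_src := by
    have key : ∀ (x : F) (hx : x ∈ S₀.O (S₀.src e)), x = L.u →
        (S₀.s₁ e).ord (S₀.res (S₀.src e) ⟨x, hx⟩) = 1 := by
      intro x hx hxu
      subst hxu
      exact X.ord_src
    exact key C.u _ hu
  v_tgt := by rw [hu, hthick]; exact X.v_tgt
  ord_tgt := by
    have key : ∀ (x : F) (hx : x ∈ S₀.O (S₀.tgt e)), x = L.thick • L.u⁻¹ →
        (S₀.s₂ e).ord (S₀.res (S₀.tgt e) ⟨x, hx⟩) = 1 := by
      intro x hx hxu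
      subst hxu
      exact X.ord_tgt
    exact key _ _ (by rw [hu, hthick])
  comp := X.comp

/-- **The producer of the contract**: `AnnulusChart S₀ e` from a directed family of finite levels
of the tube of `e` (`AnnulusLevels.core`, `AnnulusLevels.factor_strong` of `BR/S0/AnnulusDescent`)
and its branch data. -/
def annulusChartOfLevels : AnnulusChart S₀ e :=
  X.annulusChartOfCore L.core rfl rfl L.factor_strong

@[simp] theorem annulusChartOfLevels_u : X.annulusChartOfLevels.u = L.u := rfl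

@[simp] theorem annulusChartOfLevels_thick : X.annulusChartOfLevels.thick = L.thick := rfl

theorem annulusChartOfLevels_toCore : X.annulusChartOfLevels.toCore.u = L.core.u := rfl

end BranchData

end Fermat.Agent.BR.S0.AnnulusChartOfLevels
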