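/-
Program B, node B7.5 (C6-DENSE, adapter): the level data `S0.AnnulusLevels` of the annulus producer
give the level rings `Circle.TubeLevel` of `BR/Circle/DenseLevel.lean`, hence best approximation
for the ring of every circle — with no hypothesis on the residue fields of the levels.
-/
import Mathlib
import Fermat.Agent.BR.S0.AnnulusLevels
import Fermat.Agent.BR.Circle.DenseLevel

set_option autoImplicit false

namespace Fermat.Agent.BR.S0.AnnulusDense

open AlgebraicCurve IsLocalRing Fermat.Agent.Red Fermat.Agent.BR.Centre Fermat.Agent.BR.Circle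

variable {K : Type} {F : Type*} [Field K] [Field F] [Algebra K F]
variable {A : ValuationSubring K} [IsAlgClosed (ResidueField A)] {T : Set (Place K F)}
  {ι : Type*}

omit [IsAlgClosed (ResidueField A)] in
/-- `thick / u = v / ε₀` lies in every level ring. -/
theorem thick_smul_inv_eq (L : AnnulusLevels A T ι) (i : ι) (hu0 : L.u ≠ 0) :
    L.thick • L.u⁻¹ = L.v * L.ε₀⁻¹ := by
  have hv0 : L.v ≠ 0 := by
    intro h0
    apply (L.level i).v_notMem_p1
    have : (⟨L.v, (L.level i).v_mem⟩ : (L.level i).R) = 0 := Subtype.ext h0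
    rw [this]
    exact (L.level i).p1.zero_mem
  have hε0 : L.ε₀ ≠ 0 := by
    intro h0
    have h1 := L.uv
    rw [h0, smul_zero] at h1
    exact mul_ne_zero hu0 hv0 h1
  have h2 : L.thick • L.u⁻¹ = (L.thick • L.ε₀) * (L.ε₀⁻¹ * L.u⁻¹) := by
    rw [Algebra.smul_def, Algebra.smul_def]
    field_simp
  rw [h2, ← L.uv]
  field_simp

omit [IsAlgClosed (ResidueField A)] in
/-- A level of the annulus producer is a level ring for the density argument. -/
theorem tubeLevel (L : AnnulusLevels A T ι) (C : AnnulusCore A T) (hu : C.u = L.u)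
    (ht : C.thick = L.thick) (hu0 : L.u ≠ 0) (i : ι) :
    TubeLevel C (L.level i).R (L.level i).ϖ where
  ϖ_lt := (L.level i).unif_lt
  ϖ_mem := (L.level i).unif_memR
  u_mem := by rw [hu]; exact (L.level i).u_mem
  v_mem := by
    rw [hu, ht, thick_smul_inv_eq L i hu0]
    exact (L.level i).R.mul_mem (L.level i).v_mem (L.level i).ε₀_inv_mem
  integral := fun y hy P hP => by
    obtain ⟨h, -⟩ := (L.level i).centred P hP
    exact h y hy
  residue := fun y hy => by
    obtain ⟨c, hc, hnu⟩ := (L.level i).residue ⟨y, hy⟩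
    have hmem := (L.level i).nonunit_mem _ hnu
    rw [Ideal.mem_span_insert] at hmem
    obtain ⟨r₁, z, hz, hsum⟩ := hmem
    rw [Ideal.mem_span_pair] at hz
    obtain ⟨r₂, r₃, rfl⟩ := hz
    have hsum' := congrArg Subtype.val hsum
    refine ⟨(c : K), hc, r₁, r₁.2, r₂, r₂.2, L.ε₀ * r₃,
      (L.level i).R.mul_mem (L.level i).ε₀_mem r₃.2, ?_⟩
    have hε0 : L.ε₀ ≠ 0 := by
      intro h0
      have hv0 : L.v ≠ 0 := by
        intro h1
        apply (L.level i).v_notMem_p1
        have : (⟨L.v, (L.level i).v_mem⟩ : (L.level i).R) = 0 := Subtype.ext h1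
        rw [this]
        exact (L.level i).p1.zero_mem
      have h2 := L.uv
      rw [h0, smul_zero] at h2
      exact mul_ne_zero hu0 hv0 h2
    have hv : C.thick • C.u⁻¹ * (L.ε₀ * (r₃ : F)) = (r₃ : F) * L.v := by
      rw [hu, ht, thick_smul_inv_eq L i hu0]
      field_simp
    rw [hv, hu]
    have hsum'' : y - algebraMap K F (c : K) =
        (r₁ : F) * algebraMap K F (L.level i).ϖ + ((r₂ : F) * L.u + (r₃ : F) * L.v) := hsum'
    rw [hsum'']
    ring

/-- **(C6) from the level data of the annulus producer**, by density of `K(u)`. -/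
theorem approxAt_of_annulusLevels (hA : IsRankOne A) (L : AnnulusLevels A T ι)
    (C : AnnulusCore A T) (hu : C.u = L.u) (ht : C.thick = L.thick) (a : K)
    (ha1 : A.valuation C.thick < A.valuation a) (ha2 : A.valuation a < 1) :
    ApproxAt C a ha1 ha2 := by
  have hu0 : L.u ≠ 0 := by
    rw [← hu]
    exact coord_ne_zero C a ha1 ha2
  refine approxAt_of_levels ha1 ha2 hA fun z => ?_
  obtain ⟨i, s, t, ht0, hz⟩ := L.frac z
  exact ⟨(L.level i).R, (L.level i).ϖ, tubeLevel L C hu ht hu0 i, s, s.2, t, t.2,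
    fun h0 => ht0 (Subtype.ext h0), hz⟩

end Fermat.Agent.BR.S0.AnnulusDense
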