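import Mathlib
import Fermat.Agent.BR.SS.Setup
import Fermat.Agent.Val.ConstRed

/-!
# Program B (BADRED), node B6.6: the two-component semistable setup from its inputs

`TwoCompInput A π Ft ν` : the data of a model whose special fibre has two components, both with
residue function field `Ft / k` (for `X₀(qM)` at `q`: two copies of `X₀(M)` mod `q`), crossing at
the points `z₁ e` (on component `0`) `= z₂ e` (on component `1`), `e : ν`:

* `C 0`, `C 1 : Val.ConstRed A π` : the two constant reductions (valuation ring, residue map,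
  constants, best approximation) — block B1 (`w₁`, `w₂ = w₁ ∘ W_q`);
* `O_ne` : the two valuation rings are different — B1.SEP;
* `z₁`, `z₂` : the two branches of every crossing, injective; `ν` nonempty — B6.5;
* `r` : the reduction (centre) map of places; places of the tube of the crossing `e` (annular
  places) are sent to `(0, z₁ e)`, nothing is sent to `(1, z₂ e)` — B7.3 / Centre;
* `conservation` at the non-crossing points of either component, for units of ONE component —
  B7.1 (+ cusp charts);
* `node_match`, `node_unit` at the crossings — B7.2.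

`TwoCompInput.toSetup : SS.SemistableSetup A π (Fin 2) (fun _ => Ft) ν` is the semistable setup
with components `Fin 2`, all nodes oriented from component `0` to component `1`.
Consumers: `SS.mainStatement` (`SS/Main.lean`) and the chain refinement `BR/Refine`.
-/

set_option autoImplicit false

namespace Fermat.Agent.BR.S0

open AlgebraicCurve Fermat.Agent.Red Fermat.Agent.Val Fermat.Agent.BR.SS

/-- The inputs of the two-component semistable setup. -/
structure TwoCompInput {K F k : Type*} [Field K] [Field F] [Algebra K F] [Field k]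
    (A : ValuationSubring K) (π : A →+* k) (Ft : Type*) [Field Ft] [Algebra k Ft]
    (ν : Type*) where
  /-- the two constant reductions -/
  C : Fin 2 → ConstRed (F := F) (Ft := Ft) A π
  /-- the two valuation rings are different -/
  O_ne : (C 0).O ≠ (C 1).O
  /-- the branch of the crossing `e` on the component `0` -/
  z₁ : ν → Place k Ft
  /-- the branch of the crossing `e` on the component `1` -/
  z₂ : ν → Place k Ft
  z₁_injective : Function.Injective z₁
  z₂_injective : Function.Injective z₂
  /-- the two components meet -/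
  nonempty_ν : Nonempty ν
  /-- the reduction of places -/
  r : Place K F → Σ _ : Fin 2, Place k Ft
  r_ne_tgt : ∀ P e, r P ≠ ⟨1, z₂ e⟩
  /-- conservation on the component `0` away from the crossings -/
  conservation₀ : ∀ y : (C 0).O, (C 0).res y ≠ 0 → ∀ D : Divisor K F,
    (∀ P, D P = P.ord (y : F)) → ∀ Q : Place k Ft, (∀ e, Q ≠ z₁ e) →
      Finsupp.mapDomain r D ⟨0, Q⟩ = Q.ord ((C 0).res y)
  /-- conservation on the component `1` away from the crossings -/
  conservation₁ : ∀ y : (C 1).O, (C 1).res y ≠ 0 → ∀ D : Divisor K F,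
    (∀ P, D P = P.ord (y : F)) → ∀ Q : Place k Ft, (∀ e, Q ≠ z₂ e) →
      Finsupp.mapDomain r D ⟨1, Q⟩ = Q.ord ((C 1).res y)
  /-- matching at a crossing -/
  node_match : ∀ (e : ν) (y : F) (h₁ : y ∈ (C 0).O) (h₂ : y ∈ (C 1).O),
    (∀ P, r P = ⟨0, z₁ e⟩ → 0 ≤ P.ord y) →
    ∃ c : k, IsValueAt (z₁ e) ((C 0).res ⟨y, h₁⟩) c ∧ IsValueAt (z₂ e) ((C 1).res ⟨y, h₂⟩) c
  /-- a nonzero value at a crossing excludes zeros in its tube -/
  node_unit : ∀ (e : ν) (y : F) (h₁ : y ∈ (C 0).O) (_h₂ : y ∈ (C 1).O),
    (∀ P, r P = ⟨0, z₁ e⟩ → 0 ≤ P.ord y) →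
    (∃ c : k, c ≠ 0 ∧ IsValueAt (z₁ e) ((C 0).res ⟨y, h₁⟩) c) →
    ∀ P, r P = ⟨0, z₁ e⟩ → P.ord y = 0

namespace TwoCompInput

variable {K F k : Type*} [Field K] [Field F] [Algebra K F] [Field k]
  {A : ValuationSubring K} {π : A →+* k} {Ft : Type*} [Field Ft] [Algebra k Ft] {ν : Type*}
  (I : TwoCompInput (F := F) A π Ft ν)

theorem fin2_eq_zero_or_one (v : Fin 2) : v = 0 ∨ v = 1 := by
  fin_cases v
  · exact Or.inl rfl
  · exact Or.inr rfl

/-- **The two-component semistable setup.** All nodes are oriented from the component `0` to the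
component `1`. -/
def toSetup : SemistableSetup (F := F) A π (Fin 2) (fun _ => Ft) ν where
  O v := (I.C v).O
  res v := (I.C v).res
  res_surjective v := (I.C v).res_surjective
  res_eq_zero_iff v := (I.C v).res_eq_zero_iff
  algebraMap_mem_iff v := (I.C v).algebraMap_mem_iff
  res_algebraMap v := (I.C v).res_algebraMap
  approx v := (I.C v).approx
  O_injective := by
    intro v w h
    rcases fin2_eq_zero_or_one v with rfl | rfl <;> rcases fin2_eq_zero_or_one w with rfl | rfl
    · rfl
    · exact absurd h I.O_ne
    · exact absurd h.symm I.O_ne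
    · rfl
  src _ := 0
  tgt _ := 1
  s₁ := I.z₁
  s₂ := I.z₂
  branch_injective := by
    rintro (e | e) (e' | e') h
    · simp only [Sum.elim_inl, Sigma.mk.injEq, heq_eq_eq, true_and] at h
      rw [I.z₁_injective h]
    · simp only [Sum.elim_inl, Sum.elim_inr, Sigma.mk.injEq] at h
      exact absurd h.1 (by decide)
    · simp only [Sum.elim_inl, Sum.elim_inr, Sigma.mk.injEq] at h
      exact absurd h.1 (by decide)
    · simp only [Sum.elim_inr, Sigma.mk.injEq, heq_eq_eq, true_and] at h
      rw [I.z₂_injective h]
  connected := by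
    intro T hT hclosed
    obtain ⟨e⟩ := I.nonempty_ν
    have h01 : (0 : Fin 2) ∈ T ↔ (1 : Fin 2) ∈ T := hclosed e
    obtain ⟨v, hv⟩ := hT
    have h0 : (0 : Fin 2) ∈ T := by
      rcases fin2_eq_zero_or_one v with rfl | rfl
      · exact hv
      · exact h01.mpr hv
    have h1 : (1 : Fin 2) ∈ T := h01.mp h0
    ext w
    simp only [Set.mem_univ, iff_true]
    rcases fin2_eq_zero_or_one w with rfl | rfl
    · exact h0
    · exact h1
  r := I.r
  r_ne_tgt := I.r_ne_tgt
  conservation := by
    intro v y hy D hD Q hs ht
    rcases fin2_eq_zero_or_one v with rfl | rfl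
    · refine I.conservation₀ y hy D hD Q fun e he => hs e ?_
      rw [he]
    · refine I.conservation₁ y hy D hD Q fun e he => ht e ?_
      rw [he]
  node_match := I.node_match
  node_unit := I.node_unit

@[simp] theorem toSetup_O (v : Fin 2) : I.toSetup.O v = (I.C v).O := rfl

@[simp] theorem toSetup_r : I.toSetup.r = I.r := rfl

@[simp] theorem toSetup_src (e : ν) : I.toSetup.src e = 0 := rfl

@[simp] theorem toSetup_tgt (e : ν) : I.toSetup.tgt e = 1 := rfl

@[simp] theorem toSetup_s₁ (e : ν) : I.toSetup.s₁ e = I.z₁ e := rfl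

@[simp] theorem toSetup_s₂ (e : ν) : I.toSetup.s₂ e = I.z₂ e := rfl

/-- A place is smooth iff its reduction is not a crossing point (on the component `0`). -/
theorem isSmoothPlace_iff (P : Place K F) :
    I.toSetup.IsSmoothPlace P ↔ ∀ e, I.r P ≠ ⟨0, I.z₁ e⟩ := by
  unfold SemistableSetup.IsSmoothPlace SemistableSetup.IsBranch
  constructor
  · intro h e he
    exact h ⟨e, Or.inl he⟩
  · rintro h ⟨e, he | he⟩
    · exact h e he
    · exact I.r_ne_tgt P e he

end TwoCompInput

end Fermat.Agent.BR.S0
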