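import Mathlib
import Fermat.Agent.BR.S0.TwoCompInput
import Fermat.Agent.BR.SS.Main
import Fermat.Agent.BR.SS.GenusLe
import Fermat.Agent.BR.SS.InputsLattice
import Fermat.Agent.BR.GenusAuxLevel
import Fermat.Agent.BR.GenusNodeCount
import Fermat.Agent.Jac.DictC.GenusFF
import Fermat.Agent.Good.GenFinalH3
import Fermat.Agent.Val.RiemannPkgBar
import Fermat.Agent.Val.RiemannPkgModL
import Fermat.Agent.Val.RankOne
import Fermat.Agent.Val.ResidueFieldA

/-!
# Program B (BADRED), node B6.6-GENUS: the hypotheses of `SS.MainStatement` for `X₀(qM)` at `q`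

`K = ℚ̄`, `B` a valuation subring of `ℚ̄` over the prime `q ∤ M`, `k` its residue field,
`F = Fb (M * q)`, both components with residue function field
`Ft = modularFunctionFieldFullC k M` (the function field of `X₀(M)` over `k`).

* `genus_hyp_iff` : for ANY semistable setup on `F` with two components of residue field `Ft` and
  nodes `ν`, the genus hypothesis of `SS.MainStatement` is equivalent to
  `card ν = nodeCount q M` (the number of supersingular points);
* `noTorsionInKernel_of_card` : all other hypotheses of `SS.MainStatement` hold, so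
  `card ν = nodeCount q M` implies `SS.NoTorsionInKernel`.
-/

set_option autoImplicit false
set_option synthInstance.maxHeartbeats 400000

namespace Fermat.Agent.BR.S0

open AlgebraicCurve ModularCurve IsLocalRing Fermat.Agent.Red Fermat.Agent.X0 Fermat.Agent.BR.SS
  Fermat.Agent.BR.GenusCount

variable (M q : ℕ) [NeZero M] [hq : Fact q.Prime]
variable (B : ValuationSubring (AlgebraicClosure ℚ))

/-- `g(X₀(M) mod q) = g(X₀(M))` as a rational number, `= genusFormula M`. -/
theorem genusFF_modL_eq_genusFormula (hB : B.LiesOverPrime q) (hqM : ¬ q ∣ M) :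
    (genusFF (ResidueField B) (modularFunctionFieldFullC (ResidueField B) M) : ℚ) =
      genusFormula M := by
  rw [Fermat.Agent.Good.FinalH3.genusFF_modL_eq_bar M hqM B hB]
  exact Fermat.Agent.Jac.DictC.genusFF_bar M

/-- **The genus hypothesis of `SS.MainStatement` for a two-component model of `X₀(qM)` with
components `X₀(M)` is the supersingular count.** -/
theorem genus_hyp_iff (hB : B.LiesOverPrime q) (hqM : ¬ q ∣ M) (ν : Type*) [Fintype ν] :
    ((genusFF Kb (Fb (M * q)) : ℤ) =
        ∑ _v : Fin 2, (genusFF (ResidueField B)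
          (modularFunctionFieldFullC (ResidueField B) M) : ℤ) +
          Fintype.card ν - Fintype.card (Fin 2) + 1) ↔
      (Fintype.card ν : ℚ) = nodeCount q M := by
  have : NeZero (M * q) := ⟨Nat.mul_ne_zero (NeZero.ne M) hq.out.ne_zero⟩
  have h1 : (genusFF Kb (Fb (M * q)) : ℚ) = genusFormula (M * q) :=
    Fermat.Agent.Jac.DictC.genusFF_bar (M * q)
  have h2 := genusFormula_prime_mul hq.out (Nat.pos_of_ne_zero (NeZero.ne M)) hqM
  rw [mul_comm q M] at h2
  have h3 := genusFF_modL_eq_genusFormula M q B hB hqM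
  rw [Finset.sum_const, Finset.card_univ, Fintype.card_fin, nsmul_eq_mul]
  have key : (((genusFF Kb (Fb (M * q)) : ℤ) : ℚ) =
      ((((2 : ℕ) : ℤ) * (genusFF (ResidueField B)
          (modularFunctionFieldFullC (ResidueField B) M) : ℤ) +
          (Fintype.card ν : ℤ) - ((2 : ℕ) : ℤ) + 1 : ℤ) : ℚ)) ↔
      (Fintype.card ν : ℚ) = nodeCount q M := by
    push_cast
    rw [h1, h2, h3]
    constructor
    · intro h
      linarith
    · intro h
      rw [h]
      ring
  rw [← key]
  exact Int.cast_inj.symm

/-- Pure arithmetic behind `card_le_nodeCount`. -/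
theorem card_le_of_genus_arith {c gF gt : ℕ} {gN gM nc : ℚ}
    (hle : (c : ℤ) ≤ (gF : ℤ) - ((2 : ℕ) : ℤ) * (gt : ℤ) + ((2 : ℕ) : ℤ) - 1)
    (h1 : (gF : ℚ) = gN) (h2 : gN = 2 * gM - 1 + nc) (h3 : (gt : ℚ) = gM) : (c : ℚ) ≤ nc := by
  have hle' : ((c : ℤ) : ℚ) ≤
      (((gF : ℤ) - ((2 : ℕ) : ℤ) * (gt : ℤ) + ((2 : ℕ) : ℤ) - 1 : ℤ) : ℚ) := by
    exact_mod_cast hle
  push_cast at hle'
  rw [h1, h2, h3] at hle'
  linarith

set_option maxHeartbeats 1000000 in
/-- **Upper half of the SANDWICH** (unconditional): a semistable setup on `Fb (M * q)` with two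
components `X₀(M) mod q` has at most `nodeCount q M` nodes. -/
theorem card_le_nodeCount (hB : B.LiesOverPrime q) (hqM : ¬ q ∣ M) {ν : Type*} [Fintype ν]
    (S : SemistableSetup (F := Fb (M * q)) B (residue B) (Fin 2)
      (fun _ => modularFunctionFieldFullC (ResidueField B) M) ν) :
    (Fintype.card ν : ℚ) ≤ nodeCount q M := by
  have : NeZero (M * q) := ⟨Nat.mul_ne_zero (NeZero.ne M) hq.out.ne_zero⟩
  have hF := Fermat.Agent.Val.riemannPkg_bar (M * q)
  have hFt : ∀ _v : Fin 2, RiemannPkg (ResidueField B)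
      (modularFunctionFieldFullC (ResidueField B) M) :=
    fun _ => Fermat.Agent.Val.riemannPkg_modL_residueField M hqM B hB
  have hπ : Function.Surjective (residue B) := IsLocalRing.residue_surjective
  have hR : ResRank S := S.resRank hπ
  have hle := S.card_nodes_le hF hFt hR
  have h1 : (genusFF Kb (Fb (M * q)) : ℚ) = genusFormula (M * q) :=
    Fermat.Agent.Jac.DictC.genusFF_bar (M * q)
  have h2 := genusFormula_prime_mul hq.out (Nat.pos_of_ne_zero (NeZero.ne M)) hqM
  rw [mul_comm q M] at h2
  have h3 := genusFF_modL_eq_genusFormula M q B hB hqM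
  rw [Finset.sum_const, Finset.card_univ, Fintype.card_fin, nsmul_eq_mul] at hle
  exact card_le_of_genus_arith hle h1 h2 h3

/-- **The SANDWICH**: if moreover `12 card ν ≥ (q - 1) ψ(M)` (from `Σ_z 12 / e_z = (q-1) ψ(M)`,
`e_z ≥ 1`) and `X₀(M)` has no elliptic points, the number of nodes is `nodeCount q M`. -/
theorem card_eq_nodeCount_of_le (hB : B.LiesOverPrime q) (hqM : ¬ q ∣ M) {ν : Type*} [Fintype ν]
    (S : SemistableSetup (F := Fb (M * q)) B (residue B) (Fin 2)
      (fun _ => modularFunctionFieldFullC (ResidueField B) M) ν)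
    (h2 : nuTwo M = 0) (h3 : nuThree M = 0)
    (hlow : ((q : ℚ) - 1) * (dedekindPsi M : ℚ) ≤ 12 * (Fintype.card ν : ℚ)) :
    (Fintype.card ν : ℚ) = nodeCount q M := by
  apply le_antisymm (card_le_nodeCount M q B hB hqM S)
  rw [nodeCount_of_no_elliptic q h2 h3]
  linarith

/-- **B3 applied to `X₀(qM)`**: every semistable setup on `Fb (M * q)` over `B` with two
components of residue function field `X₀(M) mod q` whose number of nodes is the supersingular count
`nodeCount q M` has no torsion in the kernel of reduction (principal-reduction form). All other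
hypotheses of `SS.MainStatement` hold unconditionally. -/
theorem noTorsionInKernel_of_card (hB : B.LiesOverPrime q) (hqM : ¬ q ∣ M) {ν : Type*} [Fintype ν]
    (S : SemistableSetup (F := Fb (M * q)) B (residue B) (Fin 2)
      (fun _ => modularFunctionFieldFullC (ResidueField B) M) ν)
    (hcard : (Fintype.card ν : ℚ) = nodeCount q M) : NoTorsionInKernel S := by
  have : NeZero (M * q) := ⟨Nat.mul_ne_zero (NeZero.ne M) hq.out.ne_zero⟩
  exact mainStatement S inferInstance (Fermat.Agent.Val.residueField_isAlgClosed B)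
    (Fermat.Agent.Val.isRankOne B hB) (Fermat.Agent.Val.riemannPkg_bar (M * q))
    (fun _ => Fermat.Agent.Val.riemannPkg_modL_residueField M hqM B hB)
    ((genus_hyp_iff M q B hB hqM ν).mpr hcard)

/-- The same for a `TwoCompInput`. -/
theorem TwoCompInput.noTorsionInKernel (hB : B.LiesOverPrime q) (hqM : ¬ q ∣ M) {ν : Type*}
    [Fintype ν]
    (I : TwoCompInput (F := Fb (M * q)) B (residue B)
      (modularFunctionFieldFullC (ResidueField B) M) ν)
    (hcard : (Fintype.card ν : ℚ) = nodeCount q M) : NoTorsionInKernel I.toSetup :=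
  noTorsionInKernel_of_card M q B hB hqM I.toSetup hcard

end Fermat.Agent.BR.S0
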