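import Mathlib
import Fermat.Agent.BR.S0.Genus
import Fermat.Agent.BR.Refine.Modular

/-!
# Program B (BADRED), node B6.6: `HasModularInput` from a two-component bundle

`hasModularInput_of_twoCompInput` : at a level `M` without elliptic points (`ν₂(M) = ν₃(M) = 0`),
`q ∤ M`, the modular input `Refine.HasModularInput (M * q) B` of the geometric main theorem
follows from

* a two-component bundle `I : TwoCompInput` on `Fb (M * q)` with both residue function fields
  `X₀(M) mod q` (blocks B1, B6.5, B7.1–B7.3);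
* the lower bound `(q - 1) ψ(M) ≤ 12 · card ν` for the number of crossings
  (from `Σ_z 12 / e_z = (q - 1) ψ(M)`, `e_z ≥ 1`; blocks B6.4, B6.5 (f));
* a chain provider over `I.toSetup` (block B7.4) and the inertia equivariance.

The Riemann packages and the genus equality are discharged here (`S0/Genus.lean`: SANDWICH with
`SS.card_nodes_le`).
-/

set_option autoImplicit false
set_option synthInstance.maxHeartbeats 400000

namespace Fermat.Agent.BR.S0

open AlgebraicCurve ModularCurve IsLocalRing Fermat.Agent.Red Fermat.Agent.X0 Fermat.Agent.BR.SS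
  Fermat.Agent.BR.GenusCount Fermat.Agent.BR.Refine

set_option maxHeartbeats 1000000 in
/-- **`HasModularInput` from a two-component bundle.** -/
theorem hasModularInput_of_twoCompInput (M q : ℕ) [NeZero M] [hq : Fact q.Prime]
    (B : ValuationSubring (AlgebraicClosure ℚ)) [IsAlgClosed (ResidueField B)]
    (hB : B.LiesOverPrime q) (hqM : ¬ q ∣ M) (h2 : nuTwo M = 0) (h3 : nuThree M = 0)
    {ν : Type} [Fintype ν]
    (I : TwoCompInput (F := Fb (M * q)) B (residue B)
      (modularFunctionFieldFullC (ResidueField B) M) ν)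
    (hlow : ((q : ℚ) - 1) * (dedekindPsi M : ℚ) ≤ 12 * (Fintype.card ν : ℚ))
    (Pr : ChainProvider I.toSetup)
    (hσ : ∀ σ ∈ B.inertiaSubgroupIn ℚ,
      (∀ e, arithmeticGalois (modularFunctionFieldFull (M * q)) σ • Pr.u e = Pr.u e) ∧
      ∀ Q : Place (AlgebraicClosure ℚ) (modularFunctionFieldBar (M * q)),
        I.r (arithmeticGalois (modularFunctionFieldFull (M * q)) σ • Q) = I.r Q) :
    HasModularInput (M * q) B := by
  have hcard : (Fintype.card ν : ℚ) = nodeCount q M :=
    card_eq_nodeCount_of_le M q B hB hqM I.toSetup h2 h3 hlow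
  exact ⟨Fin 2, ν, inferInstance, inferInstance,
    fun _ => modularFunctionFieldFullC (ResidueField B) M, inferInstance, inferInstance,
    I.toSetup, fun _ => Fermat.Agent.Val.riemannPkg_modL_residueField M hqM B hB,
    (genus_hyp_iff M q B hB hqM ν).mpr hcard, Pr, hσ⟩

/-- **What the provider blocks must deliver** at a level `M` without elliptic points, `q ∤ M`, for
a valuation ring `B` of `ℚ̄` over `q`: a two-component bundle on `Fb (M * q)`, the lower bound for
the number of crossings, a chain provider and the inertia equivariance. -/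
def TwoCompDeliverable (M q : ℕ) [NeZero M] [Fact q.Prime]
    (B : ValuationSubring (AlgebraicClosure ℚ)) [IsAlgClosed (ResidueField B)] : Prop :=
  ∃ (ν : Type) (_ : Fintype ν)
    (I : TwoCompInput (F := Fb (M * q)) B (residue B)
      (modularFunctionFieldFullC (ResidueField B) M) ν),
    ((q : ℚ) - 1) * (dedekindPsi M : ℚ) ≤ 12 * (Fintype.card ν : ℚ) ∧
    ∃ Pr : ChainProvider I.toSetup, ∀ σ ∈ B.inertiaSubgroupIn ℚ,
      (∀ e, arithmeticGalois (modularFunctionFieldFull (M * q)) σ • Pr.u e = Pr.u e) ∧
      ∀ Q : Place (AlgebraicClosure ℚ) (modularFunctionFieldBar (M * q)),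
        I.r (arithmeticGalois (modularFunctionFieldFull (M * q)) σ • Q) = I.r Q

theorem hasModularInput_of_deliverable (M q : ℕ) [NeZero M] [hq : Fact q.Prime]
    (B : ValuationSubring (AlgebraicClosure ℚ)) [IsAlgClosed (ResidueField B)]
    (hB : B.LiesOverPrime q) (hqM : ¬ q ∣ M) (h2 : nuTwo M = 0) (h3 : nuThree M = 0)
    (h : TwoCompDeliverable M q B) : HasModularInput (M * q) B := by
  obtain ⟨ν, _, I, hlow, Pr, hσ⟩ := h
  exact hasModularInput_of_twoCompInput M q B hB hqM h2 h3 I hlow Pr hσ

/-- **The geometric main theorem of Program B (hence S34) from the two-component deliverables at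
the levels without elliptic points.** -/
theorem hasNodalReductionsAux_of_deliverable
    (h : ∀ (M q : ℕ) [NeZero M] [Fact q.Prime], ¬ q ∣ M → nuTwo M = 0 → nuThree M = 0 →
      ∀ B : ValuationSubring (AlgebraicClosure ℚ), B.LiesOverPrime q →
        ∀ [IsAlgClosed (ResidueField B)], TwoCompDeliverable M q B) :
    S34Final.HasNodalReductionsAux := by
  apply hasNodalReductionsAux_of_modularInput
  intro M q hM hq hqM
  obtain ⟨ℓ, hℓ, -, hℓq, hℓM, -, h2, h3, -⟩ :=
    exists_aux_level (q := q) (M := M) (p := 1) hq.ne_zero hM.ne' one_ne_zero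
  refine ⟨ℓ, hℓ.pos, fun P hP _ => ?_⟩
  have : NeZero (M * ℓ) := ⟨Nat.mul_ne_zero hM.ne' hℓ.ne_zero⟩
  have : Fact q.Prime := ⟨hq⟩
  have hqMℓ : ¬ q ∣ M * ℓ := by
    intro hdvd
    rcases (Nat.Prime.dvd_mul hq).mp hdvd with h' | h'
    · exact hqM h'
    · have : q = ℓ := (Nat.prime_dvd_prime_iff_eq hq hℓ).mp h'
      exact hℓq (this ▸ dvd_rfl)
  exact hasModularInput_of_deliverable (M * ℓ) q P hP hqMℓ h2 h3 (h (M * ℓ) q hqMℓ h2 h3 P hP)

end Fermat.Agent.BR.S0
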