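/-
Program B (bad reduction), node B6.6 (helper24): Krull-normality of a noetherian normal ring of
functions in terms of the valuation rings of the field dominating its height-one primes.

`F` a field, `R ⊆ F` a noetherian integrally closed subring, `𝒱` a set of valuation subrings of
`F`, all containing `R`, such that every height-one prime of `R` is the trace `R ∩ 𝔪_V` of the
maximal ideal of some `V ∈ 𝒱` (for the local ring `O_{n,W'}` of a normal model: the component
valuation rings through the point, and the valuation rings `O_P` of the places `P` of the tube).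

* `dvd_of_dominated` : if `a / b ∈ V` for all `V ∈ 𝒱` (`a b ∈ R`, `b ≠ 0`) then `b ∣ a` in `R`.
* `mem_of_dominated` : the same in the form `y * b = a ⇒ y ∈ R`.

The fraction field of `R` may be smaller than `F`. Proof: `KrullNormal.dvd_of_forall_height_one`
and totality of divisibility in the discrete valuation ring `Localization.AtPrime p`.
-/
import Mathlib
import Fermat.Agent.BR.KrullNormal

set_option autoImplicit false

namespace Fermat.Agent.BR.S0

open Fermat.Agent.BR

variable {F : Type*} [Field F]

/-- **Krull-normality through dominating valuation rings**: divisibility in a noetherian normal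
ring of functions can be tested in the valuation rings dominating its height-one primes. -/
theorem dvd_of_dominated (R : Subring F) [IsNoetherianRing R] [IsIntegrallyClosed R]
    (𝒱 : Set (ValuationSubring F)) (hle : ∀ V ∈ 𝒱, ∀ x ∈ R, x ∈ V)
    (hHV : ∀ p : Ideal R, p.IsPrime → p.height = 1 →
      ∃ V ∈ 𝒱, ∀ x : R, x ∈ p ↔ (x : F) ∈ V.nonunits)
    {a b : R} (hb : b ≠ 0) (h : ∀ V ∈ 𝒱, (a : F) * (b : F)⁻¹ ∈ V) : b ∣ a := by
  rcases eq_or_ne a 0 with rfl | ha
  · exact dvd_zero b
  refine KrullNormal.dvd_of_forall_height_one hb fun p hp hht _ => ?_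
  obtain ⟨V, hV, hpV⟩ := hHV p hp hht
  have hDVR : IsDiscreteValuationRing (Localization.AtPrime p) :=
    KrullNormal.isDiscreteValuationRing_of_height_one R p hht
  set S := Localization.AtPrime p with hS
  have hinj : Function.Injective (algebraMap R S) :=
    IsLocalization.injective S p.primeCompl_le_nonZeroDivisors
  -- divisibility in `S` descends to `R` up to a factor outside `p`
  have key : algebraMap R S b ∣ algebraMap R S a → ∃ s, s ∉ p ∧ b ∣ s * a := by
    rintro ⟨w, hw⟩
    obtain ⟨⟨c, s⟩, hcs⟩ := IsLocalization.surj p.primeCompl w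
    refine ⟨s, s.2, c, hinj ?_⟩
    have hcs' : w * algebraMap R S (s : R) = algebraMap R S c := hcs
    rw [map_mul, map_mul, hw, ← hcs']
    ring
  -- the valuation of `V`
  have hval1 : ∀ x : R, x ∉ p → V.valuation (x : F) = 1 := by
    intro x hx
    have h1 : (x : F) ∉ V.nonunits := fun h1 => hx ((hpV x).mpr h1)
    rw [ValuationSubring.mem_nonunits_iff, not_lt] at h1
    exact le_antisymm ((V.valuation_le_one_iff _).mpr (hle V hV _ x.2)) h1
  rcases ValuationRing.dvd_total (algebraMap R S b) (algebraMap R S a) with hba | hab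
  · exact key hba
  · -- `b = a * (c / s)` in `S`; the hypothesis at `V` forces `c ∉ p`
    obtain ⟨w, hw⟩ := hab
    obtain ⟨⟨c, s⟩, hcs⟩ := IsLocalization.surj p.primeCompl w
    have hcs' : w * algebraMap R S (s : R) = algebraMap R S c := hcs
    have heq : (s : R) * b = c * a := by
      apply hinj
      rw [map_mul, map_mul, hw, ← hcs']
      ring
    have heqF : ((s : R) : F) * (b : F) = (c : F) * (a : F) := by
      have := congrArg (fun x : R => (x : F)) heq
      simpa only [Subring.coe_mul] using this
    have hbF : (b : F) ≠ 0 := fun h0 => hb (Subtype.ext h0)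
    have haF : (a : F) ≠ 0 := fun h0 => ha (Subtype.ext h0)
    have hvs : V.valuation ((s : R) : F) = 1 := hval1 _ s.2
    have hvy : V.valuation ((a : F) * (b : F)⁻¹) ≤ 1 := (V.valuation_le_one_iff _).mpr (h V hV)
    have hvc : V.valuation (c : F) ≤ 1 := (V.valuation_le_one_iff _).mpr (hle V hV _ c.2)
    have hva : V.valuation (a : F) ≠ 0 := (Valuation.ne_zero_iff _).mpr haF
    have hvb : V.valuation (b : F) ≠ 0 := (Valuation.ne_zero_iff _).mpr hbF
    have h2 : V.valuation (b : F) = V.valuation (c : F) * V.valuation (a : F) := by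
      have := congrArg V.valuation heqF
      rwa [map_mul, map_mul, hvs, one_mul] at this
    have h3 : V.valuation (a : F) ≤ V.valuation (b : F) := by
      rw [map_mul, map_inv₀] at hvy
      have := mul_le_mul_left hvy (V.valuation (b : F))
      rwa [mul_assoc, inv_mul_cancel₀ hvb, mul_one, one_mul] at this
    have hc1 : V.valuation (c : F) = 1 := by
      apply le_antisymm hvc
      by_contra hlt
      rw [not_le] at hlt
      have h4 : V.valuation (c : F) * V.valuation (a : F) < 1 * V.valuation (a : F) :=
        mul_lt_mul_of_pos_right hlt (zero_lt_iff.mpr hva)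
      rw [one_mul, ← h2] at h4
      exact absurd h3 (not_le.mpr h4)
    have hcp : c ∉ p := by
      intro hcp
      have := (hpV c).mp hcp
      rw [ValuationSubring.mem_nonunits_iff, hc1] at this
      exact lt_irrefl _ this
    -- then `c` is a unit of `S` and `b ∣ a` in `S`
    have hcu : IsUnit (algebraMap R S c) :=
      IsLocalization.map_units S (⟨c, hcp⟩ : p.primeCompl)
    have hsu : IsUnit (algebraMap R S (s : R)) := IsLocalization.map_units S s
    have hwu : IsUnit w := by
      have : IsUnit (w * algebraMap R S (s : R)) := by rw [hcs']; exact hcu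
      exact isUnit_of_mul_isUnit_left this
    obtain ⟨wu, rfl⟩ := hwu
    apply key
    refine ⟨((wu⁻¹ : Sˣ) : S), ?_⟩
    rw [hw, mul_assoc, Units.mul_inv, mul_one]

/-- **Krull-normality through dominating valuation rings**, membership form: an element of `F`
which is a quotient of elements of `R` and lies in all the valuation rings of `𝒱` lies in `R`. -/
theorem mem_of_dominated (R : Subring F) [IsNoetherianRing R] [IsIntegrallyClosed R]
    (𝒱 : Set (ValuationSubring F)) (hle : ∀ V ∈ 𝒱, ∀ x ∈ R, x ∈ V)
    (hHV : ∀ p : Ideal R, p.IsPrime → p.height = 1 →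
      ∃ V ∈ 𝒱, ∀ x : R, x ∈ p ↔ (x : F) ∈ V.nonunits)
    {y : F} {a b : R} (hb : b ≠ 0) (hy : y * (b : F) = (a : F)) (h : ∀ V ∈ 𝒱, y ∈ V) :
    y ∈ R := by
  have hbF : (b : F) ≠ 0 := fun h0 => hb (Subtype.ext h0)
  have hyab : y = (a : F) * (b : F)⁻¹ := by
    rw [← hy, mul_assoc, mul_inv_cancel₀ hbF, mul_one]
  obtain ⟨c, hc⟩ := dvd_of_dominated R 𝒱 hle hHV hb (fun V hV => hyab ▸ h V hV)
  have : y = (c : F) := by
    rw [hyab, hc, Subring.coe_mul]
    field_simp
  rw [this]
  exact c.2

end Fermat.Agent.BR.S0
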