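/-
Program B (bad reduction), node B6.6-NODE (helper19): the node fields of a semistable setup from
a local chart at the crossing point.

`F / K` a function field, `A ⊆ K` a valuation ring with residue map `π : A → k`, `O₁ O₂` two
component valuation rings of `F` with residue maps `res₁ : O₁ → Ft₁`, `res₂ : O₂ → Ft₂`, `Q₁ Q₂`
the two branches of a crossing point and `T` the set of places of its tube (the annulus).

* `NodeChart A O₁ O₂ res₁ res₂ Q₁ Q₂ T` : the local ring `R ⊆ F` of the model (over `A`) at the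
  crossing point: a local ring with residue field `k`, contained in `O₁ ∩ O₂`, whose non-units
  reduce to functions vanishing at the branches, regular on the tube, and **normal** in the sense
  that every function of `O₁ ∩ O₂` without poles on the tube lies in `R`
  (finding #583 section 5: Krull-normality of the local ring of the normal model).
* `NodeChart.node_match`, `NodeChart.node_unit` : the fields `node_match`, `node_unit` of
  `SS.SemistableSetup` at this node.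
* `connected_fin_two`, `branch_injective_fin_two` : the fields `connected`, `branch_injective` for
  two components `0, 1` with all nodes going from `0` to `1`.
-/
import Mathlib
import Fermat.Agent.Red.Values
import Fermat.Agent.X0.Alg.PlaceBasic

set_option autoImplicit false

namespace Fermat.Agent.BR.S0

open AlgebraicCurve Fermat.Agent.Red Fermat.Agent.X0

variable {K F k : Type*} [Field K] [Field F] [Algebra K F] [Field k]
  {Ft₁ Ft₂ : Type*} [Field Ft₁] [Algebra k Ft₁] [Field Ft₂] [Algebra k Ft₂]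

/-- The local ring of the model at a crossing point, with the properties needed for the node
fields of a semistable setup. -/
structure NodeChart (A : ValuationSubring K) (O₁ O₂ : ValuationSubring F) (res₁ : O₁ →+* Ft₁)
    (res₂ : O₂ →+* Ft₂) (Q₁ : Place k Ft₁) (Q₂ : Place k Ft₂) (T : Set (Place K F)) where
  /-- the local ring at the crossing point -/
  R : Subring F
  isLocalRing : IsLocalRing R
  le₁ : ∀ y ∈ R, y ∈ O₁
  le₂ : ∀ y ∈ R, y ∈ O₂
  algebraMap_mem : ∀ a ∈ A, algebraMap K F a ∈ R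
  /-- the residue field of `R` is the residue field of `A` -/
  residue : ∀ y : R, ∃ a : A, ¬ IsUnit (y - ⟨algebraMap K F a, algebraMap_mem a a.2⟩)
  /-- non-units vanish at the first branch -/
  branch₁ : ∀ y : R, ¬ IsUnit y → Q₁.adicValuation (res₁ ⟨y, le₁ y y.2⟩) < 1
  /-- non-units vanish at the second branch -/
  branch₂ : ∀ y : R, ¬ IsUnit y → Q₂.adicValuation (res₂ ⟨y, le₂ y y.2⟩) < 1
  /-- the functions of `R` are regular on the tube -/
  regular : ∀ P ∈ T, ∀ y ∈ R, y ∈ P.toValuationSubring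
  /-- normality: a function integral on both components and without poles on the tube lies in
  `R` -/
  normal : ∀ y : F, y ∈ O₁ → y ∈ O₂ → (∀ P ∈ T, 0 ≤ P.ord y) → y ∈ R

namespace NodeChart

variable {A : ValuationSubring K} {π : A →+* k} {O₁ O₂ : ValuationSubring F}
  {res₁ : O₁ →+* Ft₁} {res₂ : O₂ →+* Ft₂} {Q₁ : Place k Ft₁} {Q₂ : Place k Ft₂}
  {T : Set (Place K F)} (C : NodeChart A O₁ O₂ res₁ res₂ Q₁ Q₂ T)

/-- The value at the crossing point: for `y ∈ R` there is `a ∈ A` such that both reductions of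
`y` take the value `π a` at the two branches. -/
theorem exists_isValueAt
    (hres₁ : ∀ (a : K) (ha : a ∈ A) (h : algebraMap K F a ∈ O₁),
      res₁ ⟨algebraMap K F a, h⟩ = algebraMap k Ft₁ (π ⟨a, ha⟩))
    (hres₂ : ∀ (a : K) (ha : a ∈ A) (h : algebraMap K F a ∈ O₂),
      res₂ ⟨algebraMap K F a, h⟩ = algebraMap k Ft₂ (π ⟨a, ha⟩))
    {y : F} (hy : y ∈ C.R) :
    ∃ a : A, ¬ IsUnit ((⟨y, hy⟩ : C.R) - ⟨algebraMap K F a, C.algebraMap_mem a a.2⟩) ∧
      IsValueAt Q₁ (res₁ ⟨y, C.le₁ y hy⟩) (π a) ∧ IsValueAt Q₂ (res₂ ⟨y, C.le₂ y hy⟩) (π a) := by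
  obtain ⟨a, ha⟩ := C.residue ⟨y, hy⟩
  refine ⟨a, ha, ?_, ?_⟩
  · have h1 := C.branch₁ _ ha
    have e : (⟨((⟨y, hy⟩ : C.R) - ⟨algebraMap K F a, C.algebraMap_mem a a.2⟩ : C.R), C.le₁ _
        ((⟨y, hy⟩ : C.R) - ⟨algebraMap K F a, C.algebraMap_mem a a.2⟩ : C.R).2⟩ : O₁) =
        ⟨y, C.le₁ y hy⟩ - ⟨algebraMap K F a, C.le₁ _ (C.algebraMap_mem a a.2)⟩ := rfl
    rw [e, map_sub, hres₁ a a.2] at h1
    exact h1
  · have h2 := C.branch₂ _ ha
    have e : (⟨((⟨y, hy⟩ : C.R) - ⟨algebraMap K F a, C.algebraMap_mem a a.2⟩ : C.R), C.le₂ _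
        ((⟨y, hy⟩ : C.R) - ⟨algebraMap K F a, C.algebraMap_mem a a.2⟩ : C.R).2⟩ : O₂) =
        ⟨y, C.le₂ y hy⟩ - ⟨algebraMap K F a, C.le₂ _ (C.algebraMap_mem a a.2)⟩ := rfl
    rw [e, map_sub, hres₂ a a.2] at h2
    exact h2

include C in
/-- **`node_match`** from a node chart. -/
theorem node_match
    (hres₁ : ∀ (a : K) (ha : a ∈ A) (h : algebraMap K F a ∈ O₁),
      res₁ ⟨algebraMap K F a, h⟩ = algebraMap k Ft₁ (π ⟨a, ha⟩))
    (hres₂ : ∀ (a : K) (ha : a ∈ A) (h : algebraMap K F a ∈ O₂),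
      res₂ ⟨algebraMap K F a, h⟩ = algebraMap k Ft₂ (π ⟨a, ha⟩))
    (y : F) (h₁ : y ∈ O₁) (h₂ : y ∈ O₂) (hT : ∀ P ∈ T, 0 ≤ P.ord y) :
    ∃ c : k, IsValueAt Q₁ (res₁ ⟨y, h₁⟩) c ∧ IsValueAt Q₂ (res₂ ⟨y, h₂⟩) c := by
  have hy := C.normal y h₁ h₂ hT
  obtain ⟨a, -, ha₁, ha₂⟩ := C.exists_isValueAt hres₁ hres₂ hy
  exact ⟨π a, ha₁, ha₂⟩

/-- Units of `R` have no zeros and no poles on the tube. -/
theorem ord_eq_zero_of_isUnit {y : C.R} (hy : IsUnit y) {P : Place K F} (hP : P ∈ T) :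
    P.ord (y : F) = 0 := by
  obtain ⟨u, rfl⟩ := hy
  have h1 : 0 ≤ P.ord ((u : C.R) : F) := Place.ord_nonneg_of_mem P (C.regular P hP _ (u : C.R).2)
  have h2 : 0 ≤ P.ord (((u⁻¹ : (C.R)ˣ) : C.R) : F) :=
    Place.ord_nonneg_of_mem P (C.regular P hP _ ((u⁻¹ : (C.R)ˣ) : C.R).2)
  have h3 : (((u⁻¹ : (C.R)ˣ) : C.R) : F) = (((u : C.R) : F))⁻¹ := by
    have : ((u : C.R) : F) * (((u⁻¹ : (C.R)ˣ) : C.R) : F) = 1 := by
      have h4 : ((u : C.R) * ((u⁻¹ : (C.R)ˣ) : C.R) : C.R) = 1 := u.mul_inv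
      have h5 := congrArg (fun z : C.R => (z : F)) h4
      simpa only [Subring.coe_mul, Subring.coe_one] using h5
    exact eq_inv_of_mul_eq_one_right this
  rw [h3, Place.ord_inv] at h2
  omega

include C in
/-- **`node_unit`** from a node chart. -/
theorem node_unit
    (hres₁ : ∀ (a : K) (ha : a ∈ A) (h : algebraMap K F a ∈ O₁),
      res₁ ⟨algebraMap K F a, h⟩ = algebraMap k Ft₁ (π ⟨a, ha⟩))
    (hres₂ : ∀ (a : K) (ha : a ∈ A) (h : algebraMap K F a ∈ O₂),
      res₂ ⟨algebraMap K F a, h⟩ = algebraMap k Ft₂ (π ⟨a, ha⟩))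
    (hπ : ∀ a : A, π a ≠ 0 → (a : K)⁻¹ ∈ A)
    (y : F) (h₁ : y ∈ O₁) (h₂ : y ∈ O₂) (hT : ∀ P ∈ T, 0 ≤ P.ord y)
    (hc : ∃ c : k, c ≠ 0 ∧ IsValueAt Q₁ (res₁ ⟨y, h₁⟩) c) :
    ∀ P ∈ T, P.ord y = 0 := by
  have := C.isLocalRing
  have hy := C.normal y h₁ h₂ hT
  obtain ⟨a, ha, ha₁, -⟩ := C.exists_isValueAt hres₁ hres₂ hy
  obtain ⟨c, hc0, hc⟩ := hc
  have hac : π a = c := ha₁.unique hc
  have hai : (a : K)⁻¹ ∈ A := hπ a (hac ▸ hc0)
  -- `a` is a unit of `R`
  have ha0 : (a : K) ≠ 0 := by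
    intro h0
    apply hc0
    rw [← hac]
    have : a = 0 := Subtype.ext h0
    rw [this, map_zero]
  have hau : IsUnit (⟨algebraMap K F a, C.algebraMap_mem a a.2⟩ : C.R) := by
    refine IsUnit.of_mul_eq_one (⟨algebraMap K F (a : K)⁻¹, C.algebraMap_mem _ hai⟩ : C.R) ?_
    apply Subtype.ext
    show algebraMap K F a * algebraMap K F (a : K)⁻¹ = 1
    rw [← map_mul, mul_inv_cancel₀ ha0, map_one]
  -- hence `y` is a unit of `R`
  have hyu : IsUnit (⟨y, hy⟩ : C.R) := by
    by_contra hny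
    apply ha
    have h1 : (⟨y, hy⟩ : C.R) ∈ IsLocalRing.maximalIdeal C.R := hny
    have h2 : (⟨y, hy⟩ : C.R) - ⟨algebraMap K F a, C.algebraMap_mem a a.2⟩ ∉
        IsLocalRing.maximalIdeal C.R := by
      intro h3
      have h4 := (IsLocalRing.maximalIdeal C.R).sub_mem h1 h3
      rw [sub_sub_cancel] at h4
      exact h4 hau
    simpa [IsLocalRing.mem_maximalIdeal, mem_nonunits_iff] using h2
  intro P hP
  exact C.ord_eq_zero_of_isUnit hyu hP

end NodeChart

/-! ### Two components -/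

/-- The dual graph on two vertices `0, 1` with at least one edge from `0` to `1` is connected
(field `connected` of `SS.SemistableSetup`). -/
theorem connected_fin_two {ν : Type*} (src tgt : ν → Fin 2) (e₀ : ν) (h : src e₀ ≠ tgt e₀) :
    ∀ T : Set (Fin 2), T.Nonempty → (∀ e, src e ∈ T ↔ tgt e ∈ T) → T = Set.univ := by
  intro T hT hclosed
  have key : src e₀ ∈ T ∧ tgt e₀ ∈ T := by
    obtain ⟨x, hx⟩ := hT
    have hx' : x = src e₀ ∨ x = tgt e₀ := by
      have := h
      omega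
    rcases hx' with rfl | rfl
    · exact ⟨hx, (hclosed e₀).mp hx⟩
    · exact ⟨(hclosed e₀).mpr hx, hx⟩
  ext x
  simp only [Set.mem_univ, iff_true]
  have hx' : x = src e₀ ∨ x = tgt e₀ := by
    have := h
    omega
  rcases hx' with rfl | rfl
  · exact key.1
  · exact key.2

/-- All branches are distinct if the two families of branches are injective and live on
different components (field `branch_injective` of `SS.SemistableSetup`). -/
theorem branch_injective_of_ne {ι ν : Type*} {β : ι → Type*} (src tgt : ν → ι)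
    (s₁ : ∀ e, β (src e)) (s₂ : ∀ e, β (tgt e))
    (h₁ : Function.Injective fun e => (⟨src e, s₁ e⟩ : Σ v, β v))
    (h₂ : Function.Injective fun e => (⟨tgt e, s₂ e⟩ : Σ v, β v))
    (hne : ∀ e e', src e ≠ tgt e') :
    Function.Injective
      (Sum.elim (fun e => (⟨src e, s₁ e⟩ : Σ v, β v)) (fun e => ⟨tgt e, s₂ e⟩)) := by
  rintro (e | e) (e' | e') h
  · exact congrArg Sum.inl (h₁ h)
  · exact absurd (congrArg Sigma.fst h) (hne e e')
  · exact absurd (congrArg Sigma.fst h).symm (hne e' e)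
  · exact congrArg Sum.inr (h₂ h)

end Fermat.Agent.BR.S0
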