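/-
Program B (bad reduction), node B6.6-NORMAL (helper19): the node chart over `A` (the valuation ring
of `ℚ̄`) at a crossing point from a directed family of finite levels.

`F / K` a function field, `A ⊆ K` a valuation ring, `O₁ O₂` the two component valuation rings of
`F`, `Q₁ Q₂` the two branches of a crossing point, `T` the set of places of its tube.  The finite
levels are subrings `R i ⊆ F` (the local rings `O_{n,W'}` of the noetherian normal models over the
discrete valuation rings `W' = A ∩ K'`, `K'` running over the coefficient fields): noetherian,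
integrally closed, local, contained in `O₁ ∩ O₂`, with residue field `k`, non-units vanishing at
both branches, regular on the tube, and such that **every height-one prime of `R i` is the centre
on `R i` of `O₁`, of `O₂` or of the valuation ring of a place of the tube** (vertical primes:
`SpecialFibre.TwoComponents.vertical`; horizontal primes: the K-point existence lemma).

* Krull descent = `mem_of_dominated` of `BR/S0/KrullDescent` (helper24);
* `NodeLevels A O₁ O₂ res₁ res₂ Q₁ Q₂ T R` : the hypotheses on the family `R : ι → Subring F`;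
* `NodeLevels.union`, `mem_union`, `isUnit_union_iff`, `isLocalRing_union`,
  `mem_union_of_regular` (normality of the union);
* `NodeLevels.nodeChart : NodeChart A O₁ O₂ res₁ res₂ Q₁ Q₂ T` with `R := ⋃ R i`;
* adapters: `forall_mem_iff_of_eq_horizPrime` (a prime of the form `Centre.horizPrime h` is the
  centre of the place), `regular_of_integralAt`, `const_le_one_of_res`.
-/
import Mathlib
import Fermat.Agent.BR.S0.NodeFields
import Fermat.Agent.BR.S0.KrullDescent
import Fermat.Agent.BR.CentreBridge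

set_option autoImplicit false
set_option linter.style.haveILetI false

namespace Fermat.Agent.BR.S0

open AlgebraicCurve Fermat.Agent.Red Fermat.Agent.X0

variable {K F k : Type*} [Field K] [Field F] [Algebra K F] [Field k]
  {Ft₁ Ft₂ : Type*} [Field Ft₁] [Algebra k Ft₁] [Field Ft₂] [Algebra k Ft₂]

/-! ### Generalities -/

/-- Units of a subring of a field. -/
theorem isUnit_subring_iff {S : Subring F} {y : F} (hy : y ∈ S) :
    IsUnit (⟨y, hy⟩ : S) ↔ y ≠ 0 ∧ y⁻¹ ∈ S := by
  constructor
  · rintro ⟨u, hu⟩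
    have h1 : ((u : S) : F) = y := congrArg Subtype.val hu
    have h2 : ((u : S) : F) * (((u⁻¹ : Sˣ) : S) : F) = 1 := by
      have h3 : ((u : S) * ((u⁻¹ : Sˣ) : S) : S) = 1 := u.mul_inv
      have h4 := congrArg (fun z : S => (z : F)) h3
      simpa only [Subring.coe_mul, Subring.coe_one] using h4
    rw [h1] at h2
    have hy0 : y ≠ 0 := by
      rintro rfl
      rw [zero_mul] at h2
      exact zero_ne_one h2
    refine ⟨hy0, ?_⟩
    have h5 : y⁻¹ = (((u⁻¹ : Sˣ) : S) : F) := (eq_inv_of_mul_eq_one_right h2).symm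
    rw [h5]
    exact ((u⁻¹ : Sˣ) : S).2
  · rintro ⟨hy0, hyi⟩
    refine IsUnit.of_mul_eq_one (⟨y⁻¹, hyi⟩ : S) ?_
    apply Subtype.ext
    show y * y⁻¹ = 1
    exact mul_inv_cancel₀ hy0

/-- The nonunits of the valuation ring of a place. -/
theorem mem_nonunits_place_iff (P : Place K F) (x : F) :
    x ∈ P.toValuationSubring.nonunits ↔ x = 0 ∨ 0 < P.ord x := by
  rw [ValuationSubring.mem_nonunits_iff_or]
  rcases eq_or_ne x 0 with rfl | hx
  · simp
  · rw [Place.mem_iff_ord_nonneg, Place.ord_inv]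
    constructor
    · rintro (h | h)
      · exact absurd h hx
      · right; omega
    · rintro (h | h)
      · exact absurd h hx
      · right; omega

/-! ### The finite levels -/

/-- The finite-level data at a crossing point: a directed family `R i` of noetherian normal local
subrings of `F` (the local rings `O_{n,W'}` of the normal models over the discrete valuation rings
`W' = A ∩ K'`), whose union is the local ring of the model over `A`. -/
structure NodeLevels (A : ValuationSubring K) (O₁ O₂ : ValuationSubring F) (res₁ : O₁ →+* Ft₁)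
    (res₂ : O₂ →+* Ft₂) (Q₁ : Place k Ft₁) (Q₂ : Place k Ft₂) (T : Set (Place K F))
    {ι : Type*} (R : ι → Subring F) : Prop where
  /-- the family is directed -/
  directed : ∀ i j, ∃ l, R i ≤ R l ∧ R j ≤ R l
  /-- every function is a quotient of elements of some level -/
  cover : ∀ y : F, ∃ i, ∃ a b : R i, b ≠ 0 ∧ y * (b : F) = (a : F)
  /-- every constant of `A` lies in some level -/
  const : ∀ a ∈ A, ∃ i, algebraMap K F a ∈ R i
  noeth : ∀ i, IsNoetherianRing (R i)
  intClosed : ∀ i, IsIntegrallyClosed (R i)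
  isLocal : ∀ i, IsLocalRing (R i)
  le₁ : ∀ i, ∀ y ∈ R i, y ∈ O₁
  le₂ : ∀ i, ∀ y ∈ R i, y ∈ O₂
  /-- the residue field of every level is the residue field of `A` -/
  residue : ∀ i, ∀ y : R i, ∃ (a : A) (ha : algebraMap K F a ∈ R i),
    ¬ IsUnit (y - ⟨algebraMap K F a, ha⟩)
  /-- non-units vanish at the first branch -/
  branch₁ : ∀ i, ∀ y : R i, ¬ IsUnit y → Q₁.adicValuation (res₁ ⟨y, le₁ i y y.2⟩) < 1
  /-- non-units vanish at the second branch -/
  branch₂ : ∀ i, ∀ y : R i, ¬ IsUnit y → Q₂.adicValuation (res₂ ⟨y, le₂ i y y.2⟩) < 1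
  /-- the constants of `A` reduce to functions regular at the first branch -/
  const₁ : ∀ (a : K) (_ : a ∈ A) (h : algebraMap K F a ∈ O₁),
    Q₁.adicValuation (res₁ ⟨algebraMap K F a, h⟩) ≤ 1
  /-- the functions of every level are regular on the tube -/
  regular : ∀ i, ∀ P ∈ T, ∀ y ∈ R i, y ∈ P.toValuationSubring
  /-- every height-one prime of a level is the centre of a component or of a place of the tube -/
  primes : ∀ i (p : Ideal (R i)), p.IsPrime → p.height = 1 →
    (∀ x : R i, x ∈ p ↔ (x : F) ∈ O₁.nonunits) ∨ (∀ x : R i, x ∈ p ↔ (x : F) ∈ O₂.nonunits) ∨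
      ∃ P ∈ T, ∀ x : R i, x ∈ p ↔ (x : F) ∈ P.toValuationSubring.nonunits

namespace NodeLevels

variable {A : ValuationSubring K} {O₁ O₂ : ValuationSubring F} {res₁ : O₁ →+* Ft₁}
  {res₂ : O₂ →+* Ft₂} {Q₁ : Place k Ft₁} {Q₂ : Place k Ft₂} {T : Set (Place K F)}
  {ι : Type*} {R : ι → Subring F} (L : NodeLevels A O₁ O₂ res₁ res₂ Q₁ Q₂ T R)

include L

theorem nonempty : Nonempty ι := by
  obtain ⟨i, -⟩ := L.const 1 A.one_mem
  exact ⟨i⟩

/-- The union of the levels. -/
def union (_ : NodeLevels A O₁ O₂ res₁ res₂ Q₁ Q₂ T R) : Subring F := ⨆ i, R i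

theorem mem_union {y : F} : y ∈ L.union ↔ ∃ i, y ∈ R i := by
  haveI := L.nonempty
  unfold union
  exact Subring.mem_iSup_of_directed (fun i j => L.directed i j)

theorem le_union (i : ι) : R i ≤ L.union := fun _ hy => L.mem_union.mpr ⟨i, hy⟩

/-- The reductions of the functions of a level are regular at the first branch. -/
theorem adicValuation_res₁_le_one (i : ι) {y : F} (hy : y ∈ R i) :
    Q₁.adicValuation (res₁ ⟨y, L.le₁ i y hy⟩) ≤ 1 := by
  obtain ⟨a, ha, hu⟩ := L.residue i ⟨y, hy⟩
  have h1 := L.branch₁ i _ hu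
  have h2 := L.const₁ a a.2 (L.le₁ i _ ha)
  have e : (⟨y, L.le₁ i y hy⟩ : O₁) =
      ⟨((⟨y, hy⟩ : R i) - ⟨algebraMap K F a, ha⟩ : R i), L.le₁ i _
        ((⟨y, hy⟩ : R i) - ⟨algebraMap K F a, ha⟩ : R i).2⟩ +
      ⟨algebraMap K F a, L.le₁ i _ ha⟩ := by
    apply Subtype.ext
    show y = (y - algebraMap K F a) + algebraMap K F a
    ring
  rw [e, map_add]
  exact (Valuation.map_add _ _ _).trans (max_le h1.le h2)

/-- A non-unit of a level is a non-unit of every level. -/
theorem inv_notMem_of_not_isUnit {i : ι} {y : F} (hy : y ∈ R i)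
    (hu : ¬ IsUnit (⟨y, hy⟩ : R i)) (l : ι) : y = 0 ∨ y⁻¹ ∉ R l := by
  by_cases hy0 : y = 0
  · exact Or.inl hy0
  right
  intro hyl
  have h1 := L.branch₁ i _ hu
  have h2 := L.adicValuation_res₁_le_one l hyl
  have e : (⟨y, L.le₁ i y hy⟩ : O₁) * ⟨y⁻¹, L.le₁ l _ hyl⟩ = 1 := by
    apply Subtype.ext
    show y * y⁻¹ = 1
    exact mul_inv_cancel₀ hy0
  have h3 := congrArg (fun z => Q₁.adicValuation (res₁ z)) e
  simp only [map_mul, map_one] at h3
  have h4 : Q₁.adicValuation (res₁ ⟨y, L.le₁ i y hy⟩) *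
      Q₁.adicValuation (res₁ ⟨y⁻¹, L.le₁ l _ hyl⟩) < 1 := by
    calc Q₁.adicValuation (res₁ ⟨y, L.le₁ i y hy⟩) *
          Q₁.adicValuation (res₁ ⟨y⁻¹, L.le₁ l _ hyl⟩)
        ≤ Q₁.adicValuation (res₁ ⟨y, L.le₁ i y hy⟩) * 1 := mul_le_mul' le_rfl h2
      _ = Q₁.adicValuation (res₁ ⟨y, L.le₁ i y hy⟩) := mul_one _
      _ < 1 := h1
  rw [h3] at h4
  exact lt_irrefl _ h4

/-- Units of the union come from units of a level. -/
theorem isUnit_union_iff {y : F} (hy : y ∈ L.union) :
    IsUnit (⟨y, hy⟩ : L.union) ↔ ∃ (i : ι) (hi : y ∈ R i), IsUnit (⟨y, hi⟩ : R i) := by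
  constructor
  · intro hu
    obtain ⟨hy0, hyi⟩ := (isUnit_subring_iff hy).mp hu
    obtain ⟨i, hi⟩ := L.mem_union.mp hy
    obtain ⟨j, hj⟩ := L.mem_union.mp hyi
    obtain ⟨l, hil, hjl⟩ := L.directed i j
    exact ⟨l, hil hi, (isUnit_subring_iff (hil hi)).mpr ⟨hy0, hjl hj⟩⟩
  · rintro ⟨i, hi, hu⟩
    obtain ⟨hy0, hyi⟩ := (isUnit_subring_iff hi).mp hu
    exact (isUnit_subring_iff hy).mpr ⟨hy0, L.le_union i hyi⟩

/-- A non-unit of a level is a non-unit of the union. -/
theorem not_isUnit_union {i : ι} {y : F} (hy : y ∈ R i) (hu : ¬ IsUnit (⟨y, hy⟩ : R i)) :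
    ¬ IsUnit (⟨y, L.le_union i hy⟩ : L.union) := by
  intro h
  obtain ⟨l, hl, hul⟩ := (L.isUnit_union_iff _).mp h
  obtain ⟨hy0, hyl⟩ := (isUnit_subring_iff hl).mp hul
  rcases L.inv_notMem_of_not_isUnit hy hu l with h0 | h0
  · exact hy0 h0
  · exact h0 hyl

theorem isLocalRing_union : IsLocalRing L.union := by
  haveI : Nontrivial L.union := inferInstance
  refine IsLocalRing.of_isUnit_or_isUnit_one_sub_self (fun y => ?_)
  obtain ⟨i, hi⟩ := L.mem_union.mp y.2
  haveI := L.isLocal i
  rcases IsLocalRing.isUnit_or_isUnit_one_sub_self (⟨(y : F), hi⟩ : R i) with h | h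
  · left
    have : y = ⟨(y : F), y.2⟩ := rfl
    rw [this]
    exact (L.isUnit_union_iff _).mpr ⟨i, hi, h⟩
  · right
    have h1 : (1 : F) - (y : F) ∈ R i := (R i).sub_mem (R i).one_mem hi
    have : (1 - y : L.union) = ⟨(1 : F) - (y : F), L.le_union i h1⟩ := rfl
    rw [this]
    exact (L.isUnit_union_iff _).mpr ⟨i, h1, h⟩

/-- **Normality of the union**: a function integral on both components and without poles on the
tube lies in some level. -/
theorem mem_union_of_regular {y : F} (h₁ : y ∈ O₁) (h₂ : y ∈ O₂) (hT : ∀ P ∈ T, 0 ≤ P.ord y) :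
    y ∈ L.union := by
  obtain ⟨i, a, b, hb, hy⟩ := L.cover y
  haveI := L.noeth i
  haveI := L.intClosed i
  apply L.le_union i
  refine mem_of_dominated (R i)
    {V | V = O₁ ∨ V = O₂ ∨ ∃ P ∈ T, V = P.toValuationSubring} ?_ ?_ hb hy ?_
  · rintro V (rfl | rfl | ⟨P, hP, rfl⟩) x hx
    · exact L.le₁ i x hx
    · exact L.le₂ i x hx
    · exact L.regular i P hP x hx
  · intro p hp hht
    rcases L.primes i p hp hht with h | h | ⟨P, hP, h⟩
    · exact ⟨O₁, Or.inl rfl, h⟩
    · exact ⟨O₂, Or.inr (Or.inl rfl), h⟩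
    · exact ⟨P.toValuationSubring, Or.inr (Or.inr ⟨P, hP, rfl⟩), h⟩
  · rintro V (rfl | rfl | ⟨P, hP, rfl⟩)
    · exact h₁
    · exact h₂
    · exact Place.mem_of_ord_nonneg P (hT P hP)

/-- **The node chart over `A` from the finite levels.** -/
noncomputable def nodeChart : NodeChart A O₁ O₂ res₁ res₂ Q₁ Q₂ T where
  R := L.union
  isLocalRing := L.isLocalRing_union
  le₁ := fun y hy => by
    obtain ⟨i, hi⟩ := L.mem_union.mp hy
    exact L.le₁ i y hi
  le₂ := fun y hy => by
    obtain ⟨i, hi⟩ := L.mem_union.mp hy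
    exact L.le₂ i y hi
  algebraMap_mem := fun a ha => by
    obtain ⟨i, hi⟩ := L.const a ha
    exact L.le_union i hi
  residue := fun y => by
    obtain ⟨i, hi⟩ := L.mem_union.mp y.2
    obtain ⟨a, ha, hu⟩ := L.residue i ⟨(y : F), hi⟩
    exact ⟨a, L.not_isUnit_union _ hu⟩
  branch₁ := fun y hu => by
    obtain ⟨i, hi⟩ := L.mem_union.mp y.2
    have hui : ¬ IsUnit (⟨(y : F), hi⟩ : R i) := fun h =>
      hu ((L.isUnit_union_iff y.2).mpr ⟨i, hi, h⟩)
    exact L.branch₁ i _ hui
  branch₂ := fun y hu => by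
    obtain ⟨i, hi⟩ := L.mem_union.mp y.2
    have hui : ¬ IsUnit (⟨(y : F), hi⟩ : R i) := fun h =>
      hu ((L.isUnit_union_iff y.2).mpr ⟨i, hi, h⟩)
    exact L.branch₂ i _ hui
  regular := fun P hP y hy => by
    obtain ⟨i, hi⟩ := L.mem_union.mp hy
    exact L.regular i P hP y hi
  normal := fun y h₁ h₂ hT => L.mem_union_of_regular h₁ h₂ hT

end NodeLevels

/-! ### Adapters for the providers -/

/-- A prime of the form `Centre.horizPrime h` is the centre of the place on the ring. -/
theorem forall_mem_iff_of_eq_horizPrime {A : ValuationSubring K} {O : Subring F} {P : Place K F}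
    (h : Centre.IntegralAt A O P) {p : Ideal O} (hp : p = Centre.horizPrime h) (x : O) :
    x ∈ p ↔ (x : F) ∈ P.toValuationSubring.nonunits := by
  rw [hp, Centre.mem_horizPrime_iff_ord, mem_nonunits_place_iff]

/-- Functions of a ring on which the place is integral are regular at the place. -/
theorem regular_of_integralAt {A : ValuationSubring K} {O : Subring F} {P : Place K F}
    (h : Centre.IntegralAt A O P) {y : F} (hy : y ∈ O) : y ∈ P.toValuationSubring :=
  h.mem_toValuationSubring hy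

/-- The field `const₁` of `NodeLevels` when the reduction of a constant is a constant. -/
theorem const_le_one_of_res {A : ValuationSubring K} {π : A →+* k} {O₁ : ValuationSubring F}
    {res₁ : O₁ →+* Ft₁} (Q₁ : Place k Ft₁)
    (hres₁ : ∀ (a : K) (ha : a ∈ A) (h : algebraMap K F a ∈ O₁),
      res₁ ⟨algebraMap K F a, h⟩ = algebraMap k Ft₁ (π ⟨a, ha⟩))
    (a : K) (ha : a ∈ A) (h : algebraMap K F a ∈ O₁) :
    Q₁.adicValuation (res₁ ⟨algebraMap K F a, h⟩) ≤ 1 := by
  rw [hres₁ a ha h]
  exact Q₁.adicValuation_algebraMap_le_one _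

end Fermat.Agent.BR.S0
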