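/-
Program B (bad reduction), level-data assembly, slice (S2) (helper19): the finite levels
`NodeLevels` (`BR/S0/NodeDescent`) at a crossing point from the GLOBAL normal models at those
levels.  Twin of helper24's `BR/S0/SmoothModel` + `BR/S0/SmoothModelFamily` for a crossing point.

`C ⊆ F` the normal model over `W' = A ∩ K'` (a noetherian integrally closed subring of `F`, e.g.
`{x ∈ K'·F_N | x integral over W'[j]}`), contained in both component valuation rings `O₁`, `O₂`;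
`Q₁`, `Q₂` the two branches of a crossing point, `T` its tube.  The point is the prime
`n = {x ∈ C | res₁ x vanishes at Q₁} = {x ∈ C | res₂ x vanishes at Q₂}` of `C`, and the level is
the localisation `locSub C n ⊆ F` (`BR/Inst/LocSub`).

* `CrossingModel A π O₁ O₂ res₁ res₂ Q₁ Q₂ T C ϖ` : the hypotheses on the global model, in element
  form: the reductions of `C` are regular at the branches; `same_point`; `vertical` (the vertical
  height-one primes of `C` through the point are the traces of `𝔪_{O₁}`, `𝔪_{O₂}`; from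
  `SpecialFibre.TwoComponents.vertical`, see `vertical_of_twoComponents`); `fullRes`; the tube
  consists of the places integral on `C` with centre the point.
* `CrossingModel.point`, `CrossingModel.loc`, `loc_le₁`, `loc_le₂`, `loc_branch₁`, `loc_branch₂`,
  `loc_residue`, `loc_centred`, `mem_tube_of_centredAt`, `loc_primes`.
* `NodeLevels.ofModels` : a directed family of models exhausting `F` and `A`, with the places over
  the horizontal height-one primes of the local rings (shape (L5), as in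
  `SmoothFamily.ofModels`), gives `NodeLevels … (fun i => (M i).loc)`.
* `nodeChartOfModels : NodeChart A O₁ O₂ res₁ res₂ Q₁ Q₂ T`.
-/
import Mathlib
import Fermat.Agent.BR.Inst.LocSub
import Fermat.Agent.BR.SpecialFibre
import Fermat.Agent.BR.S0.NodeDescent

set_option autoImplicit false
set_option linter.style.haveILetI false
set_option linter.unusedSectionVars false

namespace Fermat.Agent.BR.S0

open AlgebraicCurve IsLocalRing Fermat.Agent.Red Fermat.Agent.X0 Fermat.Agent.BR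
  Fermat.Agent.BR.Centre Fermat.Agent.BR.Inst.LocSub

variable {K F k : Type*} [Field K] [Field F] [Algebra K F] [Field k]
  {Ft₁ Ft₂ : Type*} [Field Ft₁] [Algebra k Ft₁] [Field Ft₂] [Algebra k Ft₂]

/-- The global normal model at a level, at a crossing point with branches `Q₁`, `Q₂`. -/
structure CrossingModel (A : ValuationSubring K) (π : A →+* k) (O₁ O₂ : ValuationSubring F)
    (res₁ : O₁ →+* Ft₁) (res₂ : O₂ →+* Ft₂) (Q₁ : Place k Ft₁) (Q₂ : Place k Ft₂)
    (T : Set (Place K F)) (C : Subring F) (ϖ : K) : Prop where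
  noeth : IsNoetherianRing C
  intClosed : IsIntegrallyClosed C
  le₁ : ∀ x ∈ C, x ∈ O₁
  le₂ : ∀ x ∈ C, x ∈ O₂
  /-- the reductions of the functions of the model are regular at the first branch -/
  regular₁ : ∀ x : C, Q₁.adicValuation (res₁ ⟨x, le₁ x x.2⟩) ≤ 1
  /-- the reductions of the functions of the model are regular at the second branch -/
  regular₂ : ∀ x : C, Q₂.adicValuation (res₂ ⟨x, le₂ x x.2⟩) ≤ 1
  /-- the two branches lie over the same point of the model -/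
  same_point : ∀ x : C, Q₁.adicValuation (res₁ ⟨x, le₁ x x.2⟩) < 1 ↔
    Q₂.adicValuation (res₂ ⟨x, le₂ x x.2⟩) < 1
  unif_ne : ϖ ≠ 0
  unif_lt : A.valuation ϖ < 1
  unif_mem : algebraMap K F ϖ ∈ C
  /-- the vertical height-one primes of the model through the point are the traces of the
  maximal ideals of the two components -/
  vertical : ∀ p : Ideal C, p.IsPrime → p.height = 1 →
    (∀ x ∈ p, Q₁.adicValuation (res₁ ⟨x, le₁ x x.2⟩) < 1) →
    (⟨algebraMap K F ϖ, unif_mem⟩ : C) ∈ p →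
    (∀ x : C, x ∈ p ↔ (x : F) ∈ O₁.nonunits) ∨ (∀ x : C, x ∈ p ↔ (x : F) ∈ O₂.nonunits)
  /-- the values at the point are residues of constants of the model -/
  fullRes : ∀ x : C, ∃ (a : A) (_ : algebraMap K F a ∈ C),
    Q₁.adicValuation (res₁ ⟨x, le₁ x x.2⟩ - algebraMap k Ft₁ (π a)) < 1
  /-- the places of the tube are integral on the model with centre the point -/
  tube_centred : ∀ P ∈ T, ∃ h : IntegralAt A C P,
    ∀ x : C, x ∈ centre h ↔ Q₁.adicValuation (res₁ ⟨x, le₁ x x.2⟩) < 1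
  /-- a place integral on the model with centre the point lies in the tube -/
  tube_of_centred : ∀ P : Place K F, (∃ h : IntegralAt A C P,
    ∀ x : C, x ∈ centre h ↔ Q₁.adicValuation (res₁ ⟨x, le₁ x x.2⟩) < 1) → P ∈ T

namespace CrossingModel

variable {A : ValuationSubring K} {π : A →+* k} {O₁ O₂ : ValuationSubring F}
  {res₁ : O₁ →+* Ft₁} {res₂ : O₂ →+* Ft₂} {Q₁ : Place k Ft₁} {Q₂ : Place k Ft₂}
  {T : Set (Place K F)} {C C' : Subring F} {ϖ ϖ' : K}

/-- The field `vertical` from the two-component structure of the special fibre of the model. -/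
theorem vertical_of_twoComponents {le₁ : ∀ x ∈ C, x ∈ O₁} {unif_mem : algebraMap K F ϖ ∈ C}
    {P1 P2 : Ideal C}
    (hP1 : ∀ x : C, x ∈ P1 ↔ (x : F) ∈ O₁.nonunits) (hP2 : ∀ x : C, x ∈ P2 ↔ (x : F) ∈ O₂.nonunits)
    (h2 : SpecialFibre.TwoComponents (⟨algebraMap K F ϖ, unif_mem⟩ : C) P1 P2)
    (p : Ideal C) (hp : p.IsPrime) (hht : p.height = 1)
    (_ : ∀ x ∈ p, Q₁.adicValuation (res₁ ⟨x, le₁ x x.2⟩) < 1)
    (hϖ : (⟨algebraMap K F ϖ, unif_mem⟩ : C) ∈ p) :
    (∀ x : C, x ∈ p ↔ (x : F) ∈ O₁.nonunits) ∨ (∀ x : C, x ∈ p ↔ (x : F) ∈ O₂.nonunits) := by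
  rcases h2.vertical p hp hht hϖ with rfl | rfl
  · exact Or.inl hP1
  · exact Or.inr hP2

/-- The first reduction map on the model. -/
def red₁ (M : CrossingModel A π O₁ O₂ res₁ res₂ Q₁ Q₂ T C ϖ) : C →+* Ft₁ :=
  res₁.comp (Subring.inclusion M.le₁)

/-- The second reduction map on the model. -/
def red₂ (M : CrossingModel A π O₁ O₂ res₁ res₂ Q₁ Q₂ T C ϖ) : C →+* Ft₂ :=
  res₂.comp (Subring.inclusion M.le₂)

theorem red₁_apply (M : CrossingModel A π O₁ O₂ res₁ res₂ Q₁ Q₂ T C ϖ) (x : C) :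
    M.red₁ x = res₁ ⟨x, M.le₁ x x.2⟩ := rfl

theorem red₂_apply (M : CrossingModel A π O₁ O₂ res₁ res₂ Q₁ Q₂ T C ϖ) (x : C) :
    M.red₂ x = res₂ ⟨x, M.le₂ x x.2⟩ := rfl

/-- The point: the functions of the model whose first reduction vanishes at `Q₁`. -/
def point (M : CrossingModel A π O₁ O₂ res₁ res₂ Q₁ Q₂ T C ϖ) : Ideal C where
  carrier := {x | Q₁.adicValuation (M.red₁ x) < 1}
  add_mem' := by
    intro a b ha hb
    show Q₁.adicValuation (M.red₁ (a + b)) < 1
    rw [map_add]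
    exact lt_of_le_of_lt (Q₁.adicValuation.map_add _ _) (max_lt ha hb)
  zero_mem' := by
    show Q₁.adicValuation (M.red₁ 0) < 1
    rw [map_zero, map_zero]
    exact zero_lt_one
  smul_mem' := by
    intro c x hx
    show Q₁.adicValuation (M.red₁ (c * x)) < 1
    rw [map_mul, map_mul]
    exact mul_lt_one_of_nonneg_of_lt_one_right (M.regular₁ c) zero_le hx

theorem mem_point_iff (M : CrossingModel A π O₁ O₂ res₁ res₂ Q₁ Q₂ T C ϖ) (x : C) :
    x ∈ M.point ↔ Q₁.adicValuation (res₁ ⟨x, M.le₁ x x.2⟩) < 1 := Iff.rfl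

theorem mem_point_iff₂ (M : CrossingModel A π O₁ O₂ res₁ res₂ Q₁ Q₂ T C ϖ) (x : C) :
    x ∈ M.point ↔ Q₂.adicValuation (res₂ ⟨x, M.le₂ x x.2⟩) < 1 :=
  (M.mem_point_iff x).trans (M.same_point x)

theorem adicValuation₁_eq_one_of_notMem (M : CrossingModel A π O₁ O₂ res₁ res₂ Q₁ Q₂ T C ϖ) {x : C}
    (hx : x ∉ M.point) : Q₁.adicValuation (M.red₁ x) = 1 :=
  le_antisymm (M.regular₁ x) (not_lt.mp hx)

theorem adicValuation₂_eq_one_of_notMem (M : CrossingModel A π O₁ O₂ res₁ res₂ Q₁ Q₂ T C ϖ) {x : C}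
    (hx : x ∉ M.point) : Q₂.adicValuation (M.red₂ x) = 1 :=
  le_antisymm (M.regular₂ x) (not_lt.mp fun h => hx ((M.mem_point_iff₂ x).mpr h))

instance point_isPrime (M : CrossingModel A π O₁ O₂ res₁ res₂ Q₁ Q₂ T C ϖ) : M.point.IsPrime := by
  constructor
  · intro h
    have h1 : (1 : C) ∈ M.point := by rw [h]; trivial
    have h2 : Q₁.adicValuation (M.red₁ 1) < 1 := h1
    rw [map_one, map_one] at h2
    exact lt_irrefl _ h2
  · intro x y hxy
    by_contra hcon
    rw [not_or] at hcon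
    have h1 := M.adicValuation₁_eq_one_of_notMem hcon.1
    have h2 := M.adicValuation₁_eq_one_of_notMem hcon.2
    have h3 : Q₁.adicValuation (M.red₁ (x * y)) < 1 := hxy
    rw [map_mul, map_mul, h1, h2, one_mul] at h3
    exact lt_irrefl _ h3

/-- The local ring of the model at the point, as a subring of `F`. -/
abbrev loc (M : CrossingModel A π O₁ O₂ res₁ res₂ Q₁ Q₂ T C ϖ) : Subring F := locSub C M.point

theorem le_loc (M : CrossingModel A π O₁ O₂ res₁ res₂ Q₁ Q₂ T C ϖ) : C ≤ M.loc :=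
  le_locSub C M.point

theorem mem_loc_iff (M : CrossingModel A π O₁ O₂ res₁ res₂ Q₁ Q₂ T C ϖ) {x : F} :
    x ∈ M.loc ↔ ∃ a b : C, b ∉ M.point ∧ x * (b : F) = (a : F) := Iff.rfl

theorem isLocalRing_loc (M : CrossingModel A π O₁ O₂ res₁ res₂ Q₁ Q₂ T C ϖ) : IsLocalRing M.loc :=
  isLocalRing_locSub C M.point

theorem isNoetherianRing_loc (M : CrossingModel A π O₁ O₂ res₁ res₂ Q₁ Q₂ T C ϖ) :
    IsNoetherianRing M.loc :=
  have := M.noeth
  isNoetherianRing_locSub C M.point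

theorem isIntegrallyClosed_loc (M : CrossingModel A π O₁ O₂ res₁ res₂ Q₁ Q₂ T C ϖ) :
    IsIntegrallyClosed M.loc :=
  have := M.intClosed
  isIntegrallyClosed_locSub C M.point

/-- The local ring is monotone in the model. -/
theorem loc_mono (M : CrossingModel A π O₁ O₂ res₁ res₂ Q₁ Q₂ T C ϖ)
    (M' : CrossingModel A π O₁ O₂ res₁ res₂ Q₁ Q₂ T C' ϖ') (h : C ≤ C') : M.loc ≤ M'.loc :=
  locSub_mono h fun _ hx => hx

/-- A non-unit of the local ring has its numerator in the point. -/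
theorem num_mem_point (M : CrossingModel A π O₁ O₂ res₁ res₂ Q₁ Q₂ T C ϖ) {z : M.loc}
    (hz : ¬ IsUnit z) {a b : C} (hb : b ∉ M.point) (hab : (z : F) * (b : F) = (a : F)) :
    a ∈ M.point :=
  num_mem_of_not_isUnit z.2 hz hb hab

theorem coe_ne_zero_of_notMem (M : CrossingModel A π O₁ O₂ res₁ res₂ Q₁ Q₂ T C ϖ) {b : C}
    (hb : b ∉ M.point) : (b : F) ≠ 0 :=
  Inst.LocSub.coe_ne_zero_of_notMem hb

/-- The trace of `𝔪_{O₁}` on the model lies in the point. -/
theorem mem_point_of_nonunits₁ (M : CrossingModel A π O₁ O₂ res₁ res₂ Q₁ Q₂ T C ϖ)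
    (hres0₁ : ∀ x : O₁, (x : F) ∈ O₁.nonunits → res₁ x = 0) (x : C)
    (hx : (x : F) ∈ O₁.nonunits) : x ∈ M.point := by
  rw [M.mem_point_iff, hres0₁ _ hx, map_zero]
  exact zero_lt_one

/-- The trace of `𝔪_{O₂}` on the model lies in the point. -/
theorem mem_point_of_nonunits₂ (M : CrossingModel A π O₁ O₂ res₁ res₂ Q₁ Q₂ T C ϖ)
    (hres0₂ : ∀ x : O₂, (x : F) ∈ O₂.nonunits → res₂ x = 0) (x : C)
    (hx : (x : F) ∈ O₂.nonunits) : x ∈ M.point := by
  rw [M.mem_point_iff₂, hres0₂ _ hx, map_zero]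
  exact zero_lt_one

/-- The local ring lies in the first component valuation ring. -/
theorem loc_le₁ (M : CrossingModel A π O₁ O₂ res₁ res₂ Q₁ Q₂ T C ϖ)
    (hres0₁ : ∀ x : O₁, (x : F) ∈ O₁.nonunits → res₁ x = 0) : ∀ z ∈ M.loc, z ∈ O₁ :=
  fun _ hz => locSub_le_valuationSubring O₁ (fun x => M.le₁ x x.2)
    (M.mem_point_of_nonunits₁ hres0₁) hz

/-- The local ring lies in the second component valuation ring. -/
theorem loc_le₂ (M : CrossingModel A π O₁ O₂ res₁ res₂ Q₁ Q₂ T C ϖ)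
    (hres0₂ : ∀ x : O₂, (x : F) ∈ O₂.nonunits → res₂ x = 0) : ∀ z ∈ M.loc, z ∈ O₂ :=
  fun _ hz => locSub_le_valuationSubring O₂ (fun x => M.le₂ x x.2)
    (M.mem_point_of_nonunits₂ hres0₂) hz

/-- The first reduction of a quotient. -/
theorem res₁_mul_red₁ (M : CrossingModel A π O₁ O₂ res₁ res₂ Q₁ Q₂ T C ϖ) {z : F} (hz : z ∈ O₁)
    {a b : C} (hab : z * (b : F) = (a : F)) : res₁ ⟨z, hz⟩ * M.red₁ b = M.red₁ a := by
  rw [red₁_apply, red₁_apply, ← map_mul]
  congr 1
  exact Subtype.ext hab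

/-- The second reduction of a quotient. -/
theorem res₂_mul_red₂ (M : CrossingModel A π O₁ O₂ res₁ res₂ Q₁ Q₂ T C ϖ) {z : F} (hz : z ∈ O₂)
    {a b : C} (hab : z * (b : F) = (a : F)) : res₂ ⟨z, hz⟩ * M.red₂ b = M.red₂ a := by
  rw [red₂_apply, red₂_apply, ← map_mul]
  congr 1
  exact Subtype.ext hab

/-- **`branch₁`**: the non-units of the local ring vanish at the first branch. -/
theorem loc_branch₁ (M : CrossingModel A π O₁ O₂ res₁ res₂ Q₁ Q₂ T C ϖ) (z : M.loc) (hz : ¬ IsUnit z)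
    (h : (z : F) ∈ O₁) : Q₁.adicValuation (res₁ ⟨z, h⟩) < 1 := by
  obtain ⟨a, b, hb, hab⟩ := M.mem_loc_iff.mp z.2
  have ha : a ∈ M.point := M.num_mem_point hz hb hab
  have h1 := M.res₁_mul_red₁ h hab
  have h2 := congrArg Q₁.adicValuation h1
  rw [map_mul, M.adicValuation₁_eq_one_of_notMem hb, mul_one] at h2
  rw [h2]
  exact ha

/-- **`branch₂`**: the non-units of the local ring vanish at the second branch. -/
theorem loc_branch₂ (M : CrossingModel A π O₁ O₂ res₁ res₂ Q₁ Q₂ T C ϖ) (z : M.loc) (hz : ¬ IsUnit z)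
    (h : (z : F) ∈ O₂) : Q₂.adicValuation (res₂ ⟨z, h⟩) < 1 := by
  obtain ⟨a, b, hb, hab⟩ := M.mem_loc_iff.mp z.2
  have ha : a ∈ M.point := M.num_mem_point hz hb hab
  have h1 := M.res₂_mul_red₂ h hab
  have h2 := congrArg Q₂.adicValuation h1
  rw [map_mul, M.adicValuation₂_eq_one_of_notMem hb, mul_one] at h2
  rw [h2]
  exact (M.mem_point_iff₂ a).mp ha

/-- A quotient `a / b`, `b` outside the point, is a unit of the local ring iff `a` lies outside
the point. -/
theorem isUnit_iff (M : CrossingModel A π O₁ O₂ res₁ res₂ Q₁ Q₂ T C ϖ) {z : M.loc} {a b : C}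
    (hb : b ∉ M.point) (hab : (z : F) * (b : F) = (a : F)) : IsUnit z ↔ a ∉ M.point := by
  constructor
  · intro hu ha
    obtain ⟨a', b', ha', hb', hab'⟩ := (isUnit_locSub_iff z.2).mp hu
    -- `a b' = a' b`
    have hb0 := M.coe_ne_zero_of_notMem hb
    have hb'0 := M.coe_ne_zero_of_notMem hb'
    have e : a * b' = a' * b := by
      apply Subtype.ext
      show (a : F) * (b' : F) = (a' : F) * (b : F)
      rw [← hab, ← hab']
      ring
    have h1 : a' * b ∈ M.point := e ▸ M.point.mul_mem_right _ ha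
    rcases M.point_isPrime.mem_or_mem h1 with h | h
    · exact ha' h
    · exact hb h
  · intro ha
    exact (isUnit_locSub_iff z.2).mpr ⟨a, b, ha, hb, hab⟩

/-- **`residue`**: the residue field of the local ring is the residue field of `A`. -/
theorem loc_residue (M : CrossingModel A π O₁ O₂ res₁ res₂ Q₁ Q₂ T C ϖ)
    (hres₁ : ∀ (a : K) (ha : a ∈ A) (h : algebraMap K F a ∈ O₁),
      res₁ ⟨algebraMap K F a, h⟩ = algebraMap k Ft₁ (π ⟨a, ha⟩))
    (hπ : ∀ a : A, π a ≠ 0 → (a : K)⁻¹ ∈ A) (z : M.loc) :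
    ∃ (c : A) (h : algebraMap K F c ∈ M.loc), ¬ IsUnit (z - ⟨algebraMap K F c, h⟩) := by
  obtain ⟨a, b, hb, hab⟩ := M.mem_loc_iff.mp z.2
  obtain ⟨α, hαC, hα⟩ := M.fullRes a
  obtain ⟨β, hβC, hβ⟩ := M.fullRes b
  have hredα : M.red₁ ⟨algebraMap K F α, hαC⟩ = algebraMap k Ft₁ (π α) := hres₁ α α.2 _
  have hredβ : M.red₁ ⟨algebraMap K F β, hβC⟩ = algebraMap k Ft₁ (π β) := hres₁ β β.2 _
  have hβ0 : π β ≠ 0 := by
    intro h0
    rw [h0, map_zero, sub_zero] at hβ
    exact hb hβ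
  have hβinv : (β : K)⁻¹ ∈ A := hπ β hβ0
  have hβK : (β : K) ≠ 0 := by
    intro h0
    apply hβ0
    have : β = 0 := Subtype.ext h0
    rw [this, map_zero]
  have hβp : (⟨algebraMap K F β, hβC⟩ : C) ∉ M.point := by
    intro h
    have h1 : Q₁.adicValuation (M.red₁ ⟨algebraMap K F β, hβC⟩) < 1 := h
    rw [hredβ, adicValuation_algebraMap_of_ne_zero Q₁ hβ0] at h1
    exact lt_irrefl _ h1
  have hbβ : b * ⟨algebraMap K F β, hβC⟩ ∉ M.point := fun h =>
    (M.point_isPrime.mem_or_mem h).elim hb hβp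
  set γ : A := ⟨(α : K) * (β : K)⁻¹, A.mul_mem _ _ α.2 hβinv⟩ with hγ
  have hβF : algebraMap K F (β : K) ≠ 0 := (map_ne_zero _).mpr hβK
  have hγF : algebraMap K F γ = algebraMap K F α / algebraMap K F β := by
    rw [hγ, map_mul, map_inv₀, div_eq_mul_inv]
  have hγmem : algebraMap K F γ ∈ M.loc := by
    rw [hγF]
    exact div_mem_locSub (⟨algebraMap K F α, hαC⟩ : C) hβp
  refine ⟨γ, hγmem, ?_⟩
  set num : C := a * ⟨algebraMap K F β, hβC⟩ - ⟨algebraMap K F α, hαC⟩ * b with hnum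
  have hb0 := M.coe_ne_zero_of_notMem hb
  have hq : (((z - ⟨algebraMap K F γ, hγmem⟩ : M.loc)) : F) *
      ((b * ⟨algebraMap K F β, hβC⟩ : C) : F) = (num : F) := by
    show ((z : F) - algebraMap K F γ) * ((b : F) * algebraMap K F β) =
      (a : F) * algebraMap K F β - algebraMap K F α * (b : F)
    rw [hγF, ← hab]
    field_simp
  rw [M.isUnit_iff hbβ hq, not_not]
  show Q₁.adicValuation (M.red₁ num) < 1
  have e : M.red₁ num = (M.red₁ a - algebraMap k Ft₁ (π α)) * algebraMap k Ft₁ (π β) -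
      algebraMap k Ft₁ (π α) * (M.red₁ b - algebraMap k Ft₁ (π β)) := by
    rw [hnum, map_sub, map_mul, map_mul, hredα, hredβ]
    ring
  rw [e]
  refine lt_of_le_of_lt (Valuation.map_sub _ _ _) (max_lt ?_ ?_)
  · rw [map_mul]
    exact mul_lt_one_of_nonneg_of_lt_one_left zero_le hα (Q₁.adicValuation_algebraMap_le_one _)
  · rw [map_mul]
    exact mul_lt_one_of_nonneg_of_lt_one_right (Q₁.adicValuation_algebraMap_le_one _) zero_le hβ

/-- **`centred`**: the places of the tube are centred at the local ring. -/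
theorem loc_centred (M : CrossingModel A π O₁ O₂ res₁ res₂ Q₁ Q₂ T C ϖ) {P : Place K F}
    (hP : P ∈ T) : CentredAt A M.loc P := by
  obtain ⟨h, hcen⟩ := M.tube_centred P hP
  have key : ∀ (a : C) {b : C}, b ∉ M.point → ∃ c : K, c ∈ A ∧
      IsValueAt P ((a : F) * ((b : F))⁻¹) c ∧ (a ∈ M.point → A.valuation c < 1) := by
    intro a b hb
    have hb' : (⟨(b : F), b.2⟩ : C) ∉ centre h := fun hbc => hb ((hcen b).mp hbc)
    obtain ⟨cb, hcbA, hcb⟩ := h.inv_mem b.2 hb'
    have hca := h.isValueAt_evalAt a.2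
    refine ⟨evalAt P (a : F) * cb, A.mul_mem _ _ (h.evalAt_mem a.2) hcbA, hca.mul hcb, ?_⟩
    intro ha
    have h1 : A.valuation (evalAt P (a : F)) < 1 :=
      (Centre.mem_centre_iff h a).mp ((hcen a).mpr ha)
    rw [map_mul]
    exact mul_lt_one_of_nonneg_of_lt_one_left zero_le h1 ((A.valuation_le_one_iff _).mpr hcbA)
  have hint : IntegralAt A M.loc P := by
    intro z hz
    obtain ⟨a, b, hb, hab⟩ := M.mem_loc_iff.mp hz
    obtain ⟨c, hcA, hc, -⟩ := key a hb
    have hz' : z = (a : F) * ((b : F))⁻¹ := by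
      rw [← hab, mul_assoc, mul_inv_cancel₀ (M.coe_ne_zero_of_notMem hb), mul_one]
    exact ⟨c, hcA, hz' ▸ hc⟩
  refine ⟨hint, fun z hz => ?_⟩
  obtain ⟨a, b, hb, hab⟩ := M.mem_loc_iff.mp z.2
  have ha : a ∈ M.point := M.num_mem_point hz hb hab
  obtain ⟨c, -, hc, hclt⟩ := key a hb
  have hz' : (z : F) = (a : F) * ((b : F))⁻¹ := by
    rw [← hab, mul_assoc, mul_inv_cancel₀ (M.coe_ne_zero_of_notMem hb), mul_one]
  rw [Centre.mem_centre_iff, hz', evalAt_eq_of_isValueAt hc]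
  exact hclt ha

/-- A place centred at the local ring lies in the tube. -/
theorem mem_tube_of_centredAt (M : CrossingModel A π O₁ O₂ res₁ res₂ Q₁ Q₂ T C ϖ) {P : Place K F}
    (hP : CentredAt A M.loc P) : P ∈ T := by
  apply M.tube_of_centred
  have hI : IntegralAt A C P := hP.choose.mono M.le_loc
  refine ⟨hI, fun x => ?_⟩
  rw [Centre.mem_centre_iff hI x, ← M.mem_point_iff x]
  have h1 := hP.mem_centre_iff_not_isUnit (⟨(x : F), M.le_loc x.2⟩ : M.loc)
  rw [Centre.mem_centre_iff hP.choose] at h1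
  rw [h1, Inst.LocSub.isUnit_coe_iff (n := M.point) x, not_not]

/-- **`primes`**: every height-one prime of the local ring is the centre of `O₁`, of `O₂` or of a
place of the tube — given the places over the horizontal height-one primes (shape (L5)). -/
theorem loc_primes (M : CrossingModel A π O₁ O₂ res₁ res₂ Q₁ Q₂ T C ϖ)
    (hres0₁ : ∀ x : O₁, (x : F) ∈ O₁.nonunits → res₁ x = 0)
    (hres0₂ : ∀ x : O₂, (x : F) ∈ O₂.nonunits → res₂ x = 0)
    (horiz : ∀ p : Ideal M.loc, p.IsPrime → p.height = 1 →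
      (⟨algebraMap K F ϖ, M.le_loc M.unif_mem⟩ : M.loc) ∉ p →
      ∃ P : Place K F, CentredAt A M.loc P ∧ ∀ y : M.loc, evalAt P (y : F) = 0 ↔ y ∈ p)
    (p : Ideal M.loc) (hp : p.IsPrime) (hht : p.height = 1) :
    (∀ x : M.loc, x ∈ p ↔ (x : F) ∈ O₁.nonunits) ∨ (∀ x : M.loc, x ∈ p ↔ (x : F) ∈ O₂.nonunits) ∨
      ∃ P ∈ T, ∀ x : M.loc, x ∈ p ↔ (x : F) ∈ P.toValuationSubring.nonunits := by
  haveI := hp
  by_cases hϖ : (⟨algebraMap K F ϖ, M.le_loc M.unif_mem⟩ : M.loc) ∈ p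
  · -- vertical
    have hpu : (p.under C).IsPrime := Ideal.IsPrime.under C p
    have hhtu : (p.under C).height = 1 := by
      rw [show p.under C = Ideal.under C (p : Ideal (locSub C M.point)) from rfl,
        Inst.LocSub.height_under]
      exact hht
    have hle : ∀ x ∈ p.under C, Q₁.adicValuation (res₁ ⟨x, M.le₁ x x.2⟩) < 1 := fun x hx =>
      (M.mem_point_iff x).mp (Inst.LocSub.under_le (p : Ideal (locSub C M.point)) hx)
    have hϖu : (⟨algebraMap K F ϖ, M.unif_mem⟩ : C) ∈ p.under C := hϖ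
    rcases M.vertical (p.under C) hpu hhtu hle hϖu with h | h
    · left
      exact forall_mem_iff_nonunits (p : Ideal (locSub C M.point)) O₁ (fun x => M.le₁ x x.2)
        (M.mem_point_of_nonunits₁ hres0₁) h
    · right; left
      exact forall_mem_iff_nonunits (p : Ideal (locSub C M.point)) O₂ (fun x => M.le₂ x x.2)
        (M.mem_point_of_nonunits₂ hres0₂) h
  · -- horizontal
    right; right
    obtain ⟨P, hcen, hev⟩ := horiz p hp hht hϖ
    refine ⟨P, M.mem_tube_of_centredAt hcen, fun x => ?_⟩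
    rw [← hev x, mem_nonunits_place_iff, ← Centre.mem_horizPrime_iff hcen.choose x,
      Centre.mem_horizPrime_iff_ord]

end CrossingModel

variable {A : ValuationSubring K} {π : A →+* k} {O₁ O₂ : ValuationSubring F}
  {res₁ : O₁ →+* Ft₁} {res₂ : O₂ →+* Ft₂} {Q₁ : Place k Ft₁} {Q₂ : Place k Ft₂}
  {T : Set (Place K F)}

/-- **The finite levels of a directed family of global models at a crossing point.** -/
theorem NodeLevels.ofModels {ι : Type*} {C : ι → Subring F} {ϖ : ι → K}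
    (M : ∀ i, CrossingModel A π O₁ O₂ res₁ res₂ Q₁ Q₂ T (C i) (ϖ i))
    (hdir : ∀ i j, ∃ l, C i ≤ C l ∧ C j ≤ C l)
    (hfrac : ∀ y : F, ∃ i, ∃ a b : C i, b ≠ 0 ∧ y * (b : F) = (a : F))
    (hconst : ∀ a ∈ A, ∃ i, algebraMap K F a ∈ C i)
    (hres₁ : ∀ (a : K) (ha : a ∈ A) (h : algebraMap K F a ∈ O₁),
      res₁ ⟨algebraMap K F a, h⟩ = algebraMap k Ft₁ (π ⟨a, ha⟩))
    (hres0₁ : ∀ x : O₁, (x : F) ∈ O₁.nonunits → res₁ x = 0)
    (hres0₂ : ∀ x : O₂, (x : F) ∈ O₂.nonunits → res₂ x = 0)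
    (hπ : ∀ a : A, π a ≠ 0 → (a : K)⁻¹ ∈ A)
    (horiz : ∀ i, ∀ p : Ideal (M i).loc, p.IsPrime → p.height = 1 →
      (⟨algebraMap K F (ϖ i), (M i).le_loc (M i).unif_mem⟩ : (M i).loc) ∉ p →
      ∃ P : Place K F, CentredAt A (M i).loc P ∧ ∀ y : (M i).loc, evalAt P (y : F) = 0 ↔ y ∈ p) :
    NodeLevels A O₁ O₂ res₁ res₂ Q₁ Q₂ T (fun i => (M i).loc) where
  directed i j := by
    obtain ⟨l, hil, hjl⟩ := hdir i j
    exact ⟨l, (M i).loc_mono (M l) hil, (M j).loc_mono (M l) hjl⟩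
  cover y := by
    obtain ⟨i, a, b, hb, hab⟩ := hfrac y
    refine ⟨i, ⟨a, (M i).le_loc a.2⟩, ⟨b, (M i).le_loc b.2⟩, ?_, hab⟩
    intro h0
    apply hb
    apply Subtype.ext
    exact congrArg (fun x : (M i).loc => (x : F)) h0
  const a ha := by
    obtain ⟨i, hi⟩ := hconst a ha
    exact ⟨i, (M i).le_loc hi⟩
  noeth i := (M i).isNoetherianRing_loc
  intClosed i := (M i).isIntegrallyClosed_loc
  isLocal i := (M i).isLocalRing_loc
  le₁ i := (M i).loc_le₁ hres0₁
  le₂ i := (M i).loc_le₂ hres0₂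
  residue i := (M i).loc_residue hres₁ hπ
  branch₁ i y hy := (M i).loc_branch₁ y hy _
  branch₂ i y hy := (M i).loc_branch₂ y hy _
  const₁ := const_le_one_of_res Q₁ hres₁
  regular i P hP y hy := ((M i).loc_centred hP).choose.mem_toValuationSubring hy
  primes i p hp hht := (M i).loc_primes hres0₁ hres0₂ (horiz i) p hp hht

/-- **The node chart of a directed family of global models.** -/
noncomputable def nodeChartOfModels {ι : Type*} {C : ι → Subring F} {ϖ : ι → K}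
    (M : ∀ i, CrossingModel A π O₁ O₂ res₁ res₂ Q₁ Q₂ T (C i) (ϖ i))
    (hdir : ∀ i j, ∃ l, C i ≤ C l ∧ C j ≤ C l)
    (hfrac : ∀ y : F, ∃ i, ∃ a b : C i, b ≠ 0 ∧ y * (b : F) = (a : F))
    (hconst : ∀ a ∈ A, ∃ i, algebraMap K F a ∈ C i)
    (hres₁ : ∀ (a : K) (ha : a ∈ A) (h : algebraMap K F a ∈ O₁),
      res₁ ⟨algebraMap K F a, h⟩ = algebraMap k Ft₁ (π ⟨a, ha⟩))
    (hres0₁ : ∀ x : O₁, (x : F) ∈ O₁.nonunits → res₁ x = 0)
    (hres0₂ : ∀ x : O₂, (x : F) ∈ O₂.nonunits → res₂ x = 0)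
    (hπ : ∀ a : A, π a ≠ 0 → (a : K)⁻¹ ∈ A)
    (horiz : ∀ i, ∀ p : Ideal (M i).loc, p.IsPrime → p.height = 1 →
      (⟨algebraMap K F (ϖ i), (M i).le_loc (M i).unif_mem⟩ : (M i).loc) ∉ p →
      ∃ P : Place K F, CentredAt A (M i).loc P ∧ ∀ y : (M i).loc, evalAt P (y : F) = 0 ↔ y ∈ p) :
    NodeChart A O₁ O₂ res₁ res₂ Q₁ Q₂ T :=
  (NodeLevels.ofModels M hdir hfrac hconst hres₁ hres0₁ hres0₂ hπ horiz).nodeChart

end Fermat.Agent.BR.S0
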