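import Fermat.Agent.BR.PlaceLift
import Fermat.Agent.BR.CentreBridge
import Fermat.Agent.BR.Inst.FKCover
import Fermat.Agent.Good.RamDataDescended

/-!
# Program B, node B6.6-HORIZ: horizontal primes of a level ring are centres of places of the tube

The three descents of B6.6 / B7.5 (smooth chart, node chart, annulus chart) take as a hypothesis, at
every finite level `R = O_{n,W'}` (`W' = A ∩ K'`), the statement `horiz` = (L5):

  every nonzero prime `p` of `R` not containing the uniformizer `ϖ` of `W'` is the kernel of the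
  evaluation at a place `P` of `F / Ω` *centred* at `R`.

This file proves it.

* `exists_place_of_prime_of_loc` : Chevalley for a prime `p` of a subring `R ⊆ F` such that the
  constants of `E` become regular after inverting elements outside `p` (this replaces the
  unsatisfiable hypothesis `hconst` of `PlaceLift.exists_place_of_prime`);
* `exists_centredAt_of_prime_of_loc` : the same with `P` centred at `R` (Galois conjugation,
  `PlaceLift.exists_smul_centredAt`);
* `horiz_annulus`, `horiz_smooth`, `horiz_node` : the three shapes consumed by the descents;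
* `exists_centredAt_of_horizontal` and `horiz_annulus_frame`, `horiz_smooth_frame`,
  `horiz_node_frame` : the concrete frame `Ω = ℚ̄`, `F = F̄_N`, `R ⊆ FK K' N`, constants of `R`
  equal to `A ∩ K'`, `A ∩ K'` discrete with uniformizer `ϖ`.
-/

set_option autoImplicit false
set_option linter.style.haveILetI false

open IsLocalRing AlgebraicCurve ModularCurve

open scoped Pointwise

namespace Fermat.Agent.BR.S0.HorizProvider

open Fermat.Agent.Red Fermat.Agent.BR.Centre Fermat.Agent.BR.PlaceLift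

universe u

section Abstract

variable {Ω : Type u} [Field Ω]

variable (E : Type*) [Field E] [Algebra E Ω]

variable {F : Type*} [Field F] [Algebra Ω F]

/-- The inverse of an element outside the prime `p` lies in the localisation of `R` at `p`. -/
theorem inv_mem_ofPrime (R : Subring F) (p : Ideal R) [p.IsPrime] {s : R} (hs : s ∉ p) :
    (s : F)⁻¹ ∈ (LocalSubring.ofPrime R p).toSubring := by
  have hu : IsUnit (algebraMap R (LocalSubring.ofPrime R p).toSubring s) :=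
    IsLocalization.map_units (M := p.primeCompl) (LocalSubring.ofPrime R p).toSubring ⟨s, hs⟩
  obtain ⟨w, hw⟩ := hu.exists_left_inv
  have hcoe : ((algebraMap R (LocalSubring.ofPrime R p).toSubring s :
      (LocalSubring.ofPrime R p).toSubring) : F) = (s : F) := rfl
  have h1 : (w : F) * (s : F) = 1 := by
    have := congrArg (fun z : (LocalSubring.ofPrime R p).toSubring => (z : F)) hw
    rw [← hcoe]
    exact this
  have hs0 : (s : F) ≠ 0 := by
    intro h0
    rw [h0, mul_zero] at h1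
    exact zero_ne_one h1
  have h2 : (s : F)⁻¹ = (w : F) := (eq_inv_of_mul_eq_one_left h1).symm
  rw [h2]
  exact w.2

/-- **Chevalley for a horizontal prime (repaired form of `PlaceLift.exists_place_of_prime`).**
`p` a nonzero prime of the subring `R` of the function field `F / Ω`; the constants of `E`
(over which `Ω` is integral) become regular after inverting elements of `R` outside `p`; valuation
subrings of `F` over the constants are discrete.  Then `p` is the centre on `R` of a place regular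
on `R`. -/
theorem exists_place_of_prime_of_loc [Algebra.IsIntegral E Ω] (R : Subring F) (p : Ideal R)
    [p.IsPrime] (hp : p ≠ ⊥)
    (hloc : ∀ e : E, ∃ s : R, s ∉ p ∧ (s : F) * algebraMap Ω F (algebraMap E Ω e) ∈ R)
    (hplace : ∀ V : ValuationSubring F, (∀ a : Ω, algebraMap Ω F a ∈ V) → V ≠ ⊤ →
      IsPrincipalIdealRing V) :
    ∃ P₀ : Place Ω F, (∀ y ∈ R, y ∈ P₀.toValuationSubring) ∧
      ∀ y : R, (y : F) ∈ P₀.toValuationSubring.nonunits ↔ y ∈ p := by
  obtain ⟨V, hV⟩ := (LocalSubring.ofPrime R p).exists_le_valuationSubring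
  obtain ⟨hle, hloc'⟩ := hV
  have hRV : ∀ y ∈ R, y ∈ V := fun y hy => hle (LocalSubring.le_ofPrime R p hy)
  -- the centre of `V` on `R` is `p`
  have hcentre : ∀ y : R, (y : F) ∈ V.nonunits ↔ y ∈ p := by
    intro y
    have h1 : (y : F) ∈ V.nonunits ↔
        ¬ IsUnit (⟨(y : F), hRV y y.2⟩ : V) := by
      rw [ValuationSubring.mem_nonunits_iff_exists_mem_maximalIdeal]
      constructor
      · rintro ⟨_, hm⟩
        exact (mem_maximalIdeal _).mp hm
      · intro hu
        exact ⟨hRV y y.2, (mem_maximalIdeal _).mpr hu⟩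
    rw [h1]
    have h2 : IsUnit (⟨(y : F), hRV y y.2⟩ : V) ↔
        IsUnit (algebraMap R (LocalSubring.ofPrime R p).toSubring y) := by
      constructor
      · intro hu
        exact hloc'.map_nonunit (⟨(y : F), LocalSubring.le_ofPrime R p y.2⟩ :
          (LocalSubring.ofPrime R p).toSubring) hu
      · intro hu
        exact hu.map (Subring.inclusion hle)
    rw [h2, IsLocalization.AtPrime.isUnit_to_map_iff (LocalSubring.ofPrime R p).toSubring p y]
    exact not_not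
  -- the constants of `E` lie in `V`
  have hEV : ∀ e : E, algebraMap Ω F (algebraMap E Ω e) ∈ V := by
    intro e
    obtain ⟨s, hs, hse⟩ := hloc e
    have hs0 : (s : F) ≠ 0 := by
      intro h0
      apply hs
      have : s = 0 := Subtype.ext h0
      rw [this]
      exact Ideal.zero_mem _
    have h1 : (s : F)⁻¹ ∈ V := hle (inv_mem_ofPrime R p hs)
    have h2 : (s : F) * algebraMap Ω F (algebraMap E Ω e) ∈ V := hRV _ hse
    have h3 : algebraMap Ω F (algebraMap E Ω e) =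
        (s : F)⁻¹ * ((s : F) * algebraMap Ω F (algebraMap E Ω e)) := by
      rw [← mul_assoc, inv_mul_cancel₀ hs0, one_mul]
    rw [h3]
    exact V.mul_mem _ _ h1 h2
  -- hence all constants, `V` being integrally closed
  have hK : ∀ a : Ω, algebraMap Ω F a ∈ V := by
    intro a
    let φ : E →+* V := ((algebraMap Ω F).comp (algebraMap E Ω)).codRestrict V.toSubring hEV
    have h1 : IsIntegral V (algebraMap Ω F a) :=
      IsIntegral.map_of_comp_eq φ (algebraMap Ω F) (by ext e; rfl) (Algebra.IsIntegral.isIntegral a)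
    obtain ⟨y, hy⟩ := IsIntegrallyClosed.isIntegral_iff.mp h1
    rw [← hy]
    exact y.2
  have hVtop : V ≠ ⊤ := by
    rintro rfl
    obtain ⟨y, hy, hy0⟩ := Submodule.exists_mem_ne_zero_of_ne_bot hp
    have h1 := (hcentre y).mpr hy
    rw [ValuationSubring.mem_nonunits_iff_or] at h1
    rcases h1 with h1 | h1
    · exact hy0 (Subtype.ext h1)
    · exact h1 (ValuationSubring.mem_top _)
  exact ⟨⟨V, hK, hVtop, hplace V hK hVtop⟩, hRV, hcentre⟩

end Abstract

section PlaceForm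

variable {Ω : Type u} [Field Ω] [CharZero Ω] [Algebra ℚ Ω] [IsGalois ℚ Ω]

variable (E : Type*) [Field E] [Algebra ℚ E] [Algebra E Ω] [IsScalarTower ℚ E Ω]

variable {F : Type*} [Field F] [Algebra Ω F]

/-- **Places centred at a point over a given horizontal prime (repaired form of
`PlaceLift.exists_centredAt_of_prime`).**  `R ⊆ F` the local ring of a point of a model over
`A ∩ E`, fixed by the Galois action; `p` a nonzero prime of `R` such that the constants of `E`
become regular after inverting elements outside `p` (`p` is horizontal).  Then some place `P`,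
centred at `R` with respect to `A`, has `𝔪_P ∩ R = p` (equivalently `p = ker (y ↦ y(P))`). -/
theorem exists_centredAt_of_prime_of_loc (A : ValuationSubring Ω)
    (act : (Ω ≃ₐ[E] Ω) → SemilinearAut Ω F)
    (hact : ∀ (g : Ω ≃ₐ[E] Ω) (c : Ω), SemilinearAut.baseAut (act g) c = g c)
    (R : Subring F) [IsLocalRing R]
    (hfix : ∀ (g : Ω ≃ₐ[E] Ω), ∀ y ∈ R, act g • y = y)
    (hE : ∀ e : E, algebraMap E Ω e ∈ A → algebraMap Ω F (algebraMap E Ω e) ∈ R)
    (hEloc : ∀ (e : E) (he : algebraMap E Ω e ∈ A), A.valuation (algebraMap E Ω e) < 1 →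
      ¬ IsUnit (⟨algebraMap Ω F (algebraMap E Ω e), hE e he⟩ : R))
    (hplace : ∀ V : ValuationSubring F, (∀ a : Ω, algebraMap Ω F a ∈ V) → V ≠ ⊤ →
      IsPrincipalIdealRing V)
    (hdeg : ∀ P : Place Ω F, P.deg = 1)
    (p : Ideal R) [p.IsPrime] (hp : p ≠ ⊥)
    (hloc : ∀ e : E, ∃ s : R, s ∉ p ∧ (s : F) * algebraMap Ω F (algebraMap E Ω e) ∈ R) :
    ∃ P : Place Ω F, CentredAt A R P ∧
      (∀ y : R, (y : F) ∈ P.toValuationSubring.nonunits ↔ y ∈ p) ∧
      ∀ y : R, evalAt P (y : F) = 0 ↔ y ∈ p := by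
  haveI : Algebra.IsAlgebraic E Ω := Algebra.IsAlgebraic.tower_top (K := ℚ) E
  haveI : Algebra.IsIntegral E Ω := Algebra.IsAlgebraic.isIntegral
  obtain ⟨P₀, hP₀, hcentre⟩ := exists_place_of_prime_of_loc E R p hp hloc hplace
  obtain ⟨g, hcen, hval⟩ := exists_smul_centredAt E A act hact R hfix hE hEloc P₀ (hdeg P₀) hP₀
  have hev : ∀ y : R, evalAt (act g • P₀) (y : F) = 0 ↔ y ∈ p := by
    intro y
    rw [evalAt_eq_of_isValueAt (hval y y.2), ← hcentre y,
      mem_nonunits_iff_evalAt_eq_zero P₀ (hdeg P₀) (hP₀ y y.2)]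
    constructor
    · intro h0
      have := congrArg g.symm h0
      rwa [g.symm_apply_apply, map_zero] at this
    · intro h0
      rw [h0, map_zero]
  refine ⟨act g • P₀, hcen, fun y => ?_, hev⟩
  have hy : (y : F) ∈ (act g • P₀).toValuationSubring := (hval y y.2).mem
  rw [mem_nonunits_iff_evalAt_eq_zero _ (hdeg _) hy]
  exact hev y

end PlaceForm

/-! ### the three shapes consumed by the descents -/

section Shapes

variable {K F : Type*} [Field K] [Field F] [Algebra K F]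

variable {A : ValuationSubring K} {R : Subring F} {p : Ideal R}

/-- A prime which is the zero set of a place integral on `R` is its horizontal prime. -/
theorem eq_horizPrime_of_forall {P : Place K F} (h : IntegralAt A R P)
    (hev : ∀ y : R, evalAt P (y : F) = 0 ↔ y ∈ p) : p = horizPrime h := by
  ext y
  rw [mem_horizPrime_iff, hev]

variable (A R p)

/-- Shape of `NodeLevel.horiz` (annulus descent). -/
theorem horiz_annulus (T : Set (Place K F)) (hT : ∀ P : Place K F, CentredAt A R P → P ∈ T)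
    (hex : ∃ P : Place K F, CentredAt A R P ∧
      (∀ y : R, (y : F) ∈ P.toValuationSubring.nonunits ↔ y ∈ p) ∧
      ∀ y : R, evalAt P (y : F) = 0 ↔ y ∈ p) :
    ∃ P ∈ T, ∃ h : IntegralAt A R P, p = horizPrime h := by
  obtain ⟨P, hcen, -, hev⟩ := hex
  exact ⟨P, hT P hcen, hcen.choose, eq_horizPrime_of_forall hcen.choose hev⟩

/-- Shape of `SmoothLevel.horiz` (smooth descent). -/
theorem horiz_smooth (T : Set (Place K F)) (hT : ∀ P : Place K F, CentredAt A R P → P ∈ T)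
    (hex : ∃ P : Place K F, CentredAt A R P ∧
      (∀ y : R, (y : F) ∈ P.toValuationSubring.nonunits ↔ y ∈ p) ∧
      ∀ y : R, evalAt P (y : F) = 0 ↔ y ∈ p) :
    ∃ P ∈ T, ∀ x : R, x ∈ p ↔ evalAt P (x : F) = 0 := by
  obtain ⟨P, hcen, -, hev⟩ := hex
  exact ⟨P, hT P hcen, fun x => (hev x).symm⟩

/-- Shape of the third disjunct of `NodeLevels.primes` (node descent). -/
theorem horiz_node (T : Set (Place K F)) (hT : ∀ P : Place K F, CentredAt A R P → P ∈ T)
    (hex : ∃ P : Place K F, CentredAt A R P ∧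
      (∀ y : R, (y : F) ∈ P.toValuationSubring.nonunits ↔ y ∈ p) ∧
      ∀ y : R, evalAt P (y : F) = 0 ↔ y ∈ p) :
    ∃ P ∈ T, ∀ x : R, x ∈ p ↔ (x : F) ∈ P.toValuationSubring.nonunits := by
  obtain ⟨P, hcen, hnu, -⟩ := hex
  exact ⟨P, hT P hcen, fun x => (hnu x).symm⟩

end Shapes

/-! ### the concrete frame: `Ω = ℚ̄`, `F = F̄_N`, `R ⊆ FK K' N` -/

section Frame

open Fermat.Agent.X0 Fermat.Agent.BR.Inst.FKCover

variable {N : ℕ} [NeZero N] (A : ValuationSubring Kb) (K' : IntermediateField ℚ Kb)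

/-- In a subfield `K'` on which the valuation of `A` is discrete with uniformizer `ϖ`, every
element becomes integral after multiplication by a power of `ϖ`. -/
theorem exists_pow_mul_mem {ϖ : Kb} (hϖ0 : ϖ ≠ 0) (hϖ1 : A.valuation ϖ < 1)
    (hdvr : ∀ x ∈ K', x ≠ 0 → ∃ n : ℤ, A.valuation x = A.valuation ϖ ^ n) {x : Kb}
    (hx : x ∈ K') : ∃ m : ℕ, ϖ ^ m * x ∈ A := by
  by_cases hx0 : x = 0
  · exact ⟨0, by rw [hx0, mul_zero]; exact A.zero_mem⟩
  obtain ⟨n, hn⟩ := hdvr x hx hx0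
  have hv0 : A.valuation ϖ ≠ 0 := (Valuation.ne_zero_iff _).mpr hϖ0
  refine ⟨(-n).toNat, ?_⟩
  rw [← A.valuation_le_one_iff, map_mul, map_pow, hn, ← zpow_natCast, ← zpow_add₀ hv0]
  obtain ⟨k, hk⟩ : ∃ k : ℕ, ((-n).toNat : ℤ) + n = k := ⟨(((-n).toNat : ℤ) + n).toNat, by omega⟩
  rw [hk, zpow_natCast]
  exact pow_le_one₀ zero_le hϖ1.le

/-- In a subfield `K'` on which the valuation of `A` is discrete with uniformizer `ϖ`, every
element of valuation `< 1` is `ϖ` times an integral element of `K'`. -/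
theorem exists_eq_mul_of_lt_one {ϖ : Kb} (hϖK : ϖ ∈ K') (hϖ0 : ϖ ≠ 0) (hϖ1 : A.valuation ϖ < 1)
    (hdvr : ∀ x ∈ K', x ≠ 0 → ∃ n : ℤ, A.valuation x = A.valuation ϖ ^ n) {x : Kb}
    (hx : x ∈ K') (hlt : A.valuation x < 1) : ∃ y ∈ K', y ∈ A ∧ x = ϖ * y := by
  by_cases hx0 : x = 0
  · exact ⟨0, zero_mem _, A.zero_mem, by rw [hx0, mul_zero]⟩
  obtain ⟨n, hn⟩ := hdvr x hx hx0
  have hv0 : A.valuation ϖ ≠ 0 := (Valuation.ne_zero_iff _).mpr hϖ0
  have hn1 : 1 ≤ n := by
    by_contra hcon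
    have hn0 : n ≤ 0 := by omega
    obtain ⟨k, hk⟩ : ∃ k : ℕ, n = -(k : ℤ) := ⟨(-n).toNat, by omega⟩
    rw [hn, hk, zpow_neg, zpow_natCast] at hlt
    have h1 : A.valuation ϖ ^ k ≤ 1 := pow_le_one₀ zero_le hϖ1.le
    have h2 : A.valuation ϖ ^ k ≠ 0 := pow_ne_zero _ hv0
    have h3 : 1 ≤ (A.valuation ϖ ^ k)⁻¹ := (one_le_inv₀ (zero_lt_iff.mpr h2)).mpr h1
    exact absurd hlt (not_lt.mpr h3)
  refine ⟨ϖ⁻¹ * x, mul_mem (inv_mem hϖK) hx, ?_, ?_⟩
  · rw [← A.valuation_le_one_iff, map_mul, map_inv₀, hn]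
    obtain ⟨k, hk⟩ : ∃ k : ℕ, n = (k : ℤ) + 1 := ⟨(n - 1).toNat, by omega⟩
    rw [hk, zpow_add₀ hv0, zpow_one, zpow_natCast, mul_comm (A.valuation ϖ ^ k), ← mul_assoc,
      inv_mul_cancel₀ hv0, one_mul]
    exact pow_le_one₀ zero_le hϖ1.le
  · rw [← mul_assoc, mul_inv_cancel₀ hϖ0, one_mul]

/-- **`horiz` in the concrete frame.**  `R ⊆ FK K' N` a local subring of `F̄_N` containing the
constants `A ∩ K'`, the valuation of `A` being discrete on `K'` with uniformizer `ϖ`, a non-unit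
of `R`; `p` a nonzero prime of `R` not containing `ϖ`.  Then `p` is the kernel of the evaluation at
a place of `F̄_N / ℚ̄` centred at `R`. -/
theorem exists_centredAt_of_horizontal (R : Subring (Fb N)) [IsLocalRing R]
    (hRFK : ∀ y ∈ R, y ∈ FK K' N)
    (hconst : ∀ c ∈ K', c ∈ A → algebraMap Kb (Fb N) c ∈ R)
    (ϖ : Kb) (hϖK : ϖ ∈ K') (hϖ0 : ϖ ≠ 0) (hϖ1 : A.valuation ϖ < 1)
    (hdvr : ∀ x ∈ K', x ≠ 0 → ∃ n : ℤ, A.valuation x = A.valuation ϖ ^ n)
    (hϖR : algebraMap Kb (Fb N) ϖ ∈ R)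
    (hϖnu : ¬ IsUnit (⟨algebraMap Kb (Fb N) ϖ, hϖR⟩ : R))
    (p : Ideal R) [p.IsPrime] (hp : p ≠ ⊥)
    (hϖp : (⟨algebraMap Kb (Fb N) ϖ, hϖR⟩ : R) ∉ p) :
    ∃ P : Place Kb (Fb N), CentredAt A R P ∧
      (∀ y : R, (y : Fb N) ∈ P.toValuationSubring.nonunits ↔ y ∈ p) ∧
      ∀ y : R, evalAt P (y : Fb N) = 0 ↔ y ∈ p := by
  haveI : IsGalois ℚ Kb := Fermat.Agent.S54.FrobExists.isGalois_rat_algebraicClosure
  have hE : ∀ e : K', algebraMap K' Kb e ∈ A →
      algebraMap Kb (Fb N) (algebraMap K' Kb e) ∈ R := fun e he => hconst _ e.2 he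
  refine exists_centredAt_of_prime_of_loc (E := K') A
    (fun g => arithmeticGalois (modularFunctionFieldFull N) (g.restrictScalars ℚ))
    (fun g c => rfl) R ?_ hE ?_ (Fermat.Agent.Good.RamDesc.hplace_Fb N)
    (fun P => Place.alg_deg_eq_one (jBar_isSepVar N) P) p hp ?_
  · -- the Galois group of `ℚ̄ / K'` fixes `R`
    intro g y hy
    refine gal_smul_eq_of_mem_FK (K' := K') (σ := g.restrictScalars ℚ) ?_ (hRFK y hy)
    intro c hc
    exact g.commutes ⟨c, hc⟩
  · -- non-units of `A ∩ K'` are non-units of `R`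
    intro e he hlt hu
    obtain ⟨y, hyK, hyA, hxy⟩ := exists_eq_mul_of_lt_one A K' hϖK hϖ0 hϖ1 hdvr e.2 hlt
    apply hϖnu
    have h1 : (⟨algebraMap Kb (Fb N) (algebraMap K' Kb e), hE e he⟩ : R) =
        ⟨algebraMap Kb (Fb N) ϖ, hϖR⟩ * ⟨algebraMap Kb (Fb N) y, hconst y hyK hyA⟩ := by
      apply Subtype.ext
      show algebraMap Kb (Fb N) (algebraMap K' Kb e) =
        algebraMap Kb (Fb N) ϖ * algebraMap Kb (Fb N) y
      rw [← map_mul]
      exact congrArg _ hxy
    rw [h1] at hu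
    exact isUnit_of_mul_isUnit_left hu
  · -- the constants of `K'` become regular after inverting a power of `ϖ`
    intro e
    obtain ⟨m, hm⟩ := exists_pow_mul_mem A K' hϖ0 hϖ1 hdvr e.2
    refine ⟨(⟨algebraMap Kb (Fb N) ϖ, hϖR⟩ : R) ^ m, ?_, ?_⟩
    · intro hmem
      exact hϖp (Ideal.IsPrime.mem_of_pow_mem inferInstance m hmem)
    · have h1 : ϖ ^ m * algebraMap K' Kb e ∈ K' :=
        mul_mem (pow_mem hϖK m) e.2
      have h2 := hconst _ h1 hm
      rw [map_mul, map_pow] at h2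
      simpa using h2

/-- `Subfield` form of `exists_centredAt_of_horizontal` (the level field given as a `Subfield ℚ̄`,
the function field of the level as `FKs N E`). -/
theorem exists_centredAt_of_horizontal_subfield (E : Subfield Kb) (R : Subring (Fb N))
    [IsLocalRing R] (hRFK : ∀ y ∈ R, y ∈ FKs N E)
    (hconst : ∀ c ∈ E, c ∈ A → algebraMap Kb (Fb N) c ∈ R)
    (ϖ : Kb) (hϖK : ϖ ∈ E) (hϖ0 : ϖ ≠ 0) (hϖ1 : A.valuation ϖ < 1)
    (hdvr : ∀ x ∈ E, x ≠ 0 → ∃ n : ℤ, A.valuation x = A.valuation ϖ ^ n)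
    (hϖR : algebraMap Kb (Fb N) ϖ ∈ R)
    (hϖnu : ¬ IsUnit (⟨algebraMap Kb (Fb N) ϖ, hϖR⟩ : R))
    (p : Ideal R) [p.IsPrime] (hp : p ≠ ⊥)
    (hϖp : (⟨algebraMap Kb (Fb N) ϖ, hϖR⟩ : R) ∉ p) :
    ∃ P : Place Kb (Fb N), CentredAt A R P ∧
      (∀ y : R, (y : Fb N) ∈ P.toValuationSubring.nonunits ↔ y ∈ p) ∧
      ∀ y : R, evalAt P (y : Fb N) = 0 ↔ y ∈ p :=
  exists_centredAt_of_horizontal A (ofSubfield E) R hRFK hconst ϖ hϖK hϖ0 hϖ1 hdvr hϖR hϖnu p hp
    hϖp

/-- A prime of height one of a domain is nonzero. -/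
theorem ne_bot_of_height_eq_one {S : Type*} [CommRing S] [Nontrivial S] {Q : Ideal S}
    (hht : Q.height = 1) : Q ≠ ⊥ := by
  rintro rfl
  rw [Ideal.height_bot] at hht
  exact zero_ne_one hht

variable {A K'}

/-- **`NodeLevel.horiz` (annulus descent) in the concrete frame**, `Subfield` form: the level ring
`R ⊆ FKs N E` containing the constants `A ∩ E`, uniformizer `ϖ`, `πR` the element `ϖ` of `R`
(a non-unit); `T` a set of places containing all places centred at `R`. -/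
theorem horiz_annulus_frame {E : Subfield Kb} {R : Subring (Fb N)} [IsLocalRing R]
    (hRFK : ∀ y ∈ R, y ∈ FKs N E)
    (hconst : ∀ c ∈ E, c ∈ A → algebraMap Kb (Fb N) c ∈ R)
    {ϖ : Kb} (hϖK : ϖ ∈ E) (hϖ0 : ϖ ≠ 0) (hϖ1 : A.valuation ϖ < 1)
    (hdvr : ∀ x ∈ E, x ≠ 0 → ∃ n : ℤ, A.valuation x = A.valuation ϖ ^ n)
    {πR : R} (hπR : (πR : Fb N) = algebraMap Kb (Fb N) ϖ) (hπnu : ¬ IsUnit πR)
    {T : Set (Place Kb (Fb N))} (hT : ∀ P : Place Kb (Fb N), CentredAt A R P → P ∈ T) :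
    ∀ Q : Ideal R, Q.IsPrime → Q.height = 1 → πR ∉ Q →
      ∃ P ∈ T, ∃ h : IntegralAt A R P, Q = horizPrime h := by
  intro Q hQ hht hπQ
  haveI := hQ
  have hϖR : algebraMap Kb (Fb N) ϖ ∈ R := hπR ▸ πR.2
  have e : (⟨algebraMap Kb (Fb N) ϖ, hϖR⟩ : R) = πR := Subtype.ext hπR.symm
  exact horiz_annulus A R Q T hT
    (exists_centredAt_of_horizontal_subfield A E R hRFK hconst ϖ hϖK hϖ0 hϖ1 hdvr hϖR
      (e ▸ hπnu) Q (ne_bot_of_height_eq_one hht) (e ▸ hπQ))

/-- **`SmoothLevel.horiz` (smooth descent) in the concrete frame**, `IntermediateField` form. -/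
theorem horiz_smooth_frame {R : Subring (Fb N)} [IsLocalRing R]
    (hRFK : ∀ y ∈ R, y ∈ FK K' N)
    (hconst : ∀ c ∈ K', c ∈ A → algebraMap Kb (Fb N) c ∈ R)
    {ϖ : Kb} (hϖK : ϖ ∈ K') (hϖ0 : ϖ ≠ 0) (hϖ1 : A.valuation ϖ < 1)
    (hdvr : ∀ x ∈ K', x ≠ 0 → ∃ n : ℤ, A.valuation x = A.valuation ϖ ^ n)
    (hϖR : algebraMap Kb (Fb N) ϖ ∈ R)
    (hϖnu : ¬ IsUnit (⟨algebraMap Kb (Fb N) ϖ, hϖR⟩ : R))
    {T : Set (Place Kb (Fb N))} (hT : ∀ P : Place Kb (Fb N), CentredAt A R P → P ∈ T) :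
    ∀ p : Ideal R, p.IsPrime → p.height = 1 → (⟨algebraMap Kb (Fb N) ϖ, hϖR⟩ : R) ∉ p →
      ∃ P ∈ T, ∀ x : R, x ∈ p ↔ evalAt P (x : Fb N) = 0 := by
  intro p hp hht hπp
  haveI := hp
  exact horiz_smooth A R p T hT
    (exists_centredAt_of_horizontal A K' R hRFK hconst ϖ hϖK hϖ0 hϖ1 hdvr hϖR hϖnu p
      (ne_bot_of_height_eq_one hht) hπp)

/-- **Third disjunct of `NodeLevels.primes` (node descent) in the concrete frame**,
`IntermediateField` form. -/
theorem horiz_node_frame {R : Subring (Fb N)} [IsLocalRing R]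
    (hRFK : ∀ y ∈ R, y ∈ FK K' N)
    (hconst : ∀ c ∈ K', c ∈ A → algebraMap Kb (Fb N) c ∈ R)
    {ϖ : Kb} (hϖK : ϖ ∈ K') (hϖ0 : ϖ ≠ 0) (hϖ1 : A.valuation ϖ < 1)
    (hdvr : ∀ x ∈ K', x ≠ 0 → ∃ n : ℤ, A.valuation x = A.valuation ϖ ^ n)
    (hϖR : algebraMap Kb (Fb N) ϖ ∈ R)
    (hϖnu : ¬ IsUnit (⟨algebraMap Kb (Fb N) ϖ, hϖR⟩ : R))
    {T : Set (Place Kb (Fb N))} (hT : ∀ P : Place Kb (Fb N), CentredAt A R P → P ∈ T) :
    ∀ p : Ideal R, p.IsPrime → p.height = 1 → (⟨algebraMap Kb (Fb N) ϖ, hϖR⟩ : R) ∉ p →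
      ∃ P ∈ T, ∀ x : R, x ∈ p ↔ (x : Fb N) ∈ P.toValuationSubring.nonunits := by
  intro p hp hht hπp
  haveI := hp
  exact horiz_node A R p T hT
    (exists_centredAt_of_horizontal A K' R hRFK hconst ϖ hϖK hϖ0 hϖ1 hdvr hϖR hϖnu p
      (ne_bot_of_height_eq_one hht) hπp)

end Frame

end Fermat.Agent.BR.S0.HorizProvider
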