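/-
Program B (bad reduction), node B6.6-CONS, producer side (helper24): the smooth chart
`SmoothChart` (`BR/S0/SmoothFields`) at a non-crossing point from a directed family of finite
levels.

`F / K` a function field (`K = ℚ̄`), `A ⊆ K` a valuation ring, `(O, res)` a component, `Q` a point
of the component which is not a crossing point, `T` its tube. A *level* is a subring `R ⊆ F`
(the local ring `O_{n,W'}` of the normal model over a discrete valuation ring `W' = A ∩ K'` at
the point) with a uniformizer `ϖ` of `W'`: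

* `SmoothLevel A O res Q T t R ϖ` : `R` noetherian, local, integrally closed, `R ≤ O`,
  non-units lie in `(ϖ, t)`, `R ∩ 𝔪_O = ϖ R` (only ONE component through the point), the places
  of `T` are centred at `R`, residue field `k`, non-units vanish at `Q`, and every horizontal
  height-one prime of `R` is the kernel of the evaluation at some place of `T`.
* `SmoothFamily` : a directed family of levels exhausting `F` and `A`.
* `ker_evHom_eq_span` : for a place `P ∈ T` whose coordinate `c = t(P)` is a constant of `R`,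
  `ker (y ↦ y(P)) = (t - c)` — Krull intersection, no rationality of the point needed.
* `SmoothFamily.simple`, `SmoothFamily.inj`, `SmoothFamily.normal` : the three non-formal
  fields of the chart; `SmoothFamily.chart : SmoothChart A O res Q T`.
-/
import Mathlib
import Fermat.Agent.BR.CompleteInter
import Fermat.Agent.BR.CentreBridge
import Fermat.Agent.BR.S0.KrullDescent
import Fermat.Agent.BR.S0.SmoothFields

set_option autoImplicit false

namespace Fermat.Agent.BR.S0

open AlgebraicCurve IsLocalRing Fermat.Agent.Red Fermat.Agent.X0 Fermat.Agent.BR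
  Fermat.Agent.BR.Centre

/-! ### Commutative algebra: the kernel of a point of a two-dimensional regular local ring -/

section Algebra

variable {R : Type*} [CommRing R] [IsNoetherianRing R] [IsLocalRing R]

/-- If the non-units of the noetherian local ring `R` lie in `(ϖ, s)` and `φ : R → D` is a
homomorphism to a domain with `φ ϖ ≠ 0` and `φ s = 0`, then `ker φ = (s)`. -/
theorem ker_eq_span_of_nonunit_mem {D : Type*} [CommRing D] [IsDomain D] (φ : R →+* D)
    {ϖ s : R} (hmem : ∀ x : R, ¬ IsUnit x → x ∈ Ideal.span {ϖ, s}) (hϖu : ¬ IsUnit ϖ)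
    (hϖ : φ ϖ ≠ 0) (hs : φ s = 0) : RingHom.ker φ = Ideal.span {s} := by
  have hnu : ∀ y ∈ RingHom.ker φ, ¬ IsUnit y := by
    intro y hy hu
    have h1 : IsUnit (φ y) := hu.map φ
    rw [RingHom.mem_ker.mp hy] at h1
    exact not_isUnit_zero h1
  have claim : ∀ k : ℕ, ∀ x ∈ RingHom.ker φ, ∃ y ∈ RingHom.ker φ,
      x - ϖ ^ k * y ∈ Ideal.span {s} := by
    intro k
    induction k with
    | zero =>
      intro x hx
      exact ⟨x, hx, by rw [pow_zero, one_mul, sub_self]; exact Ideal.zero_mem _⟩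
    | succ k ih =>
      intro x hx
      obtain ⟨y, hy, hxy⟩ := ih x hx
      obtain ⟨a, b, hab⟩ := Ideal.mem_span_pair.mp (hmem y (hnu y hy))
      have ha : a ∈ RingHom.ker φ := by
        rw [RingHom.mem_ker]
        have h1 : φ a * φ ϖ = 0 := by
          have h2 := congrArg φ hab
          rw [map_add, map_mul, map_mul, hs, mul_zero, add_zero, RingHom.mem_ker.mp hy] at h2
          exact h2
        exact (mul_eq_zero.mp h1).resolve_right hϖ
      refine ⟨a, ha, ?_⟩
      have e : x - ϖ ^ (k + 1) * a = (x - ϖ ^ k * y) + ϖ ^ k * b * s := by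
        rw [← hab]
        ring
      rw [e]
      exact Ideal.add_mem _ hxy (Ideal.mul_mem_left _ _ (Ideal.mem_span_singleton_self s))
  apply le_antisymm
  · intro x hx
    apply CompleteInter.mem_of_forall_mem_sup_pow
    intro k
    obtain ⟨y, -, hy⟩ := claim k x hx
    have e : x = (x - ϖ ^ k * y) + ϖ ^ k * y := by ring
    rw [e]
    refine Submodule.add_mem_sup hy (Ideal.mul_mem_right _ _ (Ideal.pow_mem_pow ?_ k))
    rw [IsLocalRing.mem_maximalIdeal, mem_nonunits_iff]
    exact hϖu
  · rw [Ideal.span_singleton_le_iff_mem, RingHom.mem_ker]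
    exact hs

end Algebra

variable {K F k : Type*} [Field K] [Field F] [Algebra K F] [Field k]
  {Ft : Type*} [Field Ft] [Algebra k Ft]

/-! ### Places integral on a ring -/

/-- A function of a ring on which `P` is integral is a non-unit at `P` iff its value is `0`. -/
theorem mem_nonunits_iff_evalAt_eq_zero_of_integralAt {A : ValuationSubring K} {R : Subring F}
    {P : Place K F} (h : IntegralAt A R P) {x : F} (hx : x ∈ R) :
    x ∈ P.toValuationSubring.nonunits ↔ evalAt P x = 0 := by
  have h1 : evalAt P x = 0 ↔ x = 0 ∨ 0 < P.ord x := by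
    rw [← mem_horizPrime_iff h ⟨x, hx⟩, mem_horizPrime_iff_ord]
  rw [h1, ValuationSubring.mem_nonunits_iff_or]
  refine or_congr Iff.rfl ?_
  rw [Place.mem_iff_ord_nonneg, Place.ord_inv]
  have := h.ord_nonneg hx
  constructor <;> intro h2 <;> omega

/-! ### Levels -/

/-- A finite level of the smooth chart: the local ring `R = O_{n,W'}` of the normal model over
the discrete valuation ring `W' = A ∩ K'` (uniformizer `ϖ`) at a point `Q` of the component
`(O, res)` which is not a crossing point; `t` the parameter, `T` the tube of `Q`. -/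
structure SmoothLevel (A : ValuationSubring K) (O : ValuationSubring F) (res : O →+* Ft)
    (Q : Place k Ft) (T : Set (Place K F)) (t : F) (R : Subring F) (ϖ : K) : Prop where
  noeth : IsNoetherianRing R
  isLocal : IsLocalRing R
  intClosed : IsIntegrallyClosed R
  le : ∀ y ∈ R, y ∈ O
  t_mem : t ∈ R
  t_nonunit : ¬ IsUnit (⟨t, t_mem⟩ : R)
  unif_ne : ϖ ≠ 0
  unif_lt : A.valuation ϖ < 1
  unif_mem : algebraMap K F ϖ ∈ R
  /-- the maximal ideal is `(ϖ, t)` -/
  nonunit_mem : ∀ x : R, ¬ IsUnit x →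
    x ∈ Ideal.span {(⟨algebraMap K F ϖ, unif_mem⟩ : R), ⟨t, t_mem⟩}
  /-- the only vertical prime through the point is `(ϖ)`: `R ∩ 𝔪_O = ϖ R` -/
  vert : ∀ x : R, (x : F) ∈ O.nonunits → (⟨algebraMap K F ϖ, unif_mem⟩ : R) ∣ x
  /-- the places of the tube are centred at `R` -/
  centred : ∀ P ∈ T, CentredAt A R P
  /-- the residue field of `R` is the residue field of `A` -/
  residue : ∀ y : R, ∃ (a : A) (h : algebraMap K F a ∈ R),
    ¬ IsUnit (y - ⟨algebraMap K F a, h⟩)
  /-- non-units vanish at the point -/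
  branch : ∀ y : R, ¬ IsUnit y → Q.adicValuation (res ⟨y, le y y.2⟩) < 1
  /-- every horizontal height-one prime is the kernel of the evaluation at a place of the tube -/
  horiz : ∀ p : Ideal R, p.IsPrime → p.height = 1 → (⟨algebraMap K F ϖ, unif_mem⟩ : R) ∉ p →
    ∃ P ∈ T, ∀ x : R, x ∈ p ↔ evalAt P (x : F) = 0

namespace SmoothLevel

variable {A : ValuationSubring K} {π : A →+* k} {O : ValuationSubring F} {res : O →+* Ft}
  {Q : Place k Ft} {T : Set (Place K F)} {t : F} {R : Subring F} {ϖ : K}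

theorem integralAt (L : SmoothLevel A O res Q T t R ϖ) {P : Place K F} (hP : P ∈ T) :
    IntegralAt A R P := (L.centred P hP).choose

/-- The coordinate of a place of the tube lies in the open unit disc. -/
theorem valuation_evalAt_lt_one (L : SmoothLevel A O res Q T t R ϖ) {P : Place K F}
    (hP : P ∈ T) : A.valuation (evalAt P t) < 1 :=
  (L.centred P hP).valuation_evalAt_lt_one (y := ⟨t, L.t_mem⟩) L.t_nonunit

theorem isValueAt_evalAt (L : SmoothLevel A O res Q T t R ϖ) {P : Place K F} (hP : P ∈ T) :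
    IsValueAt P t (evalAt P t) :=
  (L.integralAt hP).isValueAt_evalAt L.t_mem

/-- The uniformizer is not a unit of `R`. -/
theorem unif_nonunit (L : SmoothLevel A O res Q T t R ϖ)
    (hϖO : algebraMap K F ϖ ∈ O.nonunits) :
    ¬ IsUnit (⟨algebraMap K F ϖ, L.unif_mem⟩ : R) := by
  intro hu
  obtain ⟨y, hy⟩ := isUnit_iff_exists_inv.mp hu
  have h2 : algebraMap K F ϖ * (y : F) = 1 := congrArg (fun x : R => (x : F)) hy
  have h3 : (y : F) ∈ O := L.le _ y.2
  have h4 := congrArg O.valuation h2
  rw [map_mul, map_one] at h4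
  have h5 : O.valuation (algebraMap K F ϖ) < 1 := (ValuationSubring.mem_nonunits_iff O).mp hϖO
  have h6 : O.valuation (y : F) ≤ 1 := (O.valuation_le_one_iff _).mpr h3
  have h7 : O.valuation (algebraMap K F ϖ) * O.valuation (y : F) < 1 :=
    mul_lt_one_of_nonneg_of_lt_one_left zero_le h5 h6
  rw [h4] at h7
  exact lt_irrefl _ h7

/-- **The kernel of a point**: for a place `P` of the tube whose coordinate `c = t(P)` is a
constant of `R`, the functions of `R` vanishing at `P` are the multiples of `t - c`. -/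
theorem evalAt_eq_zero_iff (L : SmoothLevel A O res Q T t R ϖ)
    (hAO : ∀ c : K, A.valuation c < 1 → algebraMap K F c ∈ O.nonunits)
    {P : Place K F} (hP : P ∈ T) {c : K} (hc : IsValueAt P t c)
    (hcR : algebraMap K F c ∈ R) (x : R) :
    evalAt P (x : F) = 0 ↔ ((⟨t, L.t_mem⟩ : R) - ⟨algebraMap K F c, hcR⟩) ∣ x := by
  have := L.noeth
  have := L.isLocal
  have hI := L.integralAt hP
  have hce : evalAt P t = c := evalAt_eq_of_isValueAt hc
  have hclt : A.valuation c < 1 := hce ▸ L.valuation_evalAt_lt_one hP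
  obtain ⟨c', hc'⟩ := L.vert ⟨algebraMap K F c, hcR⟩ (hAO c hclt)
  have hker : RingHom.ker (evHom A R P hI) =
      Ideal.span {(⟨t, L.t_mem⟩ : R) - ⟨algebraMap K F c, hcR⟩} := by
    apply ker_eq_span_of_nonunit_mem (evHom A R P hI)
      (ϖ := (⟨algebraMap K F ϖ, L.unif_mem⟩ : R))
    · intro x hx
      obtain ⟨a, b, hab⟩ := Ideal.mem_span_pair.mp (L.nonunit_mem x hx)
      rw [Ideal.mem_span_pair]
      refine ⟨a + b * c', b, ?_⟩
      rw [← hab, hc']
      ring
    · exact L.unif_nonunit (hAO ϖ L.unif_lt)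
    · intro h0
      have h1 : ((evHom A R P hI ⟨algebraMap K F ϖ, L.unif_mem⟩ : A) : K) = 0 := by
        rw [h0]
        rfl
      rw [coe_evHom, evalAt_algebraMap] at h1
      exact L.unif_ne h1
    · apply Subtype.ext
      rw [coe_evHom, ZeroMemClass.coe_zero]
      have h1 : IsValueAt P (t - algebraMap K F c) (c - c) := hc.sub (isValueAt_algebraMap P c)
      rw [sub_self] at h1
      exact evalAt_eq_of_isValueAt h1
  rw [← Ideal.mem_span_singleton, ← hker, ← mem_horizPrime_iff hI x]
  rfl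

/-- A function of `R` not divisible by `t - c` has order `0` at the place with coordinate `c`. -/
theorem ord_eq_zero_of_not_dvd (L : SmoothLevel A O res Q T t R ϖ)
    (hAO : ∀ c : K, A.valuation c < 1 → algebraMap K F c ∈ O.nonunits)
    {P : Place K F} (hP : P ∈ T) {c : K} (hc : IsValueAt P t c)
    (hcR : algebraMap K F c ∈ R) {x : R}
    (hx : ¬ ((⟨t, L.t_mem⟩ : R) - ⟨algebraMap K F c, hcR⟩) ∣ x) : P.ord (x : F) = 0 := by
  have h0 : evalAt P (x : F) ≠ 0 := fun h0 => hx ((L.evalAt_eq_zero_iff hAO hP hc hcR x).mp h0)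
  exact ((L.integralAt hP).isValueAt_evalAt x.2).ord_eq_zero h0

/-- `t - c` is not a unit of `R`. -/
theorem sub_nonunit (L : SmoothLevel A O res Q T t R ϖ)
    (hAO : ∀ c : K, A.valuation c < 1 → algebraMap K F c ∈ O.nonunits)
    {P : Place K F} (hP : P ∈ T) {c : K} (hc : IsValueAt P t c)
    (hcR : algebraMap K F c ∈ R) :
    ¬ IsUnit ((⟨t, L.t_mem⟩ : R) - ⟨algebraMap K F c, hcR⟩) := by
  intro hu
  have h0 : evalAt P ((((⟨t, L.t_mem⟩ : R) - ⟨algebraMap K F c, hcR⟩ : R)) : F) = 0 :=
    (L.evalAt_eq_zero_iff hAO hP hc hcR _).mpr dvd_rfl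
  have h1 : evHom A R P (L.integralAt hP) ((⟨t, L.t_mem⟩ : R) - ⟨algebraMap K F c, hcR⟩) = 0 :=
    Subtype.ext (by rw [coe_evHom, h0]; rfl)
  have h2 := hu.map (evHom A R P (L.integralAt hP))
  rw [h1] at h2
  exact not_isUnit_zero h2

/-- The order at the place with coordinate `c` of `(t - c) ^ m * x'`, `x'` not divisible by
`t - c`, in terms of the order of `t - c`. -/
theorem ord_pow_mul (L : SmoothLevel A O res Q T t R ϖ)
    (hAO : ∀ c : K, A.valuation c < 1 → algebraMap K F c ∈ O.nonunits)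
    {P : Place K F} (hP : P ∈ T) {c : K} (hc : IsValueAt P t c)
    (hcR : algebraMap K F c ∈ R) {x x' : R} {m : ℕ} (hx0 : x ≠ 0)
    (hx' : ¬ ((⟨t, L.t_mem⟩ : R) - ⟨algebraMap K F c, hcR⟩) ∣ x')
    (hx : x = ((⟨t, L.t_mem⟩ : R) - ⟨algebraMap K F c, hcR⟩) ^ m * x') :
    P.ord (x : F) = m * P.ord (t - algebraMap K F c) := by
  have hxF : (x : F) = (t - algebraMap K F c) ^ m * (x' : F) := by
    have h1 := congrArg (fun y : R => (y : F)) hx
    simp only [Subring.coe_mul, Subring.coe_pow] at h1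
    exact h1
  have hx0F : (x : F) ≠ 0 := fun h0 => hx0 (Subtype.ext h0)
  rw [hxF] at hx0F
  rw [hxF, P.ord_mul (left_ne_zero_of_mul hx0F) (right_ne_zero_of_mul hx0F), Place.ord_pow,
    L.ord_eq_zero_of_not_dvd hAO hP hc hcR hx', add_zero]

/-- The value at the point of the reduction of a function of `R`. -/
theorem exists_isValueAt (L : SmoothLevel A O res Q T t R ϖ)
    (hres : ∀ (a : K) (ha : a ∈ A) (h : algebraMap K F a ∈ O),
      res ⟨algebraMap K F a, h⟩ = algebraMap k Ft (π ⟨a, ha⟩))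
    (y : R) : ∃ a : A, IsValueAt Q (res ⟨y, L.le y y.2⟩) (π a) := by
  obtain ⟨a, h, ha⟩ := L.residue y
  refine ⟨a, ?_⟩
  have h1 := L.branch _ ha
  have e : (⟨((y - ⟨algebraMap K F a, h⟩ : R) : F), L.le _ (y - ⟨algebraMap K F a, h⟩ : R).2⟩ : O) =
      ⟨y, L.le y y.2⟩ - ⟨algebraMap K F a, L.le _ h⟩ := rfl
  rw [e, map_sub, hres a a.2] at h1
  exact h1

/-- **Krull-normality at a level**: a quotient of functions of `R` which is integral on the
component and has no pole on the tube lies in `R`. -/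
theorem mem_of_regular (L : SmoothLevel A O res Q T t R ϖ)
    (hAO : ∀ c : K, A.valuation c < 1 → algebraMap K F c ∈ O.nonunits)
    {y : F} {a b : R} (hb : b ≠ 0) (hyab : y * (b : F) = (a : F)) (hyO : y ∈ O)
    (hyT : ∀ P ∈ T, 0 ≤ P.ord y) : y ∈ R := by
  have := L.noeth
  have := L.intClosed
  refine mem_of_dominated R ({O} ∪ {V | ∃ P ∈ T, V = P.toValuationSubring}) ?_ ?_ hb hyab ?_
  · rintro V (rfl | ⟨P, hP, rfl⟩) x hx
    · exact L.le x hx
    · exact (L.integralAt hP).mem_toValuationSubring hx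
  · intro p hp hht
    by_cases hw : (⟨algebraMap K F ϖ, L.unif_mem⟩ : R) ∈ p
    · refine ⟨O, Or.inl rfl, ?_⟩
      -- the trace of the maximal ideal of `O` is a nonzero prime contained in `p`
      set q : Ideal R := (IsLocalRing.maximalIdeal O).comap (Subring.inclusion L.le) with hq
      have hqmem : ∀ x : R, x ∈ q ↔ (x : F) ∈ O.nonunits := by
        intro x
        rw [hq, Ideal.mem_comap]
        exact (ValuationSubring.coe_mem_nonunits_iff (A := O)
          (a := Subring.inclusion L.le x)).symm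
      have hqp : q ≤ p := by
        intro x hx
        obtain ⟨z, rfl⟩ := L.vert x ((hqmem x).mp hx)
        exact p.mul_mem_right z hw
      have hqprime : q.IsPrime := Ideal.comap_isPrime _ _
      have hwq : (⟨algebraMap K F ϖ, L.unif_mem⟩ : R) ∈ q :=
        (hqmem _).mpr (hAO ϖ L.unif_lt)
      have hqbot : q ≠ ⊥ := by
        intro h0
        rw [h0, Ideal.mem_bot] at hwq
        have : algebraMap K F ϖ = 0 := congrArg (fun x : R => (x : F)) hwq
        exact L.unif_ne ((map_eq_zero _).mp this)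
      have hqeq : q = p := by
        by_contra hne
        have hlt : q < p := lt_of_le_of_ne hqp hne
        have h1 := (Ideal.height_le_iff (p := p) (n := 1)).mp (by rw [hht]; exact le_rfl) q
          hqprime hlt
        have h0 : q.height = 0 := by
          have : q.height < 1 := by exact_mod_cast h1
          exact Order.lt_one_iff.mp this
        rw [Ideal.height_eq_zero_iff_eq_bot] at h0
        exact hqbot h0
      intro x
      rw [← hqeq]
      exact hqmem x
    · obtain ⟨P, hP, hpP⟩ := L.horiz p hp hht hw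
      refine ⟨P.toValuationSubring, Or.inr ⟨P, hP, rfl⟩, fun x => ?_⟩
      rw [hpP x, mem_nonunits_iff_evalAt_eq_zero_of_integralAt (L.integralAt hP) x.2]
  · rintro V (rfl | ⟨P, hP, rfl⟩)
    · exact hyO
    · exact (Place.mem_iff_ord_nonneg P).mpr (hyT P hP)

end SmoothLevel

/-! ### Families of levels -/

/-- A directed family of levels exhausting `F` and `A`. -/
structure SmoothFamily (A : ValuationSubring K) (O : ValuationSubring F) (res : O →+* Ft)
    (Q : Place k Ft) (T : Set (Place K F)) (t : F) {ι : Type*} (R : ι → Subring F)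
    (ϖ : ι → K) : Prop where
  nonempty : Nonempty ι
  level : ∀ i, SmoothLevel A O res Q T t (R i) (ϖ i)
  directed : ∀ i j, ∃ l, R i ≤ R l ∧ R j ≤ R l
  /-- every function is a quotient of functions of some level -/
  frac : ∀ y : F, ∃ i, ∃ a b : R i, b ≠ 0 ∧ y * (b : F) = (a : F)
  /-- every constant of `A` lies in some level -/
  const : ∀ a ∈ A, ∃ i, algebraMap K F a ∈ R i

namespace SmoothFamily

variable {A : ValuationSubring K} {π : A →+* k} {O : ValuationSubring F} {res : O →+* Ft}
  {Q : Place k Ft} {T : Set (Place K F)} {t : F} {ι : Type*} {R : ι → Subring F} {ϖ : ι → K}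

/-- A level containing a given function (as a quotient) and a given constant. -/
theorem exists_level (H : SmoothFamily A O res Q T t R ϖ) (y : F) {c : K} (hc : c ∈ A) :
    ∃ i, (∃ a b : R i, b ≠ 0 ∧ y * (b : F) = (a : F)) ∧ algebraMap K F c ∈ R i := by
  obtain ⟨i, a, b, hb, hab⟩ := H.frac y
  obtain ⟨j, hj⟩ := H.const c hc
  obtain ⟨l, hil, hjl⟩ := H.directed i j
  refine ⟨l, ⟨⟨a, hil a.2⟩, ⟨b, hil b.2⟩, ?_, hab⟩, hjl hj⟩
  intro h0
  apply hb
  apply Subtype.ext
  exact congrArg (fun x : R l => (x : F)) h0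

/-- The coordinate of a place of the tube is integral. -/
theorem evalAt_mem (H : SmoothFamily A O res Q T t R ϖ) {P : Place K F} (hP : P ∈ T) :
    evalAt P t ∈ A := by
  obtain ⟨i⟩ := H.nonempty
  exact ((H.level i).integralAt hP).evalAt_mem (H.level i).t_mem

/-- **`simple`**: the zero of `t - t(P)` at a place `P` of the tube is simple. -/
theorem simple (H : SmoothFamily A O res Q T t R ϖ)
    (hAO : ∀ c : K, A.valuation c < 1 → algebraMap K F c ∈ O.nonunits)
    {P : Place K F} (hP : P ∈ T) {c : K} (hc : IsValueAt P t c) :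
    P.ord (t - algebraMap K F c) = 1 := by
  obtain ⟨τ, hτ⟩ : ∃ τ : F, P.ord τ = 1 := by
    obtain ⟨ϖP, hirr⟩ := IsDiscreteValuationRing.exists_irreducible P.toValuationSubring
    exact ⟨ϖP, P.ord_coe_irreducible hirr⟩
  have hcA : c ∈ A := by
    rw [← evalAt_eq_of_isValueAt hc]
    exact H.evalAt_mem hP
  obtain ⟨i, ⟨a, b, hb, hτab⟩, hcR⟩ := H.exists_level τ hcA
  have L := H.level i
  have := L.noeth
  have hτ0 : τ ≠ 0 := by
    rintro rfl
    rw [Place.ord_zero] at hτ
    exact zero_ne_one hτ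
  have hbF : (b : F) ≠ 0 := fun h0 => hb (Subtype.ext h0)
  have ha : a ≠ 0 := by
    rintro rfl
    rw [ZeroMemClass.coe_zero] at hτab
    exact (mul_ne_zero hτ0 hbF) hτab
  have hsnu := L.sub_nonunit hAO hP hc hcR
  obtain ⟨m, a', ha', haeq⟩ := WfDvdMonoid.max_power_factor' ha hsnu
  obtain ⟨n, b', hb', hbeq⟩ := WfDvdMonoid.max_power_factor' hb hsnu
  have h1 := L.ord_pow_mul hAO hP hc hcR ha ha' haeq
  have h2 := L.ord_pow_mul hAO hP hc hcR hb hb' hbeq
  have h3 : P.ord τ + P.ord (b : F) = P.ord (a : F) := by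
    rw [← hτab, P.ord_mul hτ0 hbF]
  rw [h1, h2, hτ] at h3
  have h4 : ((m : ℤ) - n) * P.ord (t - algebraMap K F c) = 1 := by linarith
  have h5 : 0 ≤ P.ord (t - algebraMap K F c) := by
    have : t - algebraMap K F c ∈ R i := (R i).sub_mem L.t_mem hcR
    exact (L.integralAt hP).ord_nonneg this
  exact Int.eq_one_of_mul_eq_one_left h5 h4

/-- Two places of the tube with the same coordinate have the same order function. -/
theorem ord_eq_ord (H : SmoothFamily A O res Q T t R ϖ)
    (hAO : ∀ c : K, A.valuation c < 1 → algebraMap K F c ∈ O.nonunits)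
    {P P' : Place K F} (hP : P ∈ T) (hP' : P' ∈ T) {c : K} (hc : IsValueAt P t c)
    (hc' : IsValueAt P' t c) (y : F) : P.ord y = P'.ord y := by
  rcases eq_or_ne y 0 with rfl | hy0
  · rw [Place.ord_zero, Place.ord_zero]
  have hcA : c ∈ A := by
    rw [← evalAt_eq_of_isValueAt hc]
    exact H.evalAt_mem hP
  obtain ⟨i, ⟨a, b, hb, hyab⟩, hcR⟩ := H.exists_level y hcA
  have L := H.level i
  have := L.noeth
  have hbF : (b : F) ≠ 0 := fun h0 => hb (Subtype.ext h0)
  have ha : a ≠ 0 := by
    rintro rfl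
    rw [ZeroMemClass.coe_zero] at hyab
    exact (mul_ne_zero hy0 hbF) hyab
  have hsnu := L.sub_nonunit hAO hP hc hcR
  obtain ⟨m, a', ha', haeq⟩ := WfDvdMonoid.max_power_factor' ha hsnu
  obtain ⟨n, b', hb', hbeq⟩ := WfDvdMonoid.max_power_factor' hb hsnu
  have h1 := L.ord_pow_mul hAO hP hc hcR ha ha' haeq
  have h2 := L.ord_pow_mul hAO hP hc hcR hb hb' hbeq
  have h1' := L.ord_pow_mul hAO hP' hc' hcR ha ha' haeq
  have h2' := L.ord_pow_mul hAO hP' hc' hcR hb hb' hbeq
  have h3 : P.ord y + P.ord (b : F) = P.ord (a : F) := by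
    rw [← hyab, P.ord_mul hy0 hbF]
  have h3' : P'.ord y + P'.ord (b : F) = P'.ord (a : F) := by
    rw [← hyab, P'.ord_mul hy0 hbF]
  rw [h1, h2, H.simple hAO hP hc] at h3
  rw [h1', h2', H.simple hAO hP' hc'] at h3'
  linarith

/-- **`inj`**: the parameter separates the places of the tube. -/
theorem inj (H : SmoothFamily A O res Q T t R ϖ)
    (hAO : ∀ c : K, A.valuation c < 1 → algebraMap K F c ∈ O.nonunits)
    {P P' : Place K F} (hP : P ∈ T) (hP' : P' ∈ T) {c : K} (hc : IsValueAt P t c)
    (hc' : IsValueAt P' t c) : P = P' := by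
  apply Place.ext
  ext y
  rw [Place.mem_iff_ord_nonneg, Place.mem_iff_ord_nonneg, H.ord_eq_ord hAO hP hP' hc hc' y]

/-- **`normal`**: a function integral on the component and without poles on the tube lies in
some level. -/
theorem normal (H : SmoothFamily A O res Q T t R ϖ)
    (hAO : ∀ c : K, A.valuation c < 1 → algebraMap K F c ∈ O.nonunits)
    {y : F} (hyO : y ∈ O) (hyT : ∀ P ∈ T, 0 ≤ P.ord y) : ∃ i, y ∈ R i := by
  obtain ⟨i, a, b, hb, hyab⟩ := H.frac y
  exact ⟨i, (H.level i).mem_of_regular hAO hb hyab hyO hyT⟩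

/-- The inclusions between levels are local. -/
theorem isUnit_of_le (H : SmoothFamily A O res Q T t R ϖ)
    (hres : ∀ (a : K) (ha : a ∈ A) (h : algebraMap K F a ∈ O),
      res ⟨algebraMap K F a, h⟩ = algebraMap k Ft (π ⟨a, ha⟩))
    {i l : ι} {x w : F} (hx : x ∈ R i) (hw : w ∈ R l) (hxw : x * w = 1) :
    IsUnit (⟨x, hx⟩ : R i) := by
  by_contra hnu
  have h1 := (H.level i).branch _ hnu
  obtain ⟨a, ha⟩ := (H.level l).exists_isValueAt hres ⟨w, hw⟩
  have h2 : IsValueAt Q (res ⟨x, (H.level i).le x hx⟩) 0 := isValueAt_zero_iff.mpr h1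
  have h3 := h2.mul ha
  have e : res ⟨x, (H.level i).le x hx⟩ * res ⟨w, (H.level l).le w hw⟩ = 1 := by
    rw [← map_mul, ← map_one res]
    congr 1
    exact Subtype.ext hxw
  rw [e, zero_mul] at h3
  exact zero_ne_one (h3.unique (isValueAt_one Q))

/-- The union of the levels. -/
theorem mem_iSup_iff (H : SmoothFamily A O res Q T t R ϖ) {x : F} :
    x ∈ ⨆ i, R i ↔ ∃ i, x ∈ R i :=
  haveI := H.nonempty
  Subring.mem_iSup_of_directed H.directed

/-- A function of a level which is a unit of the union is a unit of the level. -/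
theorem isUnit_of_isUnit_iSup (H : SmoothFamily A O res Q T t R ϖ)
    (hres : ∀ (a : K) (ha : a ∈ A) (h : algebraMap K F a ∈ O),
      res ⟨algebraMap K F a, h⟩ = algebraMap k Ft (π ⟨a, ha⟩))
    {i : ι} {x : F} (hx : x ∈ R i) (hx' : x ∈ ⨆ i, R i)
    (hu : IsUnit (⟨x, hx'⟩ : (⨆ i, R i : Subring F))) : IsUnit (⟨x, hx⟩ : R i) := by
  obtain ⟨w, hw⟩ := isUnit_iff_exists_inv.mp hu
  obtain ⟨l, hl⟩ := H.mem_iSup_iff.mp w.2
  have hxw : x * (w : F) = 1 := congrArg (fun z : (⨆ i, R i : Subring F) => (z : F)) hw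
  exact H.isUnit_of_le hres hx hl hxw

/-- **The smooth chart of a directed family of levels.** -/
noncomputable def chart (H : SmoothFamily A O res Q T t R ϖ)
    (hres : ∀ (a : K) (ha : a ∈ A) (h : algebraMap K F a ∈ O),
      res ⟨algebraMap K F a, h⟩ = algebraMap k Ft (π ⟨a, ha⟩))
    (hAO : ∀ c : K, A.valuation c < 1 → algebraMap K F c ∈ O.nonunits)
    (hord : ∀ h : t ∈ O, Q.ord (res ⟨t, h⟩) = 1) : SmoothChart A O res Q T where
  R := ⨆ i, R i
  le y hy := by
    obtain ⟨i, hi⟩ := H.mem_iSup_iff.mp hy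
    exact (H.level i).le y hi
  algebraMap_mem a ha := by
    obtain ⟨i, hi⟩ := H.const a ha
    exact H.mem_iSup_iff.mpr ⟨i, hi⟩
  residue y := by
    obtain ⟨i, hi⟩ := H.mem_iSup_iff.mp y.2
    obtain ⟨a, h, ha⟩ := (H.level i).residue ⟨y, hi⟩
    refine ⟨a, fun hu => ha ?_⟩
    exact H.isUnit_of_isUnit_iSup hres ((R i).sub_mem hi h) _ hu
  branch y hy := by
    obtain ⟨i, hi⟩ := H.mem_iSup_iff.mp y.2
    have hnu : ¬ IsUnit (⟨y, hi⟩ : R i) := by
      intro hu
      apply hy
      obtain ⟨w, hw⟩ := isUnit_iff_exists_inv.mp hu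
      refine isUnit_iff_exists_inv.mpr ⟨⟨w, H.mem_iSup_iff.mpr ⟨i, w.2⟩⟩, ?_⟩
      apply Subtype.ext
      exact congrArg (fun z : R i => (z : F)) hw
    exact (H.level i).branch _ hnu
  normal y hyO hyT := by
    obtain ⟨i, hi⟩ := H.normal hAO hyO hyT
    exact H.mem_iSup_iff.mpr ⟨i, hi⟩
  t := t
  t_mem := by
    obtain ⟨i⟩ := H.nonempty
    exact H.mem_iSup_iff.mpr ⟨i, (H.level i).t_mem⟩
  ord_res_t := hord _
  value P hP := by
    obtain ⟨i⟩ := H.nonempty
    exact ⟨evalAt P t, (H.level i).valuation_evalAt_lt_one hP, (H.level i).isValueAt_evalAt hP⟩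
  simple P hP c hc := H.simple hAO hP hc
  inj P hP P' hP' c hc hc' := H.inj hAO hP hP' hc hc'

end SmoothFamily

end Fermat.Agent.BR.S0
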