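/-
Program B (bad reduction), node B6.6-CONS, producer side, part 2 (helper24): a level
`SmoothLevel` (`BR/S0/SmoothDescent`) from the GLOBAL normal model at that level.

`C ⊆ F` the normal model over `W' = A ∩ K'` (a noetherian integrally closed subring of `F`, e.g.
`{x ∈ K'·F_N | x integral over W'[j]}`), contained in the component valuation ring `O`, `Q` a
point of the component which is not a crossing point, `T` its tube. The point is the prime
`n = {x ∈ C | res x vanishes at Q}` of `C`, and the level is the localisation `C_n ⊆ F`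
(`LocalSubring.ofPrime`).

* `SmoothModel A π O res Q T t C ϖ` : the hypotheses on the global model, in element form:
  `res` maps `C` into the functions regular at `Q`; `vert` (locally at the point the trace of
  `𝔪_O` is generated by `ϖ`: only one component through the point and `e = 1`); `transversal`
  (`res t` generates the maximal ideal at `Q` of the reduction of `C`); `fullRes` (values at `Q`
  are residues of constants of `C`); the tube consists of the places integral on `C` with centre
  the point.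
* `SmoothModel.point`, `SmoothModel.loc` : the point and the local ring.
* `SmoothModel.level` : `SmoothLevel A O res Q T t M.loc ϖ`, given the existence of a place of
  the tube over every nonzero prime of the local ring (`PlaceLift.exists_centredAt_of_prime`).
-/
import Mathlib
import Fermat.Agent.BR.S0.SmoothDescent

set_option autoImplicit false

namespace Fermat.Agent.BR.S0

open AlgebraicCurve IsLocalRing Fermat.Agent.Red Fermat.Agent.X0 Fermat.Agent.BR
  Fermat.Agent.BR.Centre

variable {K F k : Type*} [Field K] [Field F] [Algebra K F] [Field k]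
  {Ft : Type*} [Field Ft] [Algebra k Ft]

/-- The global normal model at a level, at a point `Q` of the component `(O, res)` which is not
a crossing point. -/
structure SmoothModel (A : ValuationSubring K) (π : A →+* k) (O : ValuationSubring F)
    (res : O →+* Ft) (Q : Place k Ft) (T : Set (Place K F)) (t : F) (C : Subring F)
    (ϖ : K) : Prop where
  noeth : IsNoetherianRing C
  intClosed : IsIntegrallyClosed C
  le : ∀ x ∈ C, x ∈ O
  /-- the reductions of the functions of the model are regular at the point -/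
  regular : ∀ x : C, Q.adicValuation (res ⟨x, le x x.2⟩) ≤ 1
  unif_ne : ϖ ≠ 0
  unif_lt : A.valuation ϖ < 1
  unif_mem : algebraMap K F ϖ ∈ C
  t_mem : t ∈ C
  t_van : Q.adicValuation (res ⟨t, le t t_mem⟩) < 1
  /-- locally at the point, the trace of `𝔪_O` on the model is generated by `ϖ` -/
  vert : ∀ x : C, (x : F) ∈ O.nonunits → ∃ y : C, ¬ Q.adicValuation (res ⟨y, le y y.2⟩) < 1 ∧
    (⟨algebraMap K F ϖ, unif_mem⟩ : C) ∣ y * x
  /-- locally at the point, the reduction of `t` generates the functions vanishing at `Q` -/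
  transversal : ∀ x : C, Q.adicValuation (res ⟨x, le x x.2⟩) < 1 →
    ∃ s c : C, ¬ Q.adicValuation (res ⟨s, le s s.2⟩) < 1 ∧
      res ⟨(s : F) * (x : F), le _ (C.mul_mem s.2 x.2)⟩ =
        res ⟨(c : F) * t, le _ (C.mul_mem c.2 t_mem)⟩
  /-- the values at `Q` are residues of constants of the model -/
  fullRes : ∀ x : C, ∃ (a : A) (_ : algebraMap K F a ∈ C),
    Q.adicValuation (res ⟨x, le x x.2⟩ - algebraMap k Ft (π a)) < 1
  /-- the places of the tube are integral on the model with centre the point -/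
  tube_centred : ∀ P ∈ T, ∃ h : IntegralAt A C P,
    ∀ x : C, x ∈ centre h ↔ Q.adicValuation (res ⟨x, le x x.2⟩) < 1
  /-- a place integral on the model with centre the point lies in the tube -/
  tube_of_centred : ∀ P : Place K F, (∃ h : IntegralAt A C P,
    ∀ x : C, x ∈ centre h ↔ Q.adicValuation (res ⟨x, le x x.2⟩) < 1) → P ∈ T

namespace SmoothModel

variable {A : ValuationSubring K} {π : A →+* k} {O : ValuationSubring F} {res : O →+* Ft}
  {Q : Place k Ft} {T : Set (Place K F)} {t : F} {C : Subring F} {ϖ : K}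

/-- The reduction map on the model. -/
def red (M : SmoothModel A π O res Q T t C ϖ) : C →+* Ft :=
  res.comp (Subring.inclusion M.le)

theorem red_apply (M : SmoothModel A π O res Q T t C ϖ) (x : C) :
    M.red x = res ⟨x, M.le x x.2⟩ := rfl

/-- The point: the functions of the model whose reduction vanishes at `Q`. -/
def point (M : SmoothModel A π O res Q T t C ϖ) : Ideal C where
  carrier := {x | Q.adicValuation (M.red x) < 1}
  add_mem' := by
    intro a b ha hb
    show Q.adicValuation (M.red (a + b)) < 1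
    rw [map_add]
    exact lt_of_le_of_lt (Q.adicValuation.map_add _ _) (max_lt ha hb)
  zero_mem' := by
    show Q.adicValuation (M.red 0) < 1
    rw [map_zero, map_zero]
    exact zero_lt_one
  smul_mem' := by
    intro c x hx
    show Q.adicValuation (M.red (c * x)) < 1
    rw [map_mul, map_mul]
    exact mul_lt_one_of_nonneg_of_lt_one_right (M.regular c) zero_le hx

theorem mem_point_iff (M : SmoothModel A π O res Q T t C ϖ) (x : C) :
    x ∈ M.point ↔ Q.adicValuation (res ⟨x, M.le x x.2⟩) < 1 := Iff.rfl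

theorem adicValuation_eq_one_of_notMem (M : SmoothModel A π O res Q T t C ϖ) {x : C}
    (hx : x ∉ M.point) : Q.adicValuation (M.red x) = 1 :=
  le_antisymm (M.regular x) (not_lt.mp hx)

instance point_isPrime (M : SmoothModel A π O res Q T t C ϖ) : M.point.IsPrime := by
  constructor
  · intro h
    have h1 : (1 : C) ∈ M.point := by rw [h]; trivial
    have h2 : Q.adicValuation (M.red 1) < 1 := h1
    rw [map_one, map_one] at h2
    exact lt_irrefl _ h2
  · intro x y hxy
    by_contra hcon
    rw [not_or] at hcon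
    have h1 := M.adicValuation_eq_one_of_notMem hcon.1
    have h2 := M.adicValuation_eq_one_of_notMem hcon.2
    have h3 : Q.adicValuation (M.red (x * y)) < 1 := hxy
    rw [map_mul, map_mul, h1, h2, one_mul] at h3
    exact lt_irrefl _ h3

/-- The local ring of the model at the point, as a subring of `F`. -/
noncomputable def loc (M : SmoothModel A π O res Q T t C ϖ) : Subring F :=
  (LocalSubring.ofPrime C M.point).toSubring

instance loc_isLocalRing (M : SmoothModel A π O res Q T t C ϖ) : IsLocalRing M.loc :=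
  (LocalSubring.ofPrime C M.point).isLocalRing

theorem le_loc (M : SmoothModel A π O res Q T t C ϖ) : C ≤ M.loc :=
  LocalSubring.le_ofPrime C M.point

noncomputable instance loc_algebra (M : SmoothModel A π O res Q T t C ϖ) : Algebra C M.loc :=
  inferInstanceAs (Algebra C (LocalSubring.ofPrime C M.point).toSubring)

instance loc_isLocalization (M : SmoothModel A π O res Q T t C ϖ) :
    IsLocalization.AtPrime M.loc M.point :=
  inferInstanceAs (IsLocalization.AtPrime (LocalSubring.ofPrime C M.point).toSubring M.point)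

theorem coe_algebraMap_loc (M : SmoothModel A π O res Q T t C ϖ) (x : C) :
    ((algebraMap C M.loc x : M.loc) : F) = x := rfl

/-- The elements of the local ring are the quotients with denominator outside the point. -/
theorem mem_loc_iff (M : SmoothModel A π O res Q T t C ϖ) {x : F} :
    x ∈ M.loc ↔ ∃ a b : C, b ∉ M.point ∧ x * (b : F) = (a : F) := by
  constructor
  · intro hx
    obtain ⟨⟨a, b⟩, hab⟩ := IsLocalization.surj M.point.primeCompl (⟨x, hx⟩ : M.loc)
    exact ⟨a, b, b.2, congrArg (fun z : M.loc => (z : F)) hab⟩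
  · rintro ⟨a, b, hb, hab⟩
    have hu : IsUnit (algebraMap C M.loc b) :=
      IsLocalization.map_units M.loc (⟨b, hb⟩ : M.point.primeCompl)
    obtain ⟨w, hw⟩ := isUnit_iff_exists_inv.mp hu
    have hwF : (b : F) * (w : F) = 1 := congrArg (fun z : M.loc => (z : F)) hw
    have hx : x = (a : F) * (w : F) := by
      rw [← hab, mul_assoc, hwF, mul_one]
    rw [hx]
    exact M.loc.mul_mem (M.le_loc a.2) w.2

/-- A function of the model is a unit of the local ring iff it lies outside the point. -/
theorem isUnit_coe_iff (M : SmoothModel A π O res Q T t C ϖ) (a : C) :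
    IsUnit (⟨(a : F), M.le_loc a.2⟩ : M.loc) ↔ a ∉ M.point :=
  IsLocalization.AtPrime.isUnit_to_map_iff M.loc M.point a

/-- A quotient `a / b`, `b` outside the point, is a unit of the local ring iff `a` lies outside
the point. -/
theorem isUnit_iff (M : SmoothModel A π O res Q T t C ϖ) {z : M.loc} {a b : C}
    (hb : b ∉ M.point) (hab : (z : F) * (b : F) = (a : F)) : IsUnit z ↔ a ∉ M.point := by
  rw [← M.isUnit_coe_iff a]
  have hbu : IsUnit (⟨(b : F), M.le_loc b.2⟩ : M.loc) := (M.isUnit_coe_iff b).mpr hb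
  have e : (⟨(a : F), M.le_loc a.2⟩ : M.loc) = z * ⟨(b : F), M.le_loc b.2⟩ :=
    Subtype.ext hab.symm
  rw [e]
  exact ⟨fun h => h.mul hbu, fun h => isUnit_of_mul_isUnit_left h⟩

/-- A function of the model outside the point is a unit of the component. -/
theorem inv_mem_of_notMem (M : SmoothModel A π O res Q T t C ϖ)
    (hres0 : ∀ x : O, (x : F) ∈ O.nonunits → res x = 0) {b : C} (hb : b ∉ M.point) :
    ((b : F))⁻¹ ∈ O := by
  have h1 : Q.adicValuation (M.red b) = 1 := M.adicValuation_eq_one_of_notMem hb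
  have h2 : (b : F) ∉ O.nonunits := by
    intro h
    have h3 : M.red b = 0 := hres0 ⟨b, M.le b b.2⟩ h
    rw [h3, map_zero] at h1
    exact zero_ne_one h1
  rw [ValuationSubring.mem_nonunits_iff_or] at h2
  by_contra h
  exact h2 (Or.inr h)

/-- The local ring lies in the component valuation ring. -/
theorem loc_le (M : SmoothModel A π O res Q T t C ϖ)
    (hres0 : ∀ x : O, (x : F) ∈ O.nonunits → res x = 0) : ∀ z ∈ M.loc, z ∈ O := by
  intro z hz
  obtain ⟨a, b, hb, hab⟩ := M.mem_loc_iff.mp hz
  have hb0 : (b : F) ≠ 0 := by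
    intro h0
    apply hb
    have : b = 0 := Subtype.ext h0
    rw [this]
    exact M.point.zero_mem
  have hz' : z = (a : F) * ((b : F))⁻¹ := by
    rw [← hab, mul_assoc, mul_inv_cancel₀ hb0, mul_one]
  rw [hz']
  exact O.mul_mem _ _ (M.le a a.2) (M.inv_mem_of_notMem hres0 hb)

/-- The reduction of a quotient. -/
theorem res_mul_red (M : SmoothModel A π O res Q T t C ϖ)
    (hres0 : ∀ x : O, (x : F) ∈ O.nonunits → res x = 0) {z : F} (hz : z ∈ M.loc) {a b : C}
    (hab : z * (b : F) = (a : F)) : res ⟨z, M.loc_le hres0 z hz⟩ * M.red b = M.red a := by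
  rw [red_apply, red_apply, ← map_mul]
  congr 1
  exact Subtype.ext hab

theorem coe_ne_zero_of_notMem (M : SmoothModel A π O res Q T t C ϖ) {b : C}
    (hb : b ∉ M.point) : (b : F) ≠ 0 := by
  intro h0
  apply hb
  have : b = 0 := Subtype.ext h0
  rw [this]
  exact M.point.zero_mem

/-- Quotients with denominator outside the point lie in the local ring. -/
theorem div_mem_loc (M : SmoothModel A π O res Q T t C ϖ) (a : C) {b : C}
    (hb : b ∉ M.point) : (a : F) * ((b : F))⁻¹ ∈ M.loc :=
  M.mem_loc_iff.mpr ⟨a, b, hb, by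
    rw [mul_assoc, inv_mul_cancel₀ (M.coe_ne_zero_of_notMem hb), mul_one]⟩

/-- **`nonunit_mem`**: the maximal ideal of the local ring is `(ϖ, t)`. -/
theorem loc_nonunit_mem (M : SmoothModel A π O res Q T t C ϖ)
    (hres0 : ∀ x : O, res x = 0 → (x : F) ∈ O.nonunits) (z : M.loc) (hz : ¬ IsUnit z) :
    z ∈ Ideal.span {(⟨algebraMap K F ϖ, M.le_loc M.unif_mem⟩ : M.loc), ⟨t, M.le_loc M.t_mem⟩} := by
  obtain ⟨a, b, hb, hab⟩ := M.mem_loc_iff.mp z.2
  have ha : a ∈ M.point := by
    by_contra ha
    exact hz ((M.isUnit_iff hb hab).mpr ha)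
  obtain ⟨s, c, hs, hsc⟩ := M.transversal a ha
  -- `d = s a - c t` reduces to `0`
  set d : C := s * a - c * ⟨t, M.t_mem⟩ with hd
  have hd0 : res ⟨(d : F), M.le d d.2⟩ = 0 := by
    have e : (⟨(d : F), M.le d d.2⟩ : O) =
        ⟨(s : F) * (a : F), M.le _ (C.mul_mem s.2 a.2)⟩ -
          ⟨(c : F) * t, M.le _ (C.mul_mem c.2 M.t_mem)⟩ := rfl
    rw [e, map_sub, hsc, sub_self]
  obtain ⟨y, hy, e, hye⟩ := M.vert d (hres0 _ hd0)
  have hsp : s ∉ M.point := hs
  have hyp : y ∉ M.point := hy
  have hysb : y * s * b ∉ M.point := fun h =>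
    (M.point_isPrime.mem_or_mem h).elim
      (fun h' => (M.point_isPrime.mem_or_mem h').elim hyp hsp) hb
  have hy0 := M.coe_ne_zero_of_notMem hyp
  have hs0 := M.coe_ne_zero_of_notMem hsp
  have hb0 := M.coe_ne_zero_of_notMem hb
  have hyeF : (y : F) * ((s : F) * (a : F) - (c : F) * t) = algebraMap K F ϖ * (e : F) := by
    have h1 := congrArg (fun x : C => (x : F)) hye
    simp only [Subring.coe_mul] at h1
    exact h1
  rw [Ideal.mem_span_pair]
  refine ⟨⟨(e : F) * (((y * s * b : C) : F))⁻¹, M.div_mem_loc e hysb⟩,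
    ⟨((y * c : C) : F) * (((y * s * b : C) : F))⁻¹, M.div_mem_loc (y * c) hysb⟩, ?_⟩
  apply Subtype.ext
  show (e : F) * (((y * s * b : C) : F))⁻¹ * algebraMap K F ϖ +
      ((y * c : C) : F) * (((y * s * b : C) : F))⁻¹ * t = (z : F)
  have hz' : (z : F) = (a : F) * ((b : F))⁻¹ := by
    rw [← hab, mul_assoc, mul_inv_cancel₀ hb0, mul_one]
  rw [hz', Subring.coe_mul, Subring.coe_mul, Subring.coe_mul]
  have h1 : (e : F) * algebraMap K F ϖ = (y : F) * ((s : F) * (a : F) - (c : F) * t) := by
    rw [hyeF, mul_comm]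
  field_simp
  linear_combination h1

/-- **`vert`**: the trace of `𝔪_O` on the local ring is generated by `ϖ`. -/
theorem loc_vert (M : SmoothModel A π O res Q T t C ϖ)
    (z : M.loc) (hz : (z : F) ∈ O.nonunits) :
    (⟨algebraMap K F ϖ, M.le_loc M.unif_mem⟩ : M.loc) ∣ z := by
  obtain ⟨a, b, hb, hab⟩ := M.mem_loc_iff.mp z.2
  have ha : (a : F) ∈ O.nonunits := by
    rw [← hab, ValuationSubring.mem_nonunits_iff, map_mul]
    exact mul_lt_one_of_nonneg_of_lt_one_left zero_le
      ((ValuationSubring.mem_nonunits_iff O).mp hz) ((O.valuation_le_one_iff _).mpr (M.le b b.2))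
  obtain ⟨y, hy, e, hye⟩ := M.vert a ha
  have hyp : y ∉ M.point := hy
  have hyb : y * b ∉ M.point := fun h => (M.point_isPrime.mem_or_mem h).elim hyp hb
  have hy0 := M.coe_ne_zero_of_notMem hyp
  have hb0 := M.coe_ne_zero_of_notMem hb
  have hyeF : (y : F) * (a : F) = algebraMap K F ϖ * (e : F) := by
    have := congrArg (fun x : C => (x : F)) hye
    simpa only [Subring.coe_mul] using this
  refine ⟨⟨(e : F) * (((y * b : C) : F))⁻¹, M.div_mem_loc e hyb⟩, ?_⟩
  apply Subtype.ext
  show (z : F) = algebraMap K F ϖ * ((e : F) * (((y * b : C) : F))⁻¹)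
  have hz' : (z : F) = (a : F) * ((b : F))⁻¹ := by
    rw [← hab, mul_assoc, mul_inv_cancel₀ hb0, mul_one]
  rw [hz', Subring.coe_mul]
  field_simp
  linear_combination hyeF

/-- **`centred`**: the places of the tube are centred at the local ring. -/
theorem loc_centred (M : SmoothModel A π O res Q T t C ϖ) {P : Place K F} (hP : P ∈ T) :
    CentredAt A M.loc P := by
  obtain ⟨h, hcen⟩ := M.tube_centred P hP
  -- values of quotients
  have key : ∀ (a : C) {b : C}, b ∉ M.point → ∃ c : K, c ∈ A ∧
      IsValueAt P ((a : F) * ((b : F))⁻¹) c ∧ (a ∈ M.point → A.valuation c < 1) := by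
    intro a b hb
    have hb' : (⟨(b : F), b.2⟩ : C) ∉ centre h := fun hbc => hb ((hcen b).mp hbc)
    obtain ⟨cb, hcbA, hcb⟩ := h.inv_mem b.2 hb'
    have hca := h.isValueAt_evalAt a.2
    refine ⟨evalAt P (a : F) * cb, A.mul_mem _ _ (h.evalAt_mem a.2) hcbA, hca.mul hcb, ?_⟩
    intro ha
    have h1 : A.valuation (evalAt P (a : F)) < 1 := (mem_centre_iff h a).mp ((hcen a).mpr ha)
    rw [map_mul]
    exact mul_lt_one_of_nonneg_of_lt_one_left zero_le h1 ((A.valuation_le_one_iff _).mpr hcbA)
  have hint : IntegralAt A M.loc P := by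
    intro z hz
    obtain ⟨a, b, hb, hab⟩ := M.mem_loc_iff.mp hz
    obtain ⟨c, hcA, hc, -⟩ := key a hb
    have hz' : z = (a : F) * ((b : F))⁻¹ := by
      rw [← hab, mul_assoc, mul_inv_cancel₀ (M.coe_ne_zero_of_notMem hb), mul_one]
    exact ⟨c, hcA, hz' ▸ hc⟩
  refine ⟨hint, fun z hz => ?_⟩
  obtain ⟨a, b, hb, hab⟩ := M.mem_loc_iff.mp z.2
  have ha : a ∈ M.point := by
    by_contra ha
    exact hz ((M.isUnit_iff hb hab).mpr ha)
  obtain ⟨c, -, hc, hclt⟩ := key a hb
  have hz' : (z : F) = (a : F) * ((b : F))⁻¹ := by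
    rw [← hab, mul_assoc, mul_inv_cancel₀ (M.coe_ne_zero_of_notMem hb), mul_one]
  rw [mem_centre_iff, hz', evalAt_eq_of_isValueAt hc]
  exact hclt ha

/-- **`branch`**: the non-units of the local ring vanish at the point. -/
theorem loc_branch (M : SmoothModel A π O res Q T t C ϖ)
    (hres0 : ∀ x : O, (x : F) ∈ O.nonunits → res x = 0) (z : M.loc) (hz : ¬ IsUnit z) :
    Q.adicValuation (res ⟨z, M.loc_le hres0 z z.2⟩) < 1 := by
  obtain ⟨a, b, hb, hab⟩ := M.mem_loc_iff.mp z.2
  have ha : a ∈ M.point := by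
    by_contra ha
    exact hz ((M.isUnit_iff hb hab).mpr ha)
  have h1 := M.res_mul_red hres0 z.2 hab
  have h2 := congrArg Q.adicValuation h1
  rw [map_mul, M.adicValuation_eq_one_of_notMem hb, mul_one] at h2
  rw [h2]
  exact ha

/-- **`residue`**: the residue field of the local ring is the residue field of `A`. -/
theorem loc_residue (M : SmoothModel A π O res Q T t C ϖ)
    (hres : ∀ (a : K) (ha : a ∈ A) (h : algebraMap K F a ∈ O),
      res ⟨algebraMap K F a, h⟩ = algebraMap k Ft (π ⟨a, ha⟩))
    (hπ : ∀ a : A, π a ≠ 0 → (a : K)⁻¹ ∈ A) (z : M.loc) :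
    ∃ (c : A) (h : algebraMap K F c ∈ M.loc), ¬ IsUnit (z - ⟨algebraMap K F c, h⟩) := by
  obtain ⟨a, b, hb, hab⟩ := M.mem_loc_iff.mp z.2
  obtain ⟨α, hαC, hα⟩ := M.fullRes a
  obtain ⟨β, hβC, hβ⟩ := M.fullRes b
  have hredα : M.red ⟨algebraMap K F α, hαC⟩ = algebraMap k Ft (π α) := hres α α.2 _
  have hredβ : M.red ⟨algebraMap K F β, hβC⟩ = algebraMap k Ft (π β) := hres β β.2 _
  -- `π β ≠ 0`
  have hβ0 : π β ≠ 0 := by
    intro h0
    rw [h0, map_zero, sub_zero] at hβ
    exact hb hβ
  have hβinv : (β : K)⁻¹ ∈ A := hπ β hβ0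
  have hβK : (β : K) ≠ 0 := by
    intro h0
    apply hβ0
    have : β = 0 := Subtype.ext h0
    rw [this, map_zero]
  have hβp : (⟨algebraMap K F β, hβC⟩ : C) ∉ M.point := by
    intro h
    have h1 : Q.adicValuation (M.red ⟨algebraMap K F β, hβC⟩) < 1 := h
    rw [hredβ, adicValuation_algebraMap_of_ne_zero Q hβ0] at h1
    exact lt_irrefl _ h1
  have hbβ : b * ⟨algebraMap K F β, hβC⟩ ∉ M.point := fun h =>
    (M.point_isPrime.mem_or_mem h).elim hb hβp
  set γ : A := ⟨(α : K) * (β : K)⁻¹, A.mul_mem _ _ α.2 hβinv⟩ with hγ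
  have hγF : algebraMap K F γ = algebraMap K F α * (algebraMap K F β)⁻¹ := by
    rw [hγ, map_mul, map_inv₀]
  have hγmem : algebraMap K F γ ∈ M.loc := by
    rw [hγF]
    exact M.div_mem_loc ⟨algebraMap K F α, hαC⟩ hβp
  refine ⟨γ, hγmem, ?_⟩
  -- `z - γ = (a β - α b) / (b β)` with numerator in the point
  set num : C := a * ⟨algebraMap K F β, hβC⟩ - ⟨algebraMap K F α, hαC⟩ * b with hnum
  have hb0 := M.coe_ne_zero_of_notMem hb
  have hβF : algebraMap K F (β : K) ≠ 0 := (map_ne_zero _).mpr hβK
  have hq : (((z - ⟨algebraMap K F γ, hγmem⟩ : M.loc)) : F) *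
      ((b * ⟨algebraMap K F β, hβC⟩ : C) : F) = (num : F) := by
    show ((z : F) - algebraMap K F γ) * ((b : F) * algebraMap K F β) =
      (a : F) * algebraMap K F β - algebraMap K F α * (b : F)
    rw [hγF, ← hab]
    field_simp
  rw [M.isUnit_iff hbβ hq, not_not]
  show Q.adicValuation (M.red num) < 1
  have e : M.red num = (M.red a - algebraMap k Ft (π α)) * algebraMap k Ft (π β) -
      algebraMap k Ft (π α) * (M.red b - algebraMap k Ft (π β)) := by
    rw [hnum, map_sub, map_mul, map_mul, hredα, hredβ]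
    ring
  rw [e]
  refine lt_of_le_of_lt (Valuation.map_sub _ _ _) (max_lt ?_ ?_)
  · rw [map_mul]
    exact mul_lt_one_of_nonneg_of_lt_one_left zero_le hα (Q.adicValuation_algebraMap_le_one _)
  · rw [map_mul]
    exact mul_lt_one_of_nonneg_of_lt_one_right (Q.adicValuation_algebraMap_le_one _) zero_le hβ

/-- A place centred at the local ring lies in the tube. -/
theorem mem_tube_of_centredAt (M : SmoothModel A π O res Q T t C ϖ) {P : Place K F}
    (hP : CentredAt A M.loc P) : P ∈ T := by
  apply M.tube_of_centred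
  have hI : IntegralAt A C P := hP.choose.mono M.le_loc
  refine ⟨hI, fun x => ?_⟩
  rw [mem_centre_iff hI x, ← M.mem_point_iff x]
  have h1 := hP.mem_centre_iff_not_isUnit (⟨(x : F), M.le_loc x.2⟩ : M.loc)
  rw [mem_centre_iff hP.choose] at h1
  rw [h1, M.isUnit_coe_iff, not_not]

/-- **`horiz`**: every nonzero prime of the local ring is the kernel of the evaluation at a place
of the tube, given the existence of a place centred at the local ring over every nonzero prime
(`PlaceLift.exists_centredAt_of_prime`). -/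
theorem loc_horiz (M : SmoothModel A π O res Q T t C ϖ)
    (hPL : ∀ p : Ideal M.loc, p.IsPrime → p ≠ ⊥ →
      ∃ P : Place K F, CentredAt A M.loc P ∧ ∀ y : M.loc, evalAt P (y : F) = 0 ↔ y ∈ p)
    (p : Ideal M.loc) (hp : p.IsPrime) (hht : p.height = 1) :
    ∃ P ∈ T, ∀ x : M.loc, x ∈ p ↔ evalAt P (x : F) = 0 := by
  have hpbot : p ≠ ⊥ := Ideal.ne_bot_of_height_eq_one hht
  obtain ⟨P, hcen, hev⟩ := hPL p hp hpbot
  exact ⟨P, M.mem_tube_of_centredAt hcen, fun x => (hev x).symm⟩

/-- **The level of a global model**: the local ring of the model at the point is a level of the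
smooth chart. -/
theorem level (M : SmoothModel A π O res Q T t C ϖ)
    (hres : ∀ (a : K) (ha : a ∈ A) (h : algebraMap K F a ∈ O),
      res ⟨algebraMap K F a, h⟩ = algebraMap k Ft (π ⟨a, ha⟩))
    (hres0 : ∀ x : O, res x = 0 ↔ (x : F) ∈ O.nonunits)
    (hπ : ∀ a : A, π a ≠ 0 → (a : K)⁻¹ ∈ A)
    (hPL : ∀ p : Ideal M.loc, p.IsPrime → p ≠ ⊥ →
      ∃ P : Place K F, CentredAt A M.loc P ∧ ∀ y : M.loc, evalAt P (y : F) = 0 ↔ y ∈ p) :
    SmoothLevel A O res Q T t M.loc ϖ where
  noeth :=
    have := M.noeth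
    IsLocalization.isNoetherianRing M.point.primeCompl M.loc inferInstance
  isLocal := inferInstance
  intClosed :=
    have := M.intClosed
    isIntegrallyClosed_of_isLocalization M.loc M.point.primeCompl
      M.point.primeCompl_le_nonZeroDivisors
  le := M.loc_le fun x hx => (hres0 x).mpr hx
  t_mem := M.le_loc M.t_mem
  t_nonunit := by
    rw [M.isUnit_coe_iff ⟨t, M.t_mem⟩, not_not]
    exact M.t_van
  unif_ne := M.unif_ne
  unif_lt := M.unif_lt
  unif_mem := M.le_loc M.unif_mem
  nonunit_mem := M.loc_nonunit_mem fun x hx => (hres0 x).mp hx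
  vert := M.loc_vert
  centred := fun _ hP => M.loc_centred hP
  residue := M.loc_residue hres hπ
  branch := M.loc_branch fun x hx => (hres0 x).mpr hx
  horiz := fun p hp hht _ => M.loc_horiz hPL p hp hht

end SmoothModel

end Fermat.Agent.BR.S0
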