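/-
Program B (bad reduction), node B6.6-CONS, producer side, part 3 (helper24): the smooth chart
from a directed family of GLOBAL models.

* `SmoothModel.level_of_horiz` : `SmoothModel.level` with the existence of places over the
  horizontal height-one primes of the local ring given directly (shape (L5)).
* `SmoothModel.loc_mono` : the local ring at the point is monotone in the model.
* `SmoothFamily.ofModels` : a directed family of models `C i` exhausting `F` and `A` gives the
  directed family of levels `(M i).loc`.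
* `smoothChartOfModels : SmoothChart A O res Q T`.
-/
import Mathlib
import Fermat.Agent.BR.S0.SmoothModel

set_option autoImplicit false

namespace Fermat.Agent.BR.S0

open AlgebraicCurve IsLocalRing Fermat.Agent.Red Fermat.Agent.X0 Fermat.Agent.BR
  Fermat.Agent.BR.Centre

variable {K F k : Type*} [Field K] [Field F] [Algebra K F] [Field k]
  {Ft : Type*} [Field Ft] [Algebra k Ft]

namespace SmoothModel

variable {A : ValuationSubring K} {π : A →+* k} {O : ValuationSubring F} {res : O →+* Ft}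
  {Q : Place k Ft} {T : Set (Place K F)} {t : F} {C C' : Subring F} {ϖ ϖ' : K}

/-- **The level of a global model**, with the places over the horizontal height-one primes of
the local ring given directly: every height-one prime of the local ring not containing `ϖ` is
the kernel of the evaluation at a place centred at the local ring. -/
theorem level_of_horiz (M : SmoothModel A π O res Q T t C ϖ)
    (hres : ∀ (a : K) (ha : a ∈ A) (h : algebraMap K F a ∈ O),
      res ⟨algebraMap K F a, h⟩ = algebraMap k Ft (π ⟨a, ha⟩))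
    (hres0 : ∀ x : O, res x = 0 ↔ (x : F) ∈ O.nonunits)
    (hπ : ∀ a : A, π a ≠ 0 → (a : K)⁻¹ ∈ A)
    (horiz : ∀ p : Ideal M.loc, p.IsPrime → p.height = 1 →
      (⟨algebraMap K F ϖ, M.le_loc M.unif_mem⟩ : M.loc) ∉ p →
      ∃ P : Place K F, CentredAt A M.loc P ∧ ∀ y : M.loc, evalAt P (y : F) = 0 ↔ y ∈ p) :
    SmoothLevel A O res Q T t M.loc ϖ where
  noeth :=
    have := M.noeth
    IsLocalization.isNoetherianRing M.point.primeCompl M.loc inferInstance
  isLocal := inferInstance
  intClosed :=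
    have := M.intClosed
    isIntegrallyClosed_of_isLocalization M.loc M.point.primeCompl
      M.point.primeCompl_le_nonZeroDivisors
  le := M.loc_le fun x hx => (hres0 x).mpr hx
  t_mem := M.le_loc M.t_mem
  t_nonunit := by
    rw [M.isUnit_coe_iff ⟨t, M.t_mem⟩, not_not]
    exact M.t_van
  unif_ne := M.unif_ne
  unif_lt := M.unif_lt
  unif_mem := M.le_loc M.unif_mem
  nonunit_mem := M.loc_nonunit_mem fun x hx => (hres0 x).mp hx
  vert := M.loc_vert
  centred := fun _ hP => M.loc_centred hP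
  residue := M.loc_residue hres hπ
  branch := M.loc_branch fun x hx => (hres0 x).mpr hx
  horiz := fun p hp hht hϖ => by
    obtain ⟨P, hcen, hev⟩ := horiz p hp hht hϖ
    exact ⟨P, M.mem_tube_of_centredAt hcen, fun x => (hev x).symm⟩

/-- The local ring at the point is monotone in the model. -/
theorem loc_mono (M : SmoothModel A π O res Q T t C ϖ) (M' : SmoothModel A π O res Q T t C' ϖ')
    (h : C ≤ C') : M.loc ≤ M'.loc := by
  intro x hx
  obtain ⟨a, b, hb, hab⟩ := M.mem_loc_iff.mp hx
  exact M'.mem_loc_iff.mpr ⟨⟨a, h a.2⟩, ⟨b, h b.2⟩, hb, hab⟩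

end SmoothModel

variable {A : ValuationSubring K} {π : A →+* k} {O : ValuationSubring F} {res : O →+* Ft}
  {Q : Place k Ft} {T : Set (Place K F)} {t : F}

/-- **The family of levels of a directed family of global models.** -/
theorem SmoothFamily.ofModels {ι : Type*} [Nonempty ι] {C : ι → Subring F} {ϖ : ι → K}
    (M : ∀ i, SmoothModel A π O res Q T t (C i) (ϖ i))
    (hdir : ∀ i j, ∃ l, C i ≤ C l ∧ C j ≤ C l)
    (hfrac : ∀ y : F, ∃ i, ∃ a b : C i, b ≠ 0 ∧ y * (b : F) = (a : F))
    (hconst : ∀ a ∈ A, ∃ i, algebraMap K F a ∈ C i)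
    (hres : ∀ (a : K) (ha : a ∈ A) (h : algebraMap K F a ∈ O),
      res ⟨algebraMap K F a, h⟩ = algebraMap k Ft (π ⟨a, ha⟩))
    (hres0 : ∀ x : O, res x = 0 ↔ (x : F) ∈ O.nonunits)
    (hπ : ∀ a : A, π a ≠ 0 → (a : K)⁻¹ ∈ A)
    (horiz : ∀ i, ∀ p : Ideal (M i).loc, p.IsPrime → p.height = 1 →
      (⟨algebraMap K F (ϖ i), (M i).le_loc (M i).unif_mem⟩ : (M i).loc) ∉ p →
      ∃ P : Place K F, CentredAt A (M i).loc P ∧ ∀ y : (M i).loc, evalAt P (y : F) = 0 ↔ y ∈ p) :
    SmoothFamily A O res Q T t (fun i => (M i).loc) ϖ where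
  nonempty := inferInstance
  level i := (M i).level_of_horiz hres hres0 hπ (horiz i)
  directed i j := by
    obtain ⟨l, hil, hjl⟩ := hdir i j
    exact ⟨l, (M i).loc_mono (M l) hil, (M j).loc_mono (M l) hjl⟩
  frac y := by
    obtain ⟨i, a, b, hb, hab⟩ := hfrac y
    refine ⟨i, ⟨a, (M i).le_loc a.2⟩, ⟨b, (M i).le_loc b.2⟩, ?_, hab⟩
    intro h0
    apply hb
    apply Subtype.ext
    exact congrArg (fun x : (M i).loc => (x : F)) h0
  const a ha := by
    obtain ⟨i, hi⟩ := hconst a ha
    exact ⟨i, (M i).le_loc hi⟩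

/-- **The smooth chart of a directed family of global models.** -/
noncomputable def smoothChartOfModels {ι : Type*} [Nonempty ι] {C : ι → Subring F} {ϖ : ι → K}
    (M : ∀ i, SmoothModel A π O res Q T t (C i) (ϖ i))
    (hdir : ∀ i j, ∃ l, C i ≤ C l ∧ C j ≤ C l)
    (hfrac : ∀ y : F, ∃ i, ∃ a b : C i, b ≠ 0 ∧ y * (b : F) = (a : F))
    (hconst : ∀ a ∈ A, ∃ i, algebraMap K F a ∈ C i)
    (hres : ∀ (a : K) (ha : a ∈ A) (h : algebraMap K F a ∈ O),
      res ⟨algebraMap K F a, h⟩ = algebraMap k Ft (π ⟨a, ha⟩))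
    (hres0 : ∀ x : O, res x = 0 ↔ (x : F) ∈ O.nonunits)
    (hπ : ∀ a : A, π a ≠ 0 → (a : K)⁻¹ ∈ A)
    (hAO : ∀ c : K, A.valuation c < 1 → algebraMap K F c ∈ O.nonunits)
    (hord : ∀ h : t ∈ O, Q.ord (res ⟨t, h⟩) = 1)
    (horiz : ∀ i, ∀ p : Ideal (M i).loc, p.IsPrime → p.height = 1 →
      (⟨algebraMap K F (ϖ i), (M i).le_loc (M i).unif_mem⟩ : (M i).loc) ∉ p →
      ∃ P : Place K F, CentredAt A (M i).loc P ∧ ∀ y : (M i).loc, evalAt P (y : F) = 0 ↔ y ∈ p) :
    SmoothChart A O res Q T :=
  (SmoothFamily.ofModels M hdir hfrac hconst hres hres0 hπ horiz).chart hres hAO hord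

end Fermat.Agent.BR.S0
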