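/-
Program B (bad reduction), node B6.6-CONS (helper24): the point of a homomorphism.

`Dk` a Dedekind chart of the component (`Dk ⊆ Ft`, fraction field `Ft`, `k ⊆ Dk`; for `X₀(qM)`:
`Dk = C_k`, the integral closure of `k[j̃]` in `F̃_M`), `C ⊆ F` the model at a level, reducing ONTO
`Dk` on the component `(O, res)` (`red : C →+* Dk`, `res = red` followed by `Dk ⊆ Ft`).

* `exists_place_of_hom` : a `k`-point `ψ : Dk →+* k` of the chart is a place `Q'` of `Ft`:
  the value of `d ∈ Dk` at `Q'` is `ψ d`;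
* `exists_place_of_hom_on_model` : a homomorphism `φ : C →+* k` killing `ker red` and equal to `π`
  on the constants is the evaluation at a place of `Ft` of the residues of the functions of `C`;
* `exists_isRedOf_of_integralAt` : **total at a level** — a place `P` integral on `C` has a
  reduction tested on `C` on one of the two components, when `P₁ ⊓ P₂ ≤ (ϖ)`
  (= the hypothesis `htot` of `SmoothTube`);
* `exists_glued_of_forall_lt` : if every function of `C` vanishing identically on the other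
  component vanishes at the point `Q`, then `Q` is glued on `C` to a point of the other component;
* `exists_notMem_of_not_crossing_zero`, `exists_notMem_of_not_crossing_one` : hence at a point
  which is not a crossing of the chart data `D` (`D.Rfin ≤ C`) some function of `C` vanishing
  identically on the other component does not vanish at `Q` (= the hypothesis `h2` of
  `SmoothModelOf.smoothModel_of_twoComponents`).
-/
import Mathlib
import Fermat.Agent.X0.Alg.EssFT
import Fermat.Agent.BR.S0.PointDict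

set_option autoImplicit false

namespace Fermat.Agent.BR.S0.PointOfHom

open AlgebraicCurve IsDedekindDomain Fermat.Agent.Red Fermat.Agent.X0 Fermat.Agent.BR.Centre
  Fermat.Agent.BR.S0.RedModular Fermat.Agent.BR.S0.PointDict

variable {k Ft : Type*} [Field k] [Field Ft] [Algebra k Ft]
  {Dk : Type*} [CommRing Dk] [IsDedekindDomain Dk] [Algebra Dk Ft] [IsFractionRing Dk Ft]
  [Algebra k Dk] [IsScalarTower k Dk Ft]

/-- **A `k`-point of a Dedekind chart is a place**: the value of `d` at the place is `ψ d`. -/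
theorem exists_place_of_hom (hnf : ¬ IsField Dk) (ψ : Dk →+* k)
    (hψ : ∀ c : k, ψ (algebraMap k Dk c) = c) :
    ∃ Q' : Place k Ft, ∀ d : Dk, IsValueAt Q' (algebraMap Dk Ft d) (ψ d) := by
  have hsurj : Function.Surjective ψ := fun c => ⟨algebraMap k Dk c, hψ c⟩
  have hprime : (RingHom.ker ψ).IsPrime := RingHom.ker_isPrime ψ
  have hne : RingHom.ker ψ ≠ ⊥ := by
    intro hbot
    have hinj : Function.Injective ψ := (RingHom.injective_iff_ker_eq_bot ψ).mpr hbot
    exact hnf (MulEquiv.isField (Field.toIsField k)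
      (RingEquiv.ofBijective ψ ⟨hinj, hsurj⟩).toMulEquiv)
  let w : HeightOneSpectrum Dk := ⟨RingHom.ker ψ, hprime, hne⟩
  refine ⟨Place.ofHeightOneSpectrum (K := k) (F := Ft) w, fun d => ?_⟩
  have hmem : d - algebraMap k Dk (ψ d) ∈ w.asIdeal := by
    show d - algebraMap k Dk (ψ d) ∈ RingHom.ker ψ
    rw [RingHom.mem_ker, map_sub, hψ, sub_self]
  show (Place.ofHeightOneSpectrum (K := k) (F := Ft) w).adicValuation
    (algebraMap Dk Ft d - algebraMap k Ft (ψ d)) < 1
  rw [IsScalarTower.algebraMap_apply k Dk Ft, ← map_sub, Place.adicValuation_ofHeightOneSpectrum,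
    HeightOneSpectrum.valuation_of_algebraMap]
  exact (w.intValuation_lt_one_iff_mem _).mpr hmem

variable {K F : Type*} [Field K] [Field F] [Algebra K F] {A : ValuationSubring K} {π : A →+* k}

/-- **A point of the model is a place of the component.** `red : C →+* Dk` onto with
`res = red` followed by `Dk ⊆ Ft`; `φ : C →+* k` kills `ker red` and is `π` on the constants of
`C`; the constants of `C` fill `k`. Then `φ` is the evaluation at a place of `Ft`. -/
theorem exists_place_of_hom_on_model (hnf : ¬ IsField Dk) {C : Subring F}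
    {O : ValuationSubring F} {res : O →+* Ft} (le : ∀ x ∈ C, x ∈ O)
    (hres : ∀ (a : K) (ha : a ∈ A) (h : algebraMap K F a ∈ O),
      res ⟨algebraMap K F a, h⟩ = algebraMap k Ft (π ⟨a, ha⟩))
    (red : C →+* Dk) (hred : ∀ x : C, algebraMap Dk Ft (red x) = res ⟨x, le x x.2⟩)
    (hsurj : Function.Surjective red)
    (hfull : ∀ c : k, ∃ a : A, algebraMap K F (a : K) ∈ C ∧ π a = c)
    (φ : C →+* k) (hker : ∀ x : C, red x = 0 → φ x = 0)
    (hφ : ∀ (a : A) (h : algebraMap K F (a : K) ∈ C), φ ⟨algebraMap K F (a : K), h⟩ = π a) :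
    ∃ Q' : Place k Ft, ∀ x : C, IsValueAt Q' (res ⟨x, le x x.2⟩) (φ x) := by
  have hle : RingHom.ker red ≤ RingHom.ker φ := fun x hx =>
    (RingHom.mem_ker).mpr (hker x ((RingHom.mem_ker).mp hx))
  let ψ : Dk →+* k := RingHom.liftOfRightInverse red (Function.surjInv hsurj)
    (Function.rightInverse_surjInv hsurj) ⟨φ, hle⟩
  have hψred : ∀ x : C, ψ (red x) = φ x := fun x =>
    RingHom.liftOfRightInverse_comp_apply red (Function.surjInv hsurj)
      (Function.rightInverse_surjInv hsurj) ⟨φ, hle⟩ x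
  have hψ : ∀ c : k, ψ (algebraMap k Dk c) = c := by
    intro c
    obtain ⟨a, haC, hac⟩ := hfull c
    have h1 : red ⟨algebraMap K F (a : K), haC⟩ = algebraMap k Dk c := by
      apply IsFractionRing.injective Dk Ft
      rw [hred, ← IsScalarTower.algebraMap_apply k Dk Ft, ← hac]
      exact hres (a : K) a.2 _
    rw [← h1, hψred, hφ, hac]
  obtain ⟨Q', hQ'⟩ := exists_place_of_hom (Ft := Ft) hnf ψ hψ
  refine ⟨Q', fun x => ?_⟩
  have := hQ' (red x)
  rwa [hred, hψred] at this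

/-- **Total at a level.** The two components `(O v, res v)`, `v = 0, 1`, the model `C ≤ O v`
reducing onto the Dedekind chart `Dk` on both, `P₁ ⊓ P₂ ≤ (ϖ)` (`P_v = ker (red v)`), FullRes.
Then every place integral on `C` has a reduction, tested on `C`, on one of the two components. -/
theorem exists_isRedOf_of_integralAt (hnf : ¬ IsField Dk)
    (hπ0 : ∀ a : A, A.valuation (a : K) < 1 → π a = 0) {C : Subring F}
    {O : Fin 2 → ValuationSubring F} {res : ∀ v, O v →+* Ft} (hCO : ∀ v, C ≤ (O v).toSubring)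
    (hres : ∀ v (a : K) (ha : a ∈ A) (h : algebraMap K F a ∈ O v),
      res v ⟨algebraMap K F a, h⟩ = algebraMap k Ft (π ⟨a, ha⟩))
    (red : Fin 2 → C →+* Dk)
    (hred : ∀ v (x : C), algebraMap Dk Ft (red v x) = res v ⟨x, hCO v x.2⟩)
    (hsurj : ∀ v, Function.Surjective (red v))
    (hfull : ∀ c : k, ∃ a : A, algebraMap K F (a : K) ∈ C ∧ π a = c)
    {ϖ : K} (hϖ1 : A.valuation ϖ < 1) (hϖC : algebraMap K F ϖ ∈ C)
    (hinf : ∀ x : C, red 0 x = 0 → red 1 x = 0 → (⟨algebraMap K F ϖ, hϖC⟩ : C) ∣ x)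
    (P : Place K F) (hP : IntegralAt A C P) :
    ∃ (v : Fin 2) (Q' : Place k Ft), IsRedOf A π C (O v) (res v) (hCO v) P Q' := by
  let φ : C →+* k := π.comp (evHom A C P hP)
  have hφϖ : φ ⟨algebraMap K F ϖ, hϖC⟩ = 0 := by
    apply hπ0
    rw [coe_evHom, evalAt_eq_of_isValueAt (isValueAt_algebraMap P ϖ)]
    exact hϖ1
  have hφ : ∀ (a : A) (h : algebraMap K F (a : K) ∈ C), φ ⟨algebraMap K F (a : K), h⟩ = π a := by
    intro a h
    show π (evHom A C P hP ⟨algebraMap K F (a : K), h⟩) = π a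
    congr 1
    apply Subtype.ext
    rw [coe_evHom]
    exact evalAt_eq_of_isValueAt (isValueAt_algebraMap P _)
  -- `φ` kills `ker (red 0)` or `ker (red 1)`
  have hcases : (∀ x : C, red 0 x = 0 → φ x = 0) ∨ (∀ x : C, red 1 x = 0 → φ x = 0) := by
    by_contra hcon
    rw [not_or] at hcon
    obtain ⟨h0, h1⟩ := hcon
    rw [not_forall] at h0 h1
    obtain ⟨x, hx⟩ := h0
    obtain ⟨y, hy⟩ := h1
    rw [Classical.not_imp] at hx hy
    have hxy : (⟨algebraMap K F ϖ, hϖC⟩ : C) ∣ x * y :=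
      hinf (x * y) (by rw [map_mul, hx.1, zero_mul]) (by rw [map_mul, hy.1, mul_zero])
    obtain ⟨z, hz⟩ := hxy
    have h2 : φ x * φ y = 0 := by
      rw [← map_mul, hz, map_mul, hφϖ, zero_mul]
    rcases mul_eq_zero.mp h2 with h | h
    · exact hx.2 h
    · exact hy.2 h
  rcases hcases with h | h
  · obtain ⟨Q', hQ'⟩ := exists_place_of_hom_on_model hnf (fun x hx => hCO 0 hx) (hres 0) (red 0)
      (hred 0) (hsurj 0) hfull φ h hφ
    exact ⟨0, Q', hP, fun y hy => hQ' ⟨y, hy⟩⟩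
  · obtain ⟨Q', hQ'⟩ := exists_place_of_hom_on_model hnf (fun x hx => hCO 1 hx) (hres 1) (red 1)
      (hred 1) (hsurj 1) hfull φ h hφ
    exact ⟨1, Q', hP, fun y hy => hQ' ⟨y, hy⟩⟩

/-- **A point through which the other component passes is glued.** `Q` a point of the component
`(Oa, resa)` at which the residues of `C` are regular; if every function of `C` vanishing
identically on the other component `(Ob, resb)` vanishes at `Q`, then there is a point `Q'` of the
other component with the same values on `C`. -/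
theorem exists_glued_of_forall_lt (hnf : ¬ IsField Dk) {C : Subring F}
    {Oa Ob : ValuationSubring F} {resa : Oa →+* Ft} {resb : Ob →+* Ft}
    (lea : ∀ x ∈ C, x ∈ Oa) (leb : ∀ x ∈ C, x ∈ Ob)
    (hresa : ∀ (a : K) (ha : a ∈ A) (h : algebraMap K F a ∈ Oa),
      resa ⟨algebraMap K F a, h⟩ = algebraMap k Ft (π ⟨a, ha⟩))
    (hresb : ∀ (a : K) (ha : a ∈ A) (h : algebraMap K F a ∈ Ob),
      resb ⟨algebraMap K F a, h⟩ = algebraMap k Ft (π ⟨a, ha⟩))
    (redb : C →+* Dk) (hredb : ∀ x : C, algebraMap Dk Ft (redb x) = resb ⟨x, leb x x.2⟩)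
    (hsurjb : Function.Surjective redb)
    (hfull : ∀ c : k, ∃ a : A, algebraMap K F (a : K) ∈ C ∧ π a = c)
    {Q : Place k Ft} (hdeg : Q.deg = 1)
    (hreg : ∀ x : C, Q.adicValuation (resa ⟨x, lea x x.2⟩) ≤ 1)
    (hsub : ∀ y : C, redb y = 0 → Q.adicValuation (resa ⟨y, lea y y.2⟩) < 1) :
    ∃ Q' : Place k Ft, ∀ x : C, ∃ c : k, IsValueAt Q (resa ⟨x, lea x x.2⟩) c ∧
      IsValueAt Q' (resb ⟨x, leb x x.2⟩) c := by
  have hmem : ∀ x : C, resa ⟨x, lea x x.2⟩ ∈ Q.toValuationSubring := by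
    intro x
    rw [Place.mem_iff_ord_nonneg]
    rcases (Q.adicValuation_le_one_iff).mp (hreg x) with h0 | h0
    · rw [h0, Place.ord_zero]
    · exact h0
  let ρ : C →+* Q.toValuationSubring :=
    (resa.comp (Subring.inclusion (fun x hx => lea x hx : C ≤ Oa.toSubring))).codRestrict
      Q.toValuationSubring.toSubring hmem
  let φ : C →+* k := (evalHom Q hdeg).comp ρ
  have hφx : ∀ x : C, φ x = evalAt Q (resa ⟨x, lea x x.2⟩) := fun _ => rfl
  have hval : ∀ x : C, IsValueAt Q (resa ⟨x, lea x x.2⟩) (φ x) := fun x => by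
    rw [hφx]
    exact isValueAt_evalAt Q hdeg (hmem x)
  have hker : ∀ x : C, redb x = 0 → φ x = 0 := by
    intro x hx
    have h1 : IsValueAt Q (resa ⟨x, lea x x.2⟩) 0 := isValueAt_zero_iff.mpr (hsub x hx)
    exact (hval x).unique h1
  have hφ : ∀ (a : A) (h : algebraMap K F (a : K) ∈ C), φ ⟨algebraMap K F (a : K), h⟩ = π a := by
    intro a h
    have h1 : IsValueAt Q (resa ⟨algebraMap K F (a : K), lea _ h⟩) (π a) := by
      rw [hresa (a : K) a.2]
      exact isValueAt_algebraMap Q _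
    exact (hval ⟨algebraMap K F (a : K), h⟩).unique h1
  obtain ⟨Q', hQ'⟩ := exists_place_of_hom_on_model hnf leb hresb redb hredb hsurjb hfull φ hker hφ
  exact ⟨Q', fun x => ⟨φ x, hval x, hQ' x⟩⟩

section Atlas

variable {D : ChartData A π Ft F} {C : Subring F}

/-- **`h2` at a point of the component `0` which is not a crossing**: some function of the model
`C ⊇ D.Rfin` vanishing identically on the component `1` does not vanish at `Q`. -/
theorem exists_notMem_of_not_crossing_zero (hnf : ¬ IsField Dk) (hRC : D.Rfin ≤ C)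
    (le₀ : ∀ x ∈ C, x ∈ D.O 0) (le₁ : ∀ x ∈ C, x ∈ D.O 1)
    (hres₀ : ∀ (a : K) (ha : a ∈ A) (h : algebraMap K F a ∈ D.O 0),
      D.res 0 ⟨algebraMap K F a, h⟩ = algebraMap k Ft (π ⟨a, ha⟩))
    (hres₁ : ∀ (a : K) (ha : a ∈ A) (h : algebraMap K F a ∈ D.O 1),
      D.res 1 ⟨algebraMap K F a, h⟩ = algebraMap k Ft (π ⟨a, ha⟩))
    (red₁ : C →+* Dk) (hred₁ : ∀ x : C, algebraMap Dk Ft (red₁ x) = D.res 1 ⟨x, le₁ x x.2⟩)
    (hsurj₁ : Function.Surjective red₁)
    (hfull : ∀ c : k, ∃ a : A, algebraMap K F (a : K) ∈ C ∧ π a = c)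
    {Q : Place k Ft} (hdeg : Q.deg = 1)
    (hreg : ∀ x : C, Q.adicValuation (D.res 0 ⟨x, le₀ x x.2⟩) ≤ 1)
    (hQ : ∀ e, Q ≠ z₁ D e) :
    ∃ y : C, red₁ y = 0 ∧ ¬ Q.adicValuation (D.res 0 ⟨y, le₀ y y.2⟩) < 1 := by
  by_contra hcon
  have hsub : ∀ y : C, red₁ y = 0 → Q.adicValuation (D.res 0 ⟨y, le₀ y y.2⟩) < 1 := by
    intro y hy
    by_contra hlt
    exact hcon ⟨y, hy, hlt⟩
  obtain ⟨Q', hQ'⟩ := exists_glued_of_forall_lt hnf le₀ le₁ hres₀ hres₁ red₁ hred₁ hsurj₁ hfull
    hdeg hreg hsub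
  have hglue : GluedF D Q Q' := fun y hy => hQ' ⟨y, hRC hy⟩
  exact hQ ⟨(Q, Q'), hglue⟩ rfl

/-- **`h2` at a point of the component `1` which is not a crossing**: some function of the model
`C ⊇ D.Rfin` vanishing identically on the component `0` does not vanish at `Q`. -/
theorem exists_notMem_of_not_crossing_one (hnf : ¬ IsField Dk) (hRC : D.Rfin ≤ C)
    (le₀ : ∀ x ∈ C, x ∈ D.O 0) (le₁ : ∀ x ∈ C, x ∈ D.O 1)
    (hres₀ : ∀ (a : K) (ha : a ∈ A) (h : algebraMap K F a ∈ D.O 0),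
      D.res 0 ⟨algebraMap K F a, h⟩ = algebraMap k Ft (π ⟨a, ha⟩))
    (hres₁ : ∀ (a : K) (ha : a ∈ A) (h : algebraMap K F a ∈ D.O 1),
      D.res 1 ⟨algebraMap K F a, h⟩ = algebraMap k Ft (π ⟨a, ha⟩))
    (red₀ : C →+* Dk) (hred₀ : ∀ x : C, algebraMap Dk Ft (red₀ x) = D.res 0 ⟨x, le₀ x x.2⟩)
    (hsurj₀ : Function.Surjective red₀)
    (hfull : ∀ c : k, ∃ a : A, algebraMap K F (a : K) ∈ C ∧ π a = c)
    {Q : Place k Ft} (hdeg : Q.deg = 1)
    (hreg : ∀ x : C, Q.adicValuation (D.res 1 ⟨x, le₁ x x.2⟩) ≤ 1)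
    (hQ : ∀ e, Q ≠ z₂ D e) :
    ∃ y : C, red₀ y = 0 ∧ ¬ Q.adicValuation (D.res 1 ⟨y, le₁ y y.2⟩) < 1 := by
  by_contra hcon
  have hsub : ∀ y : C, red₀ y = 0 → Q.adicValuation (D.res 1 ⟨y, le₁ y y.2⟩) < 1 := by
    intro y hy
    by_contra hlt
    exact hcon ⟨y, hy, hlt⟩
  obtain ⟨Q', hQ'⟩ := exists_glued_of_forall_lt hnf le₁ le₀ hres₁ hres₀ red₀ hred₀ hsurj₀ hfull
    hdeg hreg hsub
  have hglue : GluedF D Q' Q := fun y hy => by
    obtain ⟨c, h1, h0⟩ := hQ' ⟨y, hRC hy⟩
    exact ⟨c, h0, h1⟩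
  exact hQ ⟨(Q', Q), hglue⟩ rfl

end Atlas

end Fermat.Agent.BR.S0.PointOfHom
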