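/-
Program B (bad reduction), node B6.6-NODE, per-level assembly (helper23): the global model
`S0.CrossingModel` at a crossing of the point dictionary, at EVERY level.

Twin of `BR/S0/SmoothAssembly` (smooth points).  Abstract over `PointDict.AtlasHyp D x`:
`D : RedModular.ChartData A π Ft F` (two components `(D.O v, D.res v)`, finite chart `D.Rfin`),
`e : Crossing D` a glued pair `(Q₁, Q₂) = (z₁ D e, z₂ D e)` of the finite chart, and a LEVEL: a
noetherian integrally closed subring `C ⊇ D.Rfin` of `F` contained in both component rings,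
reducing ONTO a Dedekind chart `Dk` of each component (`red v : C →+* Dk`), with
`SpecialFibre.TwoComponents ϖ P0 P1` (`P_v = ker (red v)` = the trace of `𝔪(D.O v)`), full residue
field, and the unit data `T T' = ϖ ^ m`, `T ∈ D.Rfin`, `T ∉ P0`, `T ∈ P1`.

* `pointIdeal_isPrime` : the point of a place on a ring of regular functions is a prime ideal;
* `vanish_of_glued` : a function of the chart vanishing identically on the component `1` vanishes at
  `Q₁` (on the component `0`) at a glued pair;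
* `ker_red_one_le_point` : `P1 ≤ n₁(Q₁)` on `C` (`SpecialFibre.TwoComponents.le_of_mem`);
* `glued_on_level` : **the crossing of the chart is a crossing of the level**: `(Q₁, Q₂)` is glued
  on `C` (not only on `D.Rfin`);
* `same_point` : `res₀ x` vanishes at `Q₁` iff `res₁ x` vanishes at `Q₂`, for `x ∈ C`;
* `crossingModel_of_level` : `S0.CrossingModel A π (D.O 0) (D.O 1) (D.res 0) (D.res 1) Q₁ Q₂ T C ϖ`
  (the tube fields are taken in the shape of `BR/S0/TubeDict`).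
-/
import Mathlib
import Fermat.Agent.BR.S0.PointOfHom
import Fermat.Agent.BR.S0.CrossingModel
import Fermat.Agent.BR.Inst.SmoothModelOf

set_option autoImplicit false

namespace Fermat.Agent.BR.S0.CrossingAssembly

open AlgebraicCurve IsDedekindDomain Fermat.Agent.Red Fermat.Agent.X0 Fermat.Agent.BR.Centre
  Fermat.Agent.BR.S0.RedModular Fermat.Agent.BR.S0.PointDict Fermat.Agent.BR.SpecialFibre
  Fermat.Agent.BR.Inst.SmoothModelOf

variable {k Ft : Type*} [Field k] [Field Ft] [Algebra k Ft]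

/-- The point of a place on a ring of functions regular at it is a prime ideal. -/
theorem pointIdeal_isPrime {R : Type*} [CommRing R] (ι : R →+* Ft) (Q : Place k Ft)
    (hQ : ∀ d : R, Q.adicValuation (ι d) ≤ 1) : (pointIdeal ι Q hQ).IsPrime where
  ne_top' := by
    intro h
    have h1 : (1 : R) ∈ pointIdeal ι Q hQ := by rw [h]; trivial
    rw [mem_pointIdeal_iff, map_one, map_one] at h1
    exact lt_irrefl _ h1
  mem_or_mem' := by
    intro a b hab
    rw [mem_pointIdeal_iff, map_mul, map_mul] at hab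
    by_contra hcon
    rw [not_or, mem_pointIdeal_iff, mem_pointIdeal_iff, not_lt, not_lt] at hcon
    have ha : Q.adicValuation (ι a) = 1 := le_antisymm (hQ a) hcon.1
    have hb : Q.adicValuation (ι b) = 1 := le_antisymm (hQ b) hcon.2
    rw [ha, hb, one_mul] at hab
    exact lt_irrefl _ hab

variable {K F : Type*} [Field K] [Field F] [Algebra K F]
  {A : ValuationSubring K} {π : A →+* k} {D : ChartData A π Ft F}
  {Dk : Type*} [CommRing Dk] [IsDedekindDomain Dk] [Algebra Dk Ft] [IsFractionRing Dk Ft]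
  [Algebra k Dk] [IsScalarTower k Dk Ft]

/-- At a glued pair of the finite chart, a function of the chart whose residue on the component `1`
is zero vanishes at the point on the component `0`. -/
theorem vanish_of_glued {Q₁ Q₂ : Place k Ft} (hg : GluedF D Q₁ Q₂) {t : F} (ht : t ∈ D.Rfin)
    (ht1 : D.res 1 ⟨t, D.hfin 1 ht⟩ = 0) :
    Q₁.adicValuation (D.res 0 ⟨t, D.hfin 0 ht⟩) < 1 := by
  obtain ⟨c, hc₀, hc₁⟩ := hg t ht
  rw [ht1] at hc₁
  have h0 : IsValueAt Q₂ (0 : Ft) (0 : k) := by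
    rw [isValueAt_zero_iff, map_zero]
    exact zero_lt_one
  have hc : c = 0 := hc₁.unique h0
  rw [hc] at hc₀
  exact isValueAt_zero_iff.mp hc₀

section Level

variable {C : Subring F} (le₀ : ∀ x ∈ C, x ∈ D.O 0) (le₁ : ∀ x ∈ C, x ∈ D.O 1)

/-- the reduction of the level on the component `0`, with values in `Ft` -/
def resZero : C →+* Ft := (D.res 0).comp (Subring.inclusion (fun x hx => le₀ x hx))

/-- the reduction of the level on the component `1`, with values in `Ft` -/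
def resOne : C →+* Ft := (D.res 1).comp (Subring.inclusion (fun x hx => le₁ x hx))

theorem resZero_apply (x : C) : resZero le₀ x = D.res 0 ⟨x, le₀ x x.2⟩ := rfl

theorem resOne_apply (x : C) : resOne le₁ x = D.res 1 ⟨x, le₁ x x.2⟩ := rfl

variable {le₀ le₁}

/-- **The second component passes through the point**: `ker (red 1) ≤ n₁(Q₁)` on the level `C`, at a
crossing of the chart.  (`T ∈ D.Rfin` vanishes identically on the component `1`, hence at `Q₁`;
`SpecialFibre.TwoComponents.le_of_mem`.) -/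
theorem ker_red_one_le_point [IsNoetherianRing C] [IsIntegrallyClosed C] (hRC : D.Rfin ≤ C)
    {ϖC : C} {P0 P1 : Ideal C} (hTC : TwoComponents ϖC P0 P1)
    (hP0 : ∀ x : C, x ∈ P0 ↔ resZero le₀ x = 0) (hP1 : ∀ x : C, x ∈ P1 ↔ resOne le₁ x = 0)
    {Q₁ Q₂ : Place k Ft} (hg : GluedF D Q₁ Q₂)
    (hreg₀ : ∀ x : C, Q₁.adicValuation (resZero le₀ x) ≤ 1)
    {T : F} (hTR : T ∈ D.Rfin) {T' : C} {m : ℕ}
    (hTT' : (⟨T, hRC hTR⟩ : C) * T' = ϖC ^ m)
    (hT0 : D.res 0 ⟨T, D.hfin 0 hTR⟩ ≠ 0) (hT1 : D.res 1 ⟨T, D.hfin 1 hTR⟩ = 0) :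
    ∀ y : C, resOne le₁ y = 0 → Q₁.adicValuation (resZero le₀ y) < 1 := by
  have := pointIdeal_isPrime (resZero le₀) Q₁ hreg₀
  have hT0' : (⟨T, hRC hTR⟩ : C) ∉ P0 := by
    rw [hP0]
    exact hT0
  have hTn : (⟨T, hRC hTR⟩ : C) ∈ pointIdeal (resZero le₀) Q₁ hreg₀ := by
    rw [mem_pointIdeal_iff]
    exact vanish_of_glued hg hTR hT1
  have hle := hTC.le_of_mem (pointIdeal (resZero le₀) Q₁ hreg₀) hTT' hT0' hTn
  intro y hy
  exact hle ((hP1 y).mpr hy)

variable (hnf : ¬ IsField Dk)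
  (hres₀ : ∀ (a : K) (ha : a ∈ A) (h : algebraMap K F a ∈ D.O 0),
    D.res 0 ⟨algebraMap K F a, h⟩ = algebraMap k Ft (π ⟨a, ha⟩))
  (hres₁ : ∀ (a : K) (ha : a ∈ A) (h : algebraMap K F a ∈ D.O 1),
    D.res 1 ⟨algebraMap K F a, h⟩ = algebraMap k Ft (π ⟨a, ha⟩))
  (red₁ : C →+* Dk) (hred₁ : ∀ x : C, algebraMap Dk Ft (red₁ x) = D.res 1 ⟨x, le₁ x x.2⟩)
  (hsurj₁ : Function.Surjective red₁)
  (hfull : ∀ c : k, ∃ a : A, algebraMap K F (a : K) ∈ C ∧ π a = c)

include hnf hres₀ hres₁ hred₁ hsurj₁ hfull in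
/-- **A crossing of the chart is a crossing of the level**: the glued pair `(Q₁, Q₂)` of the finite
chart is glued on every level `C ⊇ D.Rfin`. -/
theorem glued_on_level [IsNoetherianRing C] [IsIntegrallyClosed C] (hRC : D.Rfin ≤ C)
    {ϖC : C} {P0 P1 : Ideal C} (hTC : TwoComponents ϖC P0 P1)
    (hP0 : ∀ x : C, x ∈ P0 ↔ resZero le₀ x = 0) (hP1 : ∀ x : C, x ∈ P1 ↔ resOne le₁ x = 0)
    (hsep : Separates (k := k) D.Rfin (D.O 1) (D.res 1) (D.hfin 1))
    {Q₁ Q₂ : Place k Ft} (hg : GluedF D Q₁ Q₂) (hdeg : Q₁.deg = 1)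
    (hreg₀ : ∀ x : C, Q₁.adicValuation (resZero le₀ x) ≤ 1)
    {T : F} (hTR : T ∈ D.Rfin) {T' : C} {m : ℕ}
    (hTT' : (⟨T, hRC hTR⟩ : C) * T' = ϖC ^ m)
    (hT0 : D.res 0 ⟨T, D.hfin 0 hTR⟩ ≠ 0) (hT1 : D.res 1 ⟨T, D.hfin 1 hTR⟩ = 0) :
    ∀ x : C, ∃ c : k, IsValueAt Q₁ (D.res 0 ⟨x, le₀ x x.2⟩) c ∧
      IsValueAt Q₂ (D.res 1 ⟨x, le₁ x x.2⟩) c := by
  have hsub : ∀ y : C, red₁ y = 0 → Q₁.adicValuation (D.res 0 ⟨y, le₀ y y.2⟩) < 1 := by
    intro y hy
    refine ker_red_one_le_point hRC hTC hP0 hP1 hg hreg₀ hTR hTT' hT0 hT1 y ?_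
    rw [resOne_apply, ← hred₁, hy, map_zero]
  obtain ⟨Q', hQ'⟩ := PointOfHom.exists_glued_of_forall_lt hnf le₀ le₁ hres₀ hres₁ red₁ hred₁
    hsurj₁ hfull hdeg hreg₀ hsub
  -- `(Q₁, Q')` is glued on the chart, hence `Q' = Q₂`
  have hg' : GluedF D Q₁ Q' := fun y hy => hQ' ⟨y, hRC hy⟩
  have hQ : Q₂ = Q' := GluedOn.snd_unique hsep hg hg'
  rw [hQ]
  exact hQ'

include hnf hres₀ hres₁ hred₁ hsurj₁ hfull in
/-- **The two branches lie over the same point of the level.** -/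
theorem same_point [IsNoetherianRing C] [IsIntegrallyClosed C] (hRC : D.Rfin ≤ C)
    {ϖC : C} {P0 P1 : Ideal C} (hTC : TwoComponents ϖC P0 P1)
    (hP0 : ∀ x : C, x ∈ P0 ↔ resZero le₀ x = 0) (hP1 : ∀ x : C, x ∈ P1 ↔ resOne le₁ x = 0)
    (hsep : Separates (k := k) D.Rfin (D.O 1) (D.res 1) (D.hfin 1))
    {Q₁ Q₂ : Place k Ft} (hg : GluedF D Q₁ Q₂) (hdeg : Q₁.deg = 1)
    (hreg₀ : ∀ x : C, Q₁.adicValuation (resZero le₀ x) ≤ 1)
    {T : F} (hTR : T ∈ D.Rfin) {T' : C} {m : ℕ}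
    (hTT' : (⟨T, hRC hTR⟩ : C) * T' = ϖC ^ m)
    (hT0 : D.res 0 ⟨T, D.hfin 0 hTR⟩ ≠ 0) (hT1 : D.res 1 ⟨T, D.hfin 1 hTR⟩ = 0) (x : C) :
    Q₁.adicValuation (D.res 0 ⟨x, le₀ x x.2⟩) < 1 ↔
      Q₂.adicValuation (D.res 1 ⟨x, le₁ x x.2⟩) < 1 := by
  obtain ⟨c, hc₀, hc₁⟩ := glued_on_level hnf hres₀ hres₁ red₁ hred₁ hsurj₁ hfull hRC hTC hP0 hP1
    hsep hg hdeg hreg₀ hTR hTT' hT0 hT1 x
  rw [← isValueAt_zero_iff, ← isValueAt_zero_iff]
  constructor
  · intro h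
    have : c = 0 := hc₀.unique h
    rw [this] at hc₁
    exact hc₁
  · intro h
    have : c = 0 := hc₁.unique h
    rw [this] at hc₀
    exact hc₀

include hnf hres₀ hres₁ hred₁ hsurj₁ hfull in
/-- **The global model at a crossing of the chart, at a level** (`S0.CrossingModel`), from the
per-level data: normal noetherian `C ⊇ D.Rfin`, `TwoComponents`, reduction onto the Dedekind chart
on the component `1`, full residue field, the unit data `T T' = ϖ ^ m`, and the two tube fields. -/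
theorem crossingModel_of_level (noeth : IsNoetherianRing C) (intClosed : IsIntegrallyClosed C)
    (hRC : D.Rfin ≤ C) {ϖ : K} (hϖ0 : ϖ ≠ 0) (hϖ1 : A.valuation ϖ < 1)
    (hϖC : algebraMap K F ϖ ∈ C) {P0 P1 : Ideal C}
    (hTC : TwoComponents (⟨algebraMap K F ϖ, hϖC⟩ : C) P0 P1)
    (hP0 : ∀ x : C, x ∈ P0 ↔ (x : F) ∈ (D.O 0).nonunits)
    (hP1 : ∀ x : C, x ∈ P1 ↔ (x : F) ∈ (D.O 1).nonunits)
    (hker₀ : ∀ x : D.O 0, D.res 0 x = 0 ↔ (x : F) ∈ (D.O 0).nonunits)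
    (hker₁ : ∀ x : D.O 1, D.res 1 x = 0 ↔ (x : F) ∈ (D.O 1).nonunits)
    (hsep : Separates (k := k) D.Rfin (D.O 1) (D.res 1) (D.hfin 1))
    {Q₁ Q₂ : Place k Ft} (hg : GluedF D Q₁ Q₂) (hdeg : Q₁.deg = 1)
    (hreg₀ : ∀ x : C, Q₁.adicValuation (D.res 0 ⟨x, le₀ x x.2⟩) ≤ 1)
    (hreg₁ : ∀ x : C, Q₂.adicValuation (D.res 1 ⟨x, le₁ x x.2⟩) ≤ 1)
    {T : F} (hTR : T ∈ D.Rfin) {T' : C} {m : ℕ}
    (hTT' : (⟨T, hRC hTR⟩ : C) * T' = (⟨algebraMap K F ϖ, hϖC⟩ : C) ^ m)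
    (hT0 : D.res 0 ⟨T, D.hfin 0 hTR⟩ ≠ 0) (hT1 : D.res 1 ⟨T, D.hfin 1 hTR⟩ = 0)
    {Tb : Set (Place K F)}
    (tube_centred : ∀ P ∈ Tb, ∃ h : IntegralAt A C P,
      ∀ x : C, x ∈ centre h ↔ Q₁.adicValuation (D.res 0 ⟨x, le₀ x x.2⟩) < 1)
    (tube_of_centred : ∀ P : Place K F, (∃ h : IntegralAt A C P,
      ∀ x : C, x ∈ centre h ↔ Q₁.adicValuation (D.res 0 ⟨x, le₀ x x.2⟩) < 1) → P ∈ Tb) :
    CrossingModel A π (D.O 0) (D.O 1) (D.res 0) (D.res 1) Q₁ Q₂ Tb C ϖ where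
  noeth := noeth
  intClosed := intClosed
  le₁ := le₀
  le₂ := le₁
  regular₁ := hreg₀
  regular₂ := hreg₁
  same_point := by
    have := noeth
    have := intClosed
    have hP0' : ∀ x : C, x ∈ P0 ↔ resZero le₀ x = 0 := fun x => by
      rw [hP0, resZero_apply, hker₀]
    have hP1' : ∀ x : C, x ∈ P1 ↔ resOne le₁ x = 0 := fun x => by
      rw [hP1, resOne_apply, hker₁]
    exact same_point hnf hres₀ hres₁ red₁ hred₁ hsurj₁ hfull hRC hTC hP0' hP1' hsep hg hdeg hreg₀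
      hTR hTT' hT0 hT1
  unif_ne := hϖ0
  unif_lt := hϖ1
  unif_mem := hϖC
  vertical := fun p hp hht hpt hϖp =>
    CrossingModel.vertical_of_twoComponents (Q₁ := Q₁) (res₁ := D.res 0) (le₁ := le₀) hP0 hP1 hTC
      p hp hht hpt hϖp
  fullRes := by
    intro x
    have hmem : D.res 0 ⟨x, le₀ x x.2⟩ ∈ Q₁.toValuationSubring := by
      rw [Place.mem_iff_ord_nonneg]
      rcases (Q₁.adicValuation_le_one_iff).mp (hreg₀ x) with h0 | h0
      · rw [h0, Place.ord_zero]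
      · exact h0
    obtain ⟨c, hc⟩ := exists_isValueAt Q₁ hdeg hmem
    obtain ⟨a, haC, hac⟩ := hfull c
    exact ⟨a, haC, by rw [hac]; exact hc⟩
  tube_centred := tube_centred
  tube_of_centred := tube_of_centred

end Level

end Fermat.Agent.BR.S0.CrossingAssembly
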