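import Mathlib
import Fermat.Prelude.Def_AlgebraicCurve_BaseChangeGalois

/-!
# Program B (BADRED), node B6.6 (c): the reduction map of a two-component model from a relation

The field `r : Place K F → Σ _ : Fin 2, Place k Ft` of `S0.TwoCompInput` (the reduction of the
places of the generic fibre to the points of the normalisation of a special fibre with two
components crossing at `z₁ e = z₂ e`) is built here from a *relation*
`Red v P Q` : "the point `Q` of the component `v` is the reduction of the place `P`"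
(for `X₀(qM)` : `Centre.IsRedOf` on the charts of the model). The inputs are

* `unique` : a place has at most one reduction on each component;
* `total` : every place reduces somewhere (properness of the model);
* `cross` : a place which reduces to the branch `z₂ e` of a crossing on the component `1` also
  reduces to the branch `z₁ e` on the component `0`.

The component `0` has the priority, so that the tube of the crossing `e` is
`{P | r P = ⟨0, z₁ e⟩}` (all nodes oriented from `0` to `1`, as in `TwoCompInput.toSetup`) and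
nothing is sent to `⟨1, z₂ e⟩` (`r_ne_tgt`). A semilinear automorphism which preserves the relation
preserves `r` (`r_smul` : the hypothesis `hr₀` of `Refine.HasModularInput`).
-/

set_option autoImplicit false

namespace Fermat.Agent.BR.S0.RedMap

open AlgebraicCurve

variable {K F k Ft ν : Type*} [Field K] [Field F] [Algebra K F] [Field k] [Field Ft]
  [Algebra k Ft]

/-- A reduction relation for a model with two components crossing at `z₁ e = z₂ e`. -/
structure RedRel (K F : Type*) [Field K] [Field F] [Algebra K F] {k Ft ν : Type*} [Field k]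
    [Field Ft] [Algebra k Ft] (z₁ z₂ : ν → Place k Ft) where
  /-- `Red v P Q` : the point `Q` of the component `v` is the reduction of `P` -/
  Red : Fin 2 → Place K F → Place k Ft → Prop
  unique : ∀ v P Q Q', Red v P Q → Red v P Q' → Q = Q'
  total : ∀ P, ∃ v Q, Red v P Q
  cross : ∀ P e, Red 1 P (z₂ e) → Red 0 P (z₁ e)

namespace RedRel

variable {z₁ z₂ : ν → Place k Ft} (R : RedRel K F z₁ z₂)

theorem exists_one_of_not_zero (P : Place K F) (h : ¬ ∃ Q, R.Red 0 P Q) : ∃ Q, R.Red 1 P Q := by
  obtain ⟨v, Q, hQ⟩ := R.total P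
  have hv : v = 0 ∨ v = 1 := by
    fin_cases v
    · exact Or.inl rfl
    · exact Or.inr rfl
  rcases hv with rfl | rfl
  · exact absurd ⟨Q, hQ⟩ h
  · exact ⟨Q, hQ⟩

open Classical in
/-- **The reduction map**, with priority to the component `0`. -/
noncomputable def r (P : Place K F) : Σ _ : Fin 2, Place k Ft :=
  if h : ∃ Q, R.Red 0 P Q then ⟨0, h.choose⟩ else ⟨1, (R.exists_one_of_not_zero P h).choose⟩

theorem r_of_zero {P : Place K F} {Q : Place k Ft} (h : R.Red 0 P Q) : R.r P = ⟨0, Q⟩ := by
  have hex : ∃ Q, R.Red 0 P Q := ⟨Q, h⟩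
  have h1 : R.r P = ⟨0, hex.choose⟩ := by
    simp only [r, dif_pos hex]
  rw [h1, R.unique 0 P _ _ hex.choose_spec h]

theorem r_of_one {P : Place K F} {Q : Place k Ft} (h : R.Red 1 P Q)
    (h0 : ¬ ∃ Q', R.Red 0 P Q') : R.r P = ⟨1, Q⟩ := by
  have h1 : R.r P = ⟨1, (R.exists_one_of_not_zero P h0).choose⟩ := by
    simp only [r, dif_neg h0]
  rw [h1, R.unique 1 P _ _ (R.exists_one_of_not_zero P h0).choose_spec h]

/-- The places sent to the point `Q` of the component `0`: those which reduce to `Q`. -/
theorem r_eq_zero_iff {P : Place K F} {Q : Place k Ft} : R.r P = ⟨0, Q⟩ ↔ R.Red 0 P Q := by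
  refine ⟨fun h => ?_, R.r_of_zero⟩
  by_cases hex : ∃ Q', R.Red 0 P Q'
  · obtain ⟨Q', hQ'⟩ := hex
    rw [R.r_of_zero hQ'] at h
    have h2 : Q' = Q := by
      simpa using h
    rw [← h2]
    exact hQ'
  · obtain ⟨Q', hQ'⟩ := R.exists_one_of_not_zero P hex
    rw [R.r_of_one hQ' hex] at h
    have h2 : (1 : Fin 2) = 0 := congrArg Sigma.fst h
    exact absurd h2 (by decide)

/-- The places sent to the point `Q` of the component `1`: those which reduce to `Q` and have no
reduction on the component `0`. -/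
theorem r_eq_one_iff {P : Place K F} {Q : Place k Ft} :
    R.r P = ⟨1, Q⟩ ↔ R.Red 1 P Q ∧ ¬ ∃ Q', R.Red 0 P Q' := by
  refine ⟨fun h => ?_, fun h => R.r_of_one h.1 h.2⟩
  by_cases hex : ∃ Q', R.Red 0 P Q'
  · obtain ⟨Q', hQ'⟩ := hex
    rw [R.r_of_zero hQ'] at h
    have h2 : (0 : Fin 2) = 1 := congrArg Sigma.fst h
    exact absurd h2 (by decide)
  · obtain ⟨Q', hQ'⟩ := R.exists_one_of_not_zero P hex
    rw [R.r_of_one hQ' hex] at h
    have h2 : Q' = Q := by
      simpa using h
    rw [← h2]
    exact ⟨hQ', hex⟩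

/-- **`r_ne_tgt`** : nothing is sent to the branch of a crossing on the component `1`. -/
theorem r_ne_tgt (P : Place K F) (e : ν) : R.r P ≠ ⟨1, z₂ e⟩ := by
  intro h
  obtain ⟨h1, h0⟩ := R.r_eq_one_iff.1 h
  exact h0 ⟨z₁ e, R.cross P e h1⟩

/-- The tube of the crossing `e`. -/
theorem tube_cross_eq (e : ν) : {P | R.r P = ⟨0, z₁ e⟩} = {P | R.Red 0 P (z₁ e)} := by
  ext P
  exact R.r_eq_zero_iff

/-- The tube of a point of the component `0`. -/
theorem tube_zero_eq (Q : Place k Ft) : {P | R.r P = ⟨0, Q⟩} = {P | R.Red 0 P Q} := by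
  ext P
  exact R.r_eq_zero_iff

/-- The tube of a point of the component `1` which does not lie on the component `0`. -/
theorem tube_one_eq (Q : Place k Ft) (hQ : ∀ P, R.Red 1 P Q → ¬ ∃ Q', R.Red 0 P Q') :
    {P | R.r P = ⟨1, Q⟩} = {P | R.Red 1 P Q} := by
  ext P
  show R.r P = ⟨1, Q⟩ ↔ R.Red 1 P Q
  rw [R.r_eq_one_iff]
  exact ⟨fun h => h.1, fun h => ⟨h, hQ P h⟩⟩

/-- A place has the same image as any place with the same reductions. -/
theorem r_congr {P P' : Place K F} (h : ∀ v Q, R.Red v P' Q ↔ R.Red v P Q) : R.r P' = R.r P := by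
  by_cases hex : ∃ Q', R.Red 0 P Q'
  · obtain ⟨Q', hQ'⟩ := hex
    rw [R.r_of_zero hQ', R.r_of_zero ((h 0 Q').2 hQ')]
  · obtain ⟨Q', hQ'⟩ := R.exists_one_of_not_zero P hex
    have hex' : ¬ ∃ Q', R.Red 0 P' Q' := by
      rintro ⟨Q'', hQ''⟩
      exact hex ⟨Q'', (h 0 Q'').1 hQ''⟩
    rw [R.r_of_one hQ' hex, R.r_of_one ((h 1 Q').2 hQ') hex']

/-- **Equivariance** (`hr₀` of `Refine.HasModularInput`): a semilinear automorphism which
preserves the reduction relation preserves the reduction map. -/
theorem r_smul (g : SemilinearAut K F)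
    (h : ∀ v P Q, R.Red v (g • P) Q ↔ R.Red v P Q) (P : Place K F) : R.r (g • P) = R.r P :=
  R.r_congr fun v Q => h v P Q

end RedRel

end Fermat.Agent.BR.S0.RedMap
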