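import Mathlib
import Fermat.Agent.BR.CentreRed
import Fermat.Agent.BR.S0.RedMap

/-!
# Program B (BADRED), node B6.6 (c)/(h2): the reduction relation from two affine charts

Instantiation layer between helper25's relational reduction `Centre.IsRedOf` and helper14's
abstract reduction map `RedMap.RedRel.r`.

* `ChartData A π Ft F` : two components `(O v, res v : O v →+* Ft)`, `v : Fin 2`, and two affine
  charts `Rfin`, `Rinf ≤ O v` (for `X₀(qM)`: the integral closures of `ℤ_(q)[j]` / `A[j]` and of
  `ℤ_(q)[1/j]` / `A[1/j]` in `Fb (M*q)`; an integral closure of a subring of a valuation ring lies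
  in it).
* `Red D v P Q` : `P` reduces to the point `Q` of the component `v` — tested on `Rfin` if `P` is
  integral on `Rfin` (i.e. `|j(P)| ≤ 1`), on `Rinf` otherwise; so no compatibility lemma between
  the two charts is needed.
* `ChartHyp D z₁ z₂` : the three named inputs (U) `unique`, (E) `total`, (X) `cross` (+ (X')
  `cross'` for the tubes of the non-crossing points of the component `1`).
* `redRel D H : RedMap.RedRel K F z₁ z₂`, hence `(redRel D H).r` = input (c) of
  `TwoCompDeliverable`, with `r_ne_tgt`, the tubes `tube_zero_eq`, `tube_one_eq'`.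
* `red_smul_iff`, `r_smul` : invariance under an inertia-like automorphism fixing both charts
  pointwise, for ALL places = input (h2).
-/

set_option autoImplicit false

namespace Fermat.Agent.BR.S0.RedModular

open AlgebraicCurve IsLocalRing Fermat.Agent.Red Fermat.Agent.BR.Centre Fermat.Agent.BR.S0.RedMap

variable {K F : Type*} [Field K] [Field F] [Algebra K F]
variable {k : Type*} [Field k]

/-- Two components and two affine charts. -/
structure ChartData (A : ValuationSubring K) (π : A →+* k) (Ft : Type*) [Field Ft]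
    [Algebra k Ft] (F : Type*) [Field F] [Algebra K F] where
  /-- the valuation rings of the two components -/
  O : Fin 2 → ValuationSubring F
  /-- the residue maps -/
  res : ∀ v, O v →+* Ft
  /-- the finite chart -/
  Rfin : Subring F
  /-- the chart at infinity -/
  Rinf : Subring F
  hfin : ∀ v, Rfin ≤ (O v).toSubring
  hinf : ∀ v, Rinf ≤ (O v).toSubring

variable {Ft : Type*} [Field Ft] [Algebra k Ft]
variable {A : ValuationSubring K} {π : A →+* k} (D : ChartData A π Ft F)

/-- `P` reduces to the point `Q` of the component `v`: tested on the finite chart if `P` is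
integral on it, on the chart at infinity otherwise. -/
def Red (v : Fin 2) (P : Place K F) (Q : Place k Ft) : Prop :=
  IsRedOf A π D.Rfin (D.O v) (D.res v) (D.hfin v) P Q ∨
    (¬ IntegralAt A D.Rfin P ∧ IsRedOf A π D.Rinf (D.O v) (D.res v) (D.hinf v) P Q)

variable {D}

theorem red_of_fin {v : Fin 2} {P : Place K F} {Q : Place k Ft}
    (h : IsRedOf A π D.Rfin (D.O v) (D.res v) (D.hfin v) P Q) : Red D v P Q := Or.inl h

theorem red_of_inf {v : Fin 2} {P : Place K F} {Q : Place k Ft} (hP : ¬ IntegralAt A D.Rfin P)
    (h : IsRedOf A π D.Rinf (D.O v) (D.res v) (D.hinf v) P Q) : Red D v P Q := Or.inr ⟨hP, h⟩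

/-- On places integral on the finite chart, `Red` is the reduction on the finite chart. -/
theorem red_iff_of_integralAt {v : Fin 2} {P : Place K F} {Q : Place k Ft}
    (hP : IntegralAt A D.Rfin P) :
    Red D v P Q ↔ IsRedOf A π D.Rfin (D.O v) (D.res v) (D.hfin v) P Q :=
  ⟨fun h => h.elim id fun h' => absurd hP h'.1, Or.inl⟩

/-- On the other places, `Red` is the reduction on the chart at infinity. -/
theorem red_iff_of_not_integralAt {v : Fin 2} {P : Place K F} {Q : Place k Ft}
    (hP : ¬ IntegralAt A D.Rfin P) :
    Red D v P Q ↔ IsRedOf A π D.Rinf (D.O v) (D.res v) (D.hinf v) P Q :=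
  ⟨fun h => h.elim (fun h' => absurd h'.integralAt hP) fun h' => h'.2, fun h => Or.inr ⟨hP, h⟩⟩

/-- Uniqueness (U) from separation of the points by the residues of each chart
(`IsRedOf.unique`). -/
theorem red_unique
    (hsepfin : ∀ v (Q₁ Q₂ : Place k Ft), Q₁ ≠ Q₂ → ∃ (y : F) (hy : y ∈ D.Rfin) (c : k),
      IsValueAt Q₁ (D.res v ⟨y, D.hfin v hy⟩) c ∧ ¬ IsValueAt Q₂ (D.res v ⟨y, D.hfin v hy⟩) c)
    (hsepinf : ∀ v (Q₁ Q₂ : Place k Ft), Q₁ ≠ Q₂ → ∃ (y : F) (hy : y ∈ D.Rinf) (c : k),
      IsValueAt Q₁ (D.res v ⟨y, D.hinf v hy⟩) c ∧ ¬ IsValueAt Q₂ (D.res v ⟨y, D.hinf v hy⟩) c)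
    (v : Fin 2) (P : Place K F) (Q Q' : Place k Ft) (h : Red D v P Q) (h' : Red D v P Q') :
    Q = Q' := by
  rcases h with h | ⟨hP, h⟩
  · exact IsRedOf.unique (hsepfin v) h ((red_iff_of_integralAt h.integralAt).mp h')
  · exact IsRedOf.unique (hsepinf v) h ((red_iff_of_not_integralAt hP).mp h')

variable (D)

/-- The named inputs on the relation `Red` for a model with crossings `z₁ e = z₂ e`. -/
structure ChartHyp {ν : Type*} (z₁ z₂ : ν → Place k Ft) : Prop where
  /-- (U) the residues of the charts separate the points of each component -/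
  unique : ∀ v P Q Q', Red D v P Q → Red D v P Q' → Q = Q'
  /-- (E) every place has a centre -/
  total : ∀ P, ∃ v Q, Red D v P Q
  /-- (X) the point `z₂ e` of the component `1` is the point `z₁ e` of the component `0` -/
  cross : ∀ P e, Red D 1 P (z₂ e) → Red D 0 P (z₁ e)

variable {D}

/-- **The reduction relation** of the two-component model, as an input of `RedMap`. -/
def redRel {ν : Type*} {z₁ z₂ : ν → Place k Ft} (H : ChartHyp D z₁ z₂) : RedRel K F z₁ z₂ where
  Red := Red D
  unique := H.unique
  total := H.total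
  cross := H.cross

section Fibres

variable {ν : Type*} {z₁ z₂ : ν → Place k Ft} (H : ChartHyp D z₁ z₂)

@[simp] theorem redRel_red : (redRel H).Red = Red D := rfl

/-- The tube of a point of the component `0` (crossing or not). -/
theorem tube_zero_eq (Q : Place k Ft) : {P | (redRel H).r P = ⟨0, Q⟩} = {P | Red D 0 P Q} :=
  (redRel H).tube_zero_eq Q

/-- The tube of a non-crossing point of the component `1`, given (X'): a place which reduces on
both components is centred at a crossing. -/
theorem tube_one_eq'
    (hX' : ∀ P Q₁ Q₂, Red D 0 P Q₁ → Red D 1 P Q₂ → ∃ e, Q₂ = z₂ e)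
    (Q : Place k Ft) (hQ : ∀ e, Q ≠ z₂ e) :
    {P | (redRel H).r P = ⟨1, Q⟩} = {P | Red D 1 P Q} := by
  refine (redRel H).tube_one_eq Q fun P h1 h0 => ?_
  obtain ⟨Q', hQ'⟩ := h0
  obtain ⟨e, he⟩ := hX' P Q' Q hQ' h1
  exact hQ e he

end Fibres

/-! ### equivariance -/

section Equivariance

variable {A : ValuationSubring K} {Ft : Type*} [Field Ft] [Algebra (ResidueField A) Ft]
  {D : ChartData A (residue A) Ft F} {g : SemilinearAut K F}

/-- An inertia-like automorphism fixing both charts pointwise preserves the relation `Red`. -/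
theorem red_smul_iff (hg : InertiaLike A g) (hfin : ∀ y ∈ D.Rfin, g • y = y)
    (hinf : ∀ y ∈ D.Rinf, g • y = y) (v : Fin 2) (P : Place K F)
    (Q : Place (ResidueField A) Ft) : Red D v (g • P) Q ↔ Red D v P Q := by
  unfold Red
  rw [isRedOf_residue_smul_iff_of_fixed hg hfin, isRedOf_residue_smul_iff_of_fixed hg hinf,
    integralAt_smul_iff_of_fixed hg hfin]

/-- **(h2)** The reduction map is invariant under an inertia-like automorphism fixing both charts
pointwise: `r (g • P) = r P` for every place `P` (cusps and tube points included). -/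
theorem r_smul {ν : Type*} {z₁ z₂ : ν → Place (ResidueField A) Ft} (H : ChartHyp D z₁ z₂)
    (hg : InertiaLike A g) (hfin : ∀ y ∈ D.Rfin, g • y = y) (hinf : ∀ y ∈ D.Rinf, g • y = y)
    (P : Place K F) : (redRel H).r (g • P) = (redRel H).r P :=
  (redRel H).r_smul g (fun v P Q => red_smul_iff hg hfin hinf v P Q) P

end Equivariance

end Fermat.Agent.BR.S0.RedModular
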