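/-
Program B (bad reduction), node B6.6-DICT (helper12): the POINT DICTIONARY of the two-component
model, in abstract form, on top of helper25's relational reduction `Centre.IsRedOf`, helper14's
`RedMap.RedRel` (THE definition of the reduction map) and helper29's `RedModular.ChartData`
(two components `(D.O i, D.res i)`, finite chart `D.Rfin`, chart at infinity `D.Rinf`, relation
`RedModular.Red D`).  Namespace `Fermat.Agent.BR.S0.PointDict`.

* `Separates R O res hRO` : the residues of the chart ring `R` separate the places of `Ft`;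
  `isRedOf_unique`;
* `isRedOf_smul_of_stable` : equivariance of `IsRedOf` for a chart which is only STABLE (not
  pointwise fixed) under `g`; `isRedOf_iff_centre` : `IsRedOf … P Q` iff `P` is integral on the
  chart and its centre is the point of `Q`, `{y | res y vanishes at Q}`;
* `GluedOn`, `GluedF D Q₁ Q₂` : the points `Q₁` of the component `0` and `Q₂` of the component `1`
  are the same point of the finite chart (they take the same values on `D.Rfin`);
  **`Crossing D`** : the type `ν` of crossings, **`z₁ D`, `z₂ D`** the two projections;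
* `AtlasHyp D x` : the hypotheses (coordinate `x ∈ Rfin`, `1/x ∈ Rinf`, overlap, separation on
  both charts, totality on each chart, no crossing at infinity);  from them:
  `z₁_injective`, `z₂_injective`, **`chartHyp : RedModular.ChartHyp D (z₁ D) (z₂ D)`** (the inputs
  (U), (E), (X) of helper29), `r := (redRel chartHyp).r`, `r_ne_tgt`, the TUBE lemmas
  `r_eq_zero_iff`, `r_eq_z₁_iff`, `r_eq_z₁_iff'`, `r_eq_one_iff_of_not_crossing`,
  `exists_crossing_of_red` (X'), `red_iff_fin` / `red_iff_inf` (the tube of a point is read on ONE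
  chart), `finite_crossing` (from a function vanishing on the component `1` only: the modular
  unit), `ord_pos_of_crossing`, `red_smul_of_stable`;
* `chartDataOf C Rfin Rinf`, `AtlasHyp.toInput` : the bundle `TwoCompInput` from an atlas and a
  chart (`SmoothChart` / `NodeChart`) at every point.
-/
import Mathlib
import Fermat.Agent.BR.CentreRed
import Fermat.Agent.BR.S0.SmoothFields
import Fermat.Agent.BR.S0.RedModular

set_option autoImplicit false

namespace Fermat.Agent.BR.S0

open AlgebraicCurve Fermat.Agent.Red Fermat.Agent.Val Fermat.Agent.BR.Centre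

variable {K F k Ft : Type*} [Field K] [Field F] [Algebra K F] [Field k] [Field Ft] [Algebra k Ft]

namespace PointDict

/-- The residues of the functions of `R` on the component `(O, res)` separate the places of `Ft`
at which they are all regular: two places with the same values on `R` are equal. -/
def Separates (R : Subring F) (O : ValuationSubring F) (res : O →+* Ft)
    (hRO : R ≤ O.toSubring) : Prop :=
  ∀ Q Q' : Place k Ft,
    (∀ (y : F) (hy : y ∈ R), ∃ c : k, IsValueAt Q (res ⟨y, hRO hy⟩) c ∧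
      IsValueAt Q' (res ⟨y, hRO hy⟩) c) → Q = Q'

/-- Uniqueness of the reduction of a place on a chart whose residues separate the places. -/
theorem isRedOf_unique {A : ValuationSubring K} {π : A →+* k} {R : Subring F}
    {O : ValuationSubring F} {res : O →+* Ft} {hRO : R ≤ O.toSubring}
    (hsep : Separates (k := k) R O res hRO) {P : Place K F} {Q Q' : Place k Ft}
    (h : IsRedOf A π R O res hRO P Q) (h' : IsRedOf A π R O res hRO P Q') : Q = Q' :=
  hsep Q Q' fun y hy => ⟨_, h.isValueAt hy, h'.isValueAt hy⟩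

/-- **Equivariance of the relational reduction on a STABLE chart**: `g` preserves the chart ring
`R` (as a set) and the residue map is `g`-invariant on `R` (inertia), the base automorphism
preserves `A` and commutes with `π`. Then `Q` is a reduction of `P` iff it is a reduction of
`g • P`.  (For a chart fixed pointwise this is helper25's `isRedOf_smul_of_fixed`.) -/
theorem isRedOf_smul_of_stable {A : ValuationSubring K} {π : A →+* k} {R : Subring F}
    {O : ValuationSubring F} {res : O →+* Ft} {hRO : R ≤ O.toSubring} {P : Place K F}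
    {Q : Place k Ft} (g : SemilinearAut K F)
    (hmem : ∀ c : K, c ∈ A → SemilinearAut.baseAut g c ∈ A)
    (hπ : ∀ (c : K) (hc : c ∈ A), π ⟨SemilinearAut.baseAut g c, hmem c hc⟩ = π ⟨c, hc⟩)
    (hstab : ∀ y ∈ R, g⁻¹ • y ∈ R)
    (hres : ∀ (y : F) (hy : y ∈ R), res ⟨g⁻¹ • y, hRO (hstab y hy)⟩ = res ⟨y, hRO hy⟩)
    (h : IsRedOf A π R O res hRO P Q) : IsRedOf A π R O res hRO (g • P) Q := by
  have hint : IntegralAt A R (g • P) := by
    intro y hy
    obtain ⟨c, hcA, hc⟩ := h.integralAt _ (hstab y hy)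
    refine ⟨SemilinearAut.baseAut g c, hmem c hcA, ?_⟩
    have := AnnulusRed.isValueAt_smul g hc
    rwa [smul_inv_smul] at this
  refine ⟨hint, fun y hy => ?_⟩
  have e : evHom A R (g • P) hint ⟨y, hy⟩ =
      ⟨SemilinearAut.baseAut g (evalAt P (g⁻¹ • y)),
        hmem _ (h.integralAt.evalAt_mem (hstab y hy))⟩ :=
    Subtype.ext (evalAt_smul_mem g P y)
  rw [e, hπ, ← hres y hy]
  exact h.isValueAt (hstab y hy)

/-- **Bridge to the centre**: on a chart ring `R` containing the constants of `A`, `Q` is the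
reduction of `P` on the component `C` iff `P` is integral on `R` and its centre is the point of
`Q`: `{y ∈ R | res y vanishes at Q}`. -/
theorem isRedOf_iff_centre {A : ValuationSubring K} {π : A →+* k}
    (C : ConstRed (F := F) (Ft := Ft) A π) {R : Subring F} (hRO : R ≤ C.O.toSubring)
    (hconst : ∀ a ∈ A, algebraMap K F a ∈ R) {P : Place K F} {Q : Place k Ft} :
    IsRedOf A π R C.O C.res hRO P Q ↔
      ∃ h : IntegralAt A R P, ∀ y : R, y ∈ centre h ↔
        Q.adicValuation (C.res ⟨y, hRO y.2⟩) < 1 := by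
  have hπ0 : ∀ (h : IntegralAt A R P) (y : R), π (evHom A R P h y) = 0 ↔ y ∈ centre h := by
    intro h y
    rw [C.pi_eq_zero_iff, ValuationSubring.mem_nonunits_iff, mem_centre_iff, coe_evHom]
  constructor
  · intro h
    refine ⟨h.integralAt, fun y => ?_⟩
    have h1 := h.isValueAt y.2
    rw [← hπ0 h.integralAt y, ← isValueAt_zero_iff]
    constructor
    · intro h0
      have h2 : evHom A R P h.integralAt ⟨(y : F), y.2⟩ = evHom A R P h.integralAt y := rfl
      rw [h2, h0] at h1
      exact h1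
    · intro h0
      exact h1.unique h0
  · rintro ⟨h, hc⟩
    refine ⟨h, fun y hy => ?_⟩
    set c : A := evHom A R P h ⟨y, hy⟩ with hcdef
    have hcR : algebraMap K F (c : K) ∈ R := hconst _ c.2
    have hmem : (⟨y, hy⟩ - ⟨algebraMap K F (c : K), hcR⟩ : R) ∈ centre h := by
      rw [mem_centre_iff]
      have h1 : IsValueAt P (y - algebraMap K F (c : K)) ((c : K) - (c : K)) :=
        (h.isValueAt_evalAt hy).sub (isValueAt_algebraMap P _)
      rw [sub_self] at h1
      have e : (((⟨y, hy⟩ - ⟨algebraMap K F (c : K), hcR⟩ : R) : R) : F) =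
          y - algebraMap K F (c : K) := rfl
      rw [e, evalAt_eq_of_isValueAt h1, map_zero]
      exact zero_lt_one
    have h2 := (hc _).mp hmem
    have e2 : C.res ⟨((⟨y, hy⟩ - ⟨algebraMap K F (c : K), hcR⟩ : R) : F), hRO
        (⟨y, hy⟩ - ⟨algebraMap K F (c : K), hcR⟩ : R).2⟩ =
        C.res ⟨y, hRO hy⟩ - algebraMap k Ft (π c) := by
      have e3 : (⟨((⟨y, hy⟩ - ⟨algebraMap K F (c : K), hcR⟩ : R) : F), hRO
          (⟨y, hy⟩ - ⟨algebraMap K F (c : K), hcR⟩ : R).2⟩ : C.O) =
          ⟨y, hRO hy⟩ - ⟨algebraMap K F (c : K), hRO hcR⟩ := rfl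
      rw [e3, map_sub, C.res_algebraMap (c : K) c.2]
    rw [e2] at h2
    exact h2

/-- The points `Q₁` of the first component and `Q₂` of the second component are the same point of
the chart `R`: the two residues of every function of `R` take the same value. -/
def GluedOn {O₀ O₁ : ValuationSubring F} (res₀ : O₀ →+* Ft) (res₁ : O₁ →+* Ft) (R : Subring F)
    (h₀ : R ≤ O₀.toSubring) (h₁ : R ≤ O₁.toSubring) (Q₁ Q₂ : Place k Ft) : Prop :=
  ∀ (y : F) (hy : y ∈ R), ∃ c : k, IsValueAt Q₁ (res₀ ⟨y, h₀ hy⟩) c ∧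
    IsValueAt Q₂ (res₁ ⟨y, h₁ hy⟩) c

section Glued

variable {A : ValuationSubring K} {π : A →+* k} {O₀ O₁ : ValuationSubring F}
  {res₀ : O₀ →+* Ft} {res₁ : O₁ →+* Ft} {R : Subring F} {h₀ : R ≤ O₀.toSubring}
  {h₁ : R ≤ O₁.toSubring} {Q₁ Q₂ : Place k Ft} {P : Place K F}

/-- At a glued pair, a place reducing to the point on the second component reduces to the point on
the first component. -/
theorem GluedOn.isRedOf_zero (hg : GluedOn (k := k) res₀ res₁ R h₀ h₁ Q₁ Q₂)
    (h : IsRedOf A π R O₁ res₁ h₁ P Q₂) : IsRedOf A π R O₀ res₀ h₀ P Q₁ := by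
  refine ⟨h.integralAt, fun y hy => ?_⟩
  obtain ⟨c, hc₁, hc₂⟩ := hg y hy
  rw [← hc₂.unique (h.isValueAt hy)]
  exact hc₁

/-- At a glued pair, a place reducing to the point on the first component reduces to the point on
the second component. -/
theorem GluedOn.isRedOf_one (hg : GluedOn (k := k) res₀ res₁ R h₀ h₁ Q₁ Q₂)
    (h : IsRedOf A π R O₀ res₀ h₀ P Q₁) : IsRedOf A π R O₁ res₁ h₁ P Q₂ := by
  refine ⟨h.integralAt, fun y hy => ?_⟩
  obtain ⟨c, hc₁, hc₂⟩ := hg y hy
  rw [← hc₁.unique (h.isValueAt hy)]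
  exact hc₂

/-- Two reductions of the same place on the two components are glued. -/
theorem gluedOn_of_isRedOf (h : IsRedOf A π R O₀ res₀ h₀ P Q₁)
    (h' : IsRedOf A π R O₁ res₁ h₁ P Q₂) : GluedOn (k := k) res₀ res₁ R h₀ h₁ Q₁ Q₂ :=
  fun y hy => ⟨_, h.isValueAt hy, by
    have e : evHom A R P h.integralAt ⟨y, hy⟩ = evHom A R P h'.integralAt ⟨y, hy⟩ := rfl
    rw [e]
    exact h'.isValueAt hy⟩

/-- The second point of a glued pair is determined by the first one. -/
theorem GluedOn.snd_unique (hsep : Separates (k := k) R O₁ res₁ h₁) {Q₂' : Place k Ft}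
    (hg : GluedOn (k := k) res₀ res₁ R h₀ h₁ Q₁ Q₂)
    (hg' : GluedOn (k := k) res₀ res₁ R h₀ h₁ Q₁ Q₂') : Q₂ = Q₂' := by
  apply hsep
  intro y hy
  obtain ⟨c, hc₁, hc₂⟩ := hg y hy
  obtain ⟨c', hc₁', hc₂'⟩ := hg' y hy
  rw [← hc₁.unique hc₁'] at hc₂'
  exact ⟨c, hc₂, hc₂'⟩

/-- The first point of a glued pair is determined by the second one. -/
theorem GluedOn.fst_unique (hsep : Separates (k := k) R O₀ res₀ h₀) {Q₁' : Place k Ft}
    (hg : GluedOn (k := k) res₀ res₁ R h₀ h₁ Q₁ Q₂)
    (hg' : GluedOn (k := k) res₀ res₁ R h₀ h₁ Q₁' Q₂) : Q₁ = Q₁' := by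
  apply hsep
  intro y hy
  obtain ⟨c, hc₁, hc₂⟩ := hg y hy
  obtain ⟨c', hc₁', hc₂'⟩ := hg' y hy
  rw [← hc₂.unique hc₂'] at hc₁'
  exact ⟨c, hc₁, hc₁'⟩

end Glued

/-! ### the atlas: helper29's `RedModular.ChartData` with a coordinate -/

open RedModular

variable {A : ValuationSubring K} {π : A →+* k}

/-- The points `Q₁` (component `0`) and `Q₂` (component `1`) are the same point of the finite
chart. -/
def GluedF (D : ChartData A π Ft F) (Q₁ Q₂ : Place k Ft) : Prop :=
  GluedOn (k := k) (D.res 0) (D.res 1) D.Rfin (D.hfin 0) (D.hfin 1) Q₁ Q₂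

/-- The points `Q₁` (component `0`) and `Q₂` (component `1`) are the same point of the chart at
infinity. -/
def GluedI (D : ChartData A π Ft F) (Q₁ Q₂ : Place k Ft) : Prop :=
  GluedOn (k := k) (D.res 0) (D.res 1) D.Rinf (D.hinf 0) (D.hinf 1) Q₁ Q₂

/-- **The type of crossings** of the two components: the glued pairs of the finite chart. -/
def Crossing (D : ChartData A π Ft F) : Type _ :=
  {p : Place k Ft × Place k Ft // GluedF D p.1 p.2}

/-- the point of the component `0` at a crossing -/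
def z₁ (D : ChartData A π Ft F) (e : Crossing D) : Place k Ft := e.1.1

/-- the point of the component `1` at a crossing -/
def z₂ (D : ChartData A π Ft F) (e : Crossing D) : Place k Ft := e.1.2

theorem glued (D : ChartData A π Ft F) (e : Crossing D) : GluedF D (z₁ D e) (z₂ D e) := e.2

/-- A point of the component `0` is a crossing iff it is glued to a point of the component `1`. -/
theorem exists_z₁_eq_iff (D : ChartData A π Ft F) (Q : Place k Ft) :
    (∃ e, z₁ D e = Q) ↔ ∃ Q₂, GluedF D Q Q₂ :=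
  ⟨by rintro ⟨e, rfl⟩; exact ⟨_, glued D e⟩, fun ⟨Q₂, h⟩ => ⟨⟨(Q, Q₂), h⟩, rfl⟩⟩

theorem exists_z₂_eq_iff (D : ChartData A π Ft F) (Q : Place k Ft) :
    (∃ e, z₂ D e = Q) ↔ ∃ Q₁, GluedF D Q₁ Q :=
  ⟨by rintro ⟨e, rfl⟩; exact ⟨_, glued D e⟩, fun ⟨Q₁, h⟩ => ⟨⟨(Q₁, Q), h⟩, rfl⟩⟩

/-- **The hypotheses on a two-chart atlas** `D` (finite chart `D.Rfin ∋ x`, chart at infinity
`D.Rinf ∋ 1/x`) of a model whose special fibre has the two components `(D.O i, D.res i)`. -/
structure AtlasHyp (D : ChartData A π Ft F) (x : F) : Prop where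
  x_ne : x ≠ 0
  x_mem : x ∈ D.Rfin
  inv_mem : x⁻¹ ∈ D.Rinf
  /-- `π` kills the maximal ideal of `A` -/
  pi_zero : ∀ a : A, A.valuation (a : K) < 1 → π a = 0
  /-- a place which is integral on the chart at infinity but not on the finite chart lies in the
  open disc `|1/x| < 1` -/
  overlap : ∀ P : Place K F, IntegralAt A D.Rinf P → ¬ IntegralAt A D.Rfin P →
    A.valuation (evalAt P x⁻¹) < 1
  /-- the residues of the finite chart separate the places, on both components -/
  sep_f : ∀ i, Separates (k := k) D.Rfin (D.O i) (D.res i) (D.hfin i)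
  /-- the residues of the chart at infinity separate the places, on both components -/
  sep_i : ∀ i, Separates (k := k) D.Rinf (D.O i) (D.res i) (D.hinf i)
  /-- every place integral on the finite chart has a reduction there -/
  total_f : ∀ P : Place K F, IntegralAt A D.Rfin P →
    ∃ (i : Fin 2) (Q : Place k Ft), IsRedOf A π D.Rfin (D.O i) (D.res i) (D.hfin i) P Q
  /-- every other place has a reduction on the chart at infinity -/
  total_i : ∀ P : Place K F, ¬ IntegralAt A D.Rfin P →
    ∃ (i : Fin 2) (Q : Place k Ft), IsRedOf A π D.Rinf (D.O i) (D.res i) (D.hinf i) P Q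
  /-- no crossing at infinity (`CuspSep`): at a glued pair of the chart at infinity, `1/x` does
  not vanish -/
  no_cross_inf : ∀ Q₁ Q₂ : Place k Ft, GluedI D Q₁ Q₂ →
    ¬ IsValueAt Q₁ (D.res 0 ⟨x⁻¹, D.hinf 0 inv_mem⟩) 0

namespace AtlasHyp

variable {D : ChartData A π Ft F} {x : F} (H : AtlasHyp D x) {P : Place K F}
  {Q Q' : Place k Ft} {i : Fin 2}

include H

theorem red_unique (h : Red D i P Q) (h' : Red D i P Q') : Q = Q' := by
  rcases h with h | h <;> rcases h' with h' | h'
  · exact isRedOf_unique (H.sep_f i) h h'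
  · exact absurd h.integralAt h'.1
  · exact absurd h'.integralAt h.1
  · exact isRedOf_unique (H.sep_i i) h.2 h'.2

/-- Every place has a reduction on one of the two components. -/
theorem exists_red (P : Place K F) : ∃ (i : Fin 2) (Q : Place k Ft), Red D i P Q := by
  by_cases hf : IntegralAt A D.Rfin P
  · obtain ⟨i, Q, h⟩ := H.total_f P hf
    exact ⟨i, Q, Or.inl h⟩
  · obtain ⟨i, Q, h⟩ := H.total_i P hf
    exact ⟨i, Q, Or.inr ⟨hf, h⟩⟩

/-! ### the two charts do not interfere -/

/-- A place which is read on the chart at infinity reduces to a zero of `1/x`. -/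
theorem isValueAt_inv_of_inf (hP : ¬ IntegralAt A D.Rfin P)
    (h : IsRedOf A π D.Rinf (D.O i) (D.res i) (D.hinf i) P Q) :
    IsValueAt Q (D.res i ⟨x⁻¹, D.hinf i H.inv_mem⟩) 0 := by
  have h1 := h.isValueAt H.inv_mem
  have h2 : A.valuation ((evHom A D.Rinf P h.integralAt ⟨x⁻¹, H.inv_mem⟩ : A) : K) < 1 := by
    rw [coe_evHom]
    exact H.overlap P h.integralAt hP
  rwa [H.pi_zero _ h2] at h1

/-- The residues of `x` and `1/x` cannot have the values `c` and `0` at the same place. -/
theorem not_isValueAt_inv_zero {c : k}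
    (hx : IsValueAt Q (D.res i ⟨x, D.hfin i H.x_mem⟩) c)
    (hi : IsValueAt Q (D.res i ⟨x⁻¹, D.hinf i H.inv_mem⟩) 0) : False := by
  have h1 := hx.mul hi
  have e : D.res i ⟨x, D.hfin i H.x_mem⟩ * D.res i ⟨x⁻¹, D.hinf i H.inv_mem⟩ = 1 := by
    rw [← map_mul, ← map_one (D.res i)]
    congr 1
    exact Subtype.ext (mul_inv_cancel₀ H.x_ne)
  rw [e, mul_zero] at h1
  exact one_ne_zero ((isValueAt_one Q).unique h1)

/-- At a place where the residue of `x` is regular, the reduction is read on the finite chart. -/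
theorem red_iff_fin {c : k} (hx : IsValueAt Q (D.res i ⟨x, D.hfin i H.x_mem⟩) c) :
    Red D i P Q ↔ IsRedOf A π D.Rfin (D.O i) (D.res i) (D.hfin i) P Q :=
  ⟨fun h => h.resolve_right fun hI =>
    H.not_isValueAt_inv_zero hx (H.isValueAt_inv_of_inf hI.1 hI.2), Or.inl⟩

/-- At a zero of the residue of `1/x`, the reduction is read on the chart at infinity. -/
theorem red_iff_inf (hi : IsValueAt Q (D.res i ⟨x⁻¹, D.hinf i H.inv_mem⟩) 0) :
    Red D i P Q ↔ IsRedOf A π D.Rinf (D.O i) (D.res i) (D.hinf i) P Q := by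
  constructor
  · rintro (h | h)
    · exact (H.not_isValueAt_inv_zero (h.isValueAt H.x_mem) hi).elim
    · exact h.2
  · intro h
    refine Or.inr ⟨fun hf => ?_, h⟩
    -- `x(P) * (1/x)(P) = 1` with both values in `A`, but `π ((1/x)(P)) = 0`
    obtain ⟨a, haA, ha⟩ := hf x H.x_mem
    obtain ⟨b, hbA, hb⟩ := h.integralAt x⁻¹ H.inv_mem
    have hab : a * b = 1 := by
      have h1 := ha.mul hb
      rw [mul_inv_cancel₀ H.x_ne] at h1
      exact (h1.unique (isValueAt_one P))
    have h2 := h.isValueAt H.inv_mem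
    have e : evHom A D.Rinf P h.integralAt ⟨x⁻¹, H.inv_mem⟩ = ⟨b, hbA⟩ :=
      Subtype.ext (by rw [coe_evHom]; exact evalAt_eq_of_isValueAt hb)
    rw [e] at h2
    have h3 : π ⟨b, hbA⟩ = 0 := h2.unique hi
    have h4 : π ⟨a, haA⟩ * π ⟨b, hbA⟩ = 1 := by
      rw [← map_mul, ← map_one π]
      congr 1
      exact Subtype.ext hab
    rw [h3, mul_zero] at h4
    exact zero_ne_one h4

/-! ### the crossings -/

theorem z₁_injective : Function.Injective (z₁ D) := by
  rintro ⟨⟨Q₁, Q₂⟩, h⟩ ⟨⟨Q₁', Q₂'⟩, h'⟩ (e : Q₁ = Q₁')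
  subst e
  have : Q₂ = Q₂' := GluedOn.snd_unique (H.sep_f 1) h h'
  subst this
  rfl

theorem z₂_injective : Function.Injective (z₂ D) := by
  rintro ⟨⟨Q₁, Q₂⟩, h⟩ ⟨⟨Q₁', Q₂'⟩, h'⟩ (e : Q₂ = Q₂')
  subst e
  have : Q₁ = Q₁' := GluedOn.fst_unique (H.sep_f 0) h h'
  subst this
  rfl

/-- At a crossing, a place reducing to the branch on the component `1` reduces to the branch on
the component `0`. -/
theorem red_cross (P : Place K F) (e : Crossing D) (h : Red D 1 P (z₂ D e)) :
    Red D 0 P (z₁ D e) := by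
  obtain ⟨c, -, hc⟩ := glued D e x H.x_mem
  exact Or.inl ((glued D e).isRedOf_zero ((H.red_iff_fin hc).mp h))

/-- **The three inputs (U), (E), (X) of helper29's `RedModular.ChartHyp`**, for the crossings of
the atlas. -/
theorem chartHyp : ChartHyp D (z₁ D) (z₂ D) where
  unique _ _ _ _ h h' := H.red_unique h h'
  total := H.exists_red
  cross := H.red_cross

/-- **The reduction map** of the two-component model (helper14's `RedMap.RedRel.r` for the
relation `RedModular.Red D`; component `0` preferred). -/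
noncomputable def r : Place K F → Σ _ : Fin 2, Place k Ft := (redRel H.chartHyp).r

theorem r_def : H.r = (redRel H.chartHyp).r := rfl

theorem r_ne_tgt (P : Place K F) (e : Crossing D) : H.r P ≠ ⟨1, z₂ D e⟩ :=
  (redRel H.chartHyp).r_ne_tgt P e

/-- **Tube of a point of the component `0`.** -/
theorem r_eq_zero_iff : H.r P = ⟨0, Q⟩ ↔ Red D 0 P Q := (redRel H.chartHyp).r_eq_zero_iff

/-- **Tube of a point of the component `1`.** -/
theorem r_eq_one_iff : H.r P = ⟨1, Q⟩ ↔ Red D 1 P Q ∧ ¬ ∃ Q', Red D 0 P Q' :=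
  (redRel H.chartHyp).r_eq_one_iff

/-- **Tube of a crossing**: the places reducing to it are those whose reduction on the finite
chart is `z₁ e` (equivalently `z₂ e`). -/
theorem r_eq_z₁_iff (e : Crossing D) :
    H.r P = ⟨0, z₁ D e⟩ ↔ IsRedOf A π D.Rfin (D.O 0) (D.res 0) (D.hfin 0) P (z₁ D e) := by
  obtain ⟨c, hc, -⟩ := glued D e x H.x_mem
  rw [H.r_eq_zero_iff, H.red_iff_fin hc]

theorem r_eq_z₁_iff' (e : Crossing D) :
    H.r P = ⟨0, z₁ D e⟩ ↔ IsRedOf A π D.Rfin (D.O 1) (D.res 1) (D.hfin 1) P (z₂ D e) := by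
  rw [H.r_eq_z₁_iff]
  exact ⟨(glued D e).isRedOf_one, (glued D e).isRedOf_zero⟩

/-- (X') a place which reduces on both components is centred at a crossing. -/
theorem exists_crossing_of_red (h₀ : Red D 0 P Q) (h₁ : Red D 1 P Q') :
    ∃ e, Q = z₁ D e ∧ Q' = z₂ D e := by
  rcases h₀ with h₀ | h₀ <;> rcases h₁ with h₁ | h₁
  · exact ⟨⟨(Q, Q'), gluedOn_of_isRedOf h₀ h₁⟩, rfl, rfl⟩
  · exact absurd h₀.integralAt h₁.1
  · exact absurd h₁.integralAt h₀.1
  · exact absurd (H.isValueAt_inv_of_inf h₀.1 h₀.2)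
      (H.no_cross_inf Q Q' (gluedOn_of_isRedOf h₀.2 h₁.2))

/-- **Tube of a point of the component `1` which is not a crossing.** -/
theorem r_eq_one_iff_of_not_crossing (hQ : ∀ e, Q ≠ z₂ D e) :
    H.r P = ⟨1, Q⟩ ↔ Red D 1 P Q := by
  rw [H.r_eq_one_iff]
  refine ⟨fun h => h.1, fun h => ⟨h, ?_⟩⟩
  rintro ⟨Q', h'⟩
  obtain ⟨e, -, he⟩ := H.exists_crossing_of_red h' h
  exact hQ e he

/-- At a point of the component `0` which is not a crossing, no place of the tube has a reduction
on the component `1`. -/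
theorem not_red_one_of_not_crossing (hQ : ∀ e, Q ≠ z₁ D e) (h : Red D 0 P Q) :
    ¬ Red D 1 P Q' := by
  intro h'
  obtain ⟨e, he, -⟩ := H.exists_crossing_of_red h h'
  exact hQ e he

/-- **Finiteness of the crossings** from a function of the finite chart vanishing identically on
the component `1` but not on the component `0` (the modular unit): the crossings inject into its
zeros on the component `0`. -/
theorem finite_crossing [HasPrincipalDivisors k Ft] {t : F} (ht : t ∈ D.Rfin)
    (ht1 : D.res 1 ⟨t, D.hfin 1 ht⟩ = 0) (ht0 : D.res 0 ⟨t, D.hfin 0 ht⟩ ≠ 0) :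
    Finite (Crossing D) := by
  obtain ⟨Dv, hD, -⟩ := HasPrincipalDivisors.exists_divisor (K := k) _ ht0
  have key : ∀ e : Crossing D, z₁ D e ∈ Dv.support := by
    intro e
    obtain ⟨c, hc₁, hc₂⟩ := glued D e t ht
    rw [ht1] at hc₂
    have hc0 : c = 0 := hc₂.unique (isValueAt_zero _)
    rw [hc0, isValueAt_zero_iff, adicValuation_lt_one_iff] at hc₁
    rw [Finsupp.mem_support_iff, hD]
    rcases hc₁ with h | h
    · exact absurd h ht0
    · omega
  exact Finite.of_injective (fun e => (⟨z₁ D e, key e⟩ : Dv.support))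
    fun e e' h => H.z₁_injective (congrArg Subtype.val h)

omit H in
/-- A function of the finite chart vanishing identically on the component `1` vanishes at the
branch `z₁ e` of every crossing. -/
theorem ord_pos_of_crossing {t : F} (ht : t ∈ D.Rfin)
    (ht1 : D.res 1 ⟨t, D.hfin 1 ht⟩ = 0) (ht0 : D.res 0 ⟨t, D.hfin 0 ht⟩ ≠ 0)
    (e : Crossing D) : 0 < (z₁ D e).ord (D.res 0 ⟨t, D.hfin 0 ht⟩) := by
  obtain ⟨c, hc₁, hc₂⟩ := glued D e t ht
  rw [ht1] at hc₂
  have hc0 : c = 0 := hc₂.unique (isValueAt_zero _)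
  rw [hc0, isValueAt_zero_iff, adicValuation_lt_one_iff] at hc₁
  exact hc₁.resolve_left ht0

/-! ### equivariance on stable charts -/

omit H in
/-- The relation `Red` is preserved by an automorphism `g` stabilising the two charts (as sets)
and the residues of their functions, whose base automorphism preserves `A` and commutes with `π`
(for charts fixed POINTWISE this is helper29's `RedModular.red_smul_iff`). -/
theorem red_smul_of_stable (g : SemilinearAut K F)
    (hmem : ∀ c : K, c ∈ A → SemilinearAut.baseAut g c ∈ A)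
    (hπ : ∀ (c : K) (hc : c ∈ A), π ⟨SemilinearAut.baseAut g c, hmem c hc⟩ = π ⟨c, hc⟩)
    (hmem' : ∀ c : K, c ∈ A → SemilinearAut.baseAut g⁻¹ c ∈ A)
    (stab_f : ∀ y ∈ D.Rfin, g⁻¹ • y ∈ D.Rfin) (stab_f' : ∀ y ∈ D.Rfin, g • y ∈ D.Rfin)
    (stab_i : ∀ y ∈ D.Rinf, g⁻¹ • y ∈ D.Rinf)
    (res_f : ∀ (y : F) (hy : y ∈ D.Rfin),
      D.res i ⟨g⁻¹ • y, D.hfin i (stab_f y hy)⟩ = D.res i ⟨y, D.hfin i hy⟩)
    (res_i : ∀ (y : F) (hy : y ∈ D.Rinf),
      D.res i ⟨g⁻¹ • y, D.hinf i (stab_i y hy)⟩ = D.res i ⟨y, D.hinf i hy⟩)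
    (h : Red D i P Q) : Red D i (g • P) Q := by
  rcases h with h | h
  · exact Or.inl (isRedOf_smul_of_stable g hmem hπ stab_f res_f h)
  · refine Or.inr ⟨fun hf => h.1 ?_, isRedOf_smul_of_stable g hmem hπ stab_i res_i h.2⟩
    intro y hy
    obtain ⟨c, hcA, hc⟩ := hf _ (stab_f' y hy)
    refine ⟨SemilinearAut.baseAut g⁻¹ c, hmem' c hcA, ?_⟩
    have := AnnulusRed.isValueAt_smul g⁻¹ hc
    rwa [inv_smul_smul, inv_smul_smul] at this

end AtlasHyp

/-! ### the bundle -/

/-- The chart data attached to two constant reductions and two chart rings. -/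
def chartDataOf (C : Fin 2 → ConstRed (F := F) (Ft := Ft) A π) (Rfin Rinf : Subring F)
    (hfin : ∀ v, Rfin ≤ (C v).O.toSubring) (hinf : ∀ v, Rinf ≤ (C v).O.toSubring) :
    ChartData A π Ft F where
  O v := (C v).O
  res v := (C v).res
  Rfin := Rfin
  Rinf := Rinf
  hfin := hfin
  hinf := hinf

/-- `π` kills the maximal ideal of `A` (hypothesis `pi_zero` of `AtlasHyp`, from a constant
reduction). -/
theorem pi_zero_of_constRed (C : ConstRed (F := F) (Ft := Ft) A π) (a : A)
    (ha : A.valuation (a : K) < 1) : π a = 0 := by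
  rw [C.pi_eq_zero_iff, ValuationSubring.mem_nonunits_iff]
  exact ha

/-- **The two-component bundle of an atlas** with a chart at every point: `SmoothChart` at the
points which are not crossings, `NodeChart` at the crossings; the tubes are those of the reduction
map `H.r` (described by `r_eq_zero_iff`, `r_eq_z₁_iff`, `r_eq_one_iff_of_not_crossing`). -/
noncomputable def AtlasHyp.toInput {C : Fin 2 → ConstRed (F := F) (Ft := Ft) A π}
    {Rfin Rinf : Subring F} {hfin : ∀ v, Rfin ≤ (C v).O.toSubring}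
    {hinf : ∀ v, Rinf ≤ (C v).O.toSubring} {x : F}
    (H : AtlasHyp (chartDataOf C Rfin Rinf hfin hinf) x) (O_ne : (C 0).O ≠ (C 1).O)
    (hne : Nonempty (Crossing (chartDataOf C Rfin Rinf hfin hinf)))
    (smooth₀ : ∀ Q : Place k Ft, (∀ e, Q ≠ z₁ (chartDataOf C Rfin Rinf hfin hinf) e) →
      SmoothChart A (C 0).O (C 0).res Q {P | H.r P = ⟨0, Q⟩})
    (smooth₁ : ∀ Q : Place k Ft, (∀ e, Q ≠ z₂ (chartDataOf C Rfin Rinf hfin hinf) e) →
      SmoothChart A (C 1).O (C 1).res Q {P | H.r P = ⟨1, Q⟩})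
    (chart : ∀ e, NodeChart A (C 0).O (C 1).O (C 0).res (C 1).res
      (z₁ (chartDataOf C Rfin Rinf hfin hinf) e) (z₂ (chartDataOf C Rfin Rinf hfin hinf) e)
      {P | H.r P = ⟨0, z₁ (chartDataOf C Rfin Rinf hfin hinf) e⟩}) :
    TwoCompInput (F := F) A π Ft (Crossing (chartDataOf C Rfin Rinf hfin hinf)) :=
  TwoCompInput.ofAllCharts C O_ne (z₁ _) (z₂ _) H.z₁_injective H.z₂_injective hne H.r H.r_ne_tgt
    smooth₀ smooth₁ chart

end PointDict

end Fermat.Agent.BR.S0
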