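/-
Program B (bad reduction), node B6.6-CONS, tube side (helper24): the two tube fields
`tube_centred`, `tube_of_centred` of `SmoothModel` (`BR/S0/SmoothModel`) for the tubes
`{P | H.r P = ⟨i, Q⟩}` of the point dictionary (`PointDict.AtlasHyp`, helper12), at a point `Q`
which is not a crossing, for the GLOBAL model `C` at ANY level (`D.Rfin ≤ C`, resp. `D.Rinf ≤ C`).

The relation `Red D i P Q` is tested on the chart `D.Rfin` (resp. `D.Rinf`), the fields of
`SmoothModel` are about the model `C ⊇ D.Rfin` of a level; `C` is integral over the ring generated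
by `D.Rfin` and constants, but integrality alone does not transfer the reduction (several points
of `C` may lie over a point of the chart).  The transfer is relational:

* `isRedOf_of_le` : restriction of `IsRedOf` to a smaller ring;
* `isRedOf_of_total` : **level transfer** — if every place integral on `C` has a reduction tested
  on `C` (`total` at the level), the residues of the chart separate the places, and `P` has no
  reduction on the other component, then a reduction of `P` tested on the chart is a reduction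
  tested on `C`;
* `centre_iff_of_isRedOf` : a reduction tested on `C` gives the centre (`tube_centred` shape; no
  constants needed);
* `isRedOf_of_centre_iff` : conversely, given `fullRes` (the values at `Q` are residues of
  constants of `C`; NOT `A ⊆ C`);
* `tube_fields_zero_fin`, `tube_fields_one_fin`, `tube_fields_zero_inf`, `tube_fields_one_inf` :
  the two fields, for the two components and the two charts.
-/
import Mathlib
import Fermat.Agent.BR.S0.PointDict
import Fermat.Agent.BR.S0.SmoothModel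

set_option autoImplicit false

namespace Fermat.Agent.BR.S0.SmoothTube

open AlgebraicCurve Fermat.Agent.Red Fermat.Agent.Val Fermat.Agent.BR.Centre
  Fermat.Agent.BR.S0.RedModular Fermat.Agent.BR.S0.PointDict

variable {K F k Ft : Type*} [Field K] [Field F] [Algebra K F] [Field k] [Field Ft] [Algebra k Ft]
  {A : ValuationSubring K} {π : A →+* k}

/-! ### generalities on `IsRedOf` -/

/-- Restriction of a reduction to a smaller ring of functions. -/
theorem isRedOf_of_le {R R' : Subring F} (hR : R' ≤ R) {O : ValuationSubring F} {res : O →+* Ft}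
    {hRO : R ≤ O.toSubring} {hRO' : R' ≤ O.toSubring} {P : Place K F} {Q : Place k Ft}
    (h : IsRedOf A π R O res hRO P Q) : IsRedOf A π R' O res hRO' P Q :=
  ⟨h.integralAt.mono hR, fun _ hy => h.isValueAt (hR hy)⟩

/-- `π` vanishes exactly on the maximal ideal of `A`. -/
theorem pi_eq_zero_iff (hπ0 : ∀ a : A, A.valuation (a : K) < 1 → π a = 0) (a : A) :
    π a = 0 ↔ A.valuation (a : K) < 1 := by
  refine ⟨fun h => ?_, hπ0 a⟩
  by_contra hlt
  have h1 : A.valuation (a : K) = 1 :=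
    le_antisymm ((A.valuation_le_one_iff _).mpr a.2) (not_lt.mp hlt)
  have hu : IsUnit a := (A.valuation_eq_one_iff a).mpr h1
  exact (hu.map π).ne_zero h

/-- **A reduction tested on `C` gives the centre on `C`** (the shape of
`SmoothModel.tube_centred`). -/
theorem centre_iff_of_isRedOf (hπ0 : ∀ a : A, A.valuation (a : K) < 1 → π a = 0)
    {C : Subring F} {O : ValuationSubring F} {res : O →+* Ft} (le : ∀ x ∈ C, x ∈ O)
    {hCO : C ≤ O.toSubring} {P : Place K F} {Q : Place k Ft}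
    (h : IsRedOf A π C O res hCO P Q) :
    ∃ hI : IntegralAt A C P,
      ∀ y : C, y ∈ centre hI ↔ Q.adicValuation (res ⟨y, le y y.2⟩) < 1 := by
  refine ⟨h.integralAt, fun y => ?_⟩
  have h1 : IsValueAt Q (res ⟨y, le y y.2⟩) (π (evHom A C P h.integralAt y)) := h.isValueAt y.2
  rw [mem_centre_iff, ← isValueAt_zero_iff]
  have h2 : A.valuation (evalAt P (y : F)) < 1 ↔ π (evHom A C P h.integralAt y) = 0 := by
    rw [pi_eq_zero_iff hπ0, coe_evHom]
  rw [h2]
  constructor
  · intro h0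
    rw [h0] at h1
    exact h1
  · intro h0
    exact h1.unique h0

/-- **The centre on `C` gives a reduction tested on `C`**, when the values at `Q` of the residues
of the functions of `C` are residues of constants of `C` (`SmoothModel.fullRes`). -/
theorem isRedOf_of_centre_iff (hπ0 : ∀ a : A, A.valuation (a : K) < 1 → π a = 0)
    {C : Subring F} {O : ValuationSubring F} {res : O →+* Ft} (le : ∀ x ∈ C, x ∈ O)
    (hres : ∀ (a : K) (ha : a ∈ A) (h : algebraMap K F a ∈ O),
      res ⟨algebraMap K F a, h⟩ = algebraMap k Ft (π ⟨a, ha⟩))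
    {Q : Place k Ft}
    (hfull : ∀ y : C, ∃ (a : A) (_ : algebraMap K F (a : K) ∈ C),
      Q.adicValuation (res ⟨y, le y y.2⟩ - algebraMap k Ft (π a)) < 1)
    {hCO : C ≤ O.toSubring} {P : Place K F}
    (h : ∃ hI : IntegralAt A C P,
      ∀ y : C, y ∈ centre hI ↔ Q.adicValuation (res ⟨y, le y y.2⟩) < 1) :
    IsRedOf A π C O res hCO P Q := by
  obtain ⟨hI, hc⟩ := h
  refine ⟨hI, fun y hy => ?_⟩
  obtain ⟨a, haC, ha⟩ := hfull ⟨y, hy⟩
  -- `y - a` lies in the point, hence in the centre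
  have hmem : (⟨y, hy⟩ - ⟨algebraMap K F (a : K), haC⟩ : C) ∈ centre hI := by
    rw [hc]
    have e : (⟨((⟨y, hy⟩ - ⟨algebraMap K F (a : K), haC⟩ : C) : F),
        le _ (⟨y, hy⟩ - ⟨algebraMap K F (a : K), haC⟩ : C).2⟩ : O) =
        ⟨y, le y hy⟩ - ⟨algebraMap K F (a : K), le _ haC⟩ := rfl
    rw [e, map_sub, hres (a : K) a.2]
    exact ha
  rw [mem_centre_iff] at hmem
  have h1 : IsValueAt P (y - algebraMap K F (a : K)) (evalAt P y - (a : K)) :=
    (hI.isValueAt_evalAt hy).sub (isValueAt_algebraMap P _)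
  have e1 : (((⟨y, hy⟩ - ⟨algebraMap K F (a : K), haC⟩ : C) : C) : F) =
      y - algebraMap K F (a : K) := rfl
  rw [e1, evalAt_eq_of_isValueAt h1] at hmem
  -- so `π (y(P)) = π a`
  have h2 : π (evHom A C P hI ⟨y, hy⟩ - a) = 0 := hπ0 _ hmem
  rw [map_sub, sub_eq_zero] at h2
  rw [h2]
  exact ha

/-! ### the level transfer -/

/-- **Level transfer.** `R₀ ≤ C ≤ O v` (`v = 0, 1`); every place integral on `C` has a reduction
tested on `C`; the residues of `R₀` separate the places on each component; `P` has no reduction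
(tested on `R₀`) on a component other than `i`. Then a reduction of `P` on the component `i`
tested on `R₀` is a reduction tested on `C`. -/
theorem isRedOf_of_total {R₀ C : Subring F} (hRC : R₀ ≤ C) {O : Fin 2 → ValuationSubring F}
    {res : ∀ v, O v →+* Ft} {hRO : ∀ v, R₀ ≤ (O v).toSubring} {hCO : ∀ v, C ≤ (O v).toSubring}
    (hsep : ∀ v, Separates (k := k) R₀ (O v) (res v) (hRO v)) {P : Place K F}
    (htot : IntegralAt A C P →
      ∃ (v : Fin 2) (Q' : Place k Ft), IsRedOf A π C (O v) (res v) (hCO v) P Q')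
    (hint : IntegralAt A R₀ P → IntegralAt A C P) {i : Fin 2}
    (hother : ∀ (v : Fin 2) (Q' : Place k Ft), IsRedOf A π R₀ (O v) (res v) (hRO v) P Q' → v = i)
    {Q : Place k Ft} (h : IsRedOf A π R₀ (O i) (res i) (hRO i) P Q) :
    IsRedOf A π C (O i) (res i) (hCO i) P Q := by
  obtain ⟨v, Q', h'⟩ := htot (hint h.integralAt)
  have h'' : IsRedOf A π R₀ (O v) (res v) (hRO v) P Q' := isRedOf_of_le hRC h'
  have hv : v = i := hother v Q' h''
  subst hv
  have hQ : Q = Q' := isRedOf_unique (hsep v) h h''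
  rw [hQ]
  exact h'

/-! ### the two tube fields of `SmoothModel` -/

/-- The two tube fields of `SmoothModel` for a tube which is described by a reduction tested on a
chart `R₀ ≤ C`, given the level transfer from `R₀` to `C`. -/
theorem tube_fields_of_iff (hπ0 : ∀ a : A, A.valuation (a : K) < 1 → π a = 0)
    {R₀ C : Subring F} (hRC : R₀ ≤ C) {O : ValuationSubring F} {res : O →+* Ft}
    (le : ∀ x ∈ C, x ∈ O)
    (hres : ∀ (a : K) (ha : a ∈ A) (h : algebraMap K F a ∈ O),
      res ⟨algebraMap K F a, h⟩ = algebraMap k Ft (π ⟨a, ha⟩))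
    {Q : Place k Ft}
    (hfull : ∀ y : C, ∃ (a : A) (_ : algebraMap K F (a : K) ∈ C),
      Q.adicValuation (res ⟨y, le y y.2⟩ - algebraMap k Ft (π a)) < 1)
    {hRO : R₀ ≤ O.toSubring} {hCO : C ≤ O.toSubring} {T : Set (Place K F)}
    (hT : ∀ P, P ∈ T ↔ IsRedOf A π R₀ O res hRO P Q)
    (hLT : ∀ P, IsRedOf A π R₀ O res hRO P Q → IsRedOf A π C O res hCO P Q) :
    (∀ P ∈ T, ∃ h : IntegralAt A C P,
      ∀ y : C, y ∈ centre h ↔ Q.adicValuation (res ⟨y, le y y.2⟩) < 1) ∧
    (∀ P : Place K F, (∃ h : IntegralAt A C P,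
      ∀ y : C, y ∈ centre h ↔ Q.adicValuation (res ⟨y, le y y.2⟩) < 1) → P ∈ T) := by
  refine ⟨fun P hP => centre_iff_of_isRedOf hπ0 le (hLT P ((hT P).mp hP)), fun P h => ?_⟩
  have h1 : IsRedOf A π C O res hCO P Q := isRedOf_of_centre_iff hπ0 le hres hfull h
  exact (hT P).mpr (isRedOf_of_le hRC h1)

section Atlas

variable {D : ChartData A π Ft F} {x : F} (H : AtlasHyp D x) {C : Subring F}

include H

/-- A place which reduces to a zero of the residue of `1/x` is not integral on the finite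
chart. -/
theorem not_integralAt_of_red {i : Fin 2} {P : Place K F} {Q : Place k Ft}
    (hi : IsValueAt Q (D.res i ⟨x⁻¹, D.hinf i H.inv_mem⟩) 0) (h : Red D i P Q) :
    ¬ IntegralAt A D.Rfin P := by
  rcases h with h | h
  · exact (H.not_isValueAt_inv_zero (h.isValueAt H.x_mem) hi).elim
  · exact h.1

/-- **The tube fields at a point of the component `0` which is not a crossing, finite chart.** -/
theorem tube_fields_zero_fin (hRC : D.Rfin ≤ C) {hCO : ∀ v, C ≤ (D.O v).toSubring}
    (htot : ∀ P : Place K F, IntegralAt A C P →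
      ∃ (v : Fin 2) (Q' : Place k Ft), IsRedOf A π C (D.O v) (D.res v) (hCO v) P Q')
    (hint : ∀ P : Place K F, IntegralAt A D.Rfin P → IntegralAt A C P)
    {Q : Place k Ft} (hQ : ∀ e, Q ≠ z₁ D e) {c : k}
    (hx : IsValueAt Q (D.res 0 ⟨x, D.hfin 0 H.x_mem⟩) c)
    (le : ∀ y ∈ C, y ∈ D.O 0)
    (hres : ∀ (a : K) (ha : a ∈ A) (h : algebraMap K F a ∈ D.O 0),
      D.res 0 ⟨algebraMap K F a, h⟩ = algebraMap k Ft (π ⟨a, ha⟩))
    (hfull : ∀ y : C, ∃ (a : A) (_ : algebraMap K F (a : K) ∈ C),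
      Q.adicValuation (D.res 0 ⟨y, le y y.2⟩ - algebraMap k Ft (π a)) < 1) :
    (∀ P ∈ {P | H.r P = ⟨0, Q⟩}, ∃ h : IntegralAt A C P,
      ∀ y : C, y ∈ centre h ↔ Q.adicValuation (D.res 0 ⟨y, le y y.2⟩) < 1) ∧
    (∀ P : Place K F, (∃ h : IntegralAt A C P,
      ∀ y : C, y ∈ centre h ↔ Q.adicValuation (D.res 0 ⟨y, le y y.2⟩) < 1) →
      P ∈ {P | H.r P = ⟨0, Q⟩}) := by
  refine tube_fields_of_iff (hRO := D.hfin 0) (hCO := hCO 0) H.pi_zero hRC le hres hfull
    (fun P => ?_) (fun P h => ?_)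
  · rw [Set.mem_ofPred_eq, H.r_eq_zero_iff, H.red_iff_fin hx]
  · refine isRedOf_of_total (hRO := D.hfin) hRC H.sep_f (htot P) (hint P) (fun v Q' h' => ?_) h
    by_contra hv
    have hv1 : v = 1 := by
      fin_cases v
      · exact absurd rfl hv
      · rfl
    subst hv1
    exact H.not_red_one_of_not_crossing hQ (Or.inl h) (Or.inl h')

/-- **The tube fields at a point of the component `1` which is not a crossing, finite chart.** -/
theorem tube_fields_one_fin (hRC : D.Rfin ≤ C) {hCO : ∀ v, C ≤ (D.O v).toSubring}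
    (htot : ∀ P : Place K F, IntegralAt A C P →
      ∃ (v : Fin 2) (Q' : Place k Ft), IsRedOf A π C (D.O v) (D.res v) (hCO v) P Q')
    (hint : ∀ P : Place K F, IntegralAt A D.Rfin P → IntegralAt A C P)
    {Q : Place k Ft} (hQ : ∀ e, Q ≠ z₂ D e) {c : k}
    (hx : IsValueAt Q (D.res 1 ⟨x, D.hfin 1 H.x_mem⟩) c)
    (le : ∀ y ∈ C, y ∈ D.O 1)
    (hres : ∀ (a : K) (ha : a ∈ A) (h : algebraMap K F a ∈ D.O 1),
      D.res 1 ⟨algebraMap K F a, h⟩ = algebraMap k Ft (π ⟨a, ha⟩))
    (hfull : ∀ y : C, ∃ (a : A) (_ : algebraMap K F (a : K) ∈ C),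
      Q.adicValuation (D.res 1 ⟨y, le y y.2⟩ - algebraMap k Ft (π a)) < 1) :
    (∀ P ∈ {P | H.r P = ⟨1, Q⟩}, ∃ h : IntegralAt A C P,
      ∀ y : C, y ∈ centre h ↔ Q.adicValuation (D.res 1 ⟨y, le y y.2⟩) < 1) ∧
    (∀ P : Place K F, (∃ h : IntegralAt A C P,
      ∀ y : C, y ∈ centre h ↔ Q.adicValuation (D.res 1 ⟨y, le y y.2⟩) < 1) →
      P ∈ {P | H.r P = ⟨1, Q⟩}) := by
  refine tube_fields_of_iff (hRO := D.hfin 1) (hCO := hCO 1) H.pi_zero hRC le hres hfull
    (fun P => ?_) (fun P h => ?_)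
  · rw [Set.mem_ofPred_eq, H.r_eq_one_iff_of_not_crossing hQ, H.red_iff_fin hx]
  · refine isRedOf_of_total (hRO := D.hfin) hRC H.sep_f (htot P) (hint P) (fun v Q' h' => ?_) h
    by_contra hv
    have hv0 : v = 0 := by
      fin_cases v
      · rfl
      · exact absurd rfl hv
    subst hv0
    obtain ⟨e, -, he⟩ := H.exists_crossing_of_red (Or.inl h') (Or.inl h)
    exact hQ e he

/-- **The tube fields at a point of the component `0` which is not a crossing, chart at
infinity** (`C` a model of the chart at infinity, `D.Rinf ≤ C`). -/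
theorem tube_fields_zero_inf (hRC : D.Rinf ≤ C) {hCO : ∀ v, C ≤ (D.O v).toSubring}
    (htot : ∀ P : Place K F, IntegralAt A C P →
      ∃ (v : Fin 2) (Q' : Place k Ft), IsRedOf A π C (D.O v) (D.res v) (hCO v) P Q')
    (hint : ∀ P : Place K F, IntegralAt A D.Rinf P → IntegralAt A C P)
    {Q : Place k Ft} (hQ : ∀ e, Q ≠ z₁ D e)
    (hi : IsValueAt Q (D.res 0 ⟨x⁻¹, D.hinf 0 H.inv_mem⟩) 0)
    (le : ∀ y ∈ C, y ∈ D.O 0)
    (hres : ∀ (a : K) (ha : a ∈ A) (h : algebraMap K F a ∈ D.O 0),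
      D.res 0 ⟨algebraMap K F a, h⟩ = algebraMap k Ft (π ⟨a, ha⟩))
    (hfull : ∀ y : C, ∃ (a : A) (_ : algebraMap K F (a : K) ∈ C),
      Q.adicValuation (D.res 0 ⟨y, le y y.2⟩ - algebraMap k Ft (π a)) < 1) :
    (∀ P ∈ {P | H.r P = ⟨0, Q⟩}, ∃ h : IntegralAt A C P,
      ∀ y : C, y ∈ centre h ↔ Q.adicValuation (D.res 0 ⟨y, le y y.2⟩) < 1) ∧
    (∀ P : Place K F, (∃ h : IntegralAt A C P,
      ∀ y : C, y ∈ centre h ↔ Q.adicValuation (D.res 0 ⟨y, le y y.2⟩) < 1) →
      P ∈ {P | H.r P = ⟨0, Q⟩}) := by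
  refine tube_fields_of_iff (hRO := D.hinf 0) (hCO := hCO 0) H.pi_zero hRC le hres hfull
    (fun P => ?_) (fun P h => ?_)
  · rw [Set.mem_ofPred_eq, H.r_eq_zero_iff, H.red_iff_inf hi]
  · have hred : Red D 0 P Q := (H.red_iff_inf hi).mpr h
    have hnf : ¬ IntegralAt A D.Rfin P := not_integralAt_of_red H hi hred
    refine isRedOf_of_total (hRO := D.hinf) hRC H.sep_i (htot P) (hint P) (fun v Q' h' => ?_) h
    by_contra hv
    have hv1 : v = 1 := by
      fin_cases v
      · exact absurd rfl hv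
      · rfl
    subst hv1
    exact H.not_red_one_of_not_crossing hQ hred (Or.inr ⟨hnf, h'⟩)

/-- **The tube fields at a point of the component `1` which is not a crossing, chart at
infinity.** -/
theorem tube_fields_one_inf (hRC : D.Rinf ≤ C) {hCO : ∀ v, C ≤ (D.O v).toSubring}
    (htot : ∀ P : Place K F, IntegralAt A C P →
      ∃ (v : Fin 2) (Q' : Place k Ft), IsRedOf A π C (D.O v) (D.res v) (hCO v) P Q')
    (hint : ∀ P : Place K F, IntegralAt A D.Rinf P → IntegralAt A C P)
    {Q : Place k Ft} (hQ : ∀ e, Q ≠ z₂ D e)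
    (hi : IsValueAt Q (D.res 1 ⟨x⁻¹, D.hinf 1 H.inv_mem⟩) 0)
    (le : ∀ y ∈ C, y ∈ D.O 1)
    (hres : ∀ (a : K) (ha : a ∈ A) (h : algebraMap K F a ∈ D.O 1),
      D.res 1 ⟨algebraMap K F a, h⟩ = algebraMap k Ft (π ⟨a, ha⟩))
    (hfull : ∀ y : C, ∃ (a : A) (_ : algebraMap K F (a : K) ∈ C),
      Q.adicValuation (D.res 1 ⟨y, le y y.2⟩ - algebraMap k Ft (π a)) < 1) :
    (∀ P ∈ {P | H.r P = ⟨1, Q⟩}, ∃ h : IntegralAt A C P,
      ∀ y : C, y ∈ centre h ↔ Q.adicValuation (D.res 1 ⟨y, le y y.2⟩) < 1) ∧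
    (∀ P : Place K F, (∃ h : IntegralAt A C P,
      ∀ y : C, y ∈ centre h ↔ Q.adicValuation (D.res 1 ⟨y, le y y.2⟩) < 1) →
      P ∈ {P | H.r P = ⟨1, Q⟩}) := by
  refine tube_fields_of_iff (hRO := D.hinf 1) (hCO := hCO 1) H.pi_zero hRC le hres hfull
    (fun P => ?_) (fun P h => ?_)
  · rw [Set.mem_ofPred_eq, H.r_eq_one_iff_of_not_crossing hQ, H.red_iff_inf hi]
  · have hred : Red D 1 P Q := (H.red_iff_inf hi).mpr h
    have hnf : ¬ IntegralAt A D.Rfin P := not_integralAt_of_red H hi hred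
    refine isRedOf_of_total (hRO := D.hinf) hRC H.sep_i (htot P) (hint P) (fun v Q' h' => ?_) h
    by_contra hv
    have hv0 : v = 0 := by
      fin_cases v
      · rfl
      · exact absurd rfl hv
    subst hv0
    obtain ⟨e, -, he⟩ := H.exists_crossing_of_red (Or.inr ⟨hnf, h'⟩) hred
    exact hQ e he

end Atlas

end Fermat.Agent.BR.S0.SmoothTube
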