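/-
Program B (bad reduction), node B6.6-CONS, per-level assembly (helper24).

`structure LevelHyp D C ϖ P₀ P₁ red₀ red₁` : the named facts on the global model `C` at a level
(B6.5 (b),(c),(d) + FullRes): noetherian, integrally closed, `C ≤ O v`, two components
`TwoComponents ϖ P₀ P₁`, reductions `red v : C →+* Dk` ONTO the Dedekind chart `Dk` of the
component with `ker (red v) = P_v`, the constants of `C` fill the residue field.

From `LevelHyp`, the atlas hypotheses `PointDict.AtlasHyp D x` (helper12), the inclusion of the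
chart (`D.Rfin ≤ C`, resp. `D.Rinf ≤ C`) and `hint` (a place integral on the chart is integral on
`C`):

* `LevelHyp.total` : every place integral on `C` has a reduction tested on `C`;
* `LevelHyp.smoothModel_zero_fin`, `smoothModel_one_fin`, `smoothModel_zero_inf`,
  `smoothModel_one_inf` : `SmoothModel A π (D.O i) (D.res i) Q {P | H.r P = ⟨i, Q⟩} t C ϖ` at a
  point `Q` which is not a crossing, read on the finite chart (`res x` regular at `Q`) or on the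
  chart at infinity (`res (1/x)` vanishes at `Q`).

These are the per-level inputs `M i` of `smoothChartOfModels` (`BR/S0/SmoothModelFamily`).
-/
import Mathlib
import Fermat.Agent.BR.S0.SmoothTube
import Fermat.Agent.BR.S0.PointOfHom
import Fermat.Agent.BR.Inst.SmoothModelOf

set_option autoImplicit false
set_option linter.unusedSectionVars false

namespace Fermat.Agent.BR.S0.SmoothAssembly

open AlgebraicCurve Fermat.Agent.Red Fermat.Agent.X0 Fermat.Agent.BR.Centre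
  Fermat.Agent.BR.SpecialFibre Fermat.Agent.BR.S0.RedModular Fermat.Agent.BR.S0.PointDict
  Fermat.Agent.BR.S0.SmoothTube Fermat.Agent.BR.S0.PointOfHom
  Fermat.Agent.BR.Inst.SmoothModelOf

variable {K F k Ft : Type*} [Field K] [Field F] [Algebra K F] [Field k] [Field Ft] [Algebra k Ft]
  {A : ValuationSubring K} {π : A →+* k}
  {Dk : Type*} [CommRing Dk] [IsDedekindDomain Dk] [Algebra Dk Ft] [IsFractionRing Dk Ft]
  [Algebra k Dk] [IsScalarTower k Dk Ft]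

/-- **The named facts on the global model at a level.** -/
structure LevelHyp (D : ChartData A π Ft F) (C : Subring F) (ϖ : K) (P₀ P₁ : Ideal C)
    (red₀ red₁ : C →+* Dk) : Prop where
  noeth : IsNoetherianRing C
  intClosed : IsIntegrallyClosed C
  hCO : ∀ v, C ≤ (D.O v).toSubring
  unif_ne : ϖ ≠ 0
  unif_lt : A.valuation ϖ < 1
  unif_mem : algebraMap K F ϖ ∈ C
  /-- the special fibre of the model has the two components `P₀`, `P₁`, of multiplicity one -/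
  twoComp : TwoComponents (⟨algebraMap K F ϖ, unif_mem⟩ : C) P₀ P₁
  hred₀ : ∀ x : C, algebraMap Dk Ft (red₀ x) = D.res 0 ⟨x, hCO 0 x.2⟩
  hred₁ : ∀ x : C, algebraMap Dk Ft (red₁ x) = D.res 1 ⟨x, hCO 1 x.2⟩
  surj₀ : Function.Surjective red₀
  surj₁ : Function.Surjective red₁
  mem_P₀ : ∀ x : C, x ∈ P₀ ↔ red₀ x = 0
  mem_P₁ : ∀ x : C, x ∈ P₁ ↔ red₁ x = 0
  /-- FullRes: the constants of the model fill the residue field -/
  fullRes : ∀ c : k, ∃ a : A, algebraMap K F (a : K) ∈ C ∧ π a = c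

namespace LevelHyp

variable {D : ChartData A π Ft F} {C : Subring F} {ϖ : K} {P₀ P₁ : Ideal C}
  {red₀ red₁ : C →+* Dk}

/-- the residue of a non-unit of the valuation ring of a component vanishes: `C ∩ 𝔪_{O₀} ⊆ P₀` -/
theorem mem_P₀_of_nonunit (L : LevelHyp D C ϖ P₀ P₁ red₀ red₁)
    (hres0 : ∀ x : D.O 0, (x : F) ∈ (D.O 0).nonunits → D.res 0 x = 0) (x : C)
    (hx : (x : F) ∈ (D.O 0).nonunits) : x ∈ P₀ := by
  rw [L.mem_P₀]
  apply IsFractionRing.injective Dk Ft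
  rw [L.hred₀, map_zero]
  exact hres0 _ hx

theorem mem_P₁_of_nonunit (L : LevelHyp D C ϖ P₀ P₁ red₀ red₁)
    (hres0 : ∀ x : D.O 1, (x : F) ∈ (D.O 1).nonunits → D.res 1 x = 0) (x : C)
    (hx : (x : F) ∈ (D.O 1).nonunits) : x ∈ P₁ := by
  rw [L.mem_P₁]
  apply IsFractionRing.injective Dk Ft
  rw [L.hred₁, map_zero]
  exact hres0 _ hx

/-- **Total at the level**: every place integral on the model has a reduction tested on the
model. -/
theorem total (L : LevelHyp D C ϖ P₀ P₁ red₀ red₁) (hnf : ¬ IsField Dk)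
    (hπ0 : ∀ a : A, A.valuation (a : K) < 1 → π a = 0)
    (hres : ∀ v (a : K) (ha : a ∈ A) (h : algebraMap K F a ∈ D.O v),
      D.res v ⟨algebraMap K F a, h⟩ = algebraMap k Ft (π ⟨a, ha⟩))
    (P : Place K F) (hP : IntegralAt A C P) :
    ∃ (v : Fin 2) (Q' : Place k Ft), IsRedOf A π C (D.O v) (D.res v) (L.hCO v) P Q' := by
  have := L.noeth
  have := L.intClosed
  refine exists_isRedOf_of_integralAt (Dk := Dk) hnf hπ0 L.hCO hres ![red₀, red₁] ?_ ?_
    L.fullRes L.unif_lt L.unif_mem ?_ P hP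
  · intro v x
    fin_cases v
    · exact L.hred₀ x
    · exact L.hred₁ x
  · intro v
    fin_cases v
    · exact L.surj₀
    · exact L.surj₁
  · intro x h0 h1
    have hmem : x ∈ P₀ ⊓ P₁ := ⟨(L.mem_P₀ x).mpr h0, (L.mem_P₁ x).mpr h1⟩
    rw [L.twoComp.inf_eq] at hmem
    exact Ideal.mem_span_singleton.mp hmem

/-- `fullRes` in the shape of `SmoothModel`: the values at `Q` of the residues of the functions of
the model are residues of constants of the model. -/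
theorem fullRes_at (L : LevelHyp D C ϖ P₀ P₁ red₀ red₁) {O : ValuationSubring F}
    {res : O →+* Ft} (le : ∀ x ∈ C, x ∈ O) {Q : Place k Ft} (hdeg : Q.deg = 1)
    (hreg : ∀ x : C, Q.adicValuation (res ⟨x, le x x.2⟩) ≤ 1) (y : C) :
    ∃ (a : A) (_ : algebraMap K F (a : K) ∈ C),
      Q.adicValuation (res ⟨y, le y y.2⟩ - algebraMap k Ft (π a)) < 1 := by
  have hmem : res ⟨y, le y y.2⟩ ∈ Q.toValuationSubring := by
    rw [Place.mem_iff_ord_nonneg]
    rcases (Q.adicValuation_le_one_iff).mp (hreg y) with h0 | h0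
    · rw [h0, Place.ord_zero]
    · exact h0
  obtain ⟨c, hc⟩ := exists_isValueAt Q hdeg hmem
  obtain ⟨a, haC, hac⟩ := L.fullRes c
  exact ⟨a, haC, by rw [hac]; exact hc⟩

section Atlas

variable {x : F} (H : AtlasHyp D x)

include H

/-- **The smooth model at a point of the component `0` which is not a crossing, finite chart.** -/
theorem smoothModel_zero_fin (L : LevelHyp D C ϖ P₀ P₁ red₀ red₁) (hnf : ¬ IsField Dk)
    (hres : ∀ v (a : K) (ha : a ∈ A) (h : algebraMap K F a ∈ D.O v),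
      D.res v ⟨algebraMap K F a, h⟩ = algebraMap k Ft (π ⟨a, ha⟩))
    (hres0 : ∀ x : D.O 0, (x : F) ∈ (D.O 0).nonunits → D.res 0 x = 0)
    (hRC : D.Rfin ≤ C)
    (hint : ∀ P : Place K F, IntegralAt A D.Rfin P → IntegralAt A C P)
    {Q : Place k Ft} (hQ : ∀ e, Q ≠ z₁ D e) {c : k}
    (hx : IsValueAt Q (D.res 0 ⟨x, D.hfin 0 H.x_mem⟩) c)
    (hQD : ∀ d : Dk, Q.adicValuation (algebraMap Dk Ft d) ≤ 1) (hdeg : Q.deg = 1)
    {t : F} (htC : t ∈ C) (ht1 : Q.ord (D.res 0 ⟨t, L.hCO 0 htC⟩) = 1) :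
    SmoothModel A π (D.O 0) (D.res 0) Q {P | H.r P = ⟨0, Q⟩} t C ϖ := by
  have le₀ : ∀ y ∈ C, y ∈ D.O 0 := fun y hy => L.hCO 0 hy
  have le₁ : ∀ y ∈ C, y ∈ D.O 1 := fun y hy => L.hCO 1 hy
  have hreg : ∀ y : C, Q.adicValuation (D.res 0 ⟨y, le₀ y y.2⟩) ≤ 1 := fun y => by
    rw [← L.hred₀]; exact hQD _
  have htube := tube_fields_zero_fin H hRC (hCO := L.hCO) (L.total hnf H.pi_zero hres) hint hQ hx
    le₀ (hres 0) (L.fullRes_at le₀ hdeg hreg)
  obtain ⟨y, hy0, hy⟩ := exists_notMem_of_not_crossing_zero (Dk := Dk) hnf hRC le₀ le₁ (hres 0)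
    (hres 1) red₁ L.hred₁ L.surj₁ L.fullRes hdeg hreg hQ
  exact smoothModel_of_twoComponents L.noeth L.intClosed le₀ (L.mem_P₀_of_nonunit hres0)
    L.unif_ne L.unif_lt L.unif_mem L.twoComp (algebraMap Dk Ft) red₀ L.hred₀ L.surj₀ hQD
    ⟨y, (L.mem_P₁ y).mpr hy0, hy⟩ htC ht1 hdeg L.fullRes htube.1 htube.2

/-- **The smooth model at a point of the component `1` which is not a crossing, finite chart.** -/
theorem smoothModel_one_fin (L : LevelHyp D C ϖ P₀ P₁ red₀ red₁) (hnf : ¬ IsField Dk)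
    (hres : ∀ v (a : K) (ha : a ∈ A) (h : algebraMap K F a ∈ D.O v),
      D.res v ⟨algebraMap K F a, h⟩ = algebraMap k Ft (π ⟨a, ha⟩))
    (hres0 : ∀ x : D.O 1, (x : F) ∈ (D.O 1).nonunits → D.res 1 x = 0)
    (hRC : D.Rfin ≤ C)
    (hint : ∀ P : Place K F, IntegralAt A D.Rfin P → IntegralAt A C P)
    {Q : Place k Ft} (hQ : ∀ e, Q ≠ z₂ D e) {c : k}
    (hx : IsValueAt Q (D.res 1 ⟨x, D.hfin 1 H.x_mem⟩) c)
    (hQD : ∀ d : Dk, Q.adicValuation (algebraMap Dk Ft d) ≤ 1) (hdeg : Q.deg = 1)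
    {t : F} (htC : t ∈ C) (ht1 : Q.ord (D.res 1 ⟨t, L.hCO 1 htC⟩) = 1) :
    SmoothModel A π (D.O 1) (D.res 1) Q {P | H.r P = ⟨1, Q⟩} t C ϖ := by
  have le₀ : ∀ y ∈ C, y ∈ D.O 0 := fun y hy => L.hCO 0 hy
  have le₁ : ∀ y ∈ C, y ∈ D.O 1 := fun y hy => L.hCO 1 hy
  have hreg : ∀ y : C, Q.adicValuation (D.res 1 ⟨y, le₁ y y.2⟩) ≤ 1 := fun y => by
    rw [← L.hred₁]; exact hQD _
  have htube := tube_fields_one_fin H hRC (hCO := L.hCO) (L.total hnf H.pi_zero hres) hint hQ hx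
    le₁ (hres 1) (L.fullRes_at le₁ hdeg hreg)
  obtain ⟨y, hy0, hy⟩ := exists_notMem_of_not_crossing_one (Dk := Dk) hnf hRC le₀ le₁ (hres 0)
    (hres 1) red₀ L.hred₀ L.surj₀ L.fullRes hdeg hreg hQ
  exact smoothModel_of_twoComponents L.noeth L.intClosed le₁ (L.mem_P₁_of_nonunit hres0)
    L.unif_ne L.unif_lt L.unif_mem L.twoComp.symm (algebraMap Dk Ft) red₁ L.hred₁ L.surj₁ hQD
    ⟨y, (L.mem_P₀ y).mpr hy0, hy⟩ htC ht1 hdeg L.fullRes htube.1 htube.2

/-- **The smooth model at a point of the component `0` at infinity** (`res (1/x)` vanishes at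
`Q`; `C` a model of the chart at infinity; there is no crossing at infinity). -/
theorem smoothModel_zero_inf (L : LevelHyp D C ϖ P₀ P₁ red₀ red₁) (hnf : ¬ IsField Dk)
    (hres : ∀ v (a : K) (ha : a ∈ A) (h : algebraMap K F a ∈ D.O v),
      D.res v ⟨algebraMap K F a, h⟩ = algebraMap k Ft (π ⟨a, ha⟩))
    (hres0 : ∀ x : D.O 0, (x : F) ∈ (D.O 0).nonunits → D.res 0 x = 0)
    (hRC : D.Rinf ≤ C)
    (hint : ∀ P : Place K F, IntegralAt A D.Rinf P → IntegralAt A C P)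
    {Q : Place k Ft} (hQ : ∀ e, Q ≠ z₁ D e)
    (hi : IsValueAt Q (D.res 0 ⟨x⁻¹, D.hinf 0 H.inv_mem⟩) 0)
    (hQD : ∀ d : Dk, Q.adicValuation (algebraMap Dk Ft d) ≤ 1) (hdeg : Q.deg = 1)
    {t : F} (htC : t ∈ C) (ht1 : Q.ord (D.res 0 ⟨t, L.hCO 0 htC⟩) = 1) :
    SmoothModel A π (D.O 0) (D.res 0) Q {P | H.r P = ⟨0, Q⟩} t C ϖ := by
  have le₀ : ∀ y ∈ C, y ∈ D.O 0 := fun y hy => L.hCO 0 hy
  have le₁ : ∀ y ∈ C, y ∈ D.O 1 := fun y hy => L.hCO 1 hy
  have hreg : ∀ y : C, Q.adicValuation (D.res 0 ⟨y, le₀ y y.2⟩) ≤ 1 := fun y => by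
    rw [← L.hred₀]; exact hQD _
  have htube := tube_fields_zero_inf H hRC (hCO := L.hCO) (L.total hnf H.pi_zero hres) hint hQ hi
    le₀ (hres 0) (L.fullRes_at le₀ hdeg hreg)
  have h2 : ∃ y : C, red₁ y = 0 ∧ ¬ Q.adicValuation (D.res 0 ⟨y, le₀ y y.2⟩) < 1 := by
    by_contra hcon
    have hsub : ∀ y : C, red₁ y = 0 → Q.adicValuation (D.res 0 ⟨y, le₀ y y.2⟩) < 1 := by
      intro y hy
      by_contra hlt
      exact hcon ⟨y, hy, hlt⟩
    obtain ⟨Q', hQ'⟩ := exists_glued_of_forall_lt (Dk := Dk) hnf le₀ le₁ (hres 0) (hres 1) red₁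
      L.hred₁ L.surj₁ L.fullRes hdeg hreg hsub
    have hglue : GluedI D Q Q' := fun y hy => hQ' ⟨y, hRC hy⟩
    exact H.no_cross_inf Q Q' hglue hi
  obtain ⟨y, hy0, hy⟩ := h2
  exact smoothModel_of_twoComponents L.noeth L.intClosed le₀ (L.mem_P₀_of_nonunit hres0)
    L.unif_ne L.unif_lt L.unif_mem L.twoComp (algebraMap Dk Ft) red₀ L.hred₀ L.surj₀ hQD
    ⟨y, (L.mem_P₁ y).mpr hy0, hy⟩ htC ht1 hdeg L.fullRes htube.1 htube.2

/-- **The smooth model at a point of the component `1` at infinity.** -/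
theorem smoothModel_one_inf (L : LevelHyp D C ϖ P₀ P₁ red₀ red₁) (hnf : ¬ IsField Dk)
    (hres : ∀ v (a : K) (ha : a ∈ A) (h : algebraMap K F a ∈ D.O v),
      D.res v ⟨algebraMap K F a, h⟩ = algebraMap k Ft (π ⟨a, ha⟩))
    (hres0 : ∀ x : D.O 1, (x : F) ∈ (D.O 1).nonunits → D.res 1 x = 0)
    (hRC : D.Rinf ≤ C)
    (hint : ∀ P : Place K F, IntegralAt A D.Rinf P → IntegralAt A C P)
    {Q : Place k Ft} (hQ : ∀ e, Q ≠ z₂ D e)
    (hi : IsValueAt Q (D.res 1 ⟨x⁻¹, D.hinf 1 H.inv_mem⟩) 0)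
    (hQD : ∀ d : Dk, Q.adicValuation (algebraMap Dk Ft d) ≤ 1) (hdeg : Q.deg = 1)
    {t : F} (htC : t ∈ C) (ht1 : Q.ord (D.res 1 ⟨t, L.hCO 1 htC⟩) = 1) :
    SmoothModel A π (D.O 1) (D.res 1) Q {P | H.r P = ⟨1, Q⟩} t C ϖ := by
  have le₀ : ∀ y ∈ C, y ∈ D.O 0 := fun y hy => L.hCO 0 hy
  have le₁ : ∀ y ∈ C, y ∈ D.O 1 := fun y hy => L.hCO 1 hy
  have hreg : ∀ y : C, Q.adicValuation (D.res 1 ⟨y, le₁ y y.2⟩) ≤ 1 := fun y => by
    rw [← L.hred₁]; exact hQD _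
  have htube := tube_fields_one_inf H hRC (hCO := L.hCO) (L.total hnf H.pi_zero hres) hint hQ hi
    le₁ (hres 1) (L.fullRes_at le₁ hdeg hreg)
  have h2 : ∃ y : C, red₀ y = 0 ∧ ¬ Q.adicValuation (D.res 1 ⟨y, le₁ y y.2⟩) < 1 := by
    by_contra hcon
    have hsub : ∀ y : C, red₀ y = 0 → Q.adicValuation (D.res 1 ⟨y, le₁ y y.2⟩) < 1 := by
      intro y hy
      by_contra hlt
      exact hcon ⟨y, hy, hlt⟩
    obtain ⟨Q', hQ'⟩ := exists_glued_of_forall_lt (Dk := Dk) hnf le₁ le₀ (hres 1) (hres 0) red₀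
      L.hred₀ L.surj₀ L.fullRes hdeg hreg hsub
    have hglue : GluedI D Q' Q := fun y hy => by
      obtain ⟨c, h1, h0⟩ := hQ' ⟨y, hRC hy⟩
      exact ⟨c, h0, h1⟩
    -- `1/x` vanishes at `Q`, hence at the glued point `Q'`
    obtain ⟨c, h0, h1⟩ := hglue x⁻¹ H.inv_mem
    have hc : c = 0 := h1.unique hi
    rw [hc] at h0
    exact H.no_cross_inf Q' Q hglue h0
  obtain ⟨y, hy0, hy⟩ := h2
  exact smoothModel_of_twoComponents L.noeth L.intClosed le₁ (L.mem_P₁_of_nonunit hres0)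
    L.unif_ne L.unif_lt L.unif_mem L.twoComp.symm (algebraMap Dk Ft) red₁ L.hred₁ L.surj₁ hQD
    ⟨y, (L.mem_P₀ y).mpr hy0, hy⟩ htC ht1 hdeg L.fullRes htube.1 htube.2

end Atlas

end LevelHyp

end Fermat.Agent.BR.S0.SmoothAssembly
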