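/-
Program B (bad reduction), node B6.6-CONS, family assembly (helper24).

A directed family of levels `C i` (global models, exhausting `F` and `A`), each with the named
facts `SmoothAssembly.LevelHyp`, gives the smooth chart at a point `Q` which is not a crossing, for
the tube `{P | H.r P = ⟨v, Q⟩}` of the point dictionary — the arguments `smooth₀`, `smooth₁` of
`PointDict.AtlasHyp.toInput`, one point at a time:

* `smoothChart_zero_fin`, `smoothChart_one_fin` : `Q` read on the finite chart;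
* `smoothChart_zero_inf`, `smoothChart_one_inf` : `Q` read on the chart at infinity;
* `smoothChartOf_zero_fin` … : the same for `D = chartDataOf Cr Rfin Rinf _ _` (two constant
  reductions `Cr v`), where the hypotheses on the residue maps are those of `ConstRed`.

The existence of a place over every horizontal height-one prime of the local rings (`horiz`,
`BR/S0/HorizProvider`) is a named hypothesis, in the shape of `SmoothFamily.ofModels`.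
-/
import Mathlib
import Fermat.Agent.BR.S0.SmoothAssembly
import Fermat.Agent.BR.S0.SmoothModelFamily

set_option autoImplicit false
set_option linter.unusedSectionVars false

namespace Fermat.Agent.BR.S0.SmoothAssembly

open AlgebraicCurve Fermat.Agent.Red Fermat.Agent.X0 Fermat.Agent.Val Fermat.Agent.BR.Centre
  Fermat.Agent.BR.SpecialFibre Fermat.Agent.BR.S0.RedModular Fermat.Agent.BR.S0.PointDict

variable {K F k Ft : Type*} [Field K] [Field F] [Algebra K F] [Field k] [Field Ft] [Algebra k Ft]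
  {A : ValuationSubring K} {π : A →+* k}
  {Dk : Type*} [CommRing Dk] [IsDedekindDomain Dk] [Algebra Dk Ft] [IsFractionRing Dk Ft]
  [Algebra k Dk] [IsScalarTower k Dk Ft]

/-- `π a ≠ 0` only for the units of `A`. -/
theorem inv_mem_of_pi_ne_zero (hπ0 : ∀ a : A, A.valuation (a : K) < 1 → π a = 0) (a : A)
    (ha : π a ≠ 0) : (a : K)⁻¹ ∈ A := by
  have h1 : A.valuation (a : K) = 1 :=
    le_antisymm ((A.valuation_le_one_iff _).mpr a.2) (not_lt.mp fun hlt => ha (hπ0 a hlt))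
  rw [← A.valuation_le_one_iff, map_inv₀, h1, inv_one]

section Family

variable {D : ChartData A π Ft F} {x : F} (H : AtlasHyp D x)
  {ι : Type*} [Nonempty ι] {C : ι → Subring F} {ϖ : ι → K} {P₀ P₁ : ∀ i, Ideal (C i)}
  {red₀ red₁ : ∀ i, C i →+* Dk}

/-- **The smooth chart at a point of the component `0` which is not a crossing, read on the
finite chart**, from a directed family of levels. -/
noncomputable def smoothChart_zero_fin
    (L : ∀ i, LevelHyp D (C i) (ϖ i) (P₀ i) (P₁ i) (red₀ i) (red₁ i)) (hnf : ¬ IsField Dk)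
    (hres : ∀ v (a : K) (ha : a ∈ A) (h : algebraMap K F a ∈ D.O v),
      D.res v ⟨algebraMap K F a, h⟩ = algebraMap k Ft (π ⟨a, ha⟩))
    (hres0 : ∀ y : D.O 0, D.res 0 y = 0 ↔ (y : F) ∈ (D.O 0).nonunits)
    (hAO : ∀ c : K, A.valuation c < 1 → algebraMap K F c ∈ (D.O 0).nonunits)
    (hRC : ∀ i, D.Rfin ≤ C i)
    (hint : ∀ i (P : Place K F), IntegralAt A D.Rfin P → IntegralAt A (C i) P)
    (hdir : ∀ i j, ∃ l, C i ≤ C l ∧ C j ≤ C l)
    (hfrac : ∀ y : F, ∃ i, ∃ a b : C i, b ≠ 0 ∧ y * (b : F) = (a : F))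
    (hconst : ∀ a ∈ A, ∃ i, algebraMap K F a ∈ C i)
    {Q : Place k Ft} (hQ : ∀ e, Q ≠ z₁ D e) {c : k}
    (hx : IsValueAt Q (D.res 0 ⟨x, D.hfin 0 H.x_mem⟩) c)
    (hQD : ∀ d : Dk, Q.adicValuation (algebraMap Dk Ft d) ≤ 1) (hdeg : Q.deg = 1)
    {t : F} (htC : ∀ i, t ∈ C i) (ht1 : ∀ h : t ∈ D.O 0, Q.ord (D.res 0 ⟨t, h⟩) = 1)
    (horiz : ∀ i (M : SmoothModel A π (D.O 0) (D.res 0) Q {P | H.r P = ⟨0, Q⟩} t (C i) (ϖ i)),
      ∀ p : Ideal M.loc, p.IsPrime → p.height = 1 →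
      (⟨algebraMap K F (ϖ i), M.le_loc M.unif_mem⟩ : M.loc) ∉ p →
      ∃ P : Place K F, CentredAt A M.loc P ∧ ∀ y : M.loc, evalAt P (y : F) = 0 ↔ y ∈ p) :
    SmoothChart A (D.O 0) (D.res 0) Q {P | H.r P = ⟨0, Q⟩} :=
  smoothChartOfModels
    (fun i => (L i).smoothModel_zero_fin H hnf hres (fun y hy => (hres0 y).mpr hy) (hRC i)
      (hint i) hQ hx hQD hdeg (htC i) (ht1 _))
    hdir hfrac hconst (hres 0) hres0 (inv_mem_of_pi_ne_zero H.pi_zero) hAO ht1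
    (fun i => horiz i _)

/-- **The smooth chart at a point of the component `1` which is not a crossing, read on the
finite chart.** -/
noncomputable def smoothChart_one_fin
    (L : ∀ i, LevelHyp D (C i) (ϖ i) (P₀ i) (P₁ i) (red₀ i) (red₁ i)) (hnf : ¬ IsField Dk)
    (hres : ∀ v (a : K) (ha : a ∈ A) (h : algebraMap K F a ∈ D.O v),
      D.res v ⟨algebraMap K F a, h⟩ = algebraMap k Ft (π ⟨a, ha⟩))
    (hres0 : ∀ y : D.O 1, D.res 1 y = 0 ↔ (y : F) ∈ (D.O 1).nonunits)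
    (hAO : ∀ c : K, A.valuation c < 1 → algebraMap K F c ∈ (D.O 1).nonunits)
    (hRC : ∀ i, D.Rfin ≤ C i)
    (hint : ∀ i (P : Place K F), IntegralAt A D.Rfin P → IntegralAt A (C i) P)
    (hdir : ∀ i j, ∃ l, C i ≤ C l ∧ C j ≤ C l)
    (hfrac : ∀ y : F, ∃ i, ∃ a b : C i, b ≠ 0 ∧ y * (b : F) = (a : F))
    (hconst : ∀ a ∈ A, ∃ i, algebraMap K F a ∈ C i)
    {Q : Place k Ft} (hQ : ∀ e, Q ≠ z₂ D e) {c : k}
    (hx : IsValueAt Q (D.res 1 ⟨x, D.hfin 1 H.x_mem⟩) c)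
    (hQD : ∀ d : Dk, Q.adicValuation (algebraMap Dk Ft d) ≤ 1) (hdeg : Q.deg = 1)
    {t : F} (htC : ∀ i, t ∈ C i) (ht1 : ∀ h : t ∈ D.O 1, Q.ord (D.res 1 ⟨t, h⟩) = 1)
    (horiz : ∀ i (M : SmoothModel A π (D.O 1) (D.res 1) Q {P | H.r P = ⟨1, Q⟩} t (C i) (ϖ i)),
      ∀ p : Ideal M.loc, p.IsPrime → p.height = 1 →
      (⟨algebraMap K F (ϖ i), M.le_loc M.unif_mem⟩ : M.loc) ∉ p →
      ∃ P : Place K F, CentredAt A M.loc P ∧ ∀ y : M.loc, evalAt P (y : F) = 0 ↔ y ∈ p) :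
    SmoothChart A (D.O 1) (D.res 1) Q {P | H.r P = ⟨1, Q⟩} :=
  smoothChartOfModels
    (fun i => (L i).smoothModel_one_fin H hnf hres (fun y hy => (hres0 y).mpr hy) (hRC i)
      (hint i) hQ hx hQD hdeg (htC i) (ht1 _))
    hdir hfrac hconst (hres 1) hres0 (inv_mem_of_pi_ne_zero H.pi_zero) hAO ht1
    (fun i => horiz i _)

/-- **The smooth chart at a point of the component `0` at infinity.** -/
noncomputable def smoothChart_zero_inf
    (L : ∀ i, LevelHyp D (C i) (ϖ i) (P₀ i) (P₁ i) (red₀ i) (red₁ i)) (hnf : ¬ IsField Dk)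
    (hres : ∀ v (a : K) (ha : a ∈ A) (h : algebraMap K F a ∈ D.O v),
      D.res v ⟨algebraMap K F a, h⟩ = algebraMap k Ft (π ⟨a, ha⟩))
    (hres0 : ∀ y : D.O 0, D.res 0 y = 0 ↔ (y : F) ∈ (D.O 0).nonunits)
    (hAO : ∀ c : K, A.valuation c < 1 → algebraMap K F c ∈ (D.O 0).nonunits)
    (hRC : ∀ i, D.Rinf ≤ C i)
    (hint : ∀ i (P : Place K F), IntegralAt A D.Rinf P → IntegralAt A (C i) P)
    (hdir : ∀ i j, ∃ l, C i ≤ C l ∧ C j ≤ C l)
    (hfrac : ∀ y : F, ∃ i, ∃ a b : C i, b ≠ 0 ∧ y * (b : F) = (a : F))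
    (hconst : ∀ a ∈ A, ∃ i, algebraMap K F a ∈ C i)
    {Q : Place k Ft} (hQ : ∀ e, Q ≠ z₁ D e)
    (hi : IsValueAt Q (D.res 0 ⟨x⁻¹, D.hinf 0 H.inv_mem⟩) 0)
    (hQD : ∀ d : Dk, Q.adicValuation (algebraMap Dk Ft d) ≤ 1) (hdeg : Q.deg = 1)
    {t : F} (htC : ∀ i, t ∈ C i) (ht1 : ∀ h : t ∈ D.O 0, Q.ord (D.res 0 ⟨t, h⟩) = 1)
    (horiz : ∀ i (M : SmoothModel A π (D.O 0) (D.res 0) Q {P | H.r P = ⟨0, Q⟩} t (C i) (ϖ i)),
      ∀ p : Ideal M.loc, p.IsPrime → p.height = 1 →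
      (⟨algebraMap K F (ϖ i), M.le_loc M.unif_mem⟩ : M.loc) ∉ p →
      ∃ P : Place K F, CentredAt A M.loc P ∧ ∀ y : M.loc, evalAt P (y : F) = 0 ↔ y ∈ p) :
    SmoothChart A (D.O 0) (D.res 0) Q {P | H.r P = ⟨0, Q⟩} :=
  smoothChartOfModels
    (fun i => (L i).smoothModel_zero_inf H hnf hres (fun y hy => (hres0 y).mpr hy) (hRC i)
      (hint i) hQ hi hQD hdeg (htC i) (ht1 _))
    hdir hfrac hconst (hres 0) hres0 (inv_mem_of_pi_ne_zero H.pi_zero) hAO ht1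
    (fun i => horiz i _)

/-- **The smooth chart at a point of the component `1` at infinity.** -/
noncomputable def smoothChart_one_inf
    (L : ∀ i, LevelHyp D (C i) (ϖ i) (P₀ i) (P₁ i) (red₀ i) (red₁ i)) (hnf : ¬ IsField Dk)
    (hres : ∀ v (a : K) (ha : a ∈ A) (h : algebraMap K F a ∈ D.O v),
      D.res v ⟨algebraMap K F a, h⟩ = algebraMap k Ft (π ⟨a, ha⟩))
    (hres0 : ∀ y : D.O 1, D.res 1 y = 0 ↔ (y : F) ∈ (D.O 1).nonunits)
    (hAO : ∀ c : K, A.valuation c < 1 → algebraMap K F c ∈ (D.O 1).nonunits)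
    (hRC : ∀ i, D.Rinf ≤ C i)
    (hint : ∀ i (P : Place K F), IntegralAt A D.Rinf P → IntegralAt A (C i) P)
    (hdir : ∀ i j, ∃ l, C i ≤ C l ∧ C j ≤ C l)
    (hfrac : ∀ y : F, ∃ i, ∃ a b : C i, b ≠ 0 ∧ y * (b : F) = (a : F))
    (hconst : ∀ a ∈ A, ∃ i, algebraMap K F a ∈ C i)
    {Q : Place k Ft} (hQ : ∀ e, Q ≠ z₂ D e)
    (hi : IsValueAt Q (D.res 1 ⟨x⁻¹, D.hinf 1 H.inv_mem⟩) 0)
    (hQD : ∀ d : Dk, Q.adicValuation (algebraMap Dk Ft d) ≤ 1) (hdeg : Q.deg = 1)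
    {t : F} (htC : ∀ i, t ∈ C i) (ht1 : ∀ h : t ∈ D.O 1, Q.ord (D.res 1 ⟨t, h⟩) = 1)
    (horiz : ∀ i (M : SmoothModel A π (D.O 1) (D.res 1) Q {P | H.r P = ⟨1, Q⟩} t (C i) (ϖ i)),
      ∀ p : Ideal M.loc, p.IsPrime → p.height = 1 →
      (⟨algebraMap K F (ϖ i), M.le_loc M.unif_mem⟩ : M.loc) ∉ p →
      ∃ P : Place K F, CentredAt A M.loc P ∧ ∀ y : M.loc, evalAt P (y : F) = 0 ↔ y ∈ p) :
    SmoothChart A (D.O 1) (D.res 1) Q {P | H.r P = ⟨1, Q⟩} :=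
  smoothChartOfModels
    (fun i => (L i).smoothModel_one_inf H hnf hres (fun y hy => (hres0 y).mpr hy) (hRC i)
      (hint i) hQ hi hQD hdeg (htC i) (ht1 _))
    hdir hfrac hconst (hres 1) hres0 (inv_mem_of_pi_ne_zero H.pi_zero) hAO ht1
    (fun i => horiz i _)

end Family

/-! ### the hypotheses on the residue maps, from two constant reductions -/

section ConstRed

variable (Cr : ConstRed (F := F) (Ft := Ft) A π)

/-- `res y = 0` iff `y` is a non-unit of the valuation ring. -/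
theorem constRed_res_eq_zero_iff (y : Cr.O) : Cr.res y = 0 ↔ (y : F) ∈ Cr.O.nonunits := by
  rw [Cr.res_eq_zero_iff]
  constructor
  · intro h
    by_contra hcon
    apply h
    rw [ValuationSubring.mem_nonunits_iff_exists_mem_maximalIdeal] at hcon
    by_contra hu
    exact hcon ⟨y.2, (IsLocalRing.mem_maximalIdeal _).mpr hu⟩
  · intro h hu
    rw [ValuationSubring.mem_nonunits_iff_exists_mem_maximalIdeal] at h
    obtain ⟨hy, hm⟩ := h
    exact (IsLocalRing.mem_maximalIdeal _).mp hm hu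

/-- the constants of the maximal ideal of `A` are non-units of the valuation ring. -/
theorem constRed_algebraMap_mem_nonunits (c : K) (hc : A.valuation c < 1) :
    algebraMap K F c ∈ Cr.O.nonunits := by
  have hcA : c ∈ A := (A.valuation_le_one_iff c).mp hc.le
  have hmem : algebraMap K F c ∈ Cr.O := (Cr.algebraMap_mem_iff c).mpr hcA
  have h0 : Cr.res ⟨algebraMap K F c, hmem⟩ = 0 := by
    rw [Cr.res_algebraMap c hcA hmem]
    have : π ⟨c, hcA⟩ = 0 := by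
      rw [Cr.pi_eq_zero_iff]
      exact (ValuationSubring.mem_nonunits_iff A).mpr hc
    rw [this, map_zero]
  exact (constRed_res_eq_zero_iff Cr ⟨algebraMap K F c, hmem⟩).mp h0

end ConstRed

/-! ### the arguments `smooth₀`, `smooth₁` of `PointDict.AtlasHyp.toInput`, one point at a time -/

section Of

variable {Cr : Fin 2 → ConstRed (F := F) (Ft := Ft) A π} {Rfin Rinf : Subring F}
  {hfin : ∀ v, Rfin ≤ (Cr v).O.toSubring} {hinf : ∀ v, Rinf ≤ (Cr v).O.toSubring} {x : F}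
  (H : AtlasHyp (chartDataOf Cr Rfin Rinf hfin hinf) x)
  {ι : Type*} [Nonempty ι] {C : ι → Subring F} {ϖ : ι → K} {P₀ P₁ : ∀ i, Ideal (C i)}
  {red₀ red₁ : ∀ i, C i →+* Dk}

/-- `smooth₀` of `AtlasHyp.toInput` at a point read on the finite chart. -/
noncomputable def smoothChartOf_zero_fin
    (L : ∀ i, LevelHyp (chartDataOf Cr Rfin Rinf hfin hinf) (C i) (ϖ i) (P₀ i) (P₁ i)
      (red₀ i) (red₁ i)) (hnf : ¬ IsField Dk)
    (hRC : ∀ i, Rfin ≤ C i)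
    (hint : ∀ i (P : Place K F), IntegralAt A Rfin P → IntegralAt A (C i) P)
    (hdir : ∀ i j, ∃ l, C i ≤ C l ∧ C j ≤ C l)
    (hfrac : ∀ y : F, ∃ i, ∃ a b : C i, b ≠ 0 ∧ y * (b : F) = (a : F))
    (hconst : ∀ a ∈ A, ∃ i, algebraMap K F a ∈ C i)
    {Q : Place k Ft} (hQ : ∀ e, Q ≠ z₁ (chartDataOf Cr Rfin Rinf hfin hinf) e) {c : k}
    (hx : IsValueAt Q ((Cr 0).res ⟨x, hfin 0 H.x_mem⟩) c)
    (hQD : ∀ d : Dk, Q.adicValuation (algebraMap Dk Ft d) ≤ 1) (hdeg : Q.deg = 1)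
    {t : F} (htC : ∀ i, t ∈ C i) (ht1 : ∀ h : t ∈ (Cr 0).O, Q.ord ((Cr 0).res ⟨t, h⟩) = 1)
    (horiz : ∀ i (M : SmoothModel A π (Cr 0).O (Cr 0).res Q {P | H.r P = ⟨0, Q⟩} t (C i) (ϖ i)),
      ∀ p : Ideal M.loc, p.IsPrime → p.height = 1 →
      (⟨algebraMap K F (ϖ i), M.le_loc M.unif_mem⟩ : M.loc) ∉ p →
      ∃ P : Place K F, CentredAt A M.loc P ∧ ∀ y : M.loc, evalAt P (y : F) = 0 ↔ y ∈ p) :
    SmoothChart A (Cr 0).O (Cr 0).res Q {P | H.r P = ⟨0, Q⟩} :=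
  smoothChart_zero_fin H L hnf (fun v => (Cr v).res_algebraMap) (constRed_res_eq_zero_iff (Cr 0))
    (constRed_algebraMap_mem_nonunits (Cr 0)) hRC hint hdir hfrac hconst hQ hx hQD hdeg htC ht1
    horiz

/-- `smooth₁` of `AtlasHyp.toInput` at a point read on the finite chart. -/
noncomputable def smoothChartOf_one_fin
    (L : ∀ i, LevelHyp (chartDataOf Cr Rfin Rinf hfin hinf) (C i) (ϖ i) (P₀ i) (P₁ i)
      (red₀ i) (red₁ i)) (hnf : ¬ IsField Dk)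
    (hRC : ∀ i, Rfin ≤ C i)
    (hint : ∀ i (P : Place K F), IntegralAt A Rfin P → IntegralAt A (C i) P)
    (hdir : ∀ i j, ∃ l, C i ≤ C l ∧ C j ≤ C l)
    (hfrac : ∀ y : F, ∃ i, ∃ a b : C i, b ≠ 0 ∧ y * (b : F) = (a : F))
    (hconst : ∀ a ∈ A, ∃ i, algebraMap K F a ∈ C i)
    {Q : Place k Ft} (hQ : ∀ e, Q ≠ z₂ (chartDataOf Cr Rfin Rinf hfin hinf) e) {c : k}
    (hx : IsValueAt Q ((Cr 1).res ⟨x, hfin 1 H.x_mem⟩) c)
    (hQD : ∀ d : Dk, Q.adicValuation (algebraMap Dk Ft d) ≤ 1) (hdeg : Q.deg = 1)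
    {t : F} (htC : ∀ i, t ∈ C i) (ht1 : ∀ h : t ∈ (Cr 1).O, Q.ord ((Cr 1).res ⟨t, h⟩) = 1)
    (horiz : ∀ i (M : SmoothModel A π (Cr 1).O (Cr 1).res Q {P | H.r P = ⟨1, Q⟩} t (C i) (ϖ i)),
      ∀ p : Ideal M.loc, p.IsPrime → p.height = 1 →
      (⟨algebraMap K F (ϖ i), M.le_loc M.unif_mem⟩ : M.loc) ∉ p →
      ∃ P : Place K F, CentredAt A M.loc P ∧ ∀ y : M.loc, evalAt P (y : F) = 0 ↔ y ∈ p) :
    SmoothChart A (Cr 1).O (Cr 1).res Q {P | H.r P = ⟨1, Q⟩} :=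
  smoothChart_one_fin H L hnf (fun v => (Cr v).res_algebraMap) (constRed_res_eq_zero_iff (Cr 1))
    (constRed_algebraMap_mem_nonunits (Cr 1)) hRC hint hdir hfrac hconst hQ hx hQD hdeg htC ht1
    horiz

/-- `smooth₀` of `AtlasHyp.toInput` at a point read on the chart at infinity. -/
noncomputable def smoothChartOf_zero_inf
    (L : ∀ i, LevelHyp (chartDataOf Cr Rfin Rinf hfin hinf) (C i) (ϖ i) (P₀ i) (P₁ i)
      (red₀ i) (red₁ i)) (hnf : ¬ IsField Dk)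
    (hRC : ∀ i, Rinf ≤ C i)
    (hint : ∀ i (P : Place K F), IntegralAt A Rinf P → IntegralAt A (C i) P)
    (hdir : ∀ i j, ∃ l, C i ≤ C l ∧ C j ≤ C l)
    (hfrac : ∀ y : F, ∃ i, ∃ a b : C i, b ≠ 0 ∧ y * (b : F) = (a : F))
    (hconst : ∀ a ∈ A, ∃ i, algebraMap K F a ∈ C i)
    {Q : Place k Ft} (hQ : ∀ e, Q ≠ z₁ (chartDataOf Cr Rfin Rinf hfin hinf) e)
    (hi : IsValueAt Q ((Cr 0).res ⟨x⁻¹, hinf 0 H.inv_mem⟩) 0)
    (hQD : ∀ d : Dk, Q.adicValuation (algebraMap Dk Ft d) ≤ 1) (hdeg : Q.deg = 1)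
    {t : F} (htC : ∀ i, t ∈ C i) (ht1 : ∀ h : t ∈ (Cr 0).O, Q.ord ((Cr 0).res ⟨t, h⟩) = 1)
    (horiz : ∀ i (M : SmoothModel A π (Cr 0).O (Cr 0).res Q {P | H.r P = ⟨0, Q⟩} t (C i) (ϖ i)),
      ∀ p : Ideal M.loc, p.IsPrime → p.height = 1 →
      (⟨algebraMap K F (ϖ i), M.le_loc M.unif_mem⟩ : M.loc) ∉ p →
      ∃ P : Place K F, CentredAt A M.loc P ∧ ∀ y : M.loc, evalAt P (y : F) = 0 ↔ y ∈ p) :
    SmoothChart A (Cr 0).O (Cr 0).res Q {P | H.r P = ⟨0, Q⟩} :=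
  smoothChart_zero_inf H L hnf (fun v => (Cr v).res_algebraMap) (constRed_res_eq_zero_iff (Cr 0))
    (constRed_algebraMap_mem_nonunits (Cr 0)) hRC hint hdir hfrac hconst hQ hi hQD hdeg htC ht1
    horiz

/-- `smooth₁` of `AtlasHyp.toInput` at a point read on the chart at infinity. -/
noncomputable def smoothChartOf_one_inf
    (L : ∀ i, LevelHyp (chartDataOf Cr Rfin Rinf hfin hinf) (C i) (ϖ i) (P₀ i) (P₁ i)
      (red₀ i) (red₁ i)) (hnf : ¬ IsField Dk)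
    (hRC : ∀ i, Rinf ≤ C i)
    (hint : ∀ i (P : Place K F), IntegralAt A Rinf P → IntegralAt A (C i) P)
    (hdir : ∀ i j, ∃ l, C i ≤ C l ∧ C j ≤ C l)
    (hfrac : ∀ y : F, ∃ i, ∃ a b : C i, b ≠ 0 ∧ y * (b : F) = (a : F))
    (hconst : ∀ a ∈ A, ∃ i, algebraMap K F a ∈ C i)
    {Q : Place k Ft} (hQ : ∀ e, Q ≠ z₂ (chartDataOf Cr Rfin Rinf hfin hinf) e)
    (hi : IsValueAt Q ((Cr 1).res ⟨x⁻¹, hinf 1 H.inv_mem⟩) 0)
    (hQD : ∀ d : Dk, Q.adicValuation (algebraMap Dk Ft d) ≤ 1) (hdeg : Q.deg = 1)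
    {t : F} (htC : ∀ i, t ∈ C i) (ht1 : ∀ h : t ∈ (Cr 1).O, Q.ord ((Cr 1).res ⟨t, h⟩) = 1)
    (horiz : ∀ i (M : SmoothModel A π (Cr 1).O (Cr 1).res Q {P | H.r P = ⟨1, Q⟩} t (C i) (ϖ i)),
      ∀ p : Ideal M.loc, p.IsPrime → p.height = 1 →
      (⟨algebraMap K F (ϖ i), M.le_loc M.unif_mem⟩ : M.loc) ∉ p →
      ∃ P : Place K F, CentredAt A M.loc P ∧ ∀ y : M.loc, evalAt P (y : F) = 0 ↔ y ∈ p) :
    SmoothChart A (Cr 1).O (Cr 1).res Q {P | H.r P = ⟨1, Q⟩} :=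
  smoothChart_one_inf H L hnf (fun v => (Cr v).res_algebraMap) (constRed_res_eq_zero_iff (Cr 1))
    (constRed_algebraMap_mem_nonunits (Cr 1)) hRC hint hdir hfrac hconst hQ hi hQD hdeg htC ht1
    horiz

end Of

end Fermat.Agent.BR.S0.SmoothAssembly
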