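/-
Program B (bad reduction), node B6.6-NODE, assembly from `LevelHyp` (helper23).

Twin of `BR/S0/SmoothAssembly` + `BR/S0/SmoothFamilyAssembly` (helper24) at the CROSSINGS.

From the named facts `SmoothAssembly.LevelHyp D C ϖ P₀ P₁ red₀ red₁` on the global model `C` of a
level (the SAME structure which feeds the smooth charts), the atlas hypotheses
`PointDict.AtlasHyp D x`, the inclusion `D.Rfin ≤ C`, `hint` (a place integral on the chart is
integral on `C`) and the unit data `T T' = ϖ ^ m` (`T ∈ D.Rfin`, `res₁ T = 0`, `res₀ T ≠ 0`):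

* `tube_fields_crossing` : the two tube fields of `CrossingModel` for the tube
  `{P | H.r P = ⟨0, z₁ D e⟩}` of a crossing `e` (level transfer through `LevelHyp.total`; a place
  of the tube whose reduction on `C` is read on the component `1` is moved to the component `0`
  by `same_point`);
* `crossingModel_of_levelHyp` : `S0.CrossingModel A π (D.O 0) (D.O 1) (D.res 0) (D.res 1) (z₁ D e)
  (z₂ D e) {P | H.r P = ⟨0, z₁ D e⟩} C ϖ`, all fields proved;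
* `nodeChart_of_levels` : a directed family of levels gives the `NodeChart` at the crossing `e`
  (`nodeChartOfModels`), `horiz` named as in `NodeLevels.ofModels`;
* `nodeChartOf_of_levels` : the same for `D = chartDataOf Cr Rfin Rinf _ _`, in the shape of the
  argument `chart` of `PointDict.AtlasHyp.toInput`.
-/
import Mathlib
import Fermat.Agent.BR.S0.CrossingAssembly
import Fermat.Agent.BR.S0.SmoothFamilyAssembly

set_option autoImplicit false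
set_option linter.unusedSectionVars false

namespace Fermat.Agent.BR.S0.CrossingAssembly

open AlgebraicCurve Fermat.Agent.Red Fermat.Agent.X0 Fermat.Agent.Val Fermat.Agent.BR.Centre
  Fermat.Agent.BR.SpecialFibre Fermat.Agent.BR.S0.RedModular Fermat.Agent.BR.S0.PointDict
  Fermat.Agent.BR.S0.SmoothTube Fermat.Agent.BR.S0.SmoothAssembly

variable {K F k Ft : Type*} [Field K] [Field F] [Algebra K F] [Field k] [Field Ft] [Algebra k Ft]
  {A : ValuationSubring K} {π : A →+* k}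
  {Dk : Type*} [CommRing Dk] [IsDedekindDomain Dk] [Algebra Dk Ft] [IsFractionRing Dk Ft]
  [Algebra k Dk] [IsScalarTower k Dk Ft]

section Tube

variable {D : ChartData A π Ft F} {x : F} (H : AtlasHyp D x) {C : Subring F}

include H in
/-- **The two tube fields of `CrossingModel` at a crossing of the point dictionary**, for the model
`C ⊇ D.Rfin` of a level. -/
theorem tube_fields_crossing (hRC : D.Rfin ≤ C) {hCO : ∀ v, C ≤ (D.O v).toSubring}
    (htot : ∀ P : Place K F, IntegralAt A C P →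
      ∃ (v : Fin 2) (Q' : Place k Ft), IsRedOf A π C (D.O v) (D.res v) (hCO v) P Q')
    (hint : ∀ P : Place K F, IntegralAt A D.Rfin P → IntegralAt A C P)
    (e : Crossing D) (le₀ : ∀ y ∈ C, y ∈ D.O 0) (le₁ : ∀ y ∈ C, y ∈ D.O 1)
    (hres : ∀ (a : K) (ha : a ∈ A) (h : algebraMap K F a ∈ D.O 0),
      D.res 0 ⟨algebraMap K F a, h⟩ = algebraMap k Ft (π ⟨a, ha⟩))
    (hfull : ∀ y : C, ∃ (a : A) (_ : algebraMap K F (a : K) ∈ C),
      (z₁ D e).adicValuation (D.res 0 ⟨y, le₀ y y.2⟩ - algebraMap k Ft (π a)) < 1)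
    (hsame : ∀ y : C, (z₁ D e).adicValuation (D.res 0 ⟨y, le₀ y y.2⟩) < 1 ↔
      (z₂ D e).adicValuation (D.res 1 ⟨y, le₁ y y.2⟩) < 1) :
    (∀ P ∈ {P | H.r P = ⟨0, z₁ D e⟩}, ∃ h : IntegralAt A C P,
      ∀ y : C, y ∈ centre h ↔ (z₁ D e).adicValuation (D.res 0 ⟨y, le₀ y y.2⟩) < 1) ∧
    (∀ P : Place K F, (∃ h : IntegralAt A C P,
      ∀ y : C, y ∈ centre h ↔ (z₁ D e).adicValuation (D.res 0 ⟨y, le₀ y y.2⟩) < 1) →
      P ∈ {P | H.r P = ⟨0, z₁ D e⟩}) := by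
  refine ⟨fun P hP => ?_, fun P h => ?_⟩
  · have h₀ : IsRedOf A π D.Rfin (D.O 0) (D.res 0) (D.hfin 0) P (z₁ D e) :=
      (H.r_eq_z₁_iff e).mp hP
    have h₁ : IsRedOf A π D.Rfin (D.O 1) (D.res 1) (D.hfin 1) P (z₂ D e) :=
      (H.r_eq_z₁_iff' e).mp hP
    obtain ⟨v, Q', h'⟩ := htot P (hint P h₀.integralAt)
    have h'' : IsRedOf A π D.Rfin (D.O v) (D.res v) (D.hfin v) P Q' := isRedOf_of_le hRC h'
    have hv : v = 0 ∨ v = 1 := by
      fin_cases v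
      · exact Or.inl rfl
      · exact Or.inr rfl
    rcases hv with rfl | rfl
    · have hQ : z₁ D e = Q' := isRedOf_unique (H.sep_f 0) h₀ h''
      rw [← hQ] at h'
      exact centre_iff_of_isRedOf H.pi_zero le₀ h'
    · have hQ : z₂ D e = Q' := isRedOf_unique (H.sep_f 1) h₁ h''
      rw [← hQ] at h'
      obtain ⟨hI, hc⟩ := centre_iff_of_isRedOf H.pi_zero le₁ h'
      exact ⟨hI, fun y => (hc y).trans (hsame y).symm⟩
  · have h1 : IsRedOf A π C (D.O 0) (D.res 0) (hCO 0) P (z₁ D e) :=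
      isRedOf_of_centre_iff H.pi_zero le₀ hres hfull h
    exact (H.r_eq_z₁_iff e).mpr (isRedOf_of_le hRC h1)

end Tube

section Level

variable {D : ChartData A π Ft F} {x : F} (H : AtlasHyp D x) {C : Subring F} {ϖ : K}
  {P₀ P₁ : Ideal C} {red₀ red₁ : C →+* Dk}

include H in
/-- **The global model at a crossing of the point dictionary, at a level**, from the named facts
`SmoothAssembly.LevelHyp` on the model of the level and the unit data `T T' = ϖ ^ m`. -/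
theorem crossingModel_of_levelHyp (L : LevelHyp D C ϖ P₀ P₁ red₀ red₁) (hnf : ¬ IsField Dk)
    (hres : ∀ v (a : K) (ha : a ∈ A) (h : algebraMap K F a ∈ D.O v),
      D.res v ⟨algebraMap K F a, h⟩ = algebraMap k Ft (π ⟨a, ha⟩))
    (hres0₀ : ∀ y : D.O 0, D.res 0 y = 0 ↔ (y : F) ∈ (D.O 0).nonunits)
    (hres0₁ : ∀ y : D.O 1, D.res 1 y = 0 ↔ (y : F) ∈ (D.O 1).nonunits)
    (hRC : D.Rfin ≤ C)
    (hint : ∀ P : Place K F, IntegralAt A D.Rfin P → IntegralAt A C P)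
    (e : Crossing D)
    (hQD₀ : ∀ d : Dk, (z₁ D e).adicValuation (algebraMap Dk Ft d) ≤ 1)
    (hQD₁ : ∀ d : Dk, (z₂ D e).adicValuation (algebraMap Dk Ft d) ≤ 1)
    (hdeg : (z₁ D e).deg = 1)
    {T : F} (hTR : T ∈ D.Rfin) {T' : C} {m : ℕ}
    (hTT' : (⟨T, hRC hTR⟩ : C) * T' = (⟨algebraMap K F ϖ, L.unif_mem⟩ : C) ^ m)
    (hT0 : D.res 0 ⟨T, D.hfin 0 hTR⟩ ≠ 0) (hT1 : D.res 1 ⟨T, D.hfin 1 hTR⟩ = 0) :
    CrossingModel A π (D.O 0) (D.O 1) (D.res 0) (D.res 1) (z₁ D e) (z₂ D e)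
      {P | H.r P = ⟨0, z₁ D e⟩} C ϖ := by
  have le₀ : ∀ y ∈ C, y ∈ D.O 0 := fun y hy => L.hCO 0 hy
  have le₁ : ∀ y ∈ C, y ∈ D.O 1 := fun y hy => L.hCO 1 hy
  have hreg₀ : ∀ y : C, (z₁ D e).adicValuation (D.res 0 ⟨y, le₀ y y.2⟩) ≤ 1 := fun y => by
    rw [← L.hred₀]; exact hQD₀ _
  have hreg₁ : ∀ y : C, (z₂ D e).adicValuation (D.res 1 ⟨y, le₁ y y.2⟩) ≤ 1 := fun y => by
    rw [← L.hred₁]; exact hQD₁ _
  have hP0 : ∀ y : C, y ∈ P₀ ↔ (y : F) ∈ (D.O 0).nonunits := fun y => by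
    rw [L.mem_P₀, ← hres0₀ ⟨y, le₀ y y.2⟩, ← L.hred₀]
    exact ⟨fun h => by rw [h, map_zero], fun h => IsFractionRing.injective Dk Ft (by
      rw [h, map_zero])⟩
  have hP1 : ∀ y : C, y ∈ P₁ ↔ (y : F) ∈ (D.O 1).nonunits := fun y => by
    rw [L.mem_P₁, ← hres0₁ ⟨y, le₁ y y.2⟩, ← L.hred₁]
    exact ⟨fun h => by rw [h, map_zero], fun h => IsFractionRing.injective Dk Ft (by
      rw [h, map_zero])⟩
  have hP0' : ∀ y : C, y ∈ P₀ ↔ resZero le₀ y = 0 := fun y => by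
    rw [hP0, resZero_apply, hres0₀]
  have hP1' : ∀ y : C, y ∈ P₁ ↔ resOne le₁ y = 0 := fun y => by
    rw [hP1, resOne_apply, hres0₁]
  have := L.noeth
  have := L.intClosed
  have hsame := same_point (le₀ := le₀) (le₁ := le₁) hnf (hres 0) (hres 1) red₁ L.hred₁ L.surj₁
    L.fullRes hRC L.twoComp hP0' hP1' (H.sep_f 1) (glued D e) hdeg hreg₀ hTR hTT' hT0 hT1
  have htube := tube_fields_crossing H hRC (hCO := L.hCO) (L.total hnf H.pi_zero hres) hint e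
    le₀ le₁ (hres 0) (L.fullRes_at le₀ hdeg hreg₀) hsame
  exact crossingModel_of_level (le₀ := le₀) (le₁ := le₁) hnf (hres 0) (hres 1) red₁ L.hred₁
    L.surj₁ L.fullRes L.noeth L.intClosed hRC L.unif_ne L.unif_lt L.unif_mem L.twoComp hP0 hP1
    hres0₀ hres0₁ (H.sep_f 1) (glued D e) hdeg hreg₀ hreg₁ hTR hTT' hT0 hT1 htube.1 htube.2

end Level

section Family

variable {D : ChartData A π Ft F} {x : F} (H : AtlasHyp D x)
  {ι : Type*} {C : ι → Subring F} {ϖ : ι → K} {P₀ P₁ : ∀ i, Ideal (C i)}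
  {red₀ red₁ : ∀ i, C i →+* Dk}

/-- **The node chart at a crossing of the point dictionary**, from a directed family of levels
with the named facts `SmoothAssembly.LevelHyp`. -/
noncomputable def nodeChart_of_levels
    (L : ∀ i, LevelHyp D (C i) (ϖ i) (P₀ i) (P₁ i) (red₀ i) (red₁ i)) (hnf : ¬ IsField Dk)
    (hres : ∀ v (a : K) (ha : a ∈ A) (h : algebraMap K F a ∈ D.O v),
      D.res v ⟨algebraMap K F a, h⟩ = algebraMap k Ft (π ⟨a, ha⟩))
    (hres0₀ : ∀ y : D.O 0, D.res 0 y = 0 ↔ (y : F) ∈ (D.O 0).nonunits)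
    (hres0₁ : ∀ y : D.O 1, D.res 1 y = 0 ↔ (y : F) ∈ (D.O 1).nonunits)
    (hRC : ∀ i, D.Rfin ≤ C i)
    (hint : ∀ i (P : Place K F), IntegralAt A D.Rfin P → IntegralAt A (C i) P)
    (hdir : ∀ i j, ∃ l, C i ≤ C l ∧ C j ≤ C l)
    (hfrac : ∀ y : F, ∃ i, ∃ a b : C i, b ≠ 0 ∧ y * (b : F) = (a : F))
    (hconst : ∀ a ∈ A, ∃ i, algebraMap K F a ∈ C i)
    (e : Crossing D)
    (hQD₀ : ∀ d : Dk, (z₁ D e).adicValuation (algebraMap Dk Ft d) ≤ 1)
    (hQD₁ : ∀ d : Dk, (z₂ D e).adicValuation (algebraMap Dk Ft d) ≤ 1)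
    (hdeg : (z₁ D e).deg = 1)
    {T : F} (hTR : T ∈ D.Rfin) (T' : ∀ i, C i) (m : ι → ℕ)
    (hTT' : ∀ i, (⟨T, hRC i hTR⟩ : C i) * T' i =
      (⟨algebraMap K F (ϖ i), (L i).unif_mem⟩ : C i) ^ m i)
    (hT0 : D.res 0 ⟨T, D.hfin 0 hTR⟩ ≠ 0) (hT1 : D.res 1 ⟨T, D.hfin 1 hTR⟩ = 0)
    (horiz : ∀ i (M : CrossingModel A π (D.O 0) (D.O 1) (D.res 0) (D.res 1) (z₁ D e) (z₂ D e)
        {P | H.r P = ⟨0, z₁ D e⟩} (C i) (ϖ i)),
      ∀ p : Ideal M.loc, p.IsPrime → p.height = 1 →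
      (⟨algebraMap K F (ϖ i), M.le_loc M.unif_mem⟩ : M.loc) ∉ p →
      ∃ P : Place K F, CentredAt A M.loc P ∧ ∀ y : M.loc, evalAt P (y : F) = 0 ↔ y ∈ p) :
    NodeChart A (D.O 0) (D.O 1) (D.res 0) (D.res 1) (z₁ D e) (z₂ D e)
      {P | H.r P = ⟨0, z₁ D e⟩} :=
  nodeChartOfModels
    (fun i => crossingModel_of_levelHyp H (L i) hnf hres hres0₀ hres0₁ (hRC i) (hint i) e hQD₀
      hQD₁ hdeg hTR (hTT' i) hT0 hT1)
    hdir hfrac hconst (hres 0) (fun y hy => (hres0₀ y).mpr hy) (fun y hy => (hres0₁ y).mpr hy)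
    (inv_mem_of_pi_ne_zero H.pi_zero) (fun i => horiz i _)

end Family

section Of

variable {Cr : Fin 2 → ConstRed (F := F) (Ft := Ft) A π} {Rfin Rinf : Subring F}
  {hfin : ∀ v, Rfin ≤ (Cr v).O.toSubring} {hinf : ∀ v, Rinf ≤ (Cr v).O.toSubring} {x : F}
  (H : AtlasHyp (chartDataOf Cr Rfin Rinf hfin hinf) x)
  {ι : Type*} {C : ι → Subring F} {ϖ : ι → K} {P₀ P₁ : ∀ i, Ideal (C i)}
  {red₀ red₁ : ∀ i, C i →+* Dk}

/-- The argument `chart` of `PointDict.AtlasHyp.toInput` at a crossing `e`, from a directed family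
of levels with the named facts `SmoothAssembly.LevelHyp` (two constant reductions `Cr v`). -/
noncomputable def nodeChartOf_of_levels
    (L : ∀ i, LevelHyp (chartDataOf Cr Rfin Rinf hfin hinf) (C i) (ϖ i) (P₀ i) (P₁ i)
      (red₀ i) (red₁ i)) (hnf : ¬ IsField Dk)
    (hRC : ∀ i, Rfin ≤ C i)
    (hint : ∀ i (P : Place K F), IntegralAt A Rfin P → IntegralAt A (C i) P)
    (hdir : ∀ i j, ∃ l, C i ≤ C l ∧ C j ≤ C l)
    (hfrac : ∀ y : F, ∃ i, ∃ a b : C i, b ≠ 0 ∧ y * (b : F) = (a : F))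
    (hconst : ∀ a ∈ A, ∃ i, algebraMap K F a ∈ C i)
    (e : Crossing (chartDataOf Cr Rfin Rinf hfin hinf))
    (hQD₀ : ∀ d : Dk,
      (z₁ (chartDataOf Cr Rfin Rinf hfin hinf) e).adicValuation (algebraMap Dk Ft d) ≤ 1)
    (hQD₁ : ∀ d : Dk,
      (z₂ (chartDataOf Cr Rfin Rinf hfin hinf) e).adicValuation (algebraMap Dk Ft d) ≤ 1)
    (hdeg : (z₁ (chartDataOf Cr Rfin Rinf hfin hinf) e).deg = 1)
    {T : F} (hTR : T ∈ Rfin) (T' : ∀ i, C i) (m : ι → ℕ)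
    (hTT' : ∀ i, (⟨T, hRC i hTR⟩ : C i) * T' i =
      (⟨algebraMap K F (ϖ i), (L i).unif_mem⟩ : C i) ^ m i)
    (hT0 : (Cr 0).res ⟨T, hfin 0 hTR⟩ ≠ 0) (hT1 : (Cr 1).res ⟨T, hfin 1 hTR⟩ = 0)
    (horiz : ∀ i (M : CrossingModel A π (Cr 0).O (Cr 1).O (Cr 0).res (Cr 1).res
        (z₁ (chartDataOf Cr Rfin Rinf hfin hinf) e) (z₂ (chartDataOf Cr Rfin Rinf hfin hinf) e)
        {P | H.r P = ⟨0, z₁ (chartDataOf Cr Rfin Rinf hfin hinf) e⟩} (C i) (ϖ i)),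
      ∀ p : Ideal M.loc, p.IsPrime → p.height = 1 →
      (⟨algebraMap K F (ϖ i), M.le_loc M.unif_mem⟩ : M.loc) ∉ p →
      ∃ P : Place K F, CentredAt A M.loc P ∧ ∀ y : M.loc, evalAt P (y : F) = 0 ↔ y ∈ p) :
    NodeChart A (Cr 0).O (Cr 1).O (Cr 0).res (Cr 1).res
      (z₁ (chartDataOf Cr Rfin Rinf hfin hinf) e) (z₂ (chartDataOf Cr Rfin Rinf hfin hinf) e)
      {P | H.r P = ⟨0, z₁ (chartDataOf Cr Rfin Rinf hfin hinf) e⟩} :=
  nodeChart_of_levels H L hnf (fun v => (Cr v).res_algebraMap)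
    (constRed_res_eq_zero_iff (Cr 0)) (constRed_res_eq_zero_iff (Cr 1)) hRC hint hdir hfrac
    hconst e hQD₀ hQD₁ hdeg hTR T' m hTT' hT0 hT1 horiz

end Of

end Fermat.Agent.BR.S0.CrossingAssembly
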