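import Fermat.Agent.BR.S0.RedModular
import Fermat.Agent.BR.Inst.CentreFin
import Fermat.Agent.BR.ConstRedTwoFinal
import Fermat.Agent.BR.TwoValQ

/-!
# Program B (BADRED), node B6.6 (c)/(h2): the reduction relation of `X₀(qM)` at `q`

The concrete `RedModular.ChartData` on `Fb (M * q)` over a valuation ring `B` of `ℚ̄` above `q ∤ M`:

* components `constRedW1 B hB hqM`, `constRedW2 B hB hqM` (valuation rings `O1`, `O2`);
* charts `Rfin = chartBar (M*q) q {j}`, `Rinf = chartBar (M*q) q {1/j}` — the images in `Fb (M*q)`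
  of the Prelude chart algebras (integral closures of `ℤ_(q)[j]`, `ℤ_(q)[1/j]`); both lie in `O1`
  and in `O2` (`chartBar_le`: valuation rings are integrally closed; `j` is a unit of `O1` and
  of `O2`);
* `redModular_smul_iff`, `rModular_smul` : for `σ` in the inertia group of `B` the arithmetic
  Galois action preserves the relation `Red` and the reduction map — input (h2) of
  `S0.TwoCompDeliverable`, for ALL places.

The three inputs (U) `unique`, (E) `total`, (X) `cross` of `RedModular.ChartHyp` remain named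
hypotheses (B6.5 (c),(d),(e) + dictionary).
-/

set_option autoImplicit false
set_option linter.unusedSectionVars false
set_option linter.style.haveILetI false

noncomputable section

namespace Fermat.Agent.BR.S0.RedModular

open ModularCurve ModularCurve.IgusaScheme AlgebraicCurve IsLocalRing
open Fermat.Agent.X0 Fermat.Agent.Val Fermat.Agent.Red Fermat.Agent.BR.Centre
open Fermat.Agent.BR.TwoVal Fermat.Agent.BR.TwoValInst Fermat.Agent.BR.TwoValQ
open Fermat.Agent.BR.ConstRedTwo Fermat.Agent.BR.Inst Fermat.Agent.Good.Bridge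
open Fermat.Agent.BR.S0.RedMap

/-! ### a chart lies in every valuation ring containing its generators and the constants -/

section General

variable {N : ℕ} [NeZero N] {ℓ : ℕ} [hℓ : Fact ℓ.Prime]

/-- `ℤ_(ℓ)[S]` lies in a valuation ring of `F̄_N` containing `S` and the constants of
`ℤ_(ℓ)`. -/
theorem adjoinBar_le (O : ValuationSubring (Fb N)) (S : Set ↥(modularFunctionFieldFull N))
    (hconst : ∀ r : ↥(GaloisRep.ratLocalizedAt ℓ),
      barEmb N (algebraMap ↥(GaloisRep.ratLocalizedAt ℓ) ↥(modularFunctionFieldFull N) r) ∈ O)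
    (hS : ∀ s ∈ S, barEmb N s ∈ O) : adjoinBar N ℓ S ≤ O.toSubring := by
  have key : ∀ x ∈ Algebra.adjoin ↥(GaloisRep.ratLocalizedAt ℓ) S, barEmb N x ∈ O := by
    intro x hx
    induction hx using Algebra.adjoin_induction with
    | mem s hs => exact hS s hs
    | algebraMap r => exact hconst r
    | add a b _ _ iha ihb =>
      rw [map_add]
      exact O.add_mem _ _ iha ihb
    | mul a b _ _ iha ihb =>
      rw [map_mul]
      exact O.mul_mem _ _ iha ihb
  intro y hy
  obtain ⟨x, hx, rfl⟩ := Subring.mem_map.mp hy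
  exact key x hx

/-- A chart (integral closure of `ℤ_(ℓ)[S]`) lies in every valuation ring of `F̄_N` containing
`S` and the constants of `ℤ_(ℓ)`: valuation rings are integrally closed. -/
theorem chartBar_le (O : ValuationSubring (Fb N)) (S : Set ↥(modularFunctionFieldFull N))
    (hconst : ∀ r : ↥(GaloisRep.ratLocalizedAt ℓ),
      barEmb N (algebraMap ↥(GaloisRep.ratLocalizedAt ℓ) ↥(modularFunctionFieldFull N) r) ∈ O)
    (hS : ∀ s ∈ S, barEmb N s ∈ O) : Inst.chartBar N ℓ S ≤ O.toSubring := by
  intro y hy
  have h1 : IsIntegral (adjoinBar N ℓ S) y := isIntegral_adjoinBar_of_mem_chartBar hy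
  have hle := adjoinBar_le O S hconst hS
  have h2 : IsIntegral O y :=
    h1.map_of_comp_eq (Subring.inclusion hle) (RingHom.id (Fb N)) (by ext z; rfl)
  obtain ⟨z, hz⟩ := IsIntegrallyClosed.isIntegral_iff.mp h2
  show y ∈ O
  rw [← hz]
  exact z.2

end General

/-! ### the two charts of `X₀(qM)` lie in `O1` and in `O2` -/

section Modular

set_option synthInstance.maxHeartbeats 400000

variable {M q : ℕ} [NeZero M] [hqF : Fact q.Prime]
variable (B : ValuationSubring Kb) (hB : B.LiesOverPrime q) (hqM : ¬ q ∣ M)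

local notation "kB" => IsLocalRing.ResidueField B
local notation "FtM" => modularFunctionFieldFullC (IsLocalRing.ResidueField B) M

/-- The two components of the model of `X₀(qM)` at `q`. -/
def compW : Fin 2 → ConstRed (F := Fb (M * q)) (Ft := FtM) B (IsLocalRing.residue B) :=
  ![constRedW1 B hB hqM, constRedW2 B hB hqM]

@[simp] theorem compW_zero : compW B hB hqM 0 = constRedW1 B hB hqM := rfl

@[simp] theorem compW_one : compW B hB hqM 1 = constRedW2 B hB hqM := rfl

theorem compW_O_zero : (compW B hB hqM 0).O = O1 M B hB := rfl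

theorem compW_O_one : (compW B hB hqM 1).O = O2 B hB hqM := rfl

/-- the constants of `ℤ_(q)` lie in every component -/
theorem barEmb_algebraMap_mem (v : Fin 2) (r : ↥(GaloisRep.ratLocalizedAt q)) :
    barEmb (M * q) (algebraMap ↥(GaloisRep.ratLocalizedAt q)
      ↥(modularFunctionFieldFull (M * q)) r) ∈ (compW B hB hqM v).O := by
  rw [barEmb_algebraMap_zl, (compW B hB hqM v).algebraMap_mem_iff]
  have := Fermat.Agent.Good.ResAlg.ratCast_mem_of_mem_ratLocalizedAt B hB r.2
  rwa [← eq_ratCast (algebraMap ℚ Kb)] at this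

theorem barEmb_jFull_eq_jOne : barEmb (M * q) (jFull (M * q)) = jOne M q := by
  rw [barEmb_jFull]
  apply Subtype.ext
  show coeffEmb Kb jq = coeffEmb Kb (qExpand ℚ 1 jq)
  rw [qExpand_one_apply]

/-- `j` lies in every component -/
theorem barEmb_jFull_mem (v : Fin 2) :
    barEmb (M * q) (jFull (M * q)) ∈ (compW B hB hqM v).O := by
  rw [barEmb_jFull_eq_jOne]
  fin_cases v
  · exact jOne_mem_O1 B hB
  · exact jOne_mem_O2 B hB hqM

/-- `j` is a unit of every component (its residues `j̃`, `j̃^q` are nonzero) -/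
theorem barEmb_jFull_inv_mem (v : Fin 2) :
    barEmb (M * q) (jFull (M * q))⁻¹ ∈ (compW B hB hqM v).O := by
  rw [map_inv₀, barEmb_jFull_eq_jOne]
  have hne : jqModC kB ≠ 0 := jqModC_ne_zero_of_nontrivial kB
  fin_cases v
  · show (jOne M q)⁻¹ ∈ O1 M B hB
    have h1 : jOne M q ∉ (O1 M B hB).nonunits := by
      rw [mem_nonunits_O1_iff B hB (jOne_mem_O1 B hB), res1_jOne]
      exact hne
    by_contra hcon
    exact h1 ((ValuationSubring.mem_nonunits_iff_or _).mpr (Or.inr hcon))
  · show (jOne M q)⁻¹ ∈ O2 B hB hqM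
    have h1 : jOne M q ∉ (O2 B hB hqM).nonunits := by
      rw [mem_nonunits_O2_iff B hB hqM (jOne_mem_O2 B hB hqM), res2_jOne]
      exact pow_ne_zero q hne
    by_contra hcon
    exact h1 ((ValuationSubring.mem_nonunits_iff_or _).mpr (Or.inr hcon))

/-- The finite chart `ℤ_(q)[j]~` and the chart at infinity `ℤ_(q)[1/j]~` of `X₀(qM)`. -/
def chartFin : Subring (Fb (M * q)) := Inst.chartBar (M * q) q {jFull (M * q)}

/-- The chart at infinity. -/
def chartInf : Subring (Fb (M * q)) := Inst.chartBar (M * q) q {(jFull (M * q))⁻¹}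

theorem chartFin_le (v : Fin 2) : chartFin (M := M) (q := q) ≤ (compW B hB hqM v).O.toSubring :=
  chartBar_le _ _ (barEmb_algebraMap_mem B hB hqM v) fun s hs => by
    rw [Set.mem_singleton_iff.mp hs]
    exact barEmb_jFull_mem B hB hqM v

theorem chartInf_le (v : Fin 2) : chartInf (M := M) (q := q) ≤ (compW B hB hqM v).O.toSubring :=
  chartBar_le _ _ (barEmb_algebraMap_mem B hB hqM v) fun s hs => by
    rw [Set.mem_singleton_iff.mp hs]
    exact barEmb_jFull_inv_mem B hB hqM v

/-- **The chart data of `X₀(qM)` at `q`**: components `w₁`, `w₂`, finite chart and chart at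
infinity. -/
def chartDataModular : ChartData B (IsLocalRing.residue B) FtM (Fb (M * q)) where
  O v := (compW B hB hqM v).O
  res v := (compW B hB hqM v).res
  Rfin := chartFin
  Rinf := chartInf
  hfin := chartFin_le B hB hqM
  hinf := chartInf_le B hB hqM

/-- the arithmetic Galois action fixes both charts pointwise -/
theorem gal_smul_of_mem_chartFin (σ : Kb ≃ₐ[ℚ] Kb) {y : Fb (M * q)}
    (hy : y ∈ chartFin (M := M) (q := q)) :
    arithmeticGalois (modularFunctionFieldFull (M * q)) σ • y = y :=
  gal_smul_of_mem_chartBar σ hy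

theorem gal_smul_of_mem_chartInf (σ : Kb ≃ₐ[ℚ] Kb) {y : Fb (M * q)}
    (hy : y ∈ chartInf (M := M) (q := q)) :
    arithmeticGalois (modularFunctionFieldFull (M * q)) σ • y = y :=
  gal_smul_of_mem_chartBar σ hy

/-- For `σ` in the inertia group of `B` the arithmetic Galois action preserves the relation
`Red`. -/
theorem redModular_smul_iff {σ : Kb ≃ₐ[ℚ] Kb} (hσ : σ ∈ B.inertiaSubgroupIn ℚ) (v : Fin 2)
    (P : Place Kb (Fb (M * q))) (Q : Place kB FtM) :
    Red (chartDataModular B hB hqM) v
        (arithmeticGalois (modularFunctionFieldFull (M * q)) σ • P) Q ↔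
      Red (chartDataModular B hB hqM) v P Q :=
  red_smul_iff (inertiaLike_arithmeticGalois B hσ _)
    (fun _ hy => gal_smul_of_mem_chartFin σ hy) (fun _ hy => gal_smul_of_mem_chartInf σ hy) v P Q

/-- **(h2)** of `S0.TwoCompDeliverable`: for `σ` in the inertia group of `B` the reduction map of
the two-component model is invariant under the arithmetic Galois action, for ALL places. -/
theorem rModular_smul {ν : Type*} {z₁ z₂ : ν → Place kB FtM}
    (H : ChartHyp (chartDataModular B hB hqM) z₁ z₂) {σ : Kb ≃ₐ[ℚ] Kb}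
    (hσ : σ ∈ B.inertiaSubgroupIn ℚ) (P : Place Kb (Fb (M * q))) :
    (redRel H).r (arithmeticGalois (modularFunctionFieldFull (M * q)) σ • P) = (redRel H).r P :=
  r_smul H (inertiaLike_arithmeticGalois B hσ _)
    (fun _ hy => gal_smul_of_mem_chartFin σ hy) (fun _ hy => gal_smul_of_mem_chartInf σ hy) P

/-- On the places with `j(P) ∈ B` the relation `Red` is the reduction on the finite chart. -/
theorem redModular_iff_of_fin {v : Fin 2} {P : Place Kb (Fb (M * q))} {Q : Place kB FtM}
    (hdeg : P.deg = 1)
    (hj : ∃ c : Kb, c ∈ B ∧ IsValueAt P (barEmb (M * q) (jFull (M * q))) c) :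
    Red (chartDataModular B hB hqM) v P Q ↔
      IsRedOf B (IsLocalRing.residue B) chartFin (compW B hB hqM v).O (compW B hB hqM v).res
        (chartFin_le B hB hqM v) P Q :=
  red_iff_of_integralAt (D := chartDataModular B hB hqM)
    ((integralAt_chartBarFin_iff hB hdeg).mpr hj)

/-- On the other places it is the reduction on the chart at infinity. -/
theorem redModular_iff_of_inf {v : Fin 2} {P : Place Kb (Fb (M * q))} {Q : Place kB FtM}
    (hdeg : P.deg = 1)
    (hj : ¬ ∃ c : Kb, c ∈ B ∧ IsValueAt P (barEmb (M * q) (jFull (M * q))) c) :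
    Red (chartDataModular B hB hqM) v P Q ↔
      IsRedOf B (IsLocalRing.residue B) chartInf (compW B hB hqM v).O (compW B hB hqM v).res
        (chartInf_le B hB hqM v) P Q :=
  red_iff_of_not_integralAt (D := chartDataModular B hB hqM)
    (fun h => hj ((integralAt_chartBarFin_iff hB hdeg).mp h))

end Modular

end Fermat.Agent.BR.S0.RedModular
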