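import Mathlib
import Fermat.Agent.BR.S0.Genus
import Fermat.Agent.BR.ZeroCount
import Fermat.Agent.Good.PoleDegree
import Fermat.Agent.Val.FinrankModL

/-!
# Program B (BADRED), node B6.6-SANDWICH: the genus equality of the two-component model

Lower half of the SANDWICH (finding #597) and its consequences, on top of `BR/S0/Genus.lean`
(upper half `card_le_nodeCount`, `card_eq_nodeCount_of_le`, `genus_hyp_iff`).

* `natDegree_mul_degree_le` (abstract, any function field with the Riemann package): if all zeros
  of `G(x)` are among the points `z e`, `e : ν`, and `ord_{z e} G(x) ≤ m`, then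
  `deg G * deg (x)_∞ ≤ m * card ν` (zero count of `BR/ZeroCount.lean`);
* `sandwich_lower_bound` : for a two-component input on `Fb (M * q)` with components
  `X₀(M) mod q`: if every zero of `T̄₁ = H(j̃)`, `deg H = q - 1`, is a crossing point `z₁ e` and `ord_{z₁ e} T̄₁ ≤ 12`
  (`e_z * ord_z T̄₁ = 12`, `BR/NodeThickness.lean`), then `(q - 1) ψ(M) ≤ 12 card ν`;
* `sandwich_card_eq_nodeCount`, `sandwich_genus_hyp`, `noTorsionInKernel_of_zeros` : when `X₀(M)`
  has no elliptic points (`nuTwo M = nuThree M = 0`, e.g. at the auxiliary level of `BR/GenusAuxLevel.lean`) the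
  number of crossings is `nodeCount q M`, the genus hypothesis of `SS.MainStatement` (= `hgen` of
  `Refine.HasModularInput`) holds and there is no torsion in the kernel of reduction.
-/

set_option autoImplicit false
set_option synthInstance.maxHeartbeats 400000

namespace Fermat.Agent.BR.S0

open AlgebraicCurve ModularCurve IsLocalRing Polynomial Fermat.Agent.Red Fermat.Agent.X0 Fermat.Agent.Val
  Fermat.Agent.BR.SS Fermat.Agent.BR.GenusCount

section Abstract

variable {k Ft : Type*} [Field k] [Field Ft] [Algebra k Ft]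

/-- **Zero count against a finite family of points.**  If all zeros of `G(x)` are among the points
`z e` and `G(x)` vanishes to order at most `m` there, then `deg G * deg (x)_∞ ≤ m * card ν`. -/
theorem natDegree_mul_degree_le (hFt : RiemannPkg k Ft) (x : Ft) {G : k[X]}
    (hy : aeval x G ≠ 0) {P : Divisor k Ft} (hP : ∀ v, P v = max 0 (-(v.ord x)))
    {ν : Type*} [Fintype ν] (z : ν → Place k Ft)
    (hzero : ∀ Q : Place k Ft, 0 < Q.ord (aeval x G) → ∃ e, Q = z e)
    {m : ℕ} (hord : ∀ e, (z e).ord (aeval x G) ≤ m) :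
    (G.natDegree : ℤ) * Divisor.degree P ≤ (m : ℤ) * (Fintype.card ν : ℤ) := by
  classical
  have := hFt.principal
  set S : Finset (Place k Ft) := Finset.univ.image z with hS
  obtain ⟨P', hP', hsum⟩ := ZeroCount.sum_zeros_aeval hFt.deg_one x hy S (by
    intro v hv
    obtain ⟨e, rfl⟩ := hzero v hv
    exact Finset.mem_image_of_mem z (Finset.mem_univ e))
  have hPP' : P' = P := by
    ext v
    rw [hP' v, hP v, max_comm]
  rw [hPP'] at hsum
  rw [← hsum]
  have h1 : ∑ v ∈ S, max (v.ord (aeval x G)) 0 ≤ ∑ _v ∈ S, (m : ℤ) := by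
    refine Finset.sum_le_sum fun v hv => ?_
    obtain ⟨e, -, rfl⟩ := Finset.mem_image.mp hv
    exact max_le (hord e) (Int.natCast_nonneg m)
  have h2 : (S.card : ℤ) ≤ (Fintype.card ν : ℤ) := by
    exact_mod_cast Finset.card_image_le.trans (le_of_eq Finset.card_univ)
  rw [Finset.sum_const, nsmul_eq_mul] at h1
  have hm : (0 : ℤ) ≤ (m : ℤ) := Int.natCast_nonneg m
  nlinarith

end Abstract

section Modular

variable (M q : ℕ) [NeZero M] [hq : Fact q.Prime]
variable (B : ValuationSubring (AlgebraicClosure ℚ))

/-- `H(j̃) ≠ 0` for a polynomial of degree `q - 1 ≥ 1`: `j̃` is transcendental. -/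
theorem aeval_jFullC_ne_zero (hB : B.LiesOverPrime q) (hqM : ¬ q ∣ M)
    (H : (ResidueField B)[X]) (hH : H.natDegree = q - 1) :
    aeval (jFullC (ResidueField B) M) H ≠ 0 := by
  have htr := (Fermat.Agent.Val.isSepVarS_jFullC_residueField M hqM B hB).transcendental
  intro h0
  have hH0 : H = 0 := (transcendental_iff.mp htr) H h0
  rw [hH0, natDegree_zero] at hH
  have := hq.out.two_le
  omega

/-- **Lower half of the SANDWICH.**  If every zero of `T̄₁ = H(j̃)` (`deg H = q - 1`) on `X₀(M)`
mod `q` is a crossing point and `T̄₁` vanishes to order at most `12` there, then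
`(q - 1) ψ(M) ≤ 12 card ν`. -/
theorem sandwich_lower_bound (hB : B.LiesOverPrime q) (hqM : ¬ q ∣ M) {ν : Type*} [Fintype ν]
    (z₁ : ν → Place (ResidueField B) (modularFunctionFieldFullC (ResidueField B) M))
    (H : (ResidueField B)[X]) (hH : H.natDegree = q - 1)
    (hzero : ∀ Q : Place (ResidueField B) (modularFunctionFieldFullC (ResidueField B) M),
      0 < Q.ord (aeval (jFullC (ResidueField B) M) H) → ∃ e, Q = z₁ e)
    (hord : ∀ e, (z₁ e).ord (aeval (jFullC (ResidueField B) M) H) ≤ 12) :
    ((q : ℚ) - 1) * (dedekindPsi M : ℚ) ≤ 12 * (Fintype.card ν : ℚ) := by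
  have hH0 := aeval_jFullC_ne_zero M q B hB hqM H hH
  have hFt := Fermat.Agent.Val.riemannPkg_modL_residueField M hqM B hB
  have := hFt.principal
  have : IsAlgClosed (ResidueField B) := Fermat.Agent.Val.residueField_isAlgClosed B
  have hdeg := Fermat.Agent.Good.degree_poleDiv_of_isSepVarS
    (Fermat.Agent.Val.isSepVarS_jFullC_residueField M hqM B hB)
  have h := natDegree_mul_degree_le hFt (jFullC (ResidueField B) M) hH0
    (P := Fermat.Agent.Good.GenusCharts.poleDiv (ResidueField B) (jFullC (ResidueField B) M))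
    (fun v => Fermat.Agent.Good.GenusCharts.poleDiv_apply _ v) z₁ hzero (m := 12) (by exact_mod_cast hord)
  rw [hdeg, hH] at h
  have hq1 : 1 ≤ q := hq.out.one_le
  have h' : (((q - 1 : ℕ) : ℤ) : ℚ) * (((dedekindPsi M : ℕ) : ℤ) : ℚ) ≤
      (((12 : ℕ) : ℤ) : ℚ) * (((Fintype.card ν : ℕ) : ℤ) : ℚ) := by
    exact_mod_cast h
  push_cast [Nat.cast_sub hq1] at h'
  exact h'

/-- **The SANDWICH.**  Without elliptic points on `X₀(M)`, a two-component semistable setup on
`Fb (M * q)` all of whose crossings are the zeros of `T̄₁ = H(j̃)`, of order at most `12`, has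
exactly `nodeCount q M` nodes. -/
theorem sandwich_card_eq_nodeCount (hB : B.LiesOverPrime q) (hqM : ¬ q ∣ M) {ν : Type*} [Fintype ν]
    (S : SemistableSetup (F := Fb (M * q)) B (residue B) (Fin 2)
      (fun _ => modularFunctionFieldFullC (ResidueField B) M) ν)
    (h2 : nuTwo M = 0) (h3 : nuThree M = 0)
    (z₁ : ν → Place (ResidueField B) (modularFunctionFieldFullC (ResidueField B) M))
    (H : (ResidueField B)[X]) (hH : H.natDegree = q - 1)
    (hzero : ∀ Q : Place (ResidueField B) (modularFunctionFieldFullC (ResidueField B) M),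
      0 < Q.ord (aeval (jFullC (ResidueField B) M) H) → ∃ e, Q = z₁ e)
    (hord : ∀ e, (z₁ e).ord (aeval (jFullC (ResidueField B) M) H) ≤ 12) :
    (Fintype.card ν : ℚ) = nodeCount q M :=
  card_eq_nodeCount_of_le M q B hB hqM S h2 h3
    (sandwich_lower_bound M q B hB hqM z₁ H hH hzero hord)

/-- The genus hypothesis of `SS.MainStatement` (= `hgen` of `Refine.HasModularInput`) for the
two-component model, from the SANDWICH. -/
theorem sandwich_genus_hyp (hB : B.LiesOverPrime q) (hqM : ¬ q ∣ M) {ν : Type*} [Fintype ν]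
    (S : SemistableSetup (F := Fb (M * q)) B (residue B) (Fin 2)
      (fun _ => modularFunctionFieldFullC (ResidueField B) M) ν)
    (h2 : nuTwo M = 0) (h3 : nuThree M = 0)
    (z₁ : ν → Place (ResidueField B) (modularFunctionFieldFullC (ResidueField B) M))
    (H : (ResidueField B)[X]) (hH : H.natDegree = q - 1)
    (hzero : ∀ Q : Place (ResidueField B) (modularFunctionFieldFullC (ResidueField B) M),
      0 < Q.ord (aeval (jFullC (ResidueField B) M) H) → ∃ e, Q = z₁ e)
    (hord : ∀ e, (z₁ e).ord (aeval (jFullC (ResidueField B) M) H) ≤ 12) :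
    (genusFF Kb (Fb (M * q)) : ℤ) =
      ∑ _v : Fin 2, (genusFF (ResidueField B)
        (modularFunctionFieldFullC (ResidueField B) M) : ℤ) +
        Fintype.card ν - Fintype.card (Fin 2) + 1 :=
  (genus_hyp_iff M q B hB hqM ν).mpr
    (sandwich_card_eq_nodeCount M q B hB hqM S h2 h3 z₁ H hH hzero hord)

/-- **B3 for the two-component model, unconditionally in the genus.**  For a `TwoCompInput` on
`Fb (M * q)` (`X₀(M)` without elliptic points) whose crossings `z₁ e` contain all zeros of
`T̄₁ = H(j̃)`, of order at most `12`: the genus hypothesis holds and there is no torsion in the kernel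
of reduction. -/
theorem TwoCompInput.noTorsionInKernel_of_zeros (hB : B.LiesOverPrime q) (hqM : ¬ q ∣ M)
    {ν : Type*} [Fintype ν]
    (I : TwoCompInput (F := Fb (M * q)) B (residue B)
      (modularFunctionFieldFullC (ResidueField B) M) ν)
    (h2 : nuTwo M = 0) (h3 : nuThree M = 0)
    (H : (ResidueField B)[X]) (hH : H.natDegree = q - 1)
    (hzero : ∀ Q : Place (ResidueField B) (modularFunctionFieldFullC (ResidueField B) M),
      0 < Q.ord (aeval (jFullC (ResidueField B) M) H) → ∃ e, Q = I.z₁ e)
    (hord : ∀ e, (I.z₁ e).ord (aeval (jFullC (ResidueField B) M) H) ≤ 12) :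
    NoTorsionInKernel I.toSetup :=
  noTorsionInKernel_of_card M q B hB hqM I.toSetup
    (sandwich_card_eq_nodeCount M q B hB hqM I.toSetup h2 h3 I.z₁ H hH hzero hord)

end Modular

end Fermat.Agent.BR.S0
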