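/-
Program B (bad reduction), node B6.6-ASSEMBLY (helper12): the two-component deliverable
`S0.TwoCompDeliverable M q B` for `X₀(qM)` at `q` from the named inputs of the provider blocks.

Setting: `q ∤ M`, `B` a valuation ring of `ℚ̄` over `q`, `k = ResidueField B`,
`F = Fb (M * q)`, `Ft = F̃_M = modularFunctionFieldFullC k M`, components
`compW B hB hqM = ![constRedW1, constRedW2]` (helper26), atlas
`D = RedModular.chartDataModular B hB hqM` (helper29: the images of the Prelude charts
`ℤ_(q)[j]~`, `ℤ_(q)[1/j]~`), crossings `ν = PointDict.Crossing D`, reduction map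
`H.r = (RedModular.redRel H.chartHyp).r` (helper14's `RedMap`).

`twoCompDeliverable_of_atlas` : `TwoCompDeliverable M q B` from

* `H : AtlasHyp D x` (separation, totality, overlap, no crossing at infinity: B6.5 (c),(d) +
  cusps);
* `hT : TB M q ∈ chartFin` (the modular unit lies in the finite chart: B6.4 (f)) — finiteness of
  the crossings is derived here (`PointDict.AtlasHyp.finite_crossing`);
* `hzero`, `hord` : every zero of `T̄₁ = H(j̃)` on the component `0` is a crossing, of order at
  most `12` (B6.6-THICK) — the lower bound of the SANDWICH is helper7's `sandwich_lower_bound`,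
  and `Nonempty ν` follows from it;
* a `SmoothChart` at every non-crossing point and a `NodeChart` at every crossing, for the tubes
  of `H.r` (B6.6-CONS, B6.6-NODE);
* a chain provider over the resulting setup whose annulus coordinates are fixed by inertia (B7).

The invariance of the reduction map under inertia is helper29's `rModular_smul`.
-/
import Mathlib
import Fermat.Agent.BR.S0.PointDict
import Fermat.Agent.BR.S0.RedModularInst
import Fermat.Agent.BR.S0.Sandwich
import Fermat.Agent.BR.S0.ModularInput
import Fermat.Agent.BR.ModUnitIntegral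

set_option autoImplicit false
set_option synthInstance.maxHeartbeats 400000
set_option linter.unusedSectionVars false

namespace Fermat.Agent.BR.S0.Modular

open AlgebraicCurve ModularCurve IsLocalRing Polynomial
open Fermat.Agent.Red Fermat.Agent.Val Fermat.Agent.X0 Fermat.Agent.BR.SS Fermat.Agent.BR.Refine
open Fermat.Agent.BR.Centre Fermat.Agent.BR.ConstRedTwo Fermat.Agent.BR.ModUnit
open Fermat.Agent.BR.S0.RedModular Fermat.Agent.BR.S0.PointDict

variable (M q : ℕ) [NeZero M] [hq : Fact q.Prime]
variable (B : ValuationSubring (AlgebraicClosure ℚ)) (hB : B.LiesOverPrime q) (hqM : ¬ q ∣ M)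

local notation "kB" => IsLocalRing.ResidueField B
local notation "FtM" => modularFunctionFieldFullC (IsLocalRing.ResidueField B) M
local notation "Kb" => AlgebraicClosure ℚ

/-- helper29's chart data is the chart data of the two components `compW` and the two Prelude
charts. -/
theorem chartDataModular_eq :
    chartDataModular B hB hqM =
      chartDataOf (compW B hB hqM) chartFin chartInf (chartFin_le B hB hqM)
        (chartInf_le B hB hqM) := rfl

section Main

variable {M q B hB hqM}
variable {x : Fb (M * q)} (H : AtlasHyp (chartDataModular B hB hqM) x)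

include H in
/-- **Finiteness of the crossings** from the modular unit `T = Δ(s)/Δ(s^q)`: it lies in the finite
chart, vanishes identically on the component `1` and not on the component `0`. -/
theorem finite_crossing (hT : TB M q ∈ chartFin (M := M) (q := q)) :
    Finite (Crossing (chartDataModular B hB hqM)) := by
  haveI := charP_res q B hB
  haveI : HasPrincipalDivisors kB FtM := (riemannPkg_modL_residueField M hqM B hB).principal
  refine H.finite_crossing (t := TB M q) hT ?_ ?_
  · exact constRedW2_res_TB M q B hB hqM
  · have h1 : (chartDataModular B hB hqM).res 0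
        ⟨TB M q, (chartDataModular B hB hqM).hfin 0 hT⟩ =
        aeval (jFullC kB M) (TbarPolyK kB q) := constRedW1_res_TB M q B hB hqM
    rw [h1]
    exact aeval_jFullC_ne_zero M q B hB hqM _ (TbarPolyK_natDegree kB q)

/-- **The lower bound of the SANDWICH** for the crossings of the atlas (helper7's
`sandwich_lower_bound`), from (Z) every zero of `T̄₁ = H(j̃)` is a crossing and (T) `T̄₁` vanishes
to order at most `12` at a crossing. -/
theorem lower_bound [Fintype (Crossing (chartDataModular B hB hqM))]
    (hzero : haveI := charP_res q B hB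
      ∀ Q : Place kB FtM, 0 < Q.ord (aeval (jFullC kB M) (TbarPolyK kB q)) →
        ∃ Q₂, GluedF (chartDataModular B hB hqM) Q Q₂)
    (hord : haveI := charP_res q B hB
      ∀ e : Crossing (chartDataModular B hB hqM),
        (z₁ (chartDataModular B hB hqM) e).ord (aeval (jFullC kB M) (TbarPolyK kB q)) ≤ 12) :
    ((q : ℚ) - 1) * (dedekindPsi M : ℚ) ≤
      12 * (Fintype.card (Crossing (chartDataModular B hB hqM)) : ℚ) := by
  haveI := charP_res q B hB
  exact sandwich_lower_bound M q B hB hqM (z₁ (chartDataModular B hB hqM)) (TbarPolyK kB q)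
    (TbarPolyK_natDegree kB q)
    (fun Q hQ => by
      obtain ⟨Q₂, h⟩ := hzero Q hQ
      exact ⟨⟨(Q, Q₂), h⟩, rfl⟩) hord

/-- There is at least one crossing. -/
theorem nonempty_crossing [Fintype (Crossing (chartDataModular B hB hqM))]
    (hlow : ((q : ℚ) - 1) * (dedekindPsi M : ℚ) ≤
      12 * (Fintype.card (Crossing (chartDataModular B hB hqM)) : ℚ)) :
    Nonempty (Crossing (chartDataModular B hB hqM)) := by
  by_contra hne
  rw [not_nonempty_iff] at hne
  rw [Fintype.card_eq_zero, Nat.cast_zero, mul_zero] at hlow
  have h1 : (0 : ℚ) < (q : ℚ) - 1 := by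
    have := hq.out.two_le
    have : (2 : ℚ) ≤ (q : ℚ) := by exact_mod_cast this
    linarith
  have h2 : (0 : ℚ) < (dedekindPsi M : ℚ) := by
    exact_mod_cast Fermat.Agent.X0.dedekindPsi_pos M
  have := mul_pos h1 h2
  linarith

/-- **The two-component bundle of `X₀(qM)` at `q`** from the atlas hypotheses and a chart at every
point. -/
noncomputable def modularInput (hne : Nonempty (Crossing (chartDataModular B hB hqM)))
    (smooth₀ : ∀ Q : Place kB FtM, (∀ e, Q ≠ z₁ (chartDataModular B hB hqM) e) →
      SmoothChart B (compW B hB hqM 0).O (compW B hB hqM 0).res Q {P | H.r P = ⟨0, Q⟩})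
    (smooth₁ : ∀ Q : Place kB FtM, (∀ e, Q ≠ z₂ (chartDataModular B hB hqM) e) →
      SmoothChart B (compW B hB hqM 1).O (compW B hB hqM 1).res Q {P | H.r P = ⟨1, Q⟩})
    (chart : ∀ e, NodeChart B (compW B hB hqM 0).O (compW B hB hqM 1).O (compW B hB hqM 0).res
      (compW B hB hqM 1).res (z₁ (chartDataModular B hB hqM) e)
      (z₂ (chartDataModular B hB hqM) e)
      {P | H.r P = ⟨0, z₁ (chartDataModular B hB hqM) e⟩}) :
    TwoCompInput (F := Fb (M * q)) B (residue B) FtM (Crossing (chartDataModular B hB hqM)) :=
  AtlasHyp.toInput (C := compW B hB hqM) (Rfin := chartFin) (Rinf := chartInf)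
    (hfin := chartFin_le B hB hqM) (hinf := chartInf_le B hB hqM) H
    (constRedW1_O_ne B hB hqM) hne smooth₀ smooth₁ chart

/-- **`TwoCompDeliverable M q B` from the named inputs of the provider blocks**: atlas hypotheses,
the modular unit in the finite chart, (Z)/(T), a chart at every point and a chain provider whose
annulus coordinates are fixed by inertia. The lower bound of the SANDWICH, `Nonempty ν`,
`Fintype ν` and the invariance of the reduction map under inertia are discharged here. -/
theorem twoCompDeliverable_of_atlas [IsAlgClosed (ResidueField B)]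
    (hT : TB M q ∈ chartFin (M := M) (q := q))
    (hzero : haveI := charP_res q B hB
      ∀ Q : Place kB FtM, 0 < Q.ord (aeval (jFullC kB M) (TbarPolyK kB q)) →
        ∃ Q₂, GluedF (chartDataModular B hB hqM) Q Q₂)
    (hord : haveI := charP_res q B hB
      ∀ e : Crossing (chartDataModular B hB hqM),
        (z₁ (chartDataModular B hB hqM) e).ord (aeval (jFullC kB M) (TbarPolyK kB q)) ≤ 12)
    (smooth₀ : ∀ Q : Place kB FtM, (∀ e, Q ≠ z₁ (chartDataModular B hB hqM) e) →
      SmoothChart B (compW B hB hqM 0).O (compW B hB hqM 0).res Q {P | H.r P = ⟨0, Q⟩})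
    (smooth₁ : ∀ Q : Place kB FtM, (∀ e, Q ≠ z₂ (chartDataModular B hB hqM) e) →
      SmoothChart B (compW B hB hqM 1).O (compW B hB hqM 1).res Q {P | H.r P = ⟨1, Q⟩})
    (chart : ∀ e, NodeChart B (compW B hB hqM 0).O (compW B hB hqM 1).O (compW B hB hqM 0).res
      (compW B hB hqM 1).res (z₁ (chartDataModular B hB hqM) e)
      (z₂ (chartDataModular B hB hqM) e)
      {P | H.r P = ⟨0, z₁ (chartDataModular B hB hqM) e⟩})
    (hchain : ∀ hne : Nonempty (Crossing (chartDataModular B hB hqM)),
      ∃ Pr : ChainProvider (modularInput H hne smooth₀ smooth₁ chart).toSetup,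
        ∀ σ ∈ B.inertiaSubgroupIn ℚ, ∀ e,
          arithmeticGalois (modularFunctionFieldFull (M * q)) σ • Pr.u e = Pr.u e) :
    TwoCompDeliverable M q B := by
  haveI : Finite (Crossing (chartDataModular B hB hqM)) := finite_crossing H hT
  letI : Fintype (Crossing (chartDataModular B hB hqM)) := Fintype.ofFinite _
  have hlow := lower_bound (hB := hB) (hqM := hqM) hzero hord
  have hne := nonempty_crossing hlow
  obtain ⟨Pr, hu⟩ := hchain hne
  exact ⟨Crossing (chartDataModular B hB hqM), inferInstance,
    modularInput H hne smooth₀ smooth₁ chart, hlow, Pr, fun σ hσ =>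
      ⟨hu σ hσ, fun Q => rModular_smul B hB hqM H.chartHyp hσ Q⟩⟩

end Main

end Fermat.Agent.BR.S0.Modular
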