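import Fermat.Agent.BR.S0.RedModularInst
import Fermat.Agent.BR.S0.PointDict
import Fermat.Agent.X0.ModDeg
import Fermat.Agent.X0.Alg.AffineModel

/-!
# Program B (BADRED), node B6.6 (c): the atlas hypotheses of `X₀(qM)` at `q`

`PointDict.AtlasHyp (chartDataModular B hB hqM) x` for the coordinate
`x = barEmb (M*q) (jFull (M*q)) = jOne M q`:

* `place_deg_eq_one` : every place of `F̄_N / ℚ̄` has degree one (`jBar_isSepVar`);
* `jx_ne_zero`, `jx_mem_chartFin`, `jx_inv_mem_chartInf`, `pi_zero_modular`, `overlap_modular`:
  the five "formal" fields of `AtlasHyp`, unconditionally;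
* `GeomInputs B hB hqM` : the five geometric fields (`sep_f`, `sep_i`, `total_f`, `total_i`,
  `no_cross_inf`) as ONE named structure;
* `atlasHyp_modular`, `chartHyp_modular`, `rModular_smul_of_inputs` ((h2) with no `ChartHyp`
  hypothesis), `atlasHyp_modular_jOne` (the same with `x = jOne M q`).
-/

set_option autoImplicit false
set_option linter.unusedSectionVars false
set_option linter.style.haveILetI false

noncomputable section

namespace Fermat.Agent.BR.S0.RedHyp

open ModularCurve ModularCurve.IgusaScheme AlgebraicCurve IsLocalRing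
open Fermat.Agent.X0 Fermat.Agent.Val Fermat.Agent.Red Fermat.Agent.BR.Centre
open Fermat.Agent.BR.TwoVal Fermat.Agent.BR.TwoValInst Fermat.Agent.BR.TwoValQ
open Fermat.Agent.BR.ConstRedTwo Fermat.Agent.BR.Inst Fermat.Agent.Good.Bridge
open Fermat.Agent.BR.S0.RedMap Fermat.Agent.BR.S0.RedModular Fermat.Agent.BR.S0.PointDict

/-- Every place of `F̄_N / ℚ̄` has degree one. -/
theorem place_deg_eq_one {N : ℕ} [NeZero N] (P : Place Kb (Fb N)) : P.deg = 1 :=
  Place.alg_deg_eq_one (jBar_isSepVar N) P

section Modular

set_option synthInstance.maxHeartbeats 400000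

variable {M q : ℕ} [NeZero M] [hqF : Fact q.Prime]
variable (B : ValuationSubring Kb) (hB : B.LiesOverPrime q) (hqM : ¬ q ∣ M)

local notation "kB" => IsLocalRing.ResidueField B
local notation "FtM" => modularFunctionFieldFullC (IsLocalRing.ResidueField B) M

variable (M q) in
/-- The coordinate `j` of the atlas, as an element of `F̄_{Mq}`. -/
def jx : Fb (M * q) := barEmb (M * q) (jFull (M * q))

theorem jx_eq_jOne : jx M q = jOne M q := barEmb_jFull_eq_jOne

theorem jx_ne_zero : jx M q ≠ 0 :=
  (map_ne_zero (barEmb (M * q))).mpr (jFull_ne_zero (M * q))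

theorem jx_mem_chartFin : jx M q ∈ chartFin (M := M) (q := q) :=
  barEmb_mem_chartBar (subset_chartAlg (M * q) q _ (Set.mem_singleton _))

theorem jx_inv_mem_chartInf : (jx M q)⁻¹ ∈ chartInf (M := M) (q := q) := by
  have h : barEmb (M * q) (jFull (M * q))⁻¹ ∈ chartInf (M := M) (q := q) :=
    barEmb_mem_chartBar (subset_chartAlg (M * q) q _ (Set.mem_singleton _))
  rwa [map_inv₀] at h

include hB hqM in
theorem pi_zero_modular (a : B) (ha : B.valuation (a : Kb) < 1) : IsLocalRing.residue B a = 0 :=
  pi_zero_of_constRed (compW B hB hqM 0) a ha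

include hB in
/-- A place which is integral on the chart at infinity but not on the finite chart lies in the
open disc `|1/j| < 1`. -/
theorem overlap_modular (P : Place Kb (Fb (M * q)))
    (hi : IntegralAt B (chartInf (M := M) (q := q)) P)
    (hf : ¬ IntegralAt B (chartFin (M := M) (q := q)) P) :
    B.valuation (evalAt P (jx M q)⁻¹) < 1 := by
  obtain ⟨c, hcB, hc⟩ := hi _ (jx_inv_mem_chartInf (M := M) (q := q))
  rw [evalAt_eq_of_isValueAt hc]
  by_contra hlt
  apply hf
  have hc1 : B.valuation c = 1 :=
    le_antisymm ((B.valuation_le_one_iff c).mpr hcB) (not_lt.mp hlt)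
  have hc0 : c ≠ 0 := by
    rintro rfl
    rw [map_zero] at hc1
    exact zero_ne_one hc1
  have hcinv : c⁻¹ ∈ B := by
    rw [← B.valuation_le_one_iff, map_inv₀, hc1, inv_one]
  have h2 := IsValueAt.inv hc hc0
  rw [inv_inv] at h2
  exact (integralAt_chartBarFin_iff hB (place_deg_eq_one P)).mpr ⟨c⁻¹, hcinv, h2⟩

/-- **The geometric inputs** of the atlas of `X₀(qM)` at `q` (B6.5 (c),(d) + dictionary, and
`CuspSep` at infinity). -/
structure GeomInputs : Prop where
  /-- the residues of the finite chart separate the places, on both components -/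
  sep_f : ∀ i, Separates (k := kB) (chartFin (M := M) (q := q)) (compW B hB hqM i).O
    (compW B hB hqM i).res (chartFin_le B hB hqM i)
  /-- the residues of the chart at infinity separate the places, on both components -/
  sep_i : ∀ i, Separates (k := kB) (chartInf (M := M) (q := q)) (compW B hB hqM i).O
    (compW B hB hqM i).res (chartInf_le B hB hqM i)
  /-- every place integral on the finite chart has a reduction there -/
  total_f : ∀ P : Place Kb (Fb (M * q)), IntegralAt B (chartFin (M := M) (q := q)) P →
    ∃ (i : Fin 2) (Q : Place kB FtM), IsRedOf B (IsLocalRing.residue B) chartFin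
      (compW B hB hqM i).O (compW B hB hqM i).res (chartFin_le B hB hqM i) P Q
  /-- every other place has a reduction on the chart at infinity -/
  total_i : ∀ P : Place Kb (Fb (M * q)), ¬ IntegralAt B (chartFin (M := M) (q := q)) P →
    ∃ (i : Fin 2) (Q : Place kB FtM), IsRedOf B (IsLocalRing.residue B) chartInf
      (compW B hB hqM i).O (compW B hB hqM i).res (chartInf_le B hB hqM i) P Q
  /-- no crossing at infinity -/
  no_cross_inf : ∀ Q₁ Q₂ : Place kB FtM, GluedI (chartDataModular B hB hqM) Q₁ Q₂ →
    ¬ IsValueAt Q₁ ((compW B hB hqM 0).res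
      ⟨(jx M q)⁻¹, chartInf_le B hB hqM 0 (jx_inv_mem_chartInf (M := M) (q := q))⟩) 0

/-- **The atlas hypotheses of `X₀(qM)` at `q`** from the geometric inputs. -/
theorem atlasHyp_modular (G : GeomInputs B hB hqM) :
    AtlasHyp (chartDataModular B hB hqM) (jx M q) where
  x_ne := jx_ne_zero
  x_mem := jx_mem_chartFin
  inv_mem := jx_inv_mem_chartInf
  pi_zero := pi_zero_modular B hB hqM
  overlap := overlap_modular B hB
  sep_f := G.sep_f
  sep_i := G.sep_i
  total_f := G.total_f
  total_i := G.total_i
  no_cross_inf := G.no_cross_inf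

/-- The same with the coordinate written `jOne M q`. -/
theorem atlasHyp_modular_jOne (G : GeomInputs B hB hqM) :
    AtlasHyp (chartDataModular B hB hqM) (jOne M q) := by
  rw [← jx_eq_jOne]
  exact atlasHyp_modular B hB hqM G

/-- **(U), (E), (X)** for the crossings `PointDict.Crossing` of the atlas. -/
theorem chartHyp_modular (G : GeomInputs B hB hqM) :
    ChartHyp (chartDataModular B hB hqM) (z₁ (chartDataModular B hB hqM))
      (z₂ (chartDataModular B hB hqM)) :=
  (atlasHyp_modular B hB hqM G).chartHyp

/-- **(h2)** from the geometric inputs: for `σ` in the inertia group of `B` the reduction map of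
the two-component model is invariant under the arithmetic Galois action, for ALL places. -/
theorem rModular_smul_of_inputs (G : GeomInputs B hB hqM) {σ : Kb ≃ₐ[ℚ] Kb}
    (hσ : σ ∈ B.inertiaSubgroupIn ℚ) (P : Place Kb (Fb (M * q))) :
    (atlasHyp_modular B hB hqM G).r
        (arithmeticGalois (modularFunctionFieldFull (M * q)) σ • P) =
      (atlasHyp_modular B hB hqM G).r P :=
  rModular_smul B hB hqM (chartHyp_modular B hB hqM G) hσ P

end Modular

end Fermat.Agent.BR.S0.RedHyp
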