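/-
Program B (bad reduction), node B6.6-CONS, the glue over the tower of levels (helper1).

Abstract over the two constant reductions `Cr : Fin 2 → ConstRed` of `F̄_N`, the atlas
`chartDataOf Cr Rfin Rinf` with its hypotheses `H : PointDict.AtlasHyp _ x`, and a
`Levels.BaseFamily N A q base` (models `CS N q base S`, `S : Finset Kb`, uniformizers
`Levels.unif A hq hA S`).

* `LevelHyp.exists_param_zero`, `exists_param_one` : a level (`SmoothAssembly.LevelHyp`) contains a
  function whose residue on the component has order one at a point `Q` which is finite on the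
  Dedekind chart `Dk` (helper22's `exists_ord_eq_one_of_dedekind` lifted through the reduction);
* `smoothChart_zero_fin_levels`, `smoothChart_one_fin_levels`, `smoothChart_zero_inf_levels`,
  `smoothChart_one_inf_levels` : the smooth chart at a point which is not a crossing from a family
  `L : ∀ S, LevelHyp … (CS N q base S) (unif A hq hA S) …` — no parameter, no family hypothesis,
  no `horiz` hypothesis left (helper24's `smoothChartOf_*` fed with helper27's `LevelsFamily`);
* `mem_or_inv_lt` : at a place of `Ft` a function is regular or its inverse vanishes;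
* `smooth_zero_levels`, `smooth_one_levels` : THE CASE SPLIT — from a family of levels of the finite
  chart (Dedekind chart `Dkf`) and a family of levels of the chart at infinity (Dedekind chart
  `Dki`), the arguments `smooth₀`, `smooth₁` of `PointDict.AtlasHyp.toInput` at EVERY point which
  is not a crossing.
-/
import Mathlib
import Fermat.Agent.BR.S0.SmoothFamilyAssembly
import Fermat.Agent.BR.Inst.LevelsFamily
import Fermat.Agent.BR.Inst.SmoothInstGen

set_option autoImplicit false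
set_option linter.unusedSectionVars false

noncomputable section

namespace Fermat.Agent.BR.S0.SmoothLevelsGlue

open AlgebraicCurve Fermat.Agent.Red Fermat.Agent.X0 Fermat.Agent.Val Fermat.Agent.BR.Centre
  Fermat.Agent.BR.SpecialFibre Fermat.Agent.BR.S0.RedModular Fermat.Agent.BR.S0.PointDict
  Fermat.Agent.BR.S0.SmoothAssembly Fermat.Agent.BR.Inst.Levels Fermat.Agent.BR.Inst.LevelsFamily
  Fermat.Agent.BR.Inst.SmoothInstGen

/-! ### a parameter in a level -/

section Param

variable {K F k Ft : Type*} [Field K] [Field F] [Algebra K F] [Field k] [Field Ft] [Algebra k Ft]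
  {A : ValuationSubring K} {π : A →+* k}
  {Dk : Type*} [CommRing Dk] [IsDedekindDomain Dk] [Algebra Dk Ft] [IsFractionRing Dk Ft]
  [Algebra k Dk] [IsScalarTower k Dk Ft]
  {D : ChartData A π Ft F} {C : Subring F} {ϖ : K} {P₀ P₁ : Ideal C} {red₀ red₁ : C →+* Dk}

/-- every function of `Ft` is a quotient of functions of the Dedekind chart -/
theorem exists_frac_of_isFractionRing (y : Ft) :
    ∃ a b : Dk, b ≠ 0 ∧ y * algebraMap Dk Ft b = algebraMap Dk Ft a := by
  obtain ⟨a, b, hb, hab⟩ := IsFractionRing.div_surjective (A := Dk) y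
  have hb0 : b ≠ 0 := nonZeroDivisors.ne_zero hb
  have hbF : algebraMap Dk Ft b ≠ 0 := fun h =>
    hb0 (IsFractionRing.injective Dk Ft (by rw [h, map_zero]))
  exact ⟨a, b, hb0, by rw [← hab, div_mul_cancel₀ _ hbF]⟩

/-- **A parameter in the level, component `0`**: a function of the model whose residue has order
one at `Q`. -/
theorem exists_param_zero (L : LevelHyp D C ϖ P₀ P₁ red₀ red₁) {Q : Place k Ft}
    (hQD : ∀ d : Dk, Q.adicValuation (algebraMap Dk Ft d) ≤ 1) :
    ∃ t : F, t ∈ C ∧ ∀ h : t ∈ D.O 0, Q.ord (D.res 0 ⟨t, h⟩) = 1 := by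
  obtain ⟨τ, hτ⟩ := exists_ord_eq_one_of_dedekind (algebraMap Dk Ft) Q
    (IsFractionRing.injective Dk Ft) exists_frac_of_isFractionRing hQD
  obtain ⟨t, rfl⟩ := L.surj₀ τ
  refine ⟨t, t.2, fun h => ?_⟩
  rw [L.hred₀ t] at hτ
  exact hτ

/-- **A parameter in the level, component `1`.** -/
theorem exists_param_one (L : LevelHyp D C ϖ P₀ P₁ red₀ red₁) {Q : Place k Ft}
    (hQD : ∀ d : Dk, Q.adicValuation (algebraMap Dk Ft d) ≤ 1) :
    ∃ t : F, t ∈ C ∧ ∀ h : t ∈ D.O 1, Q.ord (D.res 1 ⟨t, h⟩) = 1 := by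
  obtain ⟨τ, hτ⟩ := exists_ord_eq_one_of_dedekind (algebraMap Dk Ft) Q
    (IsFractionRing.injective Dk Ft) exists_frac_of_isFractionRing hQD
  obtain ⟨t, rfl⟩ := L.surj₁ τ
  refine ⟨t, t.2, fun h => ?_⟩
  rw [L.hred₁ t] at hτ
  exact hτ

end Param

/-! ### regular, or the inverse vanishes -/

section Place

variable {k Ft : Type*} [Field k] [Field Ft] [Algebra k Ft]

theorem mem_iff_adicValuation_le_one {Q : Place k Ft} {f : Ft} :
    f ∈ Q.toValuationSubring ↔ Q.adicValuation f ≤ 1 := by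
  rw [Place.mem_iff_ord_nonneg, Q.adicValuation_le_one_iff]
  constructor
  · exact fun h => Or.inr h
  · rintro (rfl | h)
    · rw [Place.ord_zero]
    · exact h

/-- if `f g = 1` and `f` is not regular at `Q` then `g` vanishes at `Q` -/
theorem adicValuation_lt_one_of_mul_eq_one {Q : Place k Ft} {f g : Ft} (hfg : f * g = 1)
    (hf : f ∉ Q.toValuationSubring) : Q.adicValuation g < 1 := by
  rw [mem_iff_adicValuation_le_one, not_le] at hf
  have h1 : Q.adicValuation f * Q.adicValuation g = 1 := by rw [← map_mul, hfg, map_one]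
  by_contra hg
  rw [not_lt] at hg
  have h2 : Q.adicValuation f * 1 ≤ Q.adicValuation f * Q.adicValuation g :=
    mul_le_mul' le_rfl hg
  rw [mul_one, h1] at h2
  exact absurd hf (not_lt.mpr h2)

/-- the elements integral over a subalgebra which is regular at `Q` are regular at `Q` -/
theorem adicValuation_le_one_of_isIntegral {Q : Place k Ft} {R : Subalgebra k Ft}
    (hR : ∀ r ∈ R, r ∈ Q.toValuationSubring) {d : Ft} (hd : IsIntegral R d) :
    Q.adicValuation d ≤ 1 := by
  rw [← mem_iff_adicValuation_le_one]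
  have hle : R.toSubring ≤ Q.toValuationSubring.toSubring := fun r hr => hR r hr
  have h1 : IsIntegral Q.toValuationSubring d := by
    obtain ⟨p, hp, hpd⟩ := hd
    refine ⟨p.map (Subring.inclusion hle), hp.map _, ?_⟩
    rw [Polynomial.eval₂_map]
    exact hpd
  obtain ⟨z, hz⟩ :=
    (IsIntegrallyClosed.isIntegral_iff (R := Q.toValuationSubring) (K := Ft)).mp h1
  rw [← hz]
  exact z.2

/-- the elements of `k[u]` are regular where `u` is -/
theorem mem_of_mem_adjoin_singleton {Q : Place k Ft} {u : Ft} (hu : u ∈ Q.toValuationSubring)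
    {r : Ft} (hr : r ∈ Algebra.adjoin k ({u} : Set Ft)) : r ∈ Q.toValuationSubring := by
  induction hr using Algebra.adjoin_induction with
  | mem s hs =>
    rw [Set.mem_singleton_iff.mp hs]
    exact hu
  | algebraMap c => exact Q.algebraMap_mem' c
  | add a b _ _ ha hb => exact Q.toValuationSubring.add_mem _ _ ha hb
  | mul a b _ _ ha hb => exact Q.toValuationSubring.mul_mem _ _ ha hb

/-- **the integral closure of `k[u]` is regular where `u` is** -/
theorem adicValuation_le_one_of_mem_integralClosure {Q : Place k Ft} {u : Ft}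
    (hu : u ∈ Q.toValuationSubring)
    (d : ↥(integralClosure ↥(Algebra.adjoin k ({u} : Set Ft)) Ft)) :
    Q.adicValuation (d : Ft) ≤ 1 :=
  adicValuation_le_one_of_isIntegral (fun _ hr => mem_of_mem_adjoin_singleton hu hr) d.2

/-- a power is regular iff the function is -/
theorem mem_of_pow_mem {Q : Place k Ft} {u : Ft} {n : ℕ} (hn : n ≠ 0)
    (hu : u ^ n ∈ Q.toValuationSubring) : u ∈ Q.toValuationSubring := by
  rw [mem_iff_adicValuation_le_one] at hu ⊢
  rw [map_pow] at hu
  exact (pow_le_one_iff hn).mp hu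

end Place

/-! ### the smooth chart from a family of levels over the tower -/

section Levels

variable {N : ℕ} [NeZero N] {A : ValuationSubring Kb} {q : ℕ}
  {k Ft : Type*} [Field k] [Field Ft] [Algebra k Ft] {π : A →+* k}
  {Dk : Type*} [CommRing Dk] [IsDedekindDomain Dk] [Algebra Dk Ft] [IsFractionRing Dk Ft]
  [Algebra k Dk] [IsScalarTower k Dk Ft]
  {Cr : Fin 2 → ConstRed (F := Fb N) (Ft := Ft) A π} {Rfin Rinf : Subring (Fb N)}
  {hfin : ∀ v, Rfin ≤ (Cr v).O.toSubring} {hinf : ∀ v, Rinf ≤ (Cr v).O.toSubring} {x : Fb N}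
  (H : AtlasHyp (chartDataOf Cr Rfin Rinf hfin hinf) x)
  {base : Finset Kb → Subring (Fb N)} (hb : BaseFamily N A q base)
  (hq : q.Prime) (hA : A.LiesOverPrime q)
  {P₀ P₁ : ∀ S, Ideal (CS N q base S)} {red₀ red₁ : ∀ S, CS N q base S →+* Dk}
  (L : ∀ S, LevelHyp (chartDataOf Cr Rfin Rinf hfin hinf) (CS N q base S) (unif A hq hA S)
    (P₀ S) (P₁ S) (red₀ S) (red₁ S))

/-- `smooth₀` at a point read on the finite chart, from the levels of the tower. -/
def smoothChart_zero_fin_levels (hnf : ¬ IsField Dk) (hRC : ∀ S, Rfin ≤ CS N q base S)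
    (hint : ∀ S (P : Place Kb (Fb N)), IntegralAt A Rfin P → IntegralAt A (CS N q base S) P)
    {Q : Place k Ft} (hQ : ∀ e, Q ≠ z₁ (chartDataOf Cr Rfin Rinf hfin hinf) e) {c : k}
    (hx : IsValueAt Q ((Cr 0).res ⟨x, hfin 0 H.x_mem⟩) c)
    (hQD : ∀ d : Dk, Q.adicValuation (algebraMap Dk Ft d) ≤ 1) (hdeg : Q.deg = 1) :
    SmoothChart A (Cr 0).O (Cr 0).res Q {P | H.r P = ⟨0, Q⟩} :=
  smoothChartOf_zero_fin H L hnf hRC hint (CS_directed hb) (CS_frac hb) (CS_const hb) hQ hx hQD
    hdeg (t := (exists_param_zero (L ∅) hQD).choose)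
    (fun S => CS_mono hb (Finset.empty_subset S) (exists_param_zero (L ∅) hQD).choose_spec.1)
    (exists_param_zero (L ∅) hQD).choose_spec.2
    (fun S Mo p hp hp1 hϖp => SmoothModel.horiz_level hb hq hA S Mo
      (constRed_res_eq_zero_iff (Cr 0)) (constRed_algebraMap_mem_nonunits (Cr 0)) p hp hp1 hϖp)

/-- `smooth₁` at a point read on the finite chart, from the levels of the tower. -/
def smoothChart_one_fin_levels (hnf : ¬ IsField Dk) (hRC : ∀ S, Rfin ≤ CS N q base S)
    (hint : ∀ S (P : Place Kb (Fb N)), IntegralAt A Rfin P → IntegralAt A (CS N q base S) P)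
    {Q : Place k Ft} (hQ : ∀ e, Q ≠ z₂ (chartDataOf Cr Rfin Rinf hfin hinf) e) {c : k}
    (hx : IsValueAt Q ((Cr 1).res ⟨x, hfin 1 H.x_mem⟩) c)
    (hQD : ∀ d : Dk, Q.adicValuation (algebraMap Dk Ft d) ≤ 1) (hdeg : Q.deg = 1) :
    SmoothChart A (Cr 1).O (Cr 1).res Q {P | H.r P = ⟨1, Q⟩} :=
  smoothChartOf_one_fin H L hnf hRC hint (CS_directed hb) (CS_frac hb) (CS_const hb) hQ hx hQD
    hdeg (t := (exists_param_one (L ∅) hQD).choose)
    (fun S => CS_mono hb (Finset.empty_subset S) (exists_param_one (L ∅) hQD).choose_spec.1)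
    (exists_param_one (L ∅) hQD).choose_spec.2
    (fun S Mo p hp hp1 hϖp => SmoothModel.horiz_level hb hq hA S Mo
      (constRed_res_eq_zero_iff (Cr 1)) (constRed_algebraMap_mem_nonunits (Cr 1)) p hp hp1 hϖp)

/-- `smooth₀` at a point read on the chart at infinity, from the levels of the tower. -/
def smoothChart_zero_inf_levels (hnf : ¬ IsField Dk) (hRC : ∀ S, Rinf ≤ CS N q base S)
    (hint : ∀ S (P : Place Kb (Fb N)), IntegralAt A Rinf P → IntegralAt A (CS N q base S) P)
    {Q : Place k Ft} (hQ : ∀ e, Q ≠ z₁ (chartDataOf Cr Rfin Rinf hfin hinf) e)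
    (hi : IsValueAt Q ((Cr 0).res ⟨x⁻¹, hinf 0 H.inv_mem⟩) 0)
    (hQD : ∀ d : Dk, Q.adicValuation (algebraMap Dk Ft d) ≤ 1) (hdeg : Q.deg = 1) :
    SmoothChart A (Cr 0).O (Cr 0).res Q {P | H.r P = ⟨0, Q⟩} :=
  smoothChartOf_zero_inf H L hnf hRC hint (CS_directed hb) (CS_frac hb) (CS_const hb) hQ hi hQD
    hdeg (t := (exists_param_zero (L ∅) hQD).choose)
    (fun S => CS_mono hb (Finset.empty_subset S) (exists_param_zero (L ∅) hQD).choose_spec.1)
    (exists_param_zero (L ∅) hQD).choose_spec.2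
    (fun S Mo p hp hp1 hϖp => SmoothModel.horiz_level hb hq hA S Mo
      (constRed_res_eq_zero_iff (Cr 0)) (constRed_algebraMap_mem_nonunits (Cr 0)) p hp hp1 hϖp)

/-- `smooth₁` at a point read on the chart at infinity, from the levels of the tower. -/
def smoothChart_one_inf_levels (hnf : ¬ IsField Dk) (hRC : ∀ S, Rinf ≤ CS N q base S)
    (hint : ∀ S (P : Place Kb (Fb N)), IntegralAt A Rinf P → IntegralAt A (CS N q base S) P)
    {Q : Place k Ft} (hQ : ∀ e, Q ≠ z₂ (chartDataOf Cr Rfin Rinf hfin hinf) e)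
    (hi : IsValueAt Q ((Cr 1).res ⟨x⁻¹, hinf 1 H.inv_mem⟩) 0)
    (hQD : ∀ d : Dk, Q.adicValuation (algebraMap Dk Ft d) ≤ 1) (hdeg : Q.deg = 1) :
    SmoothChart A (Cr 1).O (Cr 1).res Q {P | H.r P = ⟨1, Q⟩} :=
  smoothChartOf_one_inf H L hnf hRC hint (CS_directed hb) (CS_frac hb) (CS_const hb) hQ hi hQD
    hdeg (t := (exists_param_one (L ∅) hQD).choose)
    (fun S => CS_mono hb (Finset.empty_subset S) (exists_param_one (L ∅) hQD).choose_spec.1)
    (exists_param_one (L ∅) hQD).choose_spec.2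
    (fun S Mo p hp hp1 hϖp => SmoothModel.horiz_level hb hq hA S Mo
      (constRed_res_eq_zero_iff (Cr 1)) (constRed_algebraMap_mem_nonunits (Cr 1)) p hp hp1 hϖp)

end Levels

/-! ### the case split: regular on the finite chart, or a zero of `1/x` -/

section Split

variable {N : ℕ} [NeZero N] {A : ValuationSubring Kb} {q : ℕ}
  {k Ft : Type*} [Field k] [Field Ft] [Algebra k Ft] {π : A →+* k}
  {Dkf : Type*} [CommRing Dkf] [IsDedekindDomain Dkf] [Algebra Dkf Ft] [IsFractionRing Dkf Ft]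
  [Algebra k Dkf] [IsScalarTower k Dkf Ft]
  {Dki : Type*} [CommRing Dki] [IsDedekindDomain Dki] [Algebra Dki Ft] [IsFractionRing Dki Ft]
  [Algebra k Dki] [IsScalarTower k Dki Ft]
  {Cr : Fin 2 → ConstRed (F := Fb N) (Ft := Ft) A π} {Rfin Rinf : Subring (Fb N)}
  {hfin : ∀ v, Rfin ≤ (Cr v).O.toSubring} {hinf : ∀ v, Rinf ≤ (Cr v).O.toSubring} {x : Fb N}
  (H : AtlasHyp (chartDataOf Cr Rfin Rinf hfin hinf) x)
  {basef basei : Finset Kb → Subring (Fb N)} (hbf : BaseFamily N A q basef)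
  (hbi : BaseFamily N A q basei) (hq : q.Prime) (hA : A.LiesOverPrime q)
  {P₀f P₁f : ∀ S, Ideal (CS N q basef S)} {red₀f red₁f : ∀ S, CS N q basef S →+* Dkf}
  {P₀i P₁i : ∀ S, Ideal (CS N q basei S)} {red₀i red₁i : ∀ S, CS N q basei S →+* Dki}
  (Lf : ∀ S, LevelHyp (chartDataOf Cr Rfin Rinf hfin hinf) (CS N q basef S) (unif A hq hA S)
    (P₀f S) (P₁f S) (red₀f S) (red₁f S))
  (Li : ∀ S, LevelHyp (chartDataOf Cr Rfin Rinf hfin hinf) (CS N q basei S) (unif A hq hA S)
    (P₀i S) (P₁i S) (red₀i S) (red₁i S))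

include H in
/-- the residues of `x` and `1/x` are inverse to each other -/
theorem res_mul_res_inv (v : Fin 2) :
    (Cr v).res ⟨x, hfin v H.x_mem⟩ * (Cr v).res ⟨x⁻¹, hinf v H.inv_mem⟩ = 1 := by
  rw [← map_mul, ← map_one (Cr v).res]
  congr 1
  exact Subtype.ext (mul_inv_cancel₀ H.x_ne)

/-- **`smooth₀` of `AtlasHyp.toInput` at every point which is not a crossing**, from the levels of
the finite chart and the levels of the chart at infinity. -/
def smooth_zero_levels (hnff : ¬ IsField Dkf) (hnfi : ¬ IsField Dki)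
    (hRCf : ∀ S, Rfin ≤ CS N q basef S) (hRCi : ∀ S, Rinf ≤ CS N q basei S)
    (hintf : ∀ S (P : Place Kb (Fb N)), IntegralAt A Rfin P → IntegralAt A (CS N q basef S) P)
    (hinti : ∀ S (P : Place Kb (Fb N)), IntegralAt A Rinf P → IntegralAt A (CS N q basei S) P)
    (hdeg : ∀ Q : Place k Ft, Q.deg = 1)
    (hQDf : ∀ Q : Place k Ft, (Cr 0).res ⟨x, hfin 0 H.x_mem⟩ ∈ Q.toValuationSubring →
      ∀ d : Dkf, Q.adicValuation (algebraMap Dkf Ft d) ≤ 1)
    (hQDi : ∀ Q : Place k Ft, Q.adicValuation ((Cr 0).res ⟨x⁻¹, hinf 0 H.inv_mem⟩) < 1 →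
      ∀ d : Dki, Q.adicValuation (algebraMap Dki Ft d) ≤ 1)
    (Q : Place k Ft) (hQ : ∀ e, Q ≠ z₁ (chartDataOf Cr Rfin Rinf hfin hinf) e) :
    SmoothChart A (Cr 0).O (Cr 0).res Q {P | H.r P = ⟨0, Q⟩} :=
  open Classical in
  if h : (Cr 0).res ⟨x, hfin 0 H.x_mem⟩ ∈ Q.toValuationSubring then
    smoothChart_zero_fin_levels H hbf hq hA Lf hnff hRCf hintf hQ
      (exists_isValueAt Q (hdeg Q) h).choose_spec (hQDf Q h) (hdeg Q)
  else
    smoothChart_zero_inf_levels H hbi hq hA Li hnfi hRCi hinti hQ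
      (isValueAt_zero_iff.mpr (adicValuation_lt_one_of_mul_eq_one (res_mul_res_inv H 0) h))
      (hQDi Q (adicValuation_lt_one_of_mul_eq_one (res_mul_res_inv H 0) h)) (hdeg Q)

/-- **`smooth₁` of `AtlasHyp.toInput` at every point which is not a crossing.** -/
def smooth_one_levels (hnff : ¬ IsField Dkf) (hnfi : ¬ IsField Dki)
    (hRCf : ∀ S, Rfin ≤ CS N q basef S) (hRCi : ∀ S, Rinf ≤ CS N q basei S)
    (hintf : ∀ S (P : Place Kb (Fb N)), IntegralAt A Rfin P → IntegralAt A (CS N q basef S) P)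
    (hinti : ∀ S (P : Place Kb (Fb N)), IntegralAt A Rinf P → IntegralAt A (CS N q basei S) P)
    (hdeg : ∀ Q : Place k Ft, Q.deg = 1)
    (hQDf : ∀ Q : Place k Ft, (Cr 1).res ⟨x, hfin 1 H.x_mem⟩ ∈ Q.toValuationSubring →
      ∀ d : Dkf, Q.adicValuation (algebraMap Dkf Ft d) ≤ 1)
    (hQDi : ∀ Q : Place k Ft, Q.adicValuation ((Cr 1).res ⟨x⁻¹, hinf 1 H.inv_mem⟩) < 1 →
      ∀ d : Dki, Q.adicValuation (algebraMap Dki Ft d) ≤ 1)
    (Q : Place k Ft) (hQ : ∀ e, Q ≠ z₂ (chartDataOf Cr Rfin Rinf hfin hinf) e) :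
    SmoothChart A (Cr 1).O (Cr 1).res Q {P | H.r P = ⟨1, Q⟩} :=
  open Classical in
  if h : (Cr 1).res ⟨x, hfin 1 H.x_mem⟩ ∈ Q.toValuationSubring then
    smoothChart_one_fin_levels H hbf hq hA Lf hnff hRCf hintf hQ
      (exists_isValueAt Q (hdeg Q) h).choose_spec (hQDf Q h) (hdeg Q)
  else
    smoothChart_one_inf_levels H hbi hq hA Li hnfi hRCi hinti hQ
      (isValueAt_zero_iff.mpr (adicValuation_lt_one_of_mul_eq_one (res_mul_res_inv H 1) h))
      (hQDi Q (adicValuation_lt_one_of_mul_eq_one (res_mul_res_inv H 1) h)) (hdeg Q)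

end Split

end Fermat.Agent.BR.S0.SmoothLevelsGlue
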