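import Mathlib
import Fermat.Agent.BR.SpecialFibre
import Fermat.Agent.BR.NodeThickness
import Fermat.Agent.X0.Alg.Dict

/-!
# Program B (BADRED), node B6.6-THICK: zeros of `T̄₁` are crossings of thickness dividing `m`

The two pointwise inputs `hzero`, `hord` of `S0.sandwich_lower_bound` (`BR/S0/Sandwich.lean`), in
abstract form: `B` the normal model (noetherian integrally closed domain) with
`SpecialFibre.TwoComponents q p1 p2`, `T T' = q ^ m` the modular unit (`T ∉ p1`, `T' ∉ p2`),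
`ρ : B →+* D` the reduction onto the Dedekind coordinate ring `D` of the first component
(`ker ρ = p1`), `Ft = Frac D`.

* `val_pow_eq` (local): in a local ring `O` with `NodeData`/`UnitData` and `u v = q ^ e ε`, for
  every ring homomorphism `ψ : O →+* Ft` killing `p1` and every discrete valuation on `Ft` which
  is `≤ 1` on `ψ O`, `< 1` on `ψ 𝔪` and has a uniformizer in `ψ 𝔪`: `val (ψ T) ^ e = exp (-m)`
  (from `NodeThickness.UnitData.associated_pow`: `T ^ e ∼ v ^ m`);
* `zero_imp_crossing` : a height-one prime `w` of `D` containing `ρ T` lies under a crossing point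
  (`p1 ⊔ p2 ≤ comap ρ w`);
* `exists_thickness` : at a crossing point `w` with transversal parameters, there are `e ≥ 1`, `k`
  with `e * k = m` and `w.valuation Ft (ρ T) = exp (-k)`;
* `ord_le`, `exists_crossing_of_ord_pos` : the same in the `Place` vocabulary
  (`Place.ofHeightOneSpectrum`): `ord_{z} T̄₁ ≤ m` at the crossings, and every zero of `T̄₁` among
  the places where `D` is regular is a crossing.
-/

set_option autoImplicit false
set_option linter.unusedSectionVars false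

namespace Fermat.Agent.BR.S0.Thick

open IsLocalRing WithZero IsDedekindDomain AlgebraicCurve Fermat.Agent.X0
  Fermat.Agent.BR.NodeLemma Fermat.Agent.BR.NodeThickness Fermat.Agent.BR.SpecialFibre

section LocalVal

variable {O : Type*} [CommRing O] [IsLocalRing O] [IsDomain O] {Ft : Type*} [Field Ft]
  {Ps : Set (Ideal O)} {q T u v : O} {p1 p2 : Ideal O} {m : ℕ}

/-- An element of `ℤᵐ⁰` between `exp (-1)` and `1` (excluded) is `exp (-1)`. -/
theorem eq_exp_neg_one_of_le_of_lt {y : ℤᵐ⁰} (h1 : exp (-1 : ℤ) ≤ y) (h2 : y < 1) :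
    y = exp (-1 : ℤ) := by
  have hy0 : y ≠ 0 := by
    rintro rfl
    exact absurd h1 (by simp)
  rw [← exp_log hy0] at h1 h2 ⊢
  rw [exp_le_exp] at h1
  rw [← exp_zero, exp_lt_exp] at h2
  congr 1
  omega

/-- **Exact thickness, valuation form.**  `T ^ e ∼ v ^ m` in `O`, pushed to a discrete valuation of
the residue function field of the first component. -/
theorem val_pow_eq (D : UnitData Ps q T p1 p2 m) (h : NodeData q u v p1 p2) {e : ℕ} {ε : O}
    (hε : IsUnit ε) (huv : u * v = q ^ e * ε) (ψ : O →+* Ft) (val : Valuation Ft ℤᵐ⁰)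
    (hle : ∀ o : O, val (ψ o) ≤ 1) (hlt : ∀ o ∈ maximalIdeal O, val (ψ o) < 1)
    (hunif : ∃ x ∈ maximalIdeal O, val (ψ x) = exp (-1 : ℤ)) (hker : ∀ p ∈ p1, ψ p = 0) :
    val (ψ T) ^ e = exp (-(m : ℤ)) := by
  obtain ⟨c, hc⟩ := D.associated_pow h hε huv
  -- units of `O` have valuation one
  have hcval : val (ψ (c : O)) = 1 := by
    apply le_antisymm (hle _)
    have h1 : val (ψ (c : O)) * val (ψ ((c⁻¹ : Oˣ) : O)) = 1 := by
      rw [← map_mul, ← map_mul, Units.mul_inv, map_one, map_one]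
    calc (1 : ℤᵐ⁰) = val (ψ (c : O)) * val (ψ ((c⁻¹ : Oˣ) : O)) := h1.symm
      _ ≤ val (ψ (c : O)) * 1 := mul_le_mul' le_rfl (hle _)
      _ = val (ψ (c : O)) := mul_one _
  -- `ψ v` is a uniformizer
  have hvval : val (ψ v) = exp (-1 : ℤ) := by
    apply eq_exp_neg_one_of_le_of_lt _ (hlt v (h.p2_le_maximalIdeal h.hv))
    obtain ⟨x, hx, hxval⟩ := hunif
    rw [h.max1] at hx
    obtain ⟨p, hp, w, hw, rfl⟩ := Submodule.mem_sup.mp hx
    obtain ⟨a, rfl⟩ := Ideal.mem_span_singleton'.mp hw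
    rw [map_add, hker p hp, zero_add, map_mul, map_mul] at hxval
    rw [← hxval]
    calc val (ψ a) * val (ψ v) ≤ 1 * val (ψ v) := mul_le_mul' (hle a) le_rfl
      _ = val (ψ v) := one_mul _
  have h2 : val (ψ T) ^ e * val (ψ (c : O)) = val (ψ v) ^ m := by
    rw [← map_pow, ← map_pow, ← map_pow, ← map_pow, ← map_mul, ← map_mul, hc]
  rw [hcval, mul_one, hvval, ← exp_nsmul] at h2
  rw [h2]
  congr 1
  simp

end LocalVal

section Global

variable {B : Type*} [CommRing B] {q : B} {p1 p2 : Ideal B}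
  {D : Type*} [CommRing D] [IsDedekindDomain D] {Ft : Type*} [Field Ft] [Algebra D Ft]
  [IsFractionRing D Ft] (ρ : B →+* D)

/-- The point of the first component under the height-one prime `w` of its coordinate ring. -/
abbrev pointOf (w : HeightOneSpectrum D) : Ideal B := w.asIdeal.comap ρ

theorem pointOf_isPrime (w : HeightOneSpectrum D) : (pointOf ρ w).IsPrime :=
  Ideal.comap_isPrime ρ w.asIdeal

theorem le_pointOf {ρ : B →+* D} (hker : RingHom.ker ρ = p1) (w : HeightOneSpectrum D) :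
    p1 ≤ pointOf ρ w := by
  intro x hx
  rw [← hker, RingHom.mem_ker] at hx
  show ρ x ∈ w.asIdeal
  rw [hx]
  exact w.asIdeal.zero_mem

theorem ne_pointOf {ρ : B →+* D} (hρ : Function.Surjective ρ) (hker : RingHom.ker ρ = p1)
    (w : HeightOneSpectrum D) : p1 ≠ pointOf ρ w := by
  intro heq
  obtain ⟨d, hd, hd0⟩ := Submodule.exists_mem_ne_zero_of_ne_bot w.ne_bot
  obtain ⟨b, rfl⟩ := hρ d
  have hb : b ∈ pointOf ρ w := hd
  rw [← heq, ← hker, RingHom.mem_ker] at hb
  exact hd0 hb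

variable [IsDomain B] [IsNoetherianRing B] [IsIntegrallyClosed B]

/-- **`hzero`, ideal form.**  A point of the first component where `T̄₁ = ρ T` vanishes is a
crossing point. -/
theorem zero_imp_crossing (h : TwoComponents q p1 p2) {ρ : B →+* D} (hker : RingHom.ker ρ = p1)
    (w : HeightOneSpectrum D) {T T' : B} {m : ℕ} (hTT' : T * T' = q ^ m) (hT1 : T ∉ p1)
    (hTw : ρ T ∈ w.asIdeal) : p1 ⊔ p2 ≤ pointOf ρ w := by
  have := pointOf_isPrime ρ w
  exact sup_le (le_pointOf hker w) (h.le_of_mem (pointOf ρ w) hTT' hT1 hTw)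

set_option maxHeartbeats 800000 in
/-- **`hord`, valuation form.**  At a crossing point `w` (with transversal parameters `u ∈ p1`,
`v ∈ p2`) the order `k` of vanishing of `T̄₁ = ρ T` satisfies `e * k = m` for some `e ≥ 1`
(the thickness of the node). -/
theorem exists_thickness (h : TwoComponents q p1 p2) {ρ : B →+* D} (hρ : Function.Surjective ρ)
    (hker : RingHom.ker ρ = p1) (w : HeightOneSpectrum D) (hp2 : p2 ≤ pointOf ρ w)
    {u v : B} (hu : u ∈ p1) (hv : v ∈ p2)
    (hv1 : ∀ x ∈ pointOf ρ w, ∃ s, s ∉ pointOf ρ w ∧ s * x ∈ p1 ⊔ Ideal.span {v})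
    (hu2 : ∀ x ∈ pointOf ρ w, ∃ s, s ∉ pointOf ρ w ∧ s * x ∈ p2 ⊔ Ideal.span {u})
    {T T' : B} {m : ℕ} (hm : m ≠ 0) (hTT' : T * T' = q ^ m) (hT1 : T ∉ p1) (hT2 : T' ∉ p2) :
    ∃ e k : ℕ, 1 ≤ e ∧ e * k = m ∧
      w.valuation Ft (algebraMap D Ft (ρ T)) = exp (-(k : ℤ)) := by
  classical
  set n : Ideal B := pointOf ρ w with hn
  have hnP : n.IsPrime := pointOf_isPrime ρ w
  have hp1 : p1 ≤ n := le_pointOf hker w
  have hp1n : p1 ≠ n := ne_pointOf hρ hker w
  have hT'1 : T' ∈ p1 := by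
    have hTT'' : T' * T = q ^ m := by rw [mul_comm]; exact hTT'
    exact h.symm.mem_p2_of_mul_eq hm hTT'' hT1
  have hp2n : p2 ≠ n := by
    intro heq
    exact hT2 (heq ▸ hp1 hT'1)
  let O := Localization.AtPrime n
  have hDom : IsDomain O :=
    IsLocalization.isDomain_of_le_nonZeroDivisors O n.primeCompl_le_nonZeroDivisors
  obtain ⟨e, u', v', ε, he1, -, hN, -, -, hε, huv⟩ :=
    h.exists_node n O hp1 hp2 hp1n hp2n hu hv hv1 hu2 hm hTT' hT1 hT2
  have hD := h.unitData n O hp1 hp2 hp1n hp2n hTT' hT1 hT2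
  -- the reduction `O → Ft`
  set g : B →+* Ft := (algebraMap D Ft).comp ρ with hg
  have hgval_le : ∀ b : B, w.valuation Ft (g b) ≤ 1 := fun b => w.valuation_le_one (ρ b)
  have hgval_lt : ∀ b : B, w.valuation Ft (g b) < 1 ↔ b ∈ n := fun b =>
    w.valuation_lt_one_iff_mem (ρ b)
  have hgval_one : ∀ b : B, b ∉ n → w.valuation Ft (g b) = 1 := fun b hb =>
    le_antisymm (hgval_le b) (not_lt.mp fun hlt => hb ((hgval_lt b).mp hlt))
  have hgunit : ∀ y : n.primeCompl, IsUnit (g y) := by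
    intro y
    have h1 : w.valuation Ft (g y) = 1 := hgval_one y y.2
    have h0 : g y ≠ 0 := by
      intro h0
      rw [h0, map_zero] at h1
      exact zero_ne_one h1
    exact isUnit_iff_ne_zero.mpr h0
  set ψ : O →+* Ft := IsLocalization.lift (M := n.primeCompl) (S := O) hgunit with hψ
  have hψι : ∀ b : B, ψ (algebraMap B O b) = g b := fun b => IsLocalization.lift_eq hgunit b
  have hψmk : ∀ (b : B) (s : n.primeCompl), w.valuation Ft (ψ (IsLocalization.mk' O b s)) =
      w.valuation Ft (g b) := by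
    intro b s
    have h1 : ψ (IsLocalization.mk' O b s) * g s = g b := by
      rw [← hψι s, ← map_mul, IsLocalization.mk'_spec]
      exact hψι b
    have h2 := congrArg (w.valuation Ft) h1
    rw [map_mul, hgval_one s s.2, mul_one] at h2
    exact h2
  have hle : ∀ o : O, w.valuation Ft (ψ o) ≤ 1 := by
    intro o
    obtain ⟨b, s, rfl⟩ := IsLocalization.exists_mk'_eq n.primeCompl o
    rw [hψmk]
    exact hgval_le b
  have hlt : ∀ o ∈ maximalIdeal O, w.valuation Ft (ψ o) < 1 := by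
    intro o ho
    obtain ⟨b, s, rfl⟩ := IsLocalization.exists_mk'_eq n.primeCompl o
    rw [hψmk, hgval_lt]
    exact (IsLocalization.AtPrime.mk'_mem_maximal_iff O n b s).mp ho
  have hunif : ∃ x ∈ maximalIdeal O, w.valuation Ft (ψ x) = exp (-1 : ℤ) := by
    obtain ⟨π, hπ⟩ := w.intValuation_exists_uniformizer
    obtain ⟨b, rfl⟩ := hρ π
    have hval : w.valuation Ft (g b) = exp (-1 : ℤ) := by
      rw [hg, RingHom.comp_apply, HeightOneSpectrum.valuation_of_algebraMap, hπ]
    have hbn : b ∈ n := by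
      rw [← hgval_lt, hval, ← exp_zero, exp_lt_exp]
      norm_num
    refine ⟨algebraMap B O b, ?_, by rw [hψι, hval]⟩
    exact (IsLocalization.AtPrime.to_map_mem_maximal_iff O n b).mpr hbn
  have hkerψ : ∀ p ∈ p1.map (algebraMap B O), ψ p = 0 := by
    have hle' : p1.map (algebraMap B O) ≤ RingHom.ker ψ := by
      rw [Ideal.map_le_iff_le_comap]
      intro b hb
      rw [Ideal.mem_comap, RingHom.mem_ker, hψι, hg, RingHom.comp_apply]
      rw [← hker, RingHom.mem_ker] at hb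
      rw [hb, map_zero]
    exact fun p hp => RingHom.mem_ker.mp (hle' hp)
  have hkey := val_pow_eq hD hN hε huv ψ (w.valuation Ft) hle hlt hunif hkerψ
  rw [hψι] at hkey
  -- extract `k`
  set y : ℤᵐ⁰ := w.valuation Ft (g T) with hy
  have hy0 : y ≠ 0 := by
    intro h0
    rw [h0, zero_pow (by omega)] at hkey
    exact exp_ne_zero hkey.symm
  have hy1 : y ≤ 1 := hgval_le T
  have hlog : log y ≤ 0 := by
    rw [← exp_le_exp, exp_log hy0, exp_zero]
    exact hy1
  have hmul : (e : ℤ) * log y = -(m : ℤ) := by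
    have h1 : exp ((e : ℕ) • log y) = exp (-(m : ℤ)) := by
      rw [exp_nsmul, exp_log hy0]
      exact hkey
    have h2 := exp_injective h1
    rw [nsmul_eq_mul] at h2
    exact h2
  refine ⟨e, (-log y).toNat, he1, ?_, ?_⟩
  · have h3 : ((-log y).toNat : ℤ) = -log y := Int.toNat_of_nonneg (by omega)
    have h4 : ((e * (-log y).toNat : ℕ) : ℤ) = (m : ℤ) := by
      push_cast
      rw [h3]
      linarith
    exact_mod_cast h4
  · have h3 : ((-log y).toNat : ℤ) = -log y := Int.toNat_of_nonneg (by omega)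
    show y = exp (-((-log y).toNat : ℤ))
    rw [h3, neg_neg, exp_log hy0]

/-! ### The `Place` vocabulary -/

variable {k : Type*} [Field k] [Algebra k D] [Algebra k Ft] [IsScalarTower k D Ft]

/-- **`hord`, place form, exact.**  At a crossing point the order of vanishing `k` of `T̄₁` at the
place of the first component satisfies `e * k = m`, `e ≥ 1`. -/
theorem exists_ord_eq (h : TwoComponents q p1 p2) {ρ : B →+* D} (hρ : Function.Surjective ρ)
    (hker : RingHom.ker ρ = p1) (w : HeightOneSpectrum D) (hp2 : p2 ≤ pointOf ρ w)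
    {u v : B} (hu : u ∈ p1) (hv : v ∈ p2)
    (hv1 : ∀ x ∈ pointOf ρ w, ∃ s, s ∉ pointOf ρ w ∧ s * x ∈ p1 ⊔ Ideal.span {v})
    (hu2 : ∀ x ∈ pointOf ρ w, ∃ s, s ∉ pointOf ρ w ∧ s * x ∈ p2 ⊔ Ideal.span {u})
    {T T' : B} {m : ℕ} (hm : m ≠ 0) (hTT' : T * T' = q ^ m) (hT1 : T ∉ p1) (hT2 : T' ∉ p2) :
    ∃ e j : ℕ, 1 ≤ e ∧ e * j = m ∧
      (Place.ofHeightOneSpectrum (K := k) (F := Ft) w).ord (algebraMap D Ft (ρ T)) = (j : ℤ) := by
  obtain ⟨e, j, he, hej, hval⟩ :=
    exists_thickness (Ft := Ft) h hρ hker w hp2 hu hv hv1 hu2 hm hTT' hT1 hT2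
  refine ⟨e, j, he, hej, ?_⟩
  rw [Place.ord_ofHeightOneSpectrum, hval, log_exp, neg_neg]

/-- **`hord`, place form.**  `ord_z T̄₁ ≤ m` at a crossing point `z`. -/
theorem ord_le (h : TwoComponents q p1 p2) {ρ : B →+* D} (hρ : Function.Surjective ρ)
    (hker : RingHom.ker ρ = p1) (w : HeightOneSpectrum D) (hp2 : p2 ≤ pointOf ρ w)
    {u v : B} (hu : u ∈ p1) (hv : v ∈ p2)
    (hv1 : ∀ x ∈ pointOf ρ w, ∃ s, s ∉ pointOf ρ w ∧ s * x ∈ p1 ⊔ Ideal.span {v})
    (hu2 : ∀ x ∈ pointOf ρ w, ∃ s, s ∉ pointOf ρ w ∧ s * x ∈ p2 ⊔ Ideal.span {u})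
    {T T' : B} {m : ℕ} (hm : m ≠ 0) (hTT' : T * T' = q ^ m) (hT1 : T ∉ p1) (hT2 : T' ∉ p2) :
    (Place.ofHeightOneSpectrum (K := k) (F := Ft) w).ord (algebraMap D Ft (ρ T)) ≤ (m : ℤ) := by
  obtain ⟨e, j, he, hej, hord⟩ :=
    exists_ord_eq (k := k) (Ft := Ft) h hρ hker w hp2 hu hv hv1 hu2 hm hTT' hT1 hT2
  rw [hord]
  have : j ≤ m := by
    rw [← hej]
    exact Nat.le_mul_of_pos_left j he
  exact_mod_cast this

/-- **`hzero`, place form.**  A zero `Q` of `T̄₁ = ρ T` at which the coordinate ring `D` is regular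
is the place of a crossing point. -/
theorem exists_crossing_of_ord_pos (h : TwoComponents q p1 p2) {ρ : B →+* D}
    (hker : RingHom.ker ρ = p1) {T T' : B} {m : ℕ} (hTT' : T * T' = q ^ m) (hT1 : T ∉ p1)
    (Q : Place k Ft) (hQ : ∀ d : D, algebraMap D Ft d ∈ Q.toValuationSubring)
    (hpos : 0 < Q.ord (algebraMap D Ft (ρ T))) :
    ∃ w : HeightOneSpectrum D, Place.ofHeightOneSpectrum (K := k) (F := Ft) w = Q ∧
      p1 ⊔ p2 ≤ pointOf ρ w := by
  obtain ⟨w, rfl⟩ := Place.exists_ofHeightOneSpectrum_eq Q hQ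
  refine ⟨w, rfl, zero_imp_crossing h hker w hTT' hT1 ?_⟩
  rw [Place.ord_ofHeightOneSpectrum] at hpos
  have hρT : ρ T ≠ 0 := by
    intro h0
    apply hT1
    rw [← hker, RingHom.mem_ker]
    exact h0
  have hval0 : w.valuation Ft (algebraMap D Ft (ρ T)) ≠ 0 := by
    rw [Valuation.ne_zero_iff]
    intro h0
    exact hρT (IsFractionRing.injective D Ft (by rw [h0, map_zero]))
  rw [← w.valuation_lt_one_iff_mem (K := Ft), ← exp_log hval0, ← exp_zero, exp_lt_exp]
  omega

end Global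

end Fermat.Agent.BR.S0.Thick
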