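import Mathlib
import Fermat.Agent.BR.S0.Thick
import Fermat.Agent.Red.Values

/-!
# Program B (BADRED), node B6.6-THICK, part 2: the glued pair of places at a crossing point

Abstract bridge from the ideal-theoretic crossings of `BR/S0/Thick.lean` (`p1 ⊔ p2 ≤ pointOf ρ₁ w`)
to the glued pairs of places of `BR/S0/PointDict.lean` (`GluedOn`: the two residues of every
function of the chart take the same value).

`B` a chart ring, `ρ₁ ρ₂ : B →+* D` its two reductions onto the Dedekind coordinate ring `D`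
(a `k`-algebra with fraction field `Ft`), `ker ρ₂ = p2`.

* `isValueAt_ofHeightOneSpectrum_iff` : `IsValueAt (Place.ofHeightOneSpectrum w) d c ↔
  d - c ∈ w` for `d : D`;
* `exists_glued` : a point `w` of the first component lying on the second component
  (`p2 ≤ pointOf ρ₁ w`) is glued to a point `w₂` of the second component, with the same point
  `pointOf ρ₂ w₂ = pointOf ρ₁ w` of the chart and the same values of all functions of the chart.
-/

set_option autoImplicit false
set_option linter.unusedSectionVars false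

namespace Fermat.Agent.BR.S0.Thick

open IsDedekindDomain AlgebraicCurve WithZero Fermat.Agent.X0 Fermat.Agent.Red

variable {B : Type*} [CommRing B] {p2 : Ideal B}
  {D : Type*} [CommRing D] [IsDedekindDomain D] {Ft : Type*} [Field Ft] [Algebra D Ft]
  [IsFractionRing D Ft] {k : Type*} [Field k] [Algebra k D] [Algebra k Ft] [IsScalarTower k D Ft]

/-- Values at the place of a height-one prime, for elements of the coordinate ring. -/
theorem isValueAt_ofHeightOneSpectrum_iff (w : HeightOneSpectrum D) (d : D) (c : k) :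
    IsValueAt (Place.ofHeightOneSpectrum (K := k) (F := Ft) w) (algebraMap D Ft d) c ↔
      d - algebraMap k D c ∈ w.asIdeal := by
  have hmap : algebraMap D Ft d - algebraMap k Ft c = algebraMap D Ft (d - algebraMap k D c) := by
    rw [map_sub, ← IsScalarTower.algebraMap_apply]
  set x : D := d - algebraMap k D c with hx
  have hiff : w.valuation Ft (algebraMap D Ft x) < 1 ↔ x ∈ w.asIdeal :=
    w.valuation_lt_one_iff_mem x
  rw [IsValueAt, adicValuation_lt_one_iff, hmap, Place.ord_ofHeightOneSpectrum, ← hiff]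
  constructor
  · rintro (h0 | hpos)
    · rw [h0, map_zero]
      exact zero_lt_one
    · by_cases hv0 : w.valuation Ft (algebraMap D Ft x) = 0
      · rw [hv0]
        exact zero_lt_one
      · rw [← exp_log hv0, ← exp_zero, exp_lt_exp]
        omega
  · intro hlt
    by_cases h0 : algebraMap D Ft x = 0
    · exact Or.inl h0
    · right
      have hv0 : w.valuation Ft (algebraMap D Ft x) ≠ 0 := (Valuation.ne_zero_iff _).mpr h0
      rw [← exp_log hv0, ← exp_zero, exp_lt_exp] at hlt
      omega

/-- **The glued pair at a crossing point.**  A point `w` of the first component lying on the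
second component is glued to a point `w₂` of the second component. -/
theorem exists_glued {ρ₁ ρ₂ : B →+* D} (hρ₂ : Function.Surjective ρ₂)
    (hker₂ : RingHom.ker ρ₂ = p2)
    (hconst : ∀ c : k, ∃ a : B, ρ₁ a = algebraMap k D c ∧ ρ₂ a = algebraMap k D c)
    (w : HeightOneSpectrum D) (hres : ∀ d : D, ∃ c : k, d - algebraMap k D c ∈ w.asIdeal)
    (hp2 : p2 ≤ pointOf ρ₁ w) (hne : ∃ x ∈ pointOf ρ₁ w, x ∉ p2) :
    ∃ w₂ : HeightOneSpectrum D, pointOf ρ₂ w₂ = pointOf ρ₁ w ∧
      ∀ y : B, ∃ c : k,
        IsValueAt (Place.ofHeightOneSpectrum (K := k) (F := Ft) w) (algebraMap D Ft (ρ₁ y)) c ∧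
        IsValueAt (Place.ofHeightOneSpectrum (K := k) (F := Ft) w₂) (algebraMap D Ft (ρ₂ y)) c := by
  set n : Ideal B := pointOf ρ₁ w with hn
  have hnP : n.IsPrime := pointOf_isPrime ρ₁ w
  have hkn : RingHom.ker ρ₂ ≤ n := hker₂ ▸ hp2
  have hcomap : (n.map ρ₂).comap ρ₂ = n := by
    rw [Ideal.comap_map_of_surjective ρ₂ hρ₂]
    exact sup_eq_left.mpr (by rw [← RingHom.ker_eq_comap_bot]; exact hkn)
  have hprime : (n.map ρ₂).IsPrime := Ideal.map_isPrime_of_surjective hρ₂ hkn
  have hbot : n.map ρ₂ ≠ ⊥ := by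
    obtain ⟨x, hxn, hx2⟩ := hne
    intro h0
    have : ρ₂ x ∈ n.map ρ₂ := Ideal.mem_map_of_mem ρ₂ hxn
    rw [h0, Ideal.mem_bot] at this
    exact hx2 (by rw [← hker₂, RingHom.mem_ker]; exact this)
  refine ⟨⟨n.map ρ₂, hprime, hbot⟩, hcomap, fun y => ?_⟩
  obtain ⟨c, hc⟩ := hres (ρ₁ y)
  obtain ⟨a, ha₁, ha₂⟩ := hconst c
  refine ⟨c, (isValueAt_ofHeightOneSpectrum_iff w _ c).mpr hc, ?_⟩
  rw [isValueAt_ofHeightOneSpectrum_iff]
  have hyn : y - a ∈ n := by
    show ρ₁ (y - a) ∈ w.asIdeal
    rw [map_sub, ha₁]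
    exact hc
  have : ρ₂ (y - a) ∈ n.map ρ₂ := Ideal.mem_map_of_mem ρ₂ hyn
  rw [map_sub, ha₂] at this
  exact this

end Fermat.Agent.BR.S0.Thick
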