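import Mathlib
import Fermat.Agent.BR.S0.PointDict
import Fermat.Agent.BR.S0.ThickGlue
import Fermat.Agent.BR.S0.RedModularInst
import Fermat.Agent.BR.Inst.DegenModel
import Fermat.Agent.BR.Inst.SpecialIsoDedekind

/-!
# Program B (BADRED), node B6.6: SEPARATION on the finite chart of `X₀(qM)` at `q`

The input `sep_f` of `PointDict.AtlasHyp (chartDataModular B hB hqM) x`: on each of the two
components `(O_v, res_v)` of the model of `X₀(qM)` at `q ∤ M`, the residues of the functions of the
finite chart `chartFin = ℤ_(q)[j]^~ ⊆ F̄_{Mq}` separate the places of `F̃_M`.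

* `place_eq_of_forall_isValueAt` : two places of `Ft = Frac D` (`D` Dedekind) at which all functions
  of `D` are regular with the same values are equal;
* `separates_of_span_of_forall`, `separates_of_span` : `PointDict.Separates` from a `k`-spanning
  set of `D`; `isValueAt_of_pow_char` (values of `p`-th roots);
* `isFractionRing_integralClosure_adjoin` : `Frac (K[x]^~) = F`;
* `mem_chartAlg_of_isIntegral_barEmb` (descent of integrality along `barEmb`),
  `algHom_mem_chartBar` (transfer of a `ℤ_(q)`-chart along a degeneracy map),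
  `alpha_barEmb_mem_chartFin`, `beta_barEmb_mem_chartFin` : `α, β` map the finite chart of level
  `M` into the finite chart of level `M q`;
* `isFractionRing_Ck`, `mem_span_redMF`;
* **`sep_fin`** `(v : Fin 2) : Separates chartFin (compW B hB hqM v).O (compW B hB hqM v).res
  (chartFin_le B hB hqM v)`.

Route: `C_k = k[j̃]^~ ⊆ F̃_M` is Dedekind with fraction field `F̃_M`; by the normality of the special
fibre of the finite chart of level `M` (`Good.Bridge.mem_span_fin`) every element of `C_k` is a
`k`-combination of residues `res_M (barEmb b)`, `b` in the finite `ℤ_(q)`-chart of level `M`, and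
`res_M (barEmb b) = res₁ (α (barEmb b)) = res₂ (β (barEmb b))` with `α (barEmb b)`,
`β (barEmb b) ∈ chartFin` (`j(qτ)` is integral over `ℤ[j]`).
-/

set_option autoImplicit false
set_option linter.unusedSectionVars false
set_option linter.style.haveILetI false

noncomputable section

namespace Fermat.Agent.BR.S0.SepModular

open IsDedekindDomain
open ModularCurve ModularCurve.IgusaScheme AlgebraicCurve IsLocalRing
open Fermat.Agent.X0 Fermat.Agent.Val Fermat.Agent.Red
open Fermat.Agent.BR.TwoVal Fermat.Agent.BR.TwoValInst Fermat.Agent.BR.TwoValQ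
open Fermat.Agent.BR.ResGen
open Fermat.Agent.BR.ConstRedTwo Fermat.Agent.BR.Inst Fermat.Agent.Good.Bridge
open Fermat.Agent.BR.Inst.SpecIso Fermat.Agent.BR.Inst.DegenModel
open Fermat.Agent.BR.S0.RedModular Fermat.Agent.BR.S0.PointDict

set_option synthInstance.maxHeartbeats 400000

/-! ### abstract part: separation from a spanning set of the Dedekind coordinate ring -/

section Abstract

variable {D : Type*} [CommRing D] [IsDedekindDomain D] {Ft : Type*} [Field Ft] [Algebra D Ft]
  [IsFractionRing D Ft] {k : Type*} [Field k] [Algebra k D] [Algebra k Ft] [IsScalarTower k D Ft]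

/-- Two places of `Ft` at which all functions of the Dedekind coordinate ring `D` are regular with
the same values are equal. -/
theorem place_eq_of_forall_isValueAt (Q Q' : Place k Ft)
    (h : ∀ d : D, ∃ c : k, IsValueAt Q (algebraMap D Ft d) c ∧
      IsValueAt Q' (algebraMap D Ft d) c) : Q = Q' := by
  obtain ⟨w, rfl⟩ := Place.exists_ofHeightOneSpectrum_eq (R := D) Q
    (fun d => (h d).choose_spec.1.mem)
  obtain ⟨w', rfl⟩ := Place.exists_ofHeightOneSpectrum_eq (R := D) Q'
    (fun d => (h d).choose_spec.2.mem)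
  have hle : w.asIdeal ≤ w'.asIdeal := by
    intro d hd
    obtain ⟨c, hc, hc'⟩ := h d
    have h0 : IsValueAt (Place.ofHeightOneSpectrum (K := k) (F := Ft) w) (algebraMap D Ft d) 0 := by
      rw [Thick.isValueAt_ofHeightOneSpectrum_iff, map_zero, sub_zero]
      exact hd
    have hc0 : c = 0 := hc.unique h0
    rw [hc0, Thick.isValueAt_ofHeightOneSpectrum_iff, map_zero, sub_zero] at hc'
    exact hc'
  have hmax : w.asIdeal.IsMaximal := w.isMaximal
  have heq : w.asIdeal = w'.asIdeal := hmax.eq_of_le w'.isPrime.ne_top hle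
  have : w = w' := HeightOneSpectrum.ext heq
  rw [this]

variable {F : Type*} [Field F]

/-- **Separation from a spanning set.**  `Z` a set of functions of `Ft` which take a common value
at two places as soon as all residues of the chart `R` do; if every function of the Dedekind
coordinate ring `D` of the component is a `k`-combination of elements of `Z`, the residues of `R`
separate the places. -/
theorem separates_of_span_of_forall (R : Subring F) (O : ValuationSubring F) (res : O →+* Ft)
    (hRO : R ≤ O.toSubring) (Z : Set Ft)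
    (hZ : ∀ Q Q' : Place k Ft,
      (∀ (y : F) (hy : y ∈ R), ∃ c : k, IsValueAt Q (res ⟨y, hRO hy⟩) c ∧
        IsValueAt Q' (res ⟨y, hRO hy⟩) c) →
      ∀ z ∈ Z, ∃ c : k, IsValueAt Q z c ∧ IsValueAt Q' z c)
    (hspan : ∀ d : D, algebraMap D Ft d ∈ Submodule.span k Z) :
    Separates (k := k) R O res hRO := by
  intro Q Q' hQ
  refine place_eq_of_forall_isValueAt (D := D) Q Q' fun d => ?_
  refine Submodule.span_induction
    (p := fun z _ => ∃ c : k, IsValueAt Q z c ∧ IsValueAt Q' z c) ?_ ?_ ?_ ?_ (hspan d)
  · exact fun z hz => hZ Q Q' hQ z hz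
  · exact ⟨0, isValueAt_zero Q, isValueAt_zero Q'⟩
  · rintro z₁ z₂ _ _ ⟨c₁, h₁, h₁'⟩ ⟨c₂, h₂, h₂'⟩
    exact ⟨c₁ + c₂, h₁.add h₂, h₁'.add h₂'⟩
  · rintro a z _ ⟨c, h₁, h₁'⟩
    exact ⟨a * c, h₁.smul a, h₁'.smul a⟩

/-- **Separation from a spanning set of residues.**  If every function of the Dedekind coordinate
ring `D` of the component is a `k`-combination of residues of functions of the chart `R`, the
residues of `R` separate the places. -/
theorem separates_of_span (R : Subring F) (O : ValuationSubring F) (res : O →+* Ft)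
    (hRO : R ≤ O.toSubring)
    (hspan : ∀ d : D, algebraMap D Ft d ∈
      Submodule.span k {z : Ft | ∃ (y : F) (hy : y ∈ R), res ⟨y, hRO hy⟩ = z}) :
    Separates (k := k) R O res hRO := by
  refine separates_of_span_of_forall (D := D) R O res hRO _ ?_ hspan
  rintro Q Q' hQ z ⟨y, hy, rfl⟩
  exact hQ y hy

/-- In characteristic `p` (perfect constant field), a function whose `p`-th power takes the value
`c` at a place takes the value `c^{1/p}`. -/
theorem isValueAt_of_pow_char (p : ℕ) [hp : Fact p.Prime] [CharP k p] [PerfectRing k p]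
    (Q : Place k Ft) {z : Ft} {c : k} (h : IsValueAt Q (z ^ p) c) :
    IsValueAt Q z ((frobeniusEquiv k p).symm c) := by
  haveI : CharP Ft p := charP_of_injective_algebraMap (algebraMap k Ft).injective p
  set c' : k := (frobeniusEquiv k p).symm c with hc'
  have hcc : c' ^ p = c := by
    rw [hc', ← frobenius_def, frobenius_apply_frobeniusEquiv_symm]
  have e : z ^ p - algebraMap k Ft c = (z - algebraMap k Ft c') ^ p := by
    rw [sub_pow_char, ← map_pow, hcc]
  rw [IsValueAt, e, map_pow] at h
  exact (pow_lt_one_iff_of_nonneg zero_le hp.out.ne_zero).mp h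

end Abstract

section FractionRing

open IntermediateField

open scoped algebraAdjoinAdjoin in
/-- The integral closure of `K[x]` in a finite extension `F` of `K(x)` has fraction field `F`. -/
theorem isFractionRing_integralClosure_adjoin {K F : Type*} [Field K] [Field F] [Algebra K F]
    {x : F} [FiniteDimensional K⟮x⟯ F] :
    IsFractionRing ↥(integralClosure ↥(Algebra.adjoin K {x}) F) F := by
  haveI : IsScalarTower ↥(Algebra.adjoin K {x}) ↥K⟮x⟯ F :=
    IsScalarTower.of_algebraMap_eq (fun _ => rfl)
  exact integralClosure.isFractionRing_of_finite_extension ↥K⟮x⟯ F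

end FractionRing

/-! ### transfer of the `ℤ_(q)`-charts along the degeneracy maps -/

section Descent

variable (N : ℕ) [NeZero N] (ℓ : ℕ) [hℓ : Fact ℓ.Prime]

/-- **Descent of integrality along `barEmb`.**  An element of `F_N` whose image in `F̄_N` is
integral over the image of `ℤ_(ℓ)[S]` lies in the chart `chartAlg N ℓ S`. -/
theorem mem_chartAlg_of_isIntegral_barEmb {S : Set ↥(modularFunctionFieldFull N)}
    {z : ↥(modularFunctionFieldFull N)} (hz : IsIntegral ↥(adjoinBar N ℓ S) (barEmb N z)) :
    z ∈ chartAlg N ℓ S := by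
  rw [mem_chartAlg_iff]
  obtain ⟨p, hp, hroot⟩ := hz
  -- the bijection `ℤ_(ℓ)[S] → adjoinBar`
  let φ : ↥(Algebra.adjoin ↥(GaloisRep.ratLocalizedAt ℓ) S) →+* ↥(adjoinBar N ℓ S) :=
    ((barEmb N).comp (Algebra.adjoin ↥(GaloisRep.ratLocalizedAt ℓ) S).toSubring.subtype).codRestrict
      (adjoinBar N ℓ S) (fun y => Subring.mem_map.mpr ⟨y, y.2, rfl⟩)
  have hφsurj : Function.Surjective φ := by
    rintro ⟨y, hy⟩
    obtain ⟨x, hx, rfl⟩ := Subring.mem_map.mp hy
    exact ⟨⟨x, hx⟩, rfl⟩
  obtain ⟨p', hp'map, _, hp'monic⟩ :=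
    Polynomial.lifts_and_natDegree_eq_and_monic
      ((Polynomial.mem_lifts p).mpr
        (Polynomial.map_surjective φ hφsurj p)) hp
  refine ⟨p', hp'monic, ?_⟩
  apply barEmb_injective N
  rw [map_zero, Polynomial.hom_eval₂]
  have hcomp : (barEmb N).comp (algebraMap ↥(Algebra.adjoin ↥(GaloisRep.ratLocalizedAt ℓ) S)
      ↥(modularFunctionFieldFull N)) = (algebraMap ↥(adjoinBar N ℓ S) (Fb N)).comp φ := by
    ext y
    rfl
  rw [hcomp, ← Polynomial.eval₂_map, hp'map]
  exact hroot

end Descent

section Transfer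

variable (M q : ℕ) [NeZero M] [hq : Fact q.Prime]

set_option maxHeartbeats 400000 in
/-- **Transfer of a chart along a degeneracy map.**  A `ℚ̄`-algebra map `φ : F̄_M → F̄_{Mq}` which
maps rational `q`-expansions to rational `q`-expansions and the generators `S` to elements
integral over `ℤ_(q)[S']` maps the chart of `S` of level `M` into the chart of `S'` of level
`M q`. -/
theorem algHom_mem_chartBar (φ : Fb M →ₐ[Kb] Fb (M * q))
    (S : Set ↥(modularFunctionFieldFull M)) (S' : Set ↥(modularFunctionFieldFull (M * q)))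
    (hS : ∀ s ∈ S, IsIntegral ↥(adjoinBar (M * q) q S') (φ (barEmb M s)))
    (hφ : ∀ y : ↥(modularFunctionFieldFull M),
      ∃ z : ↥(modularFunctionFieldFull (M * q)), φ (barEmb M y) = barEmb (M * q) z)
    {b : ↥(modularFunctionFieldFull M)} (hb : b ∈ chartAlg M q S) :
    φ (barEmb M b) ∈ Inst.chartBar (M * q) q S' := by
  rw [mem_chartAlg_iff] at hb
  set R₂ : Subring (Fb (M * q)) := adjoinBar (M * q) q S' with hR₂
  let I : Subalgebra ↥R₂ (Fb (M * q)) := integralClosure ↥R₂ (Fb (M * q))
  let ψ : ↥(modularFunctionFieldFull M) →+* Fb (M * q) :=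
    ((φ : Fb M →ₐ[Kb] Fb (M * q)) : Fb M →+* Fb (M * q)).comp (barEmb M)
  have hmem : ∀ y ∈ Algebra.adjoin ↥(GaloisRep.ratLocalizedAt q) S, ψ y ∈ I.toSubring := by
    intro y hy
    induction hy using Algebra.adjoin_induction with
    | mem s hs => exact hS s hs
    | algebraMap r =>
      have e : ψ (algebraMap ↥(GaloisRep.ratLocalizedAt q) ↥(modularFunctionFieldFull M) r) =
          barEmb (M * q) (algebraMap ↥(GaloisRep.ratLocalizedAt q)
            ↥(modularFunctionFieldFull (M * q)) r) := by
        show φ (barEmb M (algebraMap ↥(GaloisRep.ratLocalizedAt q)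
          ↥(modularFunctionFieldFull M) r)) = _
        rw [barEmb_algebraMap_zl M r, barEmb_algebraMap_zl (M * q) r]
        exact φ.commutes _
      rw [e]
      exact isIntegral_of_mem R₂ (Subring.mem_map.mpr
        ⟨_, Subalgebra.algebraMap_mem _ r, rfl⟩)
    | add y z _ _ hy hz => rw [map_add]; exact I.toSubring.add_mem hy hz
    | mul y z _ _ hy hz => rw [map_mul]; exact I.toSubring.mul_mem hy hz
  let f : ↥(Algebra.adjoin ↥(GaloisRep.ratLocalizedAt q) S) →+* ↥I :=
    ψ.restrict (Algebra.adjoin ↥(GaloisRep.ratLocalizedAt q) S) I.toSubring hmem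
  have h1 : IsIntegral ↥I (ψ b) := hb.map_of_comp_eq f ψ (by ext y; rfl)
  have h2 : IsIntegral ↥R₂ (ψ b) := isIntegral_trans (R := ↥R₂) (A := ↥I) _ h1
  obtain ⟨z, hz⟩ := hφ b
  have h3 : ψ b = barEmb (M * q) z := hz
  rw [h3] at h2
  show φ (barEmb M b) ∈ _
  rw [hz]
  exact barEmb_mem_chartBar (mem_chartAlg_of_isIntegral_barEmb (M * q) q h2)

end Transfer

/-! ### the finite chart of `X₀(qM)` -/

section Modular

variable {M q : ℕ} [NeZero M] [hqF : Fact q.Prime]
variable (B : ValuationSubring Kb) (hB : B.LiesOverPrime q) (hqM : ¬ q ∣ M)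

local notation "kB" => IsLocalRing.ResidueField B
local notation "FtM" => modularFunctionFieldFullC (IsLocalRing.ResidueField B) M

/-- `α` maps the finite `ℤ_(q)`-chart of level `M` into the finite chart of level `M q`. -/
theorem alpha_barEmb_mem_chartFin {b : ↥(modularFunctionFieldFull M)}
    (hb : b ∈ chartAlgFin M q) :
    heckeAlphaBar Kb M q (barEmb M b) ∈ chartFin (M := M) (q := q) := by
  haveI : NeZero q := ⟨hqF.out.ne_zero⟩
  refine algHom_mem_chartBar M q (heckeAlphaBar Kb M q) {jFull M} {jFull (M * q)} ?_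
    (fun y => ?_) hb
  · intro s hs
    rw [Set.mem_singleton_iff] at hs
    subst hs
    rw [barEmb_jFull, alpha_jBar]
    exact isIntegral_of_mem _ (Subring.mem_map.mpr
      ⟨jFull (M * q), Algebra.subset_adjoin rfl, rfl⟩)
  · exact ⟨_, alpha_barEmb M q y⟩

/-- `β` maps the finite `ℤ_(q)`-chart of level `M` into the finite chart of level `M q`
(`j(qτ)` is integral over `ℤ[j]`). -/
theorem beta_barEmb_mem_chartFin {b : ↥(modularFunctionFieldFull M)}
    (hb : b ∈ chartAlgFin M q) :
    heckeBetaBar Kb M q (barEmb M b) ∈ chartFin (M := M) (q := q) := by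
  haveI : NeZero q := ⟨hqF.out.ne_zero⟩
  refine algHom_mem_chartBar M q (heckeBetaBar Kb M q) {jFull M} {jFull (M * q)} ?_
    (fun y => ?_) hb
  · intro s hs
    rw [Set.mem_singleton_iff] at hs
    subst hs
    rw [barEmb_jFull, beta_jBar]
    exact isIntegral_jBarD_prime (M * q) q hqF.out (dvd_mul_left q M) _
      (Subring.mem_map.mpr ⟨jFull (M * q), Algebra.subset_adjoin rfl, rfl⟩)
  · exact ⟨_, beta_barEmb M q y⟩

include hB hqM in
/-- the instance data of `C_k` needed by `separates_of_span` -/
theorem isFractionRing_Ck : IsFractionRing ↥(Ck M B) ↥FtM := by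
  have hsep := Val.isSepVarS_jFullC_residueField M hqM B hB
  haveI := hsep.finite
  exact isFractionRing_integralClosure_adjoin

/-- every element of `C_k` is a `k`-combination of residues `res_M (barEmb b)`, `b` in the finite
chart of level `M` -/
theorem mem_span_redMF (d : ↥(Ck M B)) :
    (d : ↥FtM) ∈ Submodule.span kB
      {z : ↥FtM | ∃ (b : ↥(modularFunctionFieldFull M)) (_ : b ∈ chartAlgFin M q)
        (hO : barEmb M b ∈ OM M B hB), redMF B hB hqM ⟨barEmb M b, hO⟩ = z} := by
  haveI : CharP kB q := Val.charP_residueField_of_liesOverPrime B hB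
  haveI : IsAlgClosed kB := Val.residueField_isAlgClosed B
  letI : Algebra ↥(GaloisRep.ratLocalizedAt q) kB := Fermat.Agent.Good.ResAlg.zlAlgebra B hB
  have hnorm := Fermat.Agent.Good.isIntegrallyClosed_tensor_fin_all M q hqM kB
  have hspan := mem_span_fin M hqM B hB hnorm (d : ↥FtM) d.2
  refine Submodule.span_mono ?_ hspan
  rintro _ ⟨_, ⟨b, hb, rfl⟩, rfl⟩
  have hO : barEmb M b ∈ (constRedBar M hqM B hB).O :=
    barEmb_mem_O M hqM B hB (Fermat.Agent.Igusa.hSFin M q) ⟨b, hb⟩
  exact ⟨b, hb, hO, ((constRedBar M hqM B hB).resF_of_mem hO).symm⟩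

set_option maxHeartbeats 800000 in
/-- **Separation on the finite chart**: the residues of the functions of the finite chart
`ℤ_(q)[j]^~ ⊆ F̄_{Mq}` on each of the two components separate the places of `F̃_M` (regular on
the chart). -/
theorem sep_fin (v : Fin 2) :
    Separates (k := kB) (chartFin (M := M) (q := q)) (compW B hB hqM v).O (compW B hB hqM v).res
      (chartFin_le B hB hqM v) := by
  haveI : NeZero q := ⟨hqF.out.ne_zero⟩
  haveI := isDedekindDomain_Ck B hB hqM
  haveI := isFractionRing_Ck B hB hqM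
  refine separates_of_span (D := ↥(Ck M B)) _ _ _ _ fun d => ?_
  refine Submodule.span_mono ?_ (mem_span_redMF B hB hqM d)
  rintro z ⟨b, hb, hO, rfl⟩
  fin_cases v
  · refine ⟨heckeAlphaBar Kb M q (barEmb M b), alpha_barEmb_mem_chartFin hb, ?_⟩
    rw [← red1F_alpha B hB hqM (barEmb M b) hO]
    rfl
  · refine ⟨heckeBetaBar Kb M q (barEmb M b), beta_barEmb_mem_chartFin hb, ?_⟩
    rw [← red2F_beta B hB hqM (barEmb M b) hO]
    rfl

end Modular

end Fermat.Agent.BR.S0.SepModular
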