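import Fermat.Agent.BR.S0.RedHypLevels
import Fermat.Agent.BR.S0.SepModular
import Fermat.Agent.BR.Inst.LevelsInst
import Fermat.Agent.BR.Inst.Inf.LevelsInstInf
import Fermat.Agent.BR.Inst.SpecialIsoFrac

/-!
# Program B (BADRED), node B6.6 (c): the geometric inputs of the atlas of `X₀(qM)` at `q`

* `levelHyp_fin`, `levelHyp_inf` : helper24's `SmoothAssembly.LevelHyp (chartDataModular B hB hqM)`
  for the canonical models `CQ M q W K'` (finite chart) and `CinfQ M q W K'` (chart at infinity) at
  ANY level satisfying helper4's `LevelsInst.LevelHyp B hB hqM K' W π'` (e.g. every level of the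
  tower: `LevelsInst.levelHyp_tower`), with `Dk := C_k` resp. `C_k^∞`;
* `total_f_modular'`, `total_i_modular'` : totality of the reduction, UNCONDITIONAL (base level
  `S = ∅` of the tower);
* **`geomInputs_modular B hB hqM sep_i : RedHyp.GeomInputs B hB hqM`** : the geometric inputs from
  the separation on the chart at infinity alone (`sep_f` = helper20's `SepModular.sep_fin`,
  `no_cross_inf` = helper11's `NoCrossAtlas`); `atlasHyp_modular'`.
-/

set_option autoImplicit false
set_option linter.unusedSectionVars false
set_option linter.style.haveILetI false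

noncomputable section

namespace Fermat.Agent.BR.S0.GeomModular

open ModularCurve ModularCurve.IgusaScheme AlgebraicCurve IsLocalRing
open Fermat.Agent.X0 Fermat.Agent.Val Fermat.Agent.Red Fermat.Agent.BR.Centre
open Fermat.Agent.BR.TwoVal Fermat.Agent.BR.TwoValInst
open Fermat.Agent.BR.ConstRedTwo Fermat.Agent.BR.Inst Fermat.Agent.Good.Bridge
open Fermat.Agent.BR.S0.RedModular Fermat.Agent.BR.S0.PointDict Fermat.Agent.BR.S0.RedHyp
open Fermat.Agent.BR.S0.SmoothAssembly
open Fermat.Agent.BR.Inst.SpecIso Fermat.Agent.BR.Inst.SpecIsoInf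
open Fermat.Agent.BR.Inst.LevelsInst Fermat.Agent.BR.Inst.Inf.LevelsInstInf

section Modular

set_option synthInstance.maxHeartbeats 400000

variable {M q : ℕ} [NeZero M] [hqF : Fact q.Prime]
variable {B : ValuationSubring Kb} {hB : B.LiesOverPrime q} {hqM : ¬ q ∣ M}
variable {K' : Subfield Kb} {W : Subring Kb} {π' : Kb}

set_option maxHeartbeats 1600000 in
/-- **The bridge for the finite chart**: helper24's per-level hypotheses for the canonical model
`CQ M q W K'` at a level satisfying helper4's `LevelsInst.LevelHyp`. -/
theorem levelHyp_fin [IsDedekindDomain ↥(Ck M B)]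
    [IsFractionRing ↥(Ck M B) ↥(modularFunctionFieldFullC (IsLocalRing.ResidueField B) M)]
    (H : LevelsInst.LevelHyp B hB hqM K' W π') :
    SmoothAssembly.LevelHyp (Dk := ↥(Ck M B)) (chartDataModular B hB hqM) (CQ M q W K') π'
      H.P1 H.P2 H.red1 H.red2 where
  noeth := H.isNoetherianRing
  intClosed := H.isIntegrallyClosed
  hCO v := by
    fin_cases v
    · exact fun x hx => H.le_O1 x hx
    · exact fun x hx => H.le_O2 x hx
  unif_ne := H.hπ0
  unif_lt := H.hπ1
  unif_mem := H.piC.2
  twoComp := H.twoComponents
  hred₀ _ := Subtype.ext rfl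
  hred₁ _ := Subtype.ext rfl
  surj₀ := H.red1_surjective
  surj₁ := H.red2_surjective
  mem_P₀ x := (H.red1_eq_zero_iff x).symm
  mem_P₁ x := (H.red2_eq_zero_iff x).symm
  fullRes := H.fullRes

set_option maxHeartbeats 1600000 in
/-- **The bridge for the chart at infinity**: helper24's per-level hypotheses for the canonical
model at infinity `CinfQ M q W K'`. -/
theorem levelHyp_inf [IsDedekindDomain ↥(CkInf M B)]
    [IsFractionRing ↥(CkInf M B) ↥(modularFunctionFieldFullC (IsLocalRing.ResidueField B) M)]
    (H : LevelsInst.LevelHyp B hB hqM K' W π') :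
    SmoothAssembly.LevelHyp (Dk := ↥(CkInf M B)) (chartDataModular B hB hqM) (CinfQ M q W K') π'
      H.P1inf H.P2inf H.red1inf H.red2inf where
  noeth := H.isNoetherianRing_inf
  intClosed := H.isIntegrallyClosed_inf
  hCO v := by
    fin_cases v
    · exact fun x hx => H.le_O1_inf x hx
    · exact fun x hx => H.le_O2_inf x hx
  unif_ne := H.hπ0
  unif_lt := H.hπ1
  unif_mem := H.pi_mem_CinfQ
  twoComp := H.twoComponents_inf
  hred₀ _ := Subtype.ext rfl
  hred₁ _ := Subtype.ext rfl
  surj₀ := H.red1inf_surjective
  surj₁ := H.red2inf_surjective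
  mem_P₀ x := (H.red1inf_eq_zero_iff x).symm
  mem_P₁ x := (H.red2inf_eq_zero_iff x).symm
  fullRes := H.fullRes_inf

variable (B hB hqM)

open Fermat.Agent.BR.Inst.Levels in
set_option maxHeartbeats 1600000 in
/-- **`total_f`, unconditional**: every place integral on the finite chart has a reduction
there (base level of the tower). -/
theorem total_f_modular' (P : Place Kb (Fb (M * q)))
    (hP : IntegralAt B (chartFin (M := M) (q := q)) P) :
    ∃ (i : Fin 2) (Q : Place (IsLocalRing.ResidueField B)
        ↥(modularFunctionFieldFullC (IsLocalRing.ResidueField B) M)),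
      IsRedOf B (IsLocalRing.residue B) chartFin
        (compW B hB hqM i).O (compW B hB hqM i).res (chartFin_le B hB hqM i) P Q := by
  haveI := isDedekindDomain_Ck B hB hqM
  haveI := isFractionRing_Ck B hB hqM
  have H := levelHyp_tower B hB hqM ∅
  exact total_f_modular B hB hqM (levelHyp_fin H) (not_isField_Ck B hB hqM) H.chartBarFin_le_CQ
    (model_isIntegral_AJ B H.hWA (isModel_CQ M q _ _)) P hP

open Fermat.Agent.BR.Inst.Levels in
set_option maxHeartbeats 1600000 in
/-- **`total_i`, unconditional**: every place which is not integral on the finite chart has a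
reduction on the chart at infinity (base level of the tower). -/
theorem total_i_modular' (P : Place Kb (Fb (M * q)))
    (hP : ¬ IntegralAt B (chartFin (M := M) (q := q)) P) :
    ∃ (i : Fin 2) (Q : Place (IsLocalRing.ResidueField B)
        ↥(modularFunctionFieldFullC (IsLocalRing.ResidueField B) M)),
      IsRedOf B (IsLocalRing.residue B) chartInf
        (compW B hB hqM i).O (compW B hB hqM i).res (chartInf_le B hB hqM i) P Q := by
  haveI := isDedekindDomain_CkInf B hB hqM
  haveI := isFractionRing_CkInf B hB hqM
  have H := levelHyp_tower B hB hqM ∅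
  exact total_i_modular B hB hqM (levelHyp_inf H) (not_isField_CkInf B hB hqM)
    H.chartBarInf_le_CinfQ H.isIntegral_AJinf P hP

/-- **The geometric inputs of the atlas of `X₀(qM)` at `q`** from the separation on the chart at
infinity alone. -/
theorem geomInputs_modular
    (sep_i : ∀ i, Separates (k := IsLocalRing.ResidueField B) (chartInf (M := M) (q := q))
      (compW B hB hqM i).O (compW B hB hqM i).res (chartInf_le B hB hqM i)) :
    GeomInputs B hB hqM :=
  Inf.NoCrossAtlas.geomInputs_of B hB hqM (SepModular.sep_fin B hB hqM) sep_i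
    (total_f_modular' B hB hqM) (total_i_modular' B hB hqM)

/-- **The atlas hypotheses of `X₀(qM)` at `q`** from the separation on the chart at infinity. -/
theorem atlasHyp_modular'
    (sep_i : ∀ i, Separates (k := IsLocalRing.ResidueField B) (chartInf (M := M) (q := q))
      (compW B hB hqM i).O (compW B hB hqM i).res (chartInf_le B hB hqM i)) :
    AtlasHyp (chartDataModular B hB hqM) (jx M q) :=
  atlasHyp_modular B hB hqM (geomInputs_modular B hB hqM sep_i)

end Modular

end Fermat.Agent.BR.S0.GeomModular
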