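import Mathlib
import Fermat.Agent.BR.S0.SepModular
import Fermat.Agent.BR.Inst.Inf.SpecialIsoInf
import Fermat.Agent.ES.LaurentFrob

/-!
# Program B (BADRED), node B6.6: SEPARATION on the chart at infinity of `X₀(qM)` at `q`

The input `sep_i` of `PointDict.AtlasHyp (chartDataModular B hB hqM) x`: on each of the two
components `(O_v, res_v)` of the model of `X₀(qM)` at `q ∤ M`, the residues of the functions of the
chart at infinity `chartInf = ℤ_(q)[1/j]^~ ⊆ F̄_{Mq}` separate the places of `F̃_M`.

* `alpha_barEmb_mem_chartInf` : `α` maps the chart at infinity of level `M` into the chart at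
  infinity of level `M q`;
* `isFractionRing_CkInf`, `mem_span_redMF_inf` (from `Good.Bridge.mem_span_inf` and the normality of
  the special fibre of the chart at infinity, `Good.isIntegrallyClosed_tensor_inf_all`);
* `res2_alpha_barEmb` : `res₂ (α g) = (res_M g)^q` for `g` rational in a `ℤ_(q)`-chart;
* **`sep_inf`** `(v : Fin 2) : Separates chartInf (compW B hB hqM v).O (compW B hB hqM v).res
  (chartInf_le B hB hqM v)`.

Route: `C_k^∞ = k[1/j̃]^~ ⊆ F̃_M` (helper6's `SpecIsoInf.CkInf`) is Dedekind with fraction field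
`F̃_M`, spanned over `k` by the residues `res_M (barEmb b)`, `b` in the `ℤ_(q)`-chart at infinity
of level `M`; `α (barEmb b) ∈ chartInf` and `res₁ (α g) = res_M g`, `res₂ (α g) = (res_M g)^q`;
common values of `z^q` at two places give common values of `z` (`isValueAt_of_pow_char`).
No `β`, no modular equation at infinity.
-/

set_option autoImplicit false
set_option linter.unusedSectionVars false
set_option linter.style.haveILetI false

noncomputable section

namespace Fermat.Agent.BR.S0.SepModular

open IsDedekindDomain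
open ModularCurve ModularCurve.IgusaScheme AlgebraicCurve IsLocalRing
open Fermat.Agent.X0 Fermat.Agent.Val Fermat.Agent.Red
open Fermat.Agent.BR.TwoVal Fermat.Agent.BR.TwoValInst Fermat.Agent.BR.TwoValQ
open Fermat.Agent.BR.ResGen
open Fermat.Agent.BR.ConstRedTwo Fermat.Agent.BR.Inst Fermat.Agent.Good.Bridge
open Fermat.Agent.BR.Inst.SpecIso Fermat.Agent.BR.Inst.SpecIsoInf Fermat.Agent.BR.Inst.DegenModel
open Fermat.Agent.BR.S0.RedModular Fermat.Agent.BR.S0.PointDict Fermat.Agent.Igusa

set_option synthInstance.maxHeartbeats 400000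

section Modular

variable {M q : ℕ} [NeZero M] [hqF : Fact q.Prime]
variable (B : ValuationSubring Kb) (hB : B.LiesOverPrime q) (hqM : ¬ q ∣ M)

local notation "kB" => IsLocalRing.ResidueField B
local notation "FtM" => modularFunctionFieldFullC (IsLocalRing.ResidueField B) M

/-- `α` maps the `ℤ_(q)`-chart at infinity of level `M` into the chart at infinity of level
`M q`. -/
theorem alpha_barEmb_mem_chartInf {b : ↥(modularFunctionFieldFull M)}
    (hb : b ∈ chartAlgInf M q) :
    heckeAlphaBar Kb M q (barEmb M b) ∈ chartInf (M := M) (q := q) := by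
  haveI : NeZero q := ⟨hqF.out.ne_zero⟩
  refine algHom_mem_chartBar M q (heckeAlphaBar Kb M q) {(jFull M)⁻¹} {(jFull (M * q))⁻¹} ?_
    (fun y => ?_) hb
  · intro s hs
    rw [Set.mem_singleton_iff] at hs
    subst hs
    rw [map_inv₀, barEmb_jFull, map_inv₀, alpha_jBar, ← barEmb_jFull, ← map_inv₀]
    exact isIntegral_of_mem _ (Subring.mem_map.mpr
      ⟨(jFull (M * q))⁻¹, Algebra.subset_adjoin rfl, rfl⟩)
  · exact ⟨_, alpha_barEmb M q y⟩

include hB hqM in
theorem isFractionRing_CkInf : IsFractionRing ↥(CkInf M B) ↥FtM := by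
  have hsep := (Val.isSepVarS_jFullC_residueField M hqM B hB).inv
  haveI := hsep.finite
  exact isFractionRing_integralClosure_adjoin

/-- every element of `C_k^∞` is a `k`-combination of residues `res_M (barEmb b)`, `b` in the
`ℤ_(q)`-chart at infinity of level `M` -/
theorem mem_span_redMF_inf (d : ↥(CkInf M B)) :
    (d : ↥FtM) ∈ Submodule.span kB
      {z : ↥FtM | ∃ (b : ↥(modularFunctionFieldFull M)) (_ : b ∈ chartAlgInf M q)
        (hO : barEmb M b ∈ OM M B hB), redMF B hB hqM ⟨barEmb M b, hO⟩ = z} := by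
  haveI : CharP kB q := Val.charP_residueField_of_liesOverPrime B hB
  haveI : IsAlgClosed kB := Val.residueField_isAlgClosed B
  letI : Algebra ↥(GaloisRep.ratLocalizedAt q) kB := Fermat.Agent.Good.ResAlg.zlAlgebra B hB
  have hnorm := Fermat.Agent.Good.isIntegrallyClosed_tensor_inf_all M q hqM kB
  have hspan := mem_span_inf M hqM B hB hnorm (d : ↥FtM) d.2
  refine Submodule.span_mono ?_ hspan
  rintro _ ⟨_, ⟨b, hb, rfl⟩, rfl⟩
  have hO : barEmb M b ∈ (constRedBar M hqM B hB).O :=
    barEmb_mem_O M hqM B hB (Fermat.Agent.Igusa.hSInf M q) ⟨b, hb⟩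
  exact ⟨b, hb, hO, ((constRedBar M hqM B hB).resF_of_mem hO).symm⟩

/-- `res₂ (α g) = (res_M g)^q` for `g` with rational `q`-expansion in a `ℤ_(q)`-chart: `res₂ ∘ α` is
the substitution `q ↦ q^q` (`ResGen.res2_alpha`), which is the `q`-th power on series with
coefficients in the prime field. -/
theorem res2_alpha_barEmb {S : Set ↥(modularFunctionFieldFull M)}
    (hS : ∀ s ∈ S, ((s : ↥(modularFunctionFieldFull M)) : LaurentSeries ℚ) ∈ gaussSubring q)
    {b : ↥(modularFunctionFieldFull M)} (hb : b ∈ chartAlg M q S)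
    (hO : barEmb M b ∈ OM M B hB) :
    res2 B hB hqM ⟨heckeAlphaBar Kb M q (barEmb M b),
        (alpha_mem_O2_iff B hB hqM (barEmb M b)).2 hO⟩ =
      (resM M B hB ⟨barEmb M b, hO⟩) ^ q := by
  haveI : CharP kB q := Val.charP_residueField_of_liesOverPrime B hB
  rw [res2_alpha B hB hqM (barEmb M b) hO]
  have h1 : resM M B hB ⟨barEmb M b, hO⟩ =
      coeffMap (zmodToResidue B hB) (chartRes M q hS ⟨b, hb⟩) :=
    res_barEmb M hqM B hB (zmodToResidue B hB) hS ⟨b, hb⟩
  have h2 : (frobenius kB q).comp (zmodToResidue B hB) = zmodToResidue B hB :=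
    Subsingleton.elim _ _
  rw [h1, Fermat.Agent.ES.pow_char_eq_qExpand_coeffMap_frobenius q, coeffMap_coeffMap, h2]

set_option maxHeartbeats 800000 in
/-- **Separation on the chart at infinity**: the residues of the functions of the chart at infinity
`ℤ_(q)[1/j]^~ ⊆ F̄_{Mq}` on each of the two components separate the places of `F̃_M` (regular on the
chart). -/
theorem sep_inf (v : Fin 2) :
    Separates (k := kB) (chartInf (M := M) (q := q)) (compW B hB hqM v).O (compW B hB hqM v).res
      (chartInf_le B hB hqM v) := by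
  haveI : NeZero q := ⟨hqF.out.ne_zero⟩
  haveI : CharP kB q := Val.charP_residueField_of_liesOverPrime B hB
  haveI : IsAlgClosed kB := Val.residueField_isAlgClosed B
  haveI := isDedekindDomain_CkInf B hB hqM
  haveI := isFractionRing_CkInf B hB hqM
  refine separates_of_span_of_forall (D := ↥(CkInf M B)) _ _ _ _ _ ?_
    (fun d => mem_span_redMF_inf B hB hqM d)
  rintro Q Q' hQ z ⟨b, hb, hO, rfl⟩
  obtain ⟨c, hc, hc'⟩ := hQ (heckeAlphaBar Kb M q (barEmb M b)) (alpha_barEmb_mem_chartInf hb)
  fin_cases v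
  · have e : (compW B hB hqM 0).res ⟨heckeAlphaBar Kb M q (barEmb M b),
        chartInf_le B hB hqM 0 (alpha_barEmb_mem_chartInf hb)⟩ =
        redMF B hB hqM ⟨barEmb M b, hO⟩ := by
      rw [← red1F_alpha B hB hqM (barEmb M b) hO]
      rfl
    exact ⟨c, e ▸ hc, e ▸ hc'⟩
  · have e : (compW B hB hqM 1).res ⟨heckeAlphaBar Kb M q (barEmb M b),
        chartInf_le B hB hqM 1 (alpha_barEmb_mem_chartInf hb)⟩ =
        (redMF B hB hqM ⟨barEmb M b, hO⟩) ^ q := by
      apply Subtype.ext
      rw [SubmonoidClass.coe_pow, coe_redMF]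
      exact res2_alpha_barEmb B hB hqM (Fermat.Agent.Igusa.hSInf M q) hb hO
    exact ⟨_, isValueAt_of_pow_char q Q (e ▸ hc), isValueAt_of_pow_char q Q' (e ▸ hc')⟩

end Modular

end Fermat.Agent.BR.S0.SepModular
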