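import Fermat.Agent.BR.S0.GeomModular
import Fermat.Agent.BR.S0.SepModularInf

/-!
# Program B (BADRED), node B6.6 (c), closed form: the geometric inputs of the atlas of `X₀(qM)`

* **`geomInputs_modular_final B hB hqM : RedHyp.GeomInputs B hB hqM`** : UNCONDITIONAL
  (`sep_f` = helper20's `SepModular.sep_fin`, `sep_i` = helper20's `SepModular.sep_inf`,
  `total_f`, `total_i` = `GeomModular.total_f_modular'`, `total_i_modular'`, `no_cross_inf` =
  helper11's `NoCrossAtlas`) — the field `G` of helper14's `Final.ModularData`;
* **`atlasHyp_modular_final B hB hqM : PointDict.AtlasHyp (chartDataModular B hB hqM) (jx M q)`** :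
  the atlas hypotheses of `X₀(qM)` at `q`, UNCONDITIONAL;
* `chartHyp_modular_final`, `rModular_smul_final` : the consequences of `RedHyp` with the geometric
  inputs discharged.
-/

set_option autoImplicit false
set_option linter.unusedSectionVars false
set_option linter.style.haveILetI false

noncomputable section

namespace Fermat.Agent.BR.S0.GeomFinal

open ModularCurve ModularCurve.IgusaScheme AlgebraicCurve IsLocalRing
open Fermat.Agent.X0 Fermat.Agent.Val Fermat.Agent.Red Fermat.Agent.BR.Centre
open Fermat.Agent.BR.TwoVal Fermat.Agent.BR.TwoValInst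
open Fermat.Agent.BR.ConstRedTwo Fermat.Agent.BR.Inst Fermat.Agent.Good.Bridge
open Fermat.Agent.BR.S0.RedModular Fermat.Agent.BR.S0.PointDict Fermat.Agent.BR.S0.RedHyp

section Modular

set_option synthInstance.maxHeartbeats 400000

variable {M q : ℕ} [NeZero M] [hqF : Fact q.Prime]
variable (B : ValuationSubring Kb) (hB : B.LiesOverPrime q) (hqM : ¬ q ∣ M)

/-- **The geometric inputs of the atlas of `X₀(qM)` at `q`, UNCONDITIONAL.** -/
theorem geomInputs_modular_final : GeomInputs B hB hqM :=
  GeomModular.geomInputs_modular B hB hqM (SepModular.sep_inf B hB hqM)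

/-- **The atlas hypotheses of `X₀(qM)` at `q`, UNCONDITIONAL.** -/
theorem atlasHyp_modular_final : AtlasHyp (chartDataModular B hB hqM) (jx M q) :=
  atlasHyp_modular B hB hqM (geomInputs_modular_final B hB hqM)

/-- The same with the coordinate written `jOne M q`. -/
theorem atlasHyp_modular_final_jOne : AtlasHyp (chartDataModular B hB hqM) (jOne M q) :=
  atlasHyp_modular_jOne B hB hqM (geomInputs_modular_final B hB hqM)

/-- **(U), (E), (X)** for the crossings of the atlas of `X₀(qM)` at `q`, UNCONDITIONAL. -/
theorem chartHyp_modular_final :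
    ChartHyp (chartDataModular B hB hqM) (z₁ (chartDataModular B hB hqM))
      (z₂ (chartDataModular B hB hqM)) :=
  chartHyp_modular B hB hqM (geomInputs_modular_final B hB hqM)

/-- **(h2), UNCONDITIONAL**: for `σ` in the inertia group of `B` the reduction map of the
two-component model of `X₀(qM)` is invariant under the arithmetic Galois action. -/
theorem rModular_smul_final {σ : Kb ≃ₐ[ℚ] Kb}
    (hσ : σ ∈ B.inertiaSubgroupIn ℚ) (P : Place Kb (Fb (M * q))) :
    (atlasHyp_modular_final B hB hqM).r
        (arithmeticGalois (modularFunctionFieldFull (M * q)) σ • P) =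
      (atlasHyp_modular_final B hB hqM).r P :=
  rModular_smul_of_inputs B hB hqM (geomInputs_modular_final B hB hqM) hσ P

end Modular

end Fermat.Agent.BR.S0.GeomFinal
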