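import Mathlib
import Fermat.Agent.BR.LocalDivNode

/-!
# Program B (BADRED), block B7.5 (producer), adapter: the engine field `n2` of `NodeLevel`

`BR/S0/AnnulusDescent` (helper21) consumes the class-group lemma (N2) of `BR/LocalDivNode` as a
FIELD `n2` of its level structure `NodeLevel`, for a finite level `R ⊆ F` (a subring of the big
function field `F` over `K`, with constants `A ∩ K'`).  This file proves that field, in its exact
shape, from the other fields of `NodeLevel` (taken as unbundled hypotheses in their exact shapes)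
and the relation `u * v = thick • ε₀`.

Main exports.

* `nodeHyp_inter` : `NodeUP.NodeHyp` implies `p1 ⊓ p2 = (π)` (so the hypothesis `hinter` of
  `BR/LocalDivNode` is automatic).
* `n2_of_fields` : the field `n2`.
-/

set_option autoImplicit false
set_option linter.unusedSectionVars false

namespace Fermat.Agent.BR.S0.AnnulusN2

open IsLocalRing Fermat.Agent.BR.DiscUP Fermat.Agent.BR.NodeUP Fermat.Agent.BR.KrullNormal
  Fermat.Agent.BR.BlowUpPoints Fermat.Agent.BR.LocalDivNode

section Inter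

variable {W O : Type*} [CommRing W] [CommRing O] [IsLocalRing O] [IsNoetherianRing O]
  [Algebra W O] {π : W} {e : ℕ} {u v : O} {p1 p2 : Ideal O}

/-- at a node the two branches meet in `(π)` -/
theorem nodeHyp_inter (h : NodeHyp W π e u v p1 p2) :
    p1 ⊓ p2 = Ideal.span {algebraMap W O π} := by
  apply le_antisymm
  · intro x hx
    obtain ⟨hx1, hx2⟩ := Ideal.mem_inf.mp hx
    rw [nodeHyp_p2_eq h] at hx2
    obtain ⟨z, hz, w, hw, rfl⟩ := Submodule.mem_sup.mp hx2
    obtain ⟨a, rfl⟩ := Ideal.mem_span_singleton'.mp hz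
    obtain ⟨b, rfl⟩ := Ideal.mem_span_singleton'.mp hw
    have hbv : b * v ∈ p1 := by
      have : b * v = (a * algebraMap W O π + b * v) - a * algebraMap W O π := by ring
      rw [this]
      exact Ideal.sub_mem _ hx1 (Ideal.mul_mem_left _ _ h.hq1)
    have hb : b ∈ p1 := (h.prime1.mem_or_mem hbv).resolve_right h.hv1
    rw [nodeHyp_p1_eq h] at hb
    obtain ⟨z', hz', w', hw', rfl⟩ := Submodule.mem_sup.mp hb
    obtain ⟨c, rfl⟩ := Ideal.mem_span_singleton'.mp hz'
    obtain ⟨d, rfl⟩ := Ideal.mem_span_singleton'.mp hw'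
    rw [Ideal.mem_span_singleton']
    refine ⟨a + c * v + d * algebraMap W O π ^ (e - 1), ?_⟩
    have he : e = e - 1 + 1 := (Nat.sub_add_cancel h.he).symm
    have h1 : a * algebraMap W O π + (c * algebraMap W O π + d * u) * v =
        a * algebraMap W O π + c * algebraMap W O π * v + d * (u * v) := by ring
    rw [h1, h.huv]
    conv_rhs => rw [he, pow_succ]
    ring
  · rw [Ideal.span_singleton_le_iff_mem]
    exact Ideal.mem_inf.mpr ⟨h.hq1, h.hq2⟩

end Inter

section N2

variable {K : Type*} {F : Type*} [Field K] [Field F] [Algebra K F]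

/-- quotients of elements of `K` with ordered valuations lie in `A` -/
theorem div_mem_of_valuation_le (A : ValuationSubring K) {a b : K} (hb : b ≠ 0)
    (hab : A.valuation a ≤ A.valuation b) : a / b ∈ A := by
  rw [← A.valuation_le_one_iff, map_div₀]
  have hb0 : 0 < A.valuation b := zero_lt_iff.mpr ((A.valuation).ne_zero_iff.mpr hb)
  exact (div_le_one₀ hb0).mpr hab

/-- **The field `n2` of `NodeLevel`** (helper21's `BR/S0/AnnulusDescent`), from the other fields
of `NodeLevel` and `u * v = thick • ε₀`. -/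
theorem n2_of_fields (A : ValuationSubring K) {u v ε₀ : F} {thick : K}
    (thick_ne : thick ≠ 0) (thick_lt : A.valuation thick < 1) (uv : u * v = thick • ε₀)
    (R : Subring F) (K' : Subfield K) (ϖ : K)
    [IsNoetherianRing R] [IsIntegrallyClosed R] [IsLocalRing R]
    (const_mem : ∀ c : K, algebraMap K F c ∈ R ↔ c ∈ K' ∧ c ∈ A)
    (ϖ_mem : ϖ ∈ K') (ϖ_ne : ϖ ≠ 0) (ϖ_lt : A.valuation ϖ < 1)
    (unif : ∀ c ∈ K', A.valuation c < 1 → A.valuation c ≤ A.valuation ϖ)
    (thick_mem : thick ∈ K')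
    (πR uR vR : R) (πR_eq : (πR : F) = algebraMap K F ϖ) (uR_eq : (uR : F) = u)
    (vR_eq : (vR : F) = v) (ε₀_mem : ε₀ ∈ R) (ε₀_inv_mem : ε₀⁻¹ ∈ R)
    (maxIdeal : maximalIdeal R = Ideal.span {πR, uR, vR})
    (p1 p2 : Ideal R) (prime1 : p1.IsPrime) (prime2 : p2.IsPrime)
    (π_mem_p1 : πR ∈ p1) (π_mem_p2 : πR ∈ p2) (u_mem_p1 : uR ∈ p1) (v_mem_p2 : vR ∈ p2)
    (v_notMem_p1 : vR ∉ p1) (u_notMem_p2 : uR ∉ p2)
    (residue : ∀ y : R, ∃ a : K, a ∈ A ∧ ∃ h : algebraMap K F a ∈ R,
      ¬ IsUnit (y - ⟨algebraMap K F a, h⟩)) :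
    ∀ z : F, z ≠ 0 → (∃ a b : R, b ≠ 0 ∧ z * b = a) →
      (∀ Q : Ideal R, Q.IsPrime → Q.height = 1 → πR ∉ Q →
        ∃ s t : R, s ∉ Q ∧ t ∉ Q ∧ z * s = t) →
      ∃ (d : K) (β : ℤ) (ε : F), d ≠ 0 ∧ ε ∈ R ∧ ε⁻¹ ∈ R ∧
        z = algebraMap K F d * u ^ β * ε := by
  intro z hz hfrac hhor
  classical
  have hinjKF : Function.Injective (algebraMap K F) := (algebraMap K F).injective
  -- membership in `A`
  have hA_of_le : ∀ c : K, A.valuation c ≤ 1 → c ∈ A := fun c hc =>
    (A.valuation_le_one_iff c).mp hc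
  have hϖA : ϖ ∈ A := hA_of_le ϖ ϖ_lt.le
  have hthickA : thick ∈ A := hA_of_le thick thick_lt.le
  -- elements of the maximal ideal
  have hπm : πR ∈ maximalIdeal R := by
    rw [maxIdeal]; exact Ideal.subset_span (by simp)
  have hum : uR ∈ maximalIdeal R := by
    rw [maxIdeal]; exact Ideal.subset_span (by simp)
  have hvm : vR ∈ maximalIdeal R := by
    rw [maxIdeal]; exact Ideal.subset_span (by simp)
  have hmle : ∀ I : Ideal R, πR ∈ I → uR ∈ I → vR ∈ I → maximalIdeal R ≤ I := by
    intro I h1 h2 h3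
    rw [maxIdeal, Ideal.span_le]
    intro x hx
    rcases hx with rfl | rfl | rfl
    · exact h1
    · exact h2
    · exact h3
  have hπR0 : πR ≠ 0 := by
    intro h0
    have : (πR : F) = 0 := by rw [h0]; rfl
    rw [πR_eq] at this
    exact ϖ_ne (hinjKF (this.trans (map_zero _).symm))
  -- the ring of constants
  let W : Subring K := K'.toSubring ⊓ A.toSubring
  have hWmem : ∀ c : K, c ∈ W ↔ c ∈ K' ∧ c ∈ A := fun c => Subring.mem_inf
  let f : W →+* R := ((algebraMap K F).comp W.subtype).codRestrict R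
    (fun c => (const_mem c.1).mpr ((hWmem _).mp c.2))
  let _ : Algebra W R := f.toAlgebra
  have hfval : ∀ c : W, ((algebraMap W R c : R) : F) = algebraMap K F (c : K) := fun c => rfl
  let πW : W := ⟨ϖ, (hWmem ϖ).mpr ⟨ϖ_mem, hϖA⟩⟩
  have hfπ : algebraMap W R πW = πR := Subtype.ext (by rw [hfval, πR_eq])
  -- `thick = ϖ ^ e * η`
  let t : R := ⟨algebraMap K F thick, (const_mem thick).mpr ⟨thick_mem, hthickA⟩⟩
  have ht0 : t ≠ 0 := by
    intro h0
    have : algebraMap K F thick = 0 := congrArg Subtype.val h0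
    exact thick_ne (hinjKF (this.trans (map_zero _).symm))
  have hex : ∃ n : ℕ, t ∉ Ideal.span {πR ^ n} := by
    by_contra hcon
    push Not at hcon
    have hne : (Ideal.span {πR} : Ideal R) ≠ ⊤ := by
      intro htop
      have : (Ideal.span {πR} : Ideal R) ≤ maximalIdeal R :=
        (Ideal.span_singleton_le_iff_mem _).mpr hπm
      rw [htop] at this
      exact (maximalIdeal.isMaximal R).ne_top (top_le_iff.mp this)
    have hk := Ideal.iInf_pow_eq_bot_of_isLocalRing (Ideal.span {πR}) hne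
    have : t ∈ ⨅ i : ℕ, (Ideal.span {πR} : Ideal R) ^ i := by
      rw [Ideal.mem_iInf]
      intro i
      rw [Ideal.span_singleton_pow]
      exact hcon i
    rw [hk, Ideal.mem_bot] at this
    exact ht0 this
  obtain ⟨e, he1, η, hηK', hηval, hthick⟩ : ∃ e : ℕ, 1 ≤ e ∧ ∃ η : K, η ∈ K' ∧
      A.valuation η = 1 ∧ thick = ϖ ^ e * η := by
    obtain ⟨n, hn, hmin⟩ : ∃ n : ℕ, t ∉ Ideal.span {πR ^ n} ∧
        ∀ m < n, ¬ t ∉ Ideal.span {πR ^ m} :=
      ⟨Nat.find hex, Nat.find_spec hex, fun m hm => Nat.find_min hex hm⟩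
    have hn0 : n ≠ 0 := by
      intro h0
      rw [h0, pow_zero, Ideal.span_singleton_one] at hn
      exact hn Submodule.mem_top
    obtain ⟨e, rfl⟩ : ∃ e, n = e + 1 := ⟨n - 1, by omega⟩
    have hte : t ∈ Ideal.span {πR ^ e} := by
      by_contra hcon
      exact hmin e (Nat.lt_succ_self e) hcon
    obtain ⟨r, hr⟩ := Ideal.mem_span_singleton'.mp hte
    have hϖF : algebraMap K F ϖ ≠ 0 := fun h0 => ϖ_ne (hinjKF (h0.trans (map_zero _).symm))
    have hrF : (r : F) = algebraMap K F (thick / ϖ ^ e) := by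
      have h1 : (r : F) * (algebraMap K F ϖ) ^ e = algebraMap K F thick := by
        have := congrArg Subtype.val hr
        simpa [πR_eq] using this
      rw [map_div₀, map_pow, ← h1]
      field_simp
    have hηmem : thick / ϖ ^ e ∈ K' ∧ thick / ϖ ^ e ∈ A := by
      apply (const_mem _).mp
      rw [← hrF]; exact r.2
    have hηle : A.valuation (thick / ϖ ^ e) ≤ 1 := (A.valuation_le_one_iff _).mpr hηmem.2
    have hηval : A.valuation (thick / ϖ ^ e) = 1 := by
      by_contra hne
      have hlt : A.valuation (thick / ϖ ^ e) < 1 := lt_of_le_of_ne hηle hne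
      have h2 := unif _ hηmem.1 hlt
      have h3 : thick / ϖ ^ e / ϖ ∈ A := div_mem_of_valuation_le A ϖ_ne h2
      have h4 : thick / ϖ ^ e / ϖ ∈ K' := K'.div_mem hηmem.1 ϖ_mem
      apply hn
      rw [Ideal.mem_span_singleton']
      refine ⟨⟨algebraMap K F (thick / ϖ ^ e / ϖ), (const_mem _).mpr ⟨h4, h3⟩⟩, ?_⟩
      apply Subtype.ext
      simp only [Subring.coe_mul, SubmonoidClass.coe_pow, πR_eq]
      rw [← map_pow, ← map_mul]
      congr 1
      field_simp
      ring
    have he1 : 1 ≤ e := by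
      by_contra hcon
      have : e = 0 := by omega
      rw [this, pow_zero, div_one] at hηval
      rw [hηval] at thick_lt
      exact lt_irrefl _ thick_lt
    refine ⟨e, he1, thick / ϖ ^ e, hηmem.1, hηval, ?_⟩
    field_simp
  have hηA : η ∈ A := hA_of_le η hηval.le
  have hη0 : η ≠ 0 := by
    intro h0
    rw [h0, map_zero] at hηval
    exact zero_ne_one hηval
  have hηinvA : η⁻¹ ∈ A := by
    apply hA_of_le
    rw [map_inv₀, hηval, inv_one]
  let ηR : R := ⟨algebraMap K F η, (const_mem η).mpr ⟨hηK', hηA⟩⟩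
  let ηRi : R := ⟨algebraMap K F η⁻¹, (const_mem _).mpr ⟨K'.inv_mem hηK', hηinvA⟩⟩
  have hηRu : ηR * ηRi = 1 := by
    apply Subtype.ext
    simp only [ηR, ηRi, Subring.coe_mul, Subring.coe_one]
    rw [← map_mul, mul_inv_cancel₀ hη0, map_one]
  -- `ε₀` is a unit of `R`
  have huR0 : uR ≠ 0 := fun h0 => u_notMem_p2 (h0 ▸ p2.zero_mem)
  have hvR0 : vR ≠ 0 := fun h0 => v_notMem_p1 (h0 ▸ p1.zero_mem)
  have hε₀0 : ε₀ ≠ 0 := by
    intro h0
    rw [h0, smul_zero, ← uR_eq, ← vR_eq] at uv
    rcases mul_eq_zero.mp uv with h | h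
    · exact huR0 (Subtype.ext h)
    · exact hvR0 (Subtype.ext h)
  let εR : R := ⟨ε₀, ε₀_mem⟩
  let εRi : R := ⟨ε₀⁻¹, ε₀_inv_mem⟩
  have hεRu : εR * εRi = 1 := by
    apply Subtype.ext
    simp only [εR, εRi, Subring.coe_mul, Subring.coe_one]
    exact mul_inv_cancel₀ hε₀0
  let δ : R := ηR * εR
  let δi : R := ηRi * εRi
  have hδ : δ * δi = 1 := by
    have : δ * δi = (ηR * ηRi) * (εR * εRi) := by simp only [δ, δi]; ring
    rw [this, hηRu, hεRu, mul_one]
  have huvR : uR * vR = πR ^ e * δ := by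
    apply Subtype.ext
    simp only [δ, ηR, εR, Subring.coe_mul, SubmonoidClass.coe_pow, πR_eq, uR_eq, vR_eq]
    rw [uv, Algebra.smul_def, hthick, map_mul, map_pow]
    ring
  let v' : R := vR * δi
  have hv'δ : v' * δ = vR := by
    simp only [v']
    rw [mul_assoc, mul_comm δi δ, hδ, mul_one]
  have huv' : uR * v' = πR ^ e := by
    simp only [v']
    rw [← mul_assoc, huvR, mul_assoc, hδ, mul_one]
  have hspan : (Ideal.span {v'} : Ideal R) = Ideal.span {vR} := by
    apply le_antisymm
    · rw [Ideal.span_singleton_le_iff_mem]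
      exact Ideal.mul_mem_right _ _ (Ideal.mem_span_singleton_self vR)
    · rw [Ideal.span_singleton_le_iff_mem, ← hv'δ]
      exact Ideal.mul_mem_right _ _ (Ideal.mem_span_singleton_self v')
  have hp1le : p1 ≤ maximalIdeal R := IsLocalRing.le_maximalIdeal prime1.ne_top
  have hp2le : p2 ≤ maximalIdeal R := IsLocalRing.le_maximalIdeal prime2.ne_top
  -- the node hypothesis
  have hNH : NodeHyp W πW e uR v' p1 p2 := by
    refine
      { res := ⟨?_, ?_⟩
        prime1 := prime1
        prime2 := prime2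
        hu := u_mem_p1
        hv := Ideal.mul_mem_right _ _ v_mem_p2
        hq1 := by rw [hfπ]; exact π_mem_p1
        hq2 := by rw [hfπ]; exact π_mem_p2
        hv1 := ?_
        hu2 := u_notMem_p2
        max1 := ?_
        max2 := ?_
        max3 := ?_
        he := he1
        huv := by rw [hfπ]; exact huv' }
    · -- residue field: surjectivity
      intro y
      obtain ⟨a, haA, hmem, hnu⟩ := residue y
      have haK' : a ∈ K' := ((const_mem a).mp hmem).1
      refine ⟨⟨a, (hWmem a).mpr ⟨haK', haA⟩⟩, ?_⟩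
      rw [IsLocalRing.mem_maximalIdeal]
      exact hnu
    · -- residue field: kernel
      intro w hw
      have hwK' : (w : K) ∈ K' := ((hWmem _).mp w.2).1
      have hwA : (w : K) ∈ A := ((hWmem _).mp w.2).2
      have hwle : A.valuation (w : K) ≤ 1 := (A.valuation_le_one_iff _).mpr hwA
      have hwlt : A.valuation (w : K) < 1 := by
        by_contra hcon
        have hw1 : A.valuation (w : K) = 1 := le_antisymm hwle (not_lt.mp hcon)
        have hw0 : (w : K) ≠ 0 := by
          intro h0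
          rw [h0, map_zero] at hw1
          exact zero_ne_one hw1
        have hwinvA : (w : K)⁻¹ ∈ A := by
          apply hA_of_le
          rw [map_inv₀, hw1, inv_one]
        let wi : R := ⟨algebraMap K F (w : K)⁻¹, (const_mem _).mpr ⟨K'.inv_mem hwK', hwinvA⟩⟩
        have hunit : algebraMap W R w * wi = 1 := by
          apply Subtype.ext
          simp only [wi, Subring.coe_mul, Subring.coe_one, hfval]
          rw [← map_mul, mul_inv_cancel₀ hw0, map_one]
        exact (IsLocalRing.mem_maximalIdeal _).mp hw (IsUnit.of_mul_eq_one _ hunit)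
      have h2 := unif _ hwK' hwlt
      have h3 : (w : K) / ϖ ∈ A := div_mem_of_valuation_le A ϖ_ne h2
      have h4 : (w : K) / ϖ ∈ K' := K'.div_mem hwK' ϖ_mem
      refine ⟨⟨(w : K) / ϖ, (hWmem _).mpr ⟨h4, h3⟩⟩, ?_⟩
      apply Subtype.ext
      simp only [πW, Subring.coe_mul]
      field_simp
    · -- `v' ∉ p1`
      intro hmem
      apply v_notMem_p1
      rw [← hv'δ]
      exact Ideal.mul_mem_right _ _ hmem
    · -- max1
      apply le_antisymm
      · refine hmle _ (Ideal.mem_sup_left π_mem_p1) (Ideal.mem_sup_left u_mem_p1) ?_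
        rw [hspan]
        exact Ideal.mem_sup_right (Ideal.mem_span_singleton_self vR)
      · rw [hspan]
        exact sup_le hp1le ((Ideal.span_singleton_le_iff_mem _).mpr hvm)
    · -- max2
      apply le_antisymm
      · exact hmle _ (Ideal.mem_sup_left π_mem_p2)
          (Ideal.mem_sup_right (Ideal.mem_span_singleton_self uR)) (Ideal.mem_sup_left v_mem_p2)
      · exact sup_le hp2le ((Ideal.span_singleton_le_iff_mem _).mpr hum)
    · -- max3
      rw [hfπ, hspan]
      apply le_antisymm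
      · exact hmle _
          (Ideal.mem_sup_left (Ideal.mem_sup_left (Ideal.mem_span_singleton_self πR)))
          (Ideal.mem_sup_left (Ideal.mem_sup_right (Ideal.mem_span_singleton_self uR)))
          (Ideal.mem_sup_right (Ideal.mem_span_singleton_self vR))
      · exact sup_le (sup_le ((Ideal.span_singleton_le_iff_mem _).mpr hπm)
          ((Ideal.span_singleton_le_iff_mem _).mpr hum))
          ((Ideal.span_singleton_le_iff_mem _).mpr hvm)
  have hinter := nodeHyp_inter hNH
  have hπ0 : algebraMap W R πW ≠ 0 := by rw [hfπ]; exact hπR0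
  -- pass to the fraction field of `R`
  let ι : FractionRing R →+* F :=
    IsFractionRing.lift (g := R.subtype) Subtype.coe_injective
  have hι : ∀ x : R, ι (algebraMap R (FractionRing R) x) = (x : F) := fun x =>
    IsFractionRing.lift_algebraMap _ x
  obtain ⟨a, b, hb0, hzab⟩ := hfrac
  have hbF : (b : F) ≠ 0 := fun h0 => hb0 (Subtype.ext h0)
  have hbFr : algebraMap R (FractionRing R) b ≠ 0 := fun h0 =>
    hb0 (IsFractionRing.injective R (FractionRing R) (h0.trans (map_zero _).symm))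
  set z' : FractionRing R := algebraMap R (FractionRing R) a / algebraMap R (FractionRing R) b
    with hz'def
  have hιz : ι z' = z := by
    rw [hz'def, map_div₀, hι, hι, ← hzab]
    field_simp
  have hz' : z' ≠ 0 := by
    intro h0
    rw [h0, map_zero] at hιz
    exact hz hιz.symm
  have hhor' : ∀ Q : Ideal R, Q.IsPrime → Q.height = 1 → algebraMap W R πW ∉ Q →
      UnitAt Q z' := by
    intro Q hQ hht hπQ
    rw [hfπ] at hπQ
    obtain ⟨s, t, hs, ht, hst⟩ := hhor Q hQ hht hπQ
    refine ⟨s, t, hs, ht, ι.injective ?_⟩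
    rw [map_mul, hιz, hι, hι, hst]
  obtain ⟨a', b', ε', hε'⟩ :=
    exists_eq_zpow_mul_zpow_mul_unit (F := FractionRing R) hNH hinter hπ0 hz' hhor'
  refine ⟨ϖ ^ a', b', ((ε' : R) : F), zpow_ne_zero _ ϖ_ne, (ε' : R).2, ?_, ?_⟩
  · have : (((ε'⁻¹ : Rˣ) : R) : F) = (((ε' : R) : F))⁻¹ := by
      have h1 : ((ε' : R) : F) * (((ε'⁻¹ : Rˣ) : R) : F) = 1 := by
        have h2 : (ε' : R) * ((ε'⁻¹ : Rˣ) : R) = 1 := Units.mul_inv ε'
        have h3 : (((ε' : R) * ((ε'⁻¹ : Rˣ) : R) : R) : F) = ((1 : R) : F) :=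
          congrArg Subtype.val h2
        rw [Subring.coe_mul, Subring.coe_one] at h3
        exact h3
      exact eq_inv_of_mul_eq_one_right h1
    rw [← this]
    exact ((ε'⁻¹ : Rˣ) : R).2
  · rw [← hιz, hε', map_mul, map_mul, map_zpow₀, map_zpow₀, hι, hι, hι, hfπ, πR_eq, uR_eq,
      map_zpow₀]

end N2

end Fermat.Agent.BR.S0.AnnulusN2
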