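import Mathlib
import Fermat.Agent.BR.LocalDivNode
import Fermat.Agent.BR.S0.AnnulusLevels

/-!
# Program B (BADRED), block B7.5 (producer): the engine field `n2` of `NodeLevel`, landed shape

`BR/S0/AnnulusLevels` (helper21) takes the class-group lemma (N2) as a FIELD `n2` of its level
structure `NodeLevel`.  This file proves that field from the OTHER fields of `NodeLevel` (in their
landed shapes) and the relation `u * v = thick • ε₀` of `AnnulusLevels`.

Since `NodeLevel` has no base ring with a residue-field hypothesis, (N2) is first re-proved in a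
base-ring-free form (`NodeCore`: `u v = q ^ e δ`, `δ` a unit, maximal ideal `(q, u, v)`, the
vertical height-one primes are `p1`, `p2`), by the argument of `BR/LocalDivNode`.

Main exports.

* `NodeCore q u v δ e p1 p2`, `NodeCore.exists_eq_zpow_mul_zpow_mul_unit` : (N2), base-ring free.
* `exists_thick_eq` : `thick = ϖ ^ e η`, `1 ≤ e`, `|η| = 1`, `η ∈ K'` (Krull intersection).
* `n2_of_level` : the field `n2` of `NodeLevel`, verbatim.
* `nodeLevelOfFields` : the constructor of `NodeLevel` without the field `n2`.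
-/

set_option autoImplicit false
set_option linter.unusedSectionVars false

namespace Fermat.Agent.BR.S0.AnnulusN2Level

open IsLocalRing Fermat.Agent.BR.KrullNormal Fermat.Agent.BR.LocalDivNode

/-! ### The base-ring-free node -/

section Core

variable {O : Type*} [CommRing O] [IsDomain O] [IsLocalRing O] [IsNoetherianRing O]

/-- a node of a noetherian local domain, without base ring: maximal ideal `(q, u, v)`,
`u v = q ^ e δ` with `δ` a unit, branches `p1 ∋ q, u` and `p2 ∋ q, v`. -/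
structure NodeCore (q u v δ : O) (e : ℕ) (p1 p2 : Ideal O) : Prop where
  prime1 : p1.IsPrime
  prime2 : p2.IsPrime
  hq1 : q ∈ p1
  hq2 : q ∈ p2
  hu : u ∈ p1
  hv : v ∈ p2
  hv1 : v ∉ p1
  hu2 : u ∉ p2
  hmax : ∀ x : O, ¬ IsUnit x → x ∈ Ideal.span {q, u, v}
  hδ : IsUnit δ
  he : 1 ≤ e
  huv : u * v = q ^ e * δ

namespace NodeCore

variable {q u v δ : O} {e : ℕ} {p1 p2 : Ideal O}

theorem symm (h : NodeCore q u v δ e p1 p2) : NodeCore q v u δ e p2 p1 where
  prime1 := h.prime2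
  prime2 := h.prime1
  hq1 := h.hq2
  hq2 := h.hq1
  hu := h.hv
  hv := h.hu
  hv1 := h.hu2
  hu2 := h.hv1
  hmax := fun x hx => by
    have := h.hmax x hx
    rwa [show ({q, v, u} : Set O) = {q, u, v} from by
      ext y; simp only [Set.mem_insert_iff, Set.mem_singleton_iff]; tauto]
  hδ := h.hδ
  he := h.he
  huv := by rw [mul_comm, h.huv]

theorem p2_le_maximalIdeal (h : NodeCore q u v δ e p1 p2) : p2 ≤ maximalIdeal O :=
  IsLocalRing.le_maximalIdeal h.prime2.ne_top

theorem q_mem_maximalIdeal (h : NodeCore q u v δ e p1 p2) : q ∈ maximalIdeal O :=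
  h.p2_le_maximalIdeal h.hq2

theorem v_mem_maximalIdeal (h : NodeCore q u v δ e p1 p2) : v ∈ maximalIdeal O :=
  h.p2_le_maximalIdeal h.hv

theorem u_mem_maximalIdeal (h : NodeCore q u v δ e p1 p2) : u ∈ maximalIdeal O :=
  h.symm.v_mem_maximalIdeal

theorem maximalIdeal_le (h : NodeCore q u v δ e p1 p2) (I : Ideal O) (hq : q ∈ I) (hu : u ∈ I)
    (hv : v ∈ I) : maximalIdeal O ≤ I := by
  intro x hx
  have h1 := h.hmax x ((IsLocalRing.mem_maximalIdeal x).mp hx)
  have h2 : Ideal.span {q, u, v} ≤ I := by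
    rw [Ideal.span_le]
    intro y hy
    rcases hy with rfl | rfl | rfl
    · exact hq
    · exact hu
    · exact hv
  exact h2 h1

/-- `𝔪 = p2 + (u)` -/
theorem max2 (h : NodeCore q u v δ e p1 p2) : maximalIdeal O = p2 ⊔ Ideal.span {u} := by
  apply le_antisymm
  · exact h.maximalIdeal_le _ (Ideal.mem_sup_left h.hq2)
      (Ideal.mem_sup_right (Ideal.mem_span_singleton_self u)) (Ideal.mem_sup_left h.hv)
  · exact sup_le h.p2_le_maximalIdeal
      ((Ideal.span_singleton_le_iff_mem _).mpr h.u_mem_maximalIdeal)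

/-- `p2 = (q, v)` (Nakayama) -/
theorem p2_eq (h : NodeCore q u v δ e p1 p2) : p2 = Ideal.span {q} ⊔ Ideal.span {v} := by
  have hle : Ideal.span {q} ⊔ Ideal.span {v} ≤ p2 :=
    sup_le ((Ideal.span_singleton_le_iff_mem _).mpr h.hq2)
      ((Ideal.span_singleton_le_iff_mem _).mpr h.hv)
  apply le_antisymm
  · have hfg : (p2 : Submodule O O).FG := IsNoetherian.noetherian p2
    have hjac : (Ideal.span {u} : Ideal O) ≤ Ideal.jacobson ⊥ := by
      rw [IsLocalRing.jacobson_eq_maximalIdeal ⊥ bot_ne_top]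
      exact (Ideal.span_singleton_le_iff_mem _).mpr h.u_mem_maximalIdeal
    refine Submodule.le_of_le_smul_of_le_jacobson_bot hfg hjac ?_
    intro y hy
    have hyn : ¬ IsUnit y := (IsLocalRing.mem_maximalIdeal y).mp (h.p2_le_maximalIdeal hy)
    have hy3 := h.hmax y hyn
    rw [Ideal.mem_span_insert] at hy3
    obtain ⟨a, z, hz, rfl⟩ := hy3
    rw [Ideal.mem_span_pair] at hz
    obtain ⟨b, c, rfl⟩ := hz
    have hbu : b * u ∈ p2 := by
      have : b * u = (a * q + (b * u + c * v)) - (a * q + c * v) := by ring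
      rw [this]
      exact p2.sub_mem hy (p2.add_mem (p2.mul_mem_left _ h.hq2) (p2.mul_mem_left _ h.hv))
    have hb : b ∈ p2 := by
      rcases h.prime2.mem_or_mem hbu with hb | hu
      · exact hb
      · exact absurd hu h.hu2
    refine Submodule.mem_sup.mpr ⟨a * q + c * v, ?_, b * u, ?_, by ring⟩
    · exact Ideal.add_mem _ (Ideal.mem_sup_left (Ideal.mul_mem_left _ _
        (Ideal.mem_span_singleton_self q))) (Ideal.mem_sup_right (Ideal.mul_mem_left _ _
        (Ideal.mem_span_singleton_self v)))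
    · rw [mul_comm]
      exact Submodule.smul_mem_smul (Ideal.mem_span_singleton_self u) hb
  · exact hle

/-- `p2 O_{p2} = (q)`: `u x ∈ (q)` for `x ∈ p2` -/
theorem exists_dvd_mul_of_mem_p2 (h : NodeCore q u v δ e p1 p2) {x : O} (hx : x ∈ p2) :
    ∃ s, s ∉ p2 ∧ q ∣ s * x := by
  refine ⟨u, h.hu2, ?_⟩
  rw [h.p2_eq] at hx
  obtain ⟨z, hz, w, hw, rfl⟩ := Submodule.mem_sup.mp hx
  obtain ⟨c, rfl⟩ := Ideal.mem_span_singleton'.mp hz
  obtain ⟨d, rfl⟩ := Ideal.mem_span_singleton'.mp hw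
  have he : e = e - 1 + 1 := (Nat.sub_add_cancel h.he).symm
  refine ⟨u * c + d * q ^ (e - 1) * δ, ?_⟩
  have : u * (c * q + d * v) = u * c * q + d * (u * v) := by ring
  rw [this, h.huv]
  conv_lhs => rw [he, pow_succ]
  ring

/-- `q` is a uniformizer at `p2` -/
theorem exists_eq_mul_pow_p2 (h : NodeCore q u v δ e p1 p2) {x : O} (hx : x ≠ 0) :
    ∃ (A : ℕ) (s t : O), s ∉ p2 ∧ t ∉ p2 ∧ s * x = t * q ^ A := by
  have := h.prime2
  exact exists_eq_mul_pow_of_principal p2 q h.hq2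
    (fun y hy => h.exists_dvd_mul_of_mem_p2 hy) hx

/-- `u` lies in no horizontal prime -/
theorem u_notMem_of_horizontal (h : NodeCore q u v δ e p1 p2) (Q : Ideal O) [hQ : Q.IsPrime]
    (hqQ : q ∉ Q) : u ∉ Q := by
  intro hu
  have h1 : q ^ e * δ ∈ Q := by rw [← h.huv]; exact Ideal.mul_mem_right _ _ hu
  rcases hQ.mem_or_mem h1 with h2 | h2
  · exact hqQ (hQ.mem_of_pow_mem _ h2)
  · exact hQ.ne_top (Ideal.eq_top_of_isUnit_mem _ h2 h.hδ)

variable {F : Type*} [Field F] [Algebra O F] [IsFractionRing O F]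

/-- every nonzero element of `F` becomes a unit at `p2` after multiplication by a power of `q` -/
theorem exists_unitAt_p2_mul_zpow (h : NodeCore q u v δ e p1 p2) (hq0 : q ≠ 0) {z : F}
    (hz : z ≠ 0) : ∃ A : ℤ, UnitAt p2 (z * algebraMap O F q ^ A) := by
  have hp2 := h.prime2
  obtain ⟨x1, x2, hx2, rfl⟩ := IsFractionRing.div_surjective (A := O) z
  have hx2' : x2 ≠ 0 := nonZeroDivisors.ne_zero hx2
  have hx1 : x1 ≠ 0 := by
    rintro rfl
    rw [map_zero, zero_div] at hz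
    exact hz rfl
  obtain ⟨A1, s1, t1, hs1, ht1, e1⟩ := h.exists_eq_mul_pow_p2 hx1
  obtain ⟨A2, s2, t2, hs2, ht2, e2⟩ := h.exists_eq_mul_pow_p2 hx2'
  have hX2 : algebraMap O F x2 ≠ 0 := fun h0 =>
    hx2' (IsFractionRing.injective O F (by rw [h0, map_zero]))
  have hπF : algebraMap O F q ≠ 0 := fun h0 =>
    hq0 (IsFractionRing.injective O F (by rw [h0, map_zero]))
  refine ⟨(A2 : ℤ) - A1, s1 * t2, t1 * s2, ?_, ?_, ?_⟩
  · intro hmem
    rcases hp2.mem_or_mem hmem with h1 | h1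
    · exact hs1 h1
    · exact ht2 h1
  · intro hmem
    rcases hp2.mem_or_mem hmem with h1 | h1
    · exact ht1 h1
    · exact hs2 h1
  · have E1 : algebraMap O F s1 * algebraMap O F x1 =
        algebraMap O F t1 * algebraMap O F q ^ A1 := by
      rw [← map_mul, e1, map_mul, map_pow]
    have E2 : algebraMap O F s2 * algebraMap O F x2 =
        algebraMap O F t2 * algebraMap O F q ^ A2 := by
      rw [← map_mul, e2, map_mul, map_pow]
    rw [zpow_sub₀ hπF, zpow_natCast, zpow_natCast, map_mul, map_mul]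
    have hP1 : algebraMap O F q ^ A1 ≠ 0 := pow_ne_zero _ hπF
    field_simp
    linear_combination (algebraMap O F t2 * algebraMap O F q ^ A2) * E1 -
      (algebraMap O F t1 * algebraMap O F q ^ A1) * E2

/-- `O_{p1}` is a valuation ring of `F` -/
theorem regularAt_or_regularAt_inv_p1 (h : NodeCore q u v δ e p1 p2) (hq0 : q ≠ 0) {z : F}
    (hz : z ≠ 0) : RegularAt p1 z ∨ RegularAt p1 z⁻¹ := by
  obtain ⟨A, s, t, hs, ht, hE⟩ := h.symm.exists_unitAt_p2_mul_zpow (F := F) hq0 hz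
  have hπF : algebraMap O F q ≠ 0 := fun h0 =>
    hq0 (IsFractionRing.injective O F (by rw [h0, map_zero]))
  rcases le_or_gt A 0 with hA | hA
  · left
    obtain ⟨n, hn⟩ : ∃ n : ℕ, A = -(n : ℤ) := ⟨(-A).toNat, by omega⟩
    refine ⟨t * q ^ n, s, hs, ?_⟩
    rw [hn, zpow_neg, zpow_natCast] at hE
    rw [map_mul, map_pow, ← hE]
    field_simp
  · right
    obtain ⟨n, hn⟩ : ∃ n : ℕ, A = (n : ℤ) := ⟨A.toNat, by omega⟩
    refine ⟨q ^ n * s, t, ht, ?_⟩
    rw [hn, zpow_natCast] at hE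
    rw [map_mul, map_pow, ← hE]
    field_simp

/-- **(N2) Class-group lemma, base-ring free.**  An element of `F` without horizontal prime
divisors is `q ^ a u ^ b` times a unit of `O`. -/
theorem exists_eq_zpow_mul_zpow_mul_unit [IsIntegrallyClosed O] (h : NodeCore q u v δ e p1 p2)
    (hvert : ∀ Q : Ideal O, Q.IsPrime → Q.height = 1 → q ∈ Q → Q = p1 ∨ Q = p2) (hq0 : q ≠ 0)
    {z : F} (hz : z ≠ 0)
    (hhor : ∀ Q : Ideal O, Q.IsPrime → Q.height = 1 → q ∉ Q → UnitAt Q z) :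
    ∃ (a b : ℤ) (ε : Oˣ), z = algebraMap O F q ^ a * algebraMap O F u ^ b *
      algebraMap O F ε := by
  have hp2 := h.prime2
  have hπF : algebraMap O F q ≠ 0 := fun h0 =>
    hq0 (IsFractionRing.injective O F (by rw [h0, map_zero]))
  have hu0 : u ≠ 0 := fun h0 => h.hu2 (h0 ▸ p2.zero_mem)
  have hUF : algebraMap O F u ≠ 0 := fun h0 =>
    hu0 (IsFractionRing.injective O F (by rw [h0, map_zero]))
  obtain ⟨A, S, T, hS, hT, hE⟩ := h.exists_unitAt_p2_mul_zpow (F := F) hq0 hz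
  obtain ⟨bT, ηT, hηT⟩ := exists_sub_pow_mul_unit_mem p2 u h.max2 hT
  obtain ⟨bS, ηS, hηS⟩ := exists_sub_pow_mul_unit_mem p2 u h.max2 hS
  set S' : O := S * (u ^ bT * ηT) with hS'
  set T' : O := T * (u ^ bS * ηS) with hT'
  have hunit_notMem : ∀ η : Oˣ, (η : O) ∉ p2 := fun η hη =>
    hp2.ne_top (Ideal.eq_top_of_isUnit_mem _ hη η.isUnit)
  have hupow : ∀ n : ℕ, u ^ n ∉ p2 := fun n hn => h.hu2 (hp2.mem_of_pow_mem _ hn)
  have hS'p : S' ∉ p2 := by
    intro hmem
    rcases hp2.mem_or_mem hmem with h1 | h1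
    · exact hS h1
    · rcases hp2.mem_or_mem h1 with h2 | h2
      · exact hupow _ h2
      · exact hunit_notMem _ h2
  have hT'p : T' ∉ p2 := by
    intro hmem
    rcases hp2.mem_or_mem hmem with h1 | h1
    · exact hT h1
    · rcases hp2.mem_or_mem h1 with h2 | h2
      · exact hupow _ h2
      · exact hunit_notMem _ h2
  have hdiff : T' - S' ∈ p2 := by
    have : T' - S' = (T - u ^ bT * ηT) * (u ^ bS * ηS) - (S - u ^ bS * ηS) * (u ^ bT * ηT) := by
      rw [hS', hT']; ring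
    rw [this]
    exact Ideal.sub_mem _ (Ideal.mul_mem_right _ _ hηT) (Ideal.mul_mem_right _ _ hηS)
  have hS'F : algebraMap O F S' ≠ 0 := algebraMap_ne_zero_of_notMem hS'p
  have hT'F : algebraMap O F T' ≠ 0 := algebraMap_ne_zero_of_notMem hT'p
  have hSF : algebraMap O F S ≠ 0 := algebraMap_ne_zero_of_notMem hS
  set z2 : F := algebraMap O F T' / algebraMap O F S' with hz2
  have hz2ne : z2 ≠ 0 := div_ne_zero hT'F hS'F
  have hz2S : z2 * algebraMap O F S' = algebraMap O F T' := div_mul_cancel₀ _ hS'F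
  -- `z2` in terms of `z`
  have hz2eq : z2 = z * algebraMap O F q ^ A *
      (algebraMap O F (u ^ bS * ηS)) * (algebraMap O F (u ^ bT * ηT))⁻¹ := by
    have h1 : algebraMap O F (u ^ bT * ηT) ≠ 0 := by
      intro h0
      apply hS'F
      rw [hS', map_mul, h0, mul_zero]
    rw [hz2, hS', hT', map_mul (algebraMap O F) T, map_mul (algebraMap O F) S, ← hE]
    field_simp
  have hz2_p2 : UnitAt p2 z2 := ⟨S', T', hS'p, hT'p, hz2S⟩
  have hz2_hor : ∀ Q : Ideal O, Q.IsPrime → Q.height = 1 → q ∉ Q → UnitAt Q z2 := by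
    intro Q hQ hht hπQ
    rw [hz2eq]
    have hu_Q : u ∉ Q := h.u_notMem_of_horizontal Q hπQ
    have hmemS : u ^ bS * (ηS : O) ∉ Q := by
      intro hmem
      rcases hQ.mem_or_mem hmem with h1 | h1
      · exact hu_Q (hQ.mem_of_pow_mem _ h1)
      · exact hQ.ne_top (Ideal.eq_top_of_isUnit_mem _ h1 ηS.isUnit)
    have hmemT : u ^ bT * (ηT : O) ∉ Q := by
      intro hmem
      rcases hQ.mem_or_mem hmem with h1 | h1
      · exact hu_Q (hQ.mem_of_pow_mem _ h1)
      · exact hQ.ne_top (Ideal.eq_top_of_isUnit_mem _ h1 ηT.isUnit)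
    exact (((hhor Q hQ hht hπQ).mul ((unitAt_algebraMap hπQ).zpow A)).mul
      (unitAt_algebraMap hmemS)).mul (unitAt_algebraMap hmemT).inv
  -- `z2` is a unit of `O`
  have hunit : ∃ ε : Oˣ, z2 = algebraMap O F ε := by
    have hreg_of : ∀ w : F, (RegularAt p1 w) → UnitAt p2 w →
        (∀ Q : Ideal O, Q.IsPrime → Q.height = 1 → q ∉ Q → UnitAt Q w) →
        w ∈ (algebraMap O F).range := by
      intro w h1 h2 h3
      apply mem_range_of_forall_height_one
      intro Q hQ hht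
      by_cases hπQ : q ∈ Q
      · rcases hvert Q hQ hht hπQ with rfl | rfl
        · exact h1
        · exact h2.regularAt
      · exact (h3 Q hQ hht hπQ).regularAt
    have hunit_of : ∀ r : O, r - 1 ∈ p2 → IsUnit r := by
      intro r hr
      by_contra hnu
      have hrm : r ∈ maximalIdeal O := (IsLocalRing.mem_maximalIdeal r).mpr hnu
      have h1 : (1 : O) ∈ maximalIdeal O := by
        have : (1 : O) = r - (r - 1) := by ring
        rw [this]
        exact Ideal.sub_mem _ hrm (h.p2_le_maximalIdeal hr)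
      exact (maximalIdeal.isMaximal O).ne_top ((Ideal.eq_top_iff_one _).mpr h1)
    rcases h.regularAt_or_regularAt_inv_p1 (F := F) hq0 hz2ne with hreg | hreg
    · obtain ⟨r, hr⟩ := hreg_of z2 hreg hz2_p2 hz2_hor
      have hrS : r * S' = T' := by
        apply IsFractionRing.injective O F
        rw [map_mul, hr, hz2S]
      have hr1 : r - 1 ∈ p2 := by
        have h1 : (r - 1) * S' ∈ p2 := by
          have : (r - 1) * S' = T' - S' := by rw [sub_mul, hrS, one_mul]
          rw [this]; exact hdiff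
        rcases hp2.mem_or_mem h1 with h2 | h2
        · exact h2
        · exact absurd h2 hS'p
      exact ⟨(hunit_of r hr1).unit, by rw [IsUnit.unit_spec, hr]⟩
    · obtain ⟨r, hr⟩ := hreg_of z2⁻¹ hreg hz2_p2.inv
        (fun Q hQ hht hπQ => (hz2_hor Q hQ hht hπQ).inv)
      have hrT : r * T' = S' := by
        apply IsFractionRing.injective O F
        rw [map_mul, hr, ← hz2S]
        field_simp
      have hr1 : r - 1 ∈ p2 := by
        have h1 : (r - 1) * T' ∈ p2 := by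
          have : (r - 1) * T' = -(T' - S') := by rw [sub_mul, hrT, one_mul]; ring
          rw [this]; exact p2.neg_mem hdiff
        rcases hp2.mem_or_mem h1 with h2 | h2
        · exact h2
        · exact absurd h2 hT'p
      refine ⟨(hunit_of r hr1).unit⁻¹, ?_⟩
      rw [map_units_inv, IsUnit.unit_spec, hr, inv_inv]
  obtain ⟨ε, hε⟩ := hunit
  refine ⟨-A, (bT : ℤ) - bS, ε * ηT * ηS⁻¹, ?_⟩
  have hηSF : algebraMap O F (ηS : O) ≠ 0 := fun h0 =>
    ηS.ne_zero (IsFractionRing.injective O F (by rw [h0, map_zero]))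
  have hηTF : algebraMap O F (ηT : O) ≠ 0 := fun h0 =>
    ηT.ne_zero (IsFractionRing.injective O F (by rw [h0, map_zero]))
  have hPA : algebraMap O F q ^ A ≠ 0 := zpow_ne_zero _ hπF
  have key : z * algebraMap O F q ^ A *
      (algebraMap O F u ^ bS * algebraMap O F (ηS : O)) =
      algebraMap O F u ^ bT * (algebraMap O F (ε : O) * algebraMap O F (ηT : O)) := by
    apply mul_right_cancel₀ hSF
    have h2' : algebraMap O F (ε : O) * (algebraMap O F S * (algebraMap O F u ^ bT *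
        algebraMap O F (ηT : O))) = algebraMap O F T * (algebraMap O F u ^ bS *
        algebraMap O F (ηS : O)) := by
      have := hz2S
      rw [hε, hS', hT', map_mul, map_mul, map_mul, map_mul, map_pow, map_pow] at this
      exact this
    linear_combination (algebraMap O F u ^ bS * algebraMap O F (ηS : O)) * hE - h2'
  rw [Units.val_mul, Units.val_mul, map_mul, map_mul, map_units_inv,
    zpow_neg, zpow_sub₀ hUF, zpow_natCast, zpow_natCast]
  field_simp
  linear_combination key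

end NodeCore

end Core

/-! ### The field `n2` of `NodeLevel` -/

section Level

variable {K F : Type*} [Field K] [Field F] [Algebra K F]

/-- quotients of elements of `K` with ordered valuations lie in `A` -/
theorem div_mem_of_valuation_le' (A : ValuationSubring K) {a b : K} (hb : b ≠ 0)
    (hab : A.valuation a ≤ A.valuation b) : a / b ∈ A := by
  rw [← A.valuation_le_one_iff, map_div₀]
  have hb0 : 0 < A.valuation b := zero_lt_iff.mpr ((A.valuation).ne_zero_iff.mpr hb)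
  exact (div_le_one₀ hb0).mpr hab

/-- `thick = ϖ ^ e η` with `1 ≤ e`, `η ∈ K'` a unit of `A`: Krull intersection in the noetherian
local ring `R`. -/
theorem exists_thick_eq (A : ValuationSubring K) {thick : K} (thick_ne : thick ≠ 0)
    (thick_lt : A.valuation thick < 1) (R : Subring F) (K' : Subfield K) (ϖ : K)
    [IsNoetherianRing R] [IsLocalRing R]
    (const_mem : ∀ c ∈ K', c ∈ A → algebraMap K F c ∈ R)
    (unif_mem : ϖ ∈ K') (unif_ne : ϖ ≠ 0)
    (unif_max : ∀ c ∈ K', A.valuation c < 1 → A.valuation c ≤ A.valuation ϖ)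
    (thick_mem : thick ∈ K') (unif_memR : algebraMap K F ϖ ∈ R)
    (hϖnu : ¬ IsUnit (⟨algebraMap K F ϖ, unif_memR⟩ : R)) :
    ∃ e : ℕ, 1 ≤ e ∧ ∃ η : K, η ∈ K' ∧ A.valuation η = 1 ∧ thick = ϖ ^ e * η := by
  classical
  have hinjKF : Function.Injective (algebraMap K F) := (algebraMap K F).injective
  set πR : R := ⟨algebraMap K F ϖ, unif_memR⟩ with hπR
  have hmemK' : ∀ n : ℕ, thick / ϖ ^ n ∈ K' := fun n =>
    K'.div_mem thick_mem (K'.pow_mem unif_mem n)
  -- some `thick / ϖ ^ n` has valuation `≥ 1`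
  have hex : ∃ n : ℕ, ¬ A.valuation (thick / ϖ ^ n) < 1 := by
    by_contra hcon
    push Not at hcon
    have hmemR : ∀ n : ℕ, algebraMap K F (thick / ϖ ^ n) ∈ R := fun n =>
      const_mem _ (hmemK' n) ((A.valuation_le_one_iff _).mp (hcon n).le)
    have hne : (Ideal.span {πR} : Ideal R) ≠ ⊤ := by
      intro htop
      exact hϖnu (Ideal.span_singleton_eq_top.mp htop)
    have hk := Ideal.iInf_pow_eq_bot_of_isLocalRing (Ideal.span {πR}) hne
    have hthickR : algebraMap K F thick ∈ R := by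
      have := hmemR 0
      rwa [pow_zero, div_one] at this
    have : (⟨algebraMap K F thick, hthickR⟩ : R) ∈ ⨅ i : ℕ, (Ideal.span {πR} : Ideal R) ^ i := by
      rw [Ideal.mem_iInf]
      intro i
      rw [Ideal.span_singleton_pow, Ideal.mem_span_singleton']
      refine ⟨⟨algebraMap K F (thick / ϖ ^ i), hmemR i⟩, ?_⟩
      apply Subtype.ext
      simp only [Subring.coe_mul, SubmonoidClass.coe_pow, hπR]
      rw [← map_pow, ← map_mul]
      congr 1
      field_simp
    rw [hk, Ideal.mem_bot] at this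
    have h0 : algebraMap K F thick = 0 := congrArg Subtype.val this
    exact thick_ne (hinjKF (h0.trans (map_zero _).symm))
  obtain ⟨n, hn, hmin⟩ : ∃ n : ℕ, ¬ A.valuation (thick / ϖ ^ n) < 1 ∧
      ∀ m < n, ¬ ¬ A.valuation (thick / ϖ ^ m) < 1 :=
    ⟨Nat.find hex, Nat.find_spec hex, fun m hm => Nat.find_min hex hm⟩
  have hn0 : n ≠ 0 := by
    intro h0
    rw [h0, pow_zero, div_one] at hn
    exact hn thick_lt
  obtain ⟨e, rfl⟩ : ∃ e, n = e + 1 := ⟨n - 1, by omega⟩
  have hlt : A.valuation (thick / ϖ ^ e) < 1 := not_not.mp (hmin e (Nat.lt_succ_self e))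
  have hle := unif_max _ (hmemK' e) hlt
  have hmemA : thick / ϖ ^ e / ϖ ∈ A := div_mem_of_valuation_le' A unif_ne hle
  have heq : thick / ϖ ^ e / ϖ = thick / ϖ ^ (e + 1) := by
    rw [pow_succ]; field_simp
  rw [heq] at hmemA
  have hval : A.valuation (thick / ϖ ^ (e + 1)) = 1 :=
    le_antisymm ((A.valuation_le_one_iff _).mpr hmemA) (not_lt.mp hn)
  refine ⟨e + 1, by omega, thick / ϖ ^ (e + 1), hmemK' (e + 1), hval, ?_⟩
  field_simp

/-- **The field `n2` of `NodeLevel`** (`BR/S0/AnnulusLevels`), from the other fields of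
`NodeLevel` (landed shapes) and `u * v = thick • ε₀`. -/
theorem n2_of_level (A : ValuationSubring K) {u v ε₀ : F} {thick : K}
    (thick_ne : thick ≠ 0) (thick_lt : A.valuation thick < 1) (uv : u * v = thick • ε₀)
    (R : Subring F) (K' : Subfield K) (ϖ : K)
    [IsNoetherianRing R] [IsIntegrallyClosed R] [IsLocalRing R]
    (const_mem : ∀ c ∈ K', c ∈ A → algebraMap K F c ∈ R)
    (unif_mem : ϖ ∈ K') (unif_ne : ϖ ≠ 0)
    (unif_max : ∀ c ∈ K', A.valuation c < 1 → A.valuation c ≤ A.valuation ϖ)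
    (thick_mem : thick ∈ K') (unif_memR : algebraMap K F ϖ ∈ R) (u_mem : u ∈ R) (v_mem : v ∈ R)
    (ε₀_mem : ε₀ ∈ R) (ε₀_inv_mem : ε₀⁻¹ ∈ R)
    (nonunit_mem : ∀ x : R, ¬ IsUnit x →
      x ∈ Ideal.span {(⟨algebraMap K F ϖ, unif_memR⟩ : R), ⟨u, u_mem⟩, ⟨v, v_mem⟩})
    (p1 p2 : Ideal R) (prime1 : p1.IsPrime) (prime2 : p2.IsPrime)
    (unif_mem_p1 : (⟨algebraMap K F ϖ, unif_memR⟩ : R) ∈ p1)
    (unif_mem_p2 : (⟨algebraMap K F ϖ, unif_memR⟩ : R) ∈ p2)
    (u_mem_p1 : (⟨u, u_mem⟩ : R) ∈ p1) (v_mem_p2 : (⟨v, v_mem⟩ : R) ∈ p2)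
    (v_notMem_p1 : (⟨v, v_mem⟩ : R) ∉ p1) (u_notMem_p2 : (⟨u, u_mem⟩ : R) ∉ p2)
    (vertical : ∀ Q : Ideal R, Q.IsPrime → Q.height = 1 →
      (⟨algebraMap K F ϖ, unif_memR⟩ : R) ∈ Q → Q = p1 ∨ Q = p2) :
    ∀ z : F, z ≠ 0 → (∃ a b : R, b ≠ 0 ∧ z * (b : F) = (a : F)) →
      (∀ Q : Ideal R, Q.IsPrime → Q.height = 1 → (⟨algebraMap K F ϖ, unif_memR⟩ : R) ∉ Q →
        ∃ s t : R, s ∉ Q ∧ t ∉ Q ∧ z * (s : F) = (t : F)) →
      ∃ (d : K) (β : ℤ) (ε : F), d ≠ 0 ∧ ε ∈ R ∧ ε⁻¹ ∈ R ∧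
        z = algebraMap K F d * u ^ β * ε := by
  intro z hz hfrac hhor
  classical
  have hinjKF : Function.Injective (algebraMap K F) := (algebraMap K F).injective
  set πR : R := ⟨algebraMap K F ϖ, unif_memR⟩ with hπR
  set uR : R := ⟨u, u_mem⟩ with huR
  set vR : R := ⟨v, v_mem⟩ with hvR
  have hπR0 : πR ≠ 0 := by
    intro h0
    have : algebraMap K F ϖ = 0 := congrArg Subtype.val h0
    exact unif_ne (hinjKF (this.trans (map_zero _).symm))
  have hπnu : ¬ IsUnit πR := fun hu =>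
    prime1.ne_top (Ideal.eq_top_of_isUnit_mem _ unif_mem_p1 hu)
  -- `thick = ϖ ^ e * η`
  obtain ⟨e, he1, η, hηK', hηval, hthick⟩ := exists_thick_eq A thick_ne thick_lt R K' ϖ
    const_mem unif_mem unif_ne unif_max thick_mem unif_memR hπnu
  have hA_of_le : ∀ c : K, A.valuation c ≤ 1 → c ∈ A := fun c hc =>
    (A.valuation_le_one_iff c).mp hc
  have hηA : η ∈ A := hA_of_le η hηval.le
  have hη0 : η ≠ 0 := by
    intro h0
    rw [h0, map_zero] at hηval
    exact zero_ne_one hηval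
  have hηinvA : η⁻¹ ∈ A := by
    apply hA_of_le
    rw [map_inv₀, hηval, inv_one]
  let ηR : R := ⟨algebraMap K F η, const_mem η hηK' hηA⟩
  let ηRi : R := ⟨algebraMap K F η⁻¹, const_mem _ (K'.inv_mem hηK') hηinvA⟩
  have hηRu : ηR * ηRi = 1 := by
    apply Subtype.ext
    simp only [ηR, ηRi, Subring.coe_mul, Subring.coe_one]
    rw [← map_mul, mul_inv_cancel₀ hη0, map_one]
  -- `ε₀` is a unit of `R`
  have huR0 : uR ≠ 0 := fun h0 => u_notMem_p2 (h0 ▸ p2.zero_mem)
  have hvR0 : vR ≠ 0 := fun h0 => v_notMem_p1 (h0 ▸ p1.zero_mem)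
  have hε₀0 : ε₀ ≠ 0 := by
    intro h0
    rw [h0, smul_zero] at uv
    rcases mul_eq_zero.mp uv with h | h
    · exact huR0 (Subtype.ext h)
    · exact hvR0 (Subtype.ext h)
  let εR : R := ⟨ε₀, ε₀_mem⟩
  let εRi : R := ⟨ε₀⁻¹, ε₀_inv_mem⟩
  have hεRu : εR * εRi = 1 := by
    apply Subtype.ext
    simp only [εR, εRi, Subring.coe_mul, Subring.coe_one]
    exact mul_inv_cancel₀ hε₀0
  let δ : R := ηR * εR
  let δi : R := ηRi * εRi
  have hδ : δ * δi = 1 := by
    have : δ * δi = (ηR * ηRi) * (εR * εRi) := by simp only [δ, δi]; ring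
    rw [this, hηRu, hεRu, mul_one]
  have huvR : uR * vR = πR ^ e * δ := by
    apply Subtype.ext
    simp only [δ, ηR, εR, Subring.coe_mul, SubmonoidClass.coe_pow, hπR, huR, hvR]
    rw [uv, Algebra.smul_def, hthick, map_mul, map_pow]
    ring
  -- the node
  have hNC : NodeCore πR uR vR δ e p1 p2 :=
    { prime1 := prime1
      prime2 := prime2
      hq1 := unif_mem_p1
      hq2 := unif_mem_p2
      hu := u_mem_p1
      hv := v_mem_p2
      hv1 := v_notMem_p1
      hu2 := u_notMem_p2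
      hmax := nonunit_mem
      hδ := IsUnit.of_mul_eq_one _ hδ
      he := he1
      huv := huvR }
  -- pass to the fraction field of `R`
  let ι : FractionRing R →+* F :=
    IsFractionRing.lift (g := R.subtype) Subtype.coe_injective
  have hι : ∀ x : R, ι (algebraMap R (FractionRing R) x) = (x : F) := fun x =>
    IsFractionRing.lift_algebraMap _ x
  obtain ⟨a, b, hb0, hzab⟩ := hfrac
  have hbF : (b : F) ≠ 0 := fun h0 => hb0 (Subtype.ext h0)
  have hbFr : algebraMap R (FractionRing R) b ≠ 0 := fun h0 =>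
    hb0 (IsFractionRing.injective R (FractionRing R) (h0.trans (map_zero _).symm))
  set z' : FractionRing R := algebraMap R (FractionRing R) a / algebraMap R (FractionRing R) b
    with hz'def
  have hιz : ι z' = z := by
    rw [hz'def, map_div₀, hι, hι, ← hzab]
    field_simp
  have hz' : z' ≠ 0 := by
    intro h0
    rw [h0, map_zero] at hιz
    exact hz hιz.symm
  have hhor' : ∀ Q : Ideal R, Q.IsPrime → Q.height = 1 → πR ∉ Q → UnitAt Q z' := by
    intro Q hQ hht hπQ
    obtain ⟨s, t, hs, ht, hst⟩ := hhor Q hQ hht hπQ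
    refine ⟨s, t, hs, ht, ι.injective ?_⟩
    rw [map_mul, hιz, hι, hι, hst]
  obtain ⟨a', b', ε', hε'⟩ :=
    hNC.exists_eq_zpow_mul_zpow_mul_unit (F := FractionRing R) vertical hπR0 hz' hhor'
  refine ⟨ϖ ^ a', b', ((ε' : R) : F), zpow_ne_zero _ unif_ne, (ε' : R).2, ?_, ?_⟩
  · have : (((ε'⁻¹ : Rˣ) : R) : F) = (((ε' : R) : F))⁻¹ := by
      have h1 : ((ε' : R) : F) * (((ε'⁻¹ : Rˣ) : R) : F) = 1 := by
        have h2 : (ε' : R) * ((ε'⁻¹ : Rˣ) : R) = 1 := Units.mul_inv ε'
        have h3 : (((ε' : R) * ((ε'⁻¹ : Rˣ) : R) : R) : F) = ((1 : R) : F) :=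
          congrArg Subtype.val h2
        rw [Subring.coe_mul, Subring.coe_one] at h3
        exact h3
      exact eq_inv_of_mul_eq_one_right h1
    rw [← this]
    exact ((ε'⁻¹ : Rˣ) : R).2
  · rw [← hιz, hε', map_mul, map_mul, map_zpow₀, map_zpow₀, hι, hι, hι, map_zpow₀]

open AlgebraicCurve Fermat.Agent.Red Fermat.Agent.BR.Centre in
/-- The constructor of `NodeLevel` without the engine field `n2` (which is a theorem). -/
def nodeLevelOfFields (A : ValuationSubring K) (T : Set (Place K F)) {u v ε₀ : F} {thick : K}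
    (thick_ne : thick ≠ 0) (thick_lt : A.valuation thick < 1) (uv : u * v = thick • ε₀)
    (R : Subring F) (K' : Subfield K) (ϖ : K)
    (noeth : IsNoetherianRing R) (intClosed : IsIntegrallyClosed R) (isLocal : IsLocalRing R)
    (const_mem : ∀ c ∈ K', c ∈ A → algebraMap K F c ∈ R)
    (unif_mem : ϖ ∈ K') (unif_ne : ϖ ≠ 0) (unif_lt : A.valuation ϖ < 1)
    (unif_max : ∀ c ∈ K', A.valuation c < 1 → A.valuation c ≤ A.valuation ϖ)
    (thick_mem : thick ∈ K') (unif_memR : algebraMap K F ϖ ∈ R) (u_mem : u ∈ R) (v_mem : v ∈ R)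
    (ε₀_mem : ε₀ ∈ R) (ε₀_inv_mem : ε₀⁻¹ ∈ R)
    (nonunit_mem : ∀ x : R, ¬ IsUnit x →
      x ∈ Ideal.span {(⟨algebraMap K F ϖ, unif_memR⟩ : R), ⟨u, u_mem⟩, ⟨v, v_mem⟩})
    (p1 p2 : Ideal R) (prime1 : p1.IsPrime) (prime2 : p2.IsPrime)
    (unif_mem_p1 : (⟨algebraMap K F ϖ, unif_memR⟩ : R) ∈ p1)
    (unif_mem_p2 : (⟨algebraMap K F ϖ, unif_memR⟩ : R) ∈ p2)
    (u_mem_p1 : (⟨u, u_mem⟩ : R) ∈ p1) (v_mem_p2 : (⟨v, v_mem⟩ : R) ∈ p2)
    (v_notMem_p1 : (⟨v, v_mem⟩ : R) ∉ p1) (u_notMem_p2 : (⟨u, u_mem⟩ : R) ∉ p2)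
    (vertical : ∀ Q : Ideal R, Q.IsPrime → Q.height = 1 →
      (⟨algebraMap K F ϖ, unif_memR⟩ : R) ∈ Q → Q = p1 ∨ Q = p2)
    (residue : ∀ y : R, ∃ (a : A) (h : algebraMap K F a ∈ R),
      ¬ IsUnit (y - ⟨algebraMap K F a, h⟩))
    (centred : ∀ P ∈ T, CentredAt A R P)
    (horiz : ∀ Q : Ideal R, Q.IsPrime → Q.height = 1 →
      (⟨algebraMap K F ϖ, unif_memR⟩ : R) ∉ Q →
      ∃ P ∈ T, ∀ x : R, x ∈ Q ↔ evalAt P (x : F) = 0) :
    NodeLevel A T u v ε₀ thick where
  R := R
  K' := K'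
  ϖ := ϖ
  noeth := noeth
  intClosed := intClosed
  isLocal := isLocal
  const_mem := const_mem
  unif_mem := unif_mem
  unif_ne := unif_ne
  unif_lt := unif_lt
  unif_max := unif_max
  thick_mem := thick_mem
  unif_memR := unif_memR
  u_mem := u_mem
  v_mem := v_mem
  ε₀_mem := ε₀_mem
  ε₀_inv_mem := ε₀_inv_mem
  nonunit_mem := nonunit_mem
  p1 := p1
  p2 := p2
  prime1 := prime1
  prime2 := prime2
  unif_mem_p1 := unif_mem_p1
  unif_mem_p2 := unif_mem_p2
  u_mem_p1 := u_mem_p1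
  v_mem_p2 := v_mem_p2
  v_notMem_p1 := v_notMem_p1
  u_notMem_p2 := u_notMem_p2
  vertical := vertical
  residue := residue
  centred := centred
  horiz := horiz
  n2 := n2_of_level A thick_ne thick_lt uv R K' ϖ const_mem unif_mem unif_ne unif_max thick_mem
    unif_memR u_mem v_mem ε₀_mem ε₀_inv_mem nonunit_mem p1 p2 prime1 prime2 unif_mem_p1
    unif_mem_p2 u_mem_p1 v_mem_p2 v_notMem_p1 u_notMem_p2 vertical

end Level

end Fermat.Agent.BR.S0.AnnulusN2Level
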