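import Mathlib
import Fermat.Agent.X0.Alg.Dict
import Fermat.Agent.Red.Values

/-!
# Program B (BADRED), node B6.6 (c): places of a function field and points of a Dedekind model

`k` a field, `Ft` a field over `k`, `R` a Dedekind domain with fraction field `Ft`, a `k`-algebra
(the coordinate ring `C_k` of the affine part of a component of the special fibre).

* `adicValuation_ofHeightOneSpectrum_lt_one_iff` : the valuation of the place of a height-one
  prime `w` is `< 1` exactly where `w.valuation` is;
* `exists_place_of_ringHom` : a `k`-point `φ : R → k` of `Spec R` (with nonzero kernel) is a place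
  `Q` of `Ft / k` at which every `r ∈ R` takes the value `φ r`;
* `place_eq_of_forall_isValueAt` : the functions of `R` separate the places of `Ft / k` at which
  they are all regular.
-/

set_option autoImplicit false
set_option linter.unusedSectionVars false

open AlgebraicCurve IsDedekindDomain WithZero

namespace Fermat.Agent.BR.S0.DedekindPlaces

open Fermat.Agent.X0 Fermat.Agent.Red

variable {k Ft : Type*} [Field k] [Field Ft] [Algebra k Ft]
variable {R : Type*} [CommRing R] [IsDedekindDomain R] [Algebra R Ft] [IsFractionRing R Ft]
  [Algebra k R] [IsScalarTower k R Ft]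

/-- The valuation of the place attached to a height-one prime `w` is `< 1` exactly where the
`w`-adic valuation is. -/
theorem adicValuation_ofHeightOneSpectrum_lt_one_iff (w : HeightOneSpectrum R) (f : Ft) :
    (Place.ofHeightOneSpectrum (K := k) (F := Ft) w).adicValuation f < 1 ↔
      w.valuation Ft f < 1 := by
  rw [adicValuation_lt_one_iff, Place.ord_ofHeightOneSpectrum]
  rcases eq_or_ne f 0 with rfl | hf
  · simp
  · have hv : w.valuation Ft f ≠ 0 := (Valuation.ne_zero_iff _).mpr hf
    rw [or_iff_right hf]
    constructor
    · intro h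
      rw [← exp_log hv, ← exp_zero, exp_lt_exp]
      omega
    · intro h
      rw [← exp_log hv, ← exp_zero, exp_lt_exp] at h
      omega

/-- A function of `R` vanishes at the place of `w` iff it lies in `w`. -/
theorem adicValuation_algebraMap_lt_one_iff (w : HeightOneSpectrum R) (r : R) :
    (Place.ofHeightOneSpectrum (K := k) (F := Ft) w).adicValuation (algebraMap R Ft r) < 1 ↔
      r ∈ w.asIdeal := by
  rw [adicValuation_ofHeightOneSpectrum_lt_one_iff, HeightOneSpectrum.valuation_lt_one_iff_mem]

/-- **A `k`-point of `Spec R` is a place.** `φ : R → k` a ring homomorphism which is the identity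
on the constants, with nonzero kernel (automatic when `R ≠ k`): there is a place `Q` of `Ft / k`
at which every function `r` of `R` is regular with value `φ r`. -/
theorem exists_place_of_ringHom (φ : R →+* k) (hφ : ∀ c : k, φ (algebraMap k R c) = c)
    (hker : RingHom.ker φ ≠ ⊥) :
    ∃ Q : Place k Ft, ∀ r : R, IsValueAt Q (algebraMap R Ft r) (φ r) := by
  have hprime : (RingHom.ker φ).IsPrime := RingHom.ker_isPrime φ
  let w : HeightOneSpectrum R := ⟨RingHom.ker φ, hprime, hker⟩
  refine ⟨Place.ofHeightOneSpectrum (K := k) (F := Ft) w, fun r => ?_⟩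
  unfold IsValueAt
  have e : algebraMap R Ft r - algebraMap k Ft (φ r) =
      algebraMap R Ft (r - algebraMap k R (φ r)) := by
    rw [map_sub, ← IsScalarTower.algebraMap_apply]
  rw [e, adicValuation_algebraMap_lt_one_iff]
  show r - algebraMap k R (φ r) ∈ RingHom.ker φ
  rw [RingHom.mem_ker, map_sub, hφ, sub_self]

/-- The kernel of a `k`-point is nonzero as soon as `R` contains a non-constant function. -/
theorem ker_ne_bot_of_not_const (φ : R →+* k) (hφ : ∀ c : k, φ (algebraMap k R c) = c)
    (t : R) (ht : ∀ c : k, t ≠ algebraMap k R c) : RingHom.ker φ ≠ ⊥ := by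
  intro hbot
  have h1 : t - algebraMap k R (φ t) ∈ RingHom.ker φ := by
    rw [RingHom.mem_ker, map_sub, hφ, sub_self]
  rw [hbot, Ideal.mem_bot, sub_eq_zero] at h1
  exact ht _ h1

/-- **The functions of `R` separate the places at which they are all regular.** -/
theorem place_eq_of_forall_isValueAt (Q Q' : Place k Ft)
    (h : ∀ r : R, ∃ c : k, IsValueAt Q (algebraMap R Ft r) c ∧
      IsValueAt Q' (algebraMap R Ft r) c) : Q = Q' := by
  obtain ⟨w, hw⟩ := Place.exists_ofHeightOneSpectrum_eq (R := R) Q fun r => by
    obtain ⟨c, hc, -⟩ := h r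
    exact hc.mem
  obtain ⟨w', hw'⟩ := Place.exists_ofHeightOneSpectrum_eq (R := R) Q' fun r => by
    obtain ⟨c, -, hc⟩ := h r
    exact hc.mem
  have hww : w = w' := by
    apply HeightOneSpectrum.ext
    ext r
    obtain ⟨c, hc, hc'⟩ := h r
    rw [← adicValuation_algebraMap_lt_one_iff (k := k) (Ft := Ft) w,
      ← adicValuation_algebraMap_lt_one_iff (k := k) (Ft := Ft) w', hw, hw',
      ← isValueAt_zero_iff, ← isValueAt_zero_iff]
    constructor
    · intro h0
      rw [hc.unique h0] at hc'
      exact hc'
    · intro h0
      rw [hc'.unique h0] at hc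
      exact hc
  rw [← hw, ← hw', hww]

end Fermat.Agent.BR.S0.DedekindPlaces
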