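import Mathlib
import Fermat.Agent.BR.S0.DedekindPlaces
import Fermat.Agent.BR.S0.PointDict

/-!
# Program B (BADRED), node B6.6 (c): separation and totality of the relational reduction, abstractly

`A ⊆ K` a valuation ring with residue map `π : A → k`, `(O, res)` a component (valuation ring of
`F` with residue map to `Ft`, compatible with `π` on the constants), `R₀ ≤ O` a chart ring.

* `constSpan A R₀` : the subring generated by the constants of `A` and `R₀` (the "`A`-span" of a
  chart defined over a smaller ring of constants); `integralAt_constSpan`, **`isRedOf_constSpan`**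
  (a reduction tested on `R₀` is a reduction tested on its `A`-span), `IsRedOf.of_le`;
* `separates_of_lift` : if a Dedekind model `D` of `Ft / k` is covered by the residues of the
  `A`-span of `R₀`, the residues of `R₀` separate the places (`PointDict.Separates`);
* `exists_isRedOf_of_ker_le` : a place `P` integral on `R₁`, a surjection `ρ : R₁ → D` onto a
  Dedekind model of `Ft / k` inducing `res`, `ker ρ ⊆ ker (y ↦ π (y(P)))` (the centre of `P` lies
  on the component) ⟹ `P` has a reduction `Q` on the component.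
-/

set_option autoImplicit false
set_option linter.unusedSectionVars false

namespace Fermat.Agent.BR.S0.RedTotal

open AlgebraicCurve Fermat.Agent.Red Fermat.Agent.BR.Centre Fermat.Agent.BR.S0.PointDict
  Fermat.Agent.BR.S0.DedekindPlaces

variable {K F k Ft : Type*} [Field K] [Field F] [Algebra K F] [Field k] [Field Ft] [Algebra k Ft]

/-- The subring of `F` generated by the constants of `A` and the chart ring `R₀`. -/
def constSpan (A : ValuationSubring K) (R₀ : Subring F) : Subring F :=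
  Subring.closure (algebraMap K F '' (A : Set K) ∪ (R₀ : Set F))

section Span

variable {A : ValuationSubring K} {R₀ : Subring F}

theorem le_constSpan : R₀ ≤ constSpan A R₀ :=
  fun _ hy => Subring.subset_closure (Or.inr hy)

theorem algebraMap_mem_constSpan {a : K} (ha : a ∈ A) : algebraMap K F a ∈ constSpan A R₀ :=
  Subring.subset_closure (Or.inl ⟨a, ha, rfl⟩)

theorem constSpan_le {S : Subring F} (hA : ∀ a ∈ A, algebraMap K F a ∈ S) (hR : R₀ ≤ S) :
    constSpan A R₀ ≤ S := by
  refine Subring.closure_le.2 ?_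
  rintro x (⟨a, ha, rfl⟩ | hx)
  · exact hA a ha
  · exact hR hx

/-- A place integral on `R₀` is integral on its `A`-span. -/
theorem integralAt_constSpan {P : Place K F} (h : IntegralAt A R₀ P) :
    IntegralAt A (constSpan A R₀) P := by
  let S : Subring F :=
    { carrier := {y | ∃ c : K, c ∈ A ∧ IsValueAt P y c}
      mul_mem' := by
        rintro x y ⟨c, hc, hx⟩ ⟨d, hd, hy⟩
        exact ⟨c * d, A.mul_mem _ _ hc hd, hx.mul hy⟩
      one_mem' := ⟨1, A.one_mem, isValueAt_one P⟩
      add_mem' := by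
        rintro x y ⟨c, hc, hx⟩ ⟨d, hd, hy⟩
        exact ⟨c + d, A.add_mem _ _ hc hd, hx.add hy⟩
      zero_mem' := ⟨0, A.zero_mem, isValueAt_zero P⟩
      neg_mem' := by
        rintro x ⟨c, hc, hx⟩
        exact ⟨-c, A.neg_mem _ hc, hx.neg⟩ }
  have hle : constSpan A R₀ ≤ S :=
    constSpan_le (fun a ha => ⟨a, ha, isValueAt_algebraMap P a⟩) fun y hy => h y hy
  exact fun y hy => hle hy

end Span

section Red

variable {A : ValuationSubring K} {π : A →+* k} {R₀ : Subring F} {O : ValuationSubring F}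
  {res : O →+* Ft}

/-- A reduction tested on `R` is a reduction tested on every smaller ring. -/
theorem IsRedOf.of_le {R R' : Subring F} {hRO : R ≤ O.toSubring} (hle : R' ≤ R) {P : Place K F}
    {Q : Place k Ft} (h : IsRedOf A π R O res hRO P Q) :
    IsRedOf A π R' O res (hle.trans hRO) P Q :=
  ⟨h.integralAt.mono hle, fun _ hy => h.isValueAt (hle hy)⟩

variable (hAO : ∀ a ∈ A, algebraMap K F a ∈ O)
  (hresA : ∀ (a : K) (ha : a ∈ A),
    res ⟨algebraMap K F a, hAO a ha⟩ = algebraMap k Ft (π ⟨a, ha⟩))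

include hresA in
/-- **A reduction tested on a chart `R₀` is a reduction tested on its `A`-span**: this is how one
passes from a chart defined over a small ring of constants (fixed by inertia) to the models over
bigger rings of constants. -/
theorem isRedOf_constSpan (hR₀ : R₀ ≤ O.toSubring) {P : Place K F} {Q : Place k Ft}
    (h : IsRedOf A π R₀ O res hR₀ P Q) :
    IsRedOf A π (constSpan A R₀) O res (constSpan_le hAO hR₀) P Q := by
  have hint := integralAt_constSpan h.integralAt
  let S : Subring F :=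
    { carrier := {y | ∃ hy : y ∈ O, ∃ (c : K) (hc : c ∈ A), IsValueAt P y c ∧
        IsValueAt Q (res ⟨y, hy⟩) (π ⟨c, hc⟩)}
      mul_mem' := by
        rintro x y ⟨hx, c, hc, hxc, hxq⟩ ⟨hy, d, hd, hyd, hyq⟩
        refine ⟨O.mul_mem _ _ hx hy, c * d, A.mul_mem _ _ hc hd, hxc.mul hyd, ?_⟩
        have e : (⟨x * y, O.mul_mem _ _ hx hy⟩ : O) = ⟨x, hx⟩ * ⟨y, hy⟩ := rfl
        have e' : (⟨c * d, A.mul_mem _ _ hc hd⟩ : A) = ⟨c, hc⟩ * ⟨d, hd⟩ := rfl
        rw [e, e', map_mul, map_mul]
        exact hxq.mul hyq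
      one_mem' := by
        refine ⟨O.one_mem, 1, A.one_mem, isValueAt_one P, ?_⟩
        have e : (⟨1, O.one_mem⟩ : O) = 1 := rfl
        have e' : (⟨1, A.one_mem⟩ : A) = 1 := rfl
        rw [e, e', map_one, map_one]
        exact isValueAt_one Q
      add_mem' := by
        rintro x y ⟨hx, c, hc, hxc, hxq⟩ ⟨hy, d, hd, hyd, hyq⟩
        refine ⟨O.add_mem _ _ hx hy, c + d, A.add_mem _ _ hc hd, hxc.add hyd, ?_⟩
        have e : (⟨x + y, O.add_mem _ _ hx hy⟩ : O) = ⟨x, hx⟩ + ⟨y, hy⟩ := rfl
        have e' : (⟨c + d, A.add_mem _ _ hc hd⟩ : A) = ⟨c, hc⟩ + ⟨d, hd⟩ := rfl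
        rw [e, e', map_add, map_add]
        exact hxq.add hyq
      zero_mem' := by
        refine ⟨O.zero_mem, 0, A.zero_mem, isValueAt_zero P, ?_⟩
        have e : (⟨0, O.zero_mem⟩ : O) = 0 := rfl
        have e' : (⟨0, A.zero_mem⟩ : A) = 0 := rfl
        rw [e, e', map_zero, map_zero]
        exact isValueAt_zero Q
      neg_mem' := by
        rintro x ⟨hx, c, hc, hxc, hxq⟩
        refine ⟨O.neg_mem _ hx, -c, A.neg_mem _ hc, hxc.neg, ?_⟩
        have e : (⟨-x, O.neg_mem _ hx⟩ : O) = -⟨x, hx⟩ := rfl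
        have e' : (⟨-c, A.neg_mem _ hc⟩ : A) = -⟨c, hc⟩ := rfl
        rw [e, e', map_neg, map_neg]
        exact hxq.neg }
  have hle : constSpan A R₀ ≤ S := by
    refine constSpan_le (fun a ha => ?_) fun y hy => ?_
    · refine ⟨hAO a ha, a, ha, isValueAt_algebraMap P a, ?_⟩
      rw [hresA a ha]
      exact isValueAt_algebraMap Q _
    · refine ⟨hR₀ hy, evalAt P y, h.integralAt.evalAt_mem hy,
        h.integralAt.isValueAt_evalAt hy, ?_⟩
      exact h.isValueAt hy
  refine ⟨hint, fun y hy => ?_⟩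
  obtain ⟨hyO, c, hc, hyc, hyq⟩ := hle hy
  have e : evHom A (constSpan A R₀) P hint ⟨y, hy⟩ = ⟨c, hc⟩ :=
    Subtype.ext (by rw [coe_evHom]; exact evalAt_eq_of_isValueAt hyc)
  rw [e]
  exact hyq

variable {D : Type*} [CommRing D] [IsDedekindDomain D] [Algebra D Ft] [IsFractionRing D Ft]
  [Algebra k D] [IsScalarTower k D Ft]

include hresA in
/-- **Separation**: if every function of a Dedekind model `D` of `Ft / k` is the residue of an
element of the `A`-span of the chart `R₀`, the residues of `R₀` separate the places of `Ft`. -/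
theorem separates_of_lift (hR₀ : R₀ ≤ O.toSubring)
    (hlift : ∀ d : D, ∃ y ∈ constSpan A R₀, ∃ hy : y ∈ O, res ⟨y, hy⟩ = algebraMap D Ft d) :
    Separates (k := k) R₀ O res hR₀ := by
  intro Q Q' h
  apply place_eq_of_forall_isValueAt (R := D)
  let S : Subring F :=
    { carrier := {y | ∃ hy : y ∈ O, ∃ c : k, IsValueAt Q (res ⟨y, hy⟩) c ∧
        IsValueAt Q' (res ⟨y, hy⟩) c}
      mul_mem' := by
        rintro x y ⟨hx, c, hxq, hxq'⟩ ⟨hy, d, hyq, hyq'⟩
        refine ⟨O.mul_mem _ _ hx hy, c * d, ?_, ?_⟩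
        · have e : (⟨x * y, O.mul_mem _ _ hx hy⟩ : O) = ⟨x, hx⟩ * ⟨y, hy⟩ := rfl
          rw [e, map_mul]
          exact hxq.mul hyq
        · have e : (⟨x * y, O.mul_mem _ _ hx hy⟩ : O) = ⟨x, hx⟩ * ⟨y, hy⟩ := rfl
          rw [e, map_mul]
          exact hxq'.mul hyq'
      one_mem' := by
        refine ⟨O.one_mem, 1, ?_, ?_⟩
        · have e : (⟨1, O.one_mem⟩ : O) = 1 := rfl
          rw [e, map_one]
          exact isValueAt_one Q
        · have e : (⟨1, O.one_mem⟩ : O) = 1 := rfl
          rw [e, map_one]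
          exact isValueAt_one Q'
      add_mem' := by
        rintro x y ⟨hx, c, hxq, hxq'⟩ ⟨hy, d, hyq, hyq'⟩
        refine ⟨O.add_mem _ _ hx hy, c + d, ?_, ?_⟩
        · have e : (⟨x + y, O.add_mem _ _ hx hy⟩ : O) = ⟨x, hx⟩ + ⟨y, hy⟩ := rfl
          rw [e, map_add]
          exact hxq.add hyq
        · have e : (⟨x + y, O.add_mem _ _ hx hy⟩ : O) = ⟨x, hx⟩ + ⟨y, hy⟩ := rfl
          rw [e, map_add]
          exact hxq'.add hyq'
      zero_mem' := by
        refine ⟨O.zero_mem, 0, ?_, ?_⟩
        · have e : (⟨0, O.zero_mem⟩ : O) = 0 := rfl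
          rw [e, map_zero]
          exact isValueAt_zero Q
        · have e : (⟨0, O.zero_mem⟩ : O) = 0 := rfl
          rw [e, map_zero]
          exact isValueAt_zero Q'
      neg_mem' := by
        rintro x ⟨hx, c, hxq, hxq'⟩
        refine ⟨O.neg_mem _ hx, -c, ?_, ?_⟩
        · have e : (⟨-x, O.neg_mem _ hx⟩ : O) = -⟨x, hx⟩ := rfl
          rw [e, map_neg]
          exact hxq.neg
        · have e : (⟨-x, O.neg_mem _ hx⟩ : O) = -⟨x, hx⟩ := rfl
          rw [e, map_neg]
          exact hxq'.neg }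
  have hle : constSpan A R₀ ≤ S := by
    refine constSpan_le (fun a ha => ?_) fun y hy => ?_
    · refine ⟨hAO a ha, π ⟨a, ha⟩, ?_, ?_⟩
      · rw [hresA a ha]
        exact isValueAt_algebraMap Q _
      · rw [hresA a ha]
        exact isValueAt_algebraMap Q' _
    · obtain ⟨c, hc, hc'⟩ := h y hy
      exact ⟨hR₀ hy, c, hc, hc'⟩
  intro d
  obtain ⟨y, hyS, hyO, hyd⟩ := hlift d
  obtain ⟨hyO', c, hc, hc'⟩ := hle hyS
  rw [← hyd]
  exact ⟨c, hc, hc'⟩

include hresA in
/-- **Totality on one component**: `P` integral on `R₁ ∋` constants, `ρ : R₁ → D` a surjection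
onto a Dedekind model of `Ft / k` inducing the residue map, and the centre of `P` contains the
component (`ker ρ ⊆ ker (y ↦ π (y(P)))`). Then `P` has a reduction `Q` on the component. -/
theorem exists_isRedOf_of_ker_le {R₁ : Subring F} (hR₁ : R₁ ≤ O.toSubring)
    (hconst : ∀ a ∈ A, algebraMap K F a ∈ R₁) (hπ : Function.Surjective π)
    (ρ : R₁ →+* D) (hρs : Function.Surjective ρ)
    (hρ : ∀ y : R₁, algebraMap D Ft (ρ y) = res ⟨y, hR₁ y.2⟩)
    (t : D) (ht : ∀ c : k, t ≠ algebraMap k D c)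
    {P : Place K F} (hint : IntegralAt A R₁ P)
    (hker : RingHom.ker ρ ≤ RingHom.ker (π.comp (evHom A R₁ P hint))) :
    ∃ Q : Place k Ft, IsRedOf A π R₁ O res hR₁ P Q := by
  let φ : D →+* k := RingHom.liftOfSurjective ρ hρs ⟨π.comp (evHom A R₁ P hint), hker⟩
  have hφρ : ∀ y : R₁, φ (ρ y) = π (evHom A R₁ P hint y) := fun y =>
    RingHom.liftOfRightInverse_comp_apply ρ _ (Function.surjInv_eq hρs)
      ⟨π.comp (evHom A R₁ P hint), hker⟩ y
  have hinj : Function.Injective (algebraMap D Ft) := IsFractionRing.injective D Ft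
  have hφc : ∀ c : k, φ (algebraMap k D c) = c := by
    intro c
    obtain ⟨a, rfl⟩ := hπ c
    have e1 : ρ ⟨algebraMap K F (a : K), hconst _ a.2⟩ = algebraMap k D (π a) := by
      apply hinj
      rw [hρ, ← IsScalarTower.algebraMap_apply]
      exact hresA (a : K) a.2
    rw [← e1, hφρ]
    congr 1
    apply Subtype.ext
    rw [coe_evHom]
    exact evalAt_algebraMap P _
  obtain ⟨Q, hQ⟩ := exists_place_of_ringHom (Ft := Ft) φ hφc
    (ker_ne_bot_of_not_const φ hφc t ht)
  refine ⟨Q, hint, fun y hy => ?_⟩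
  have h1 := hQ (ρ ⟨y, hy⟩)
  rw [hρ, hφρ] at h1
  exact h1

end Red

end Fermat.Agent.BR.S0.RedTotal
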