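import Fermat.Agent.BR.S0.RedHyp
import Fermat.Agent.BR.S0.RedTotal
import Fermat.Agent.BR.S0.SmoothAssembly
import Fermat.Agent.BR.Inst.Inf.NoCrossAtlas
import Fermat.Agent.BR.Inst.Inf.SpecialIsoInf

/-!
# Program B (BADRED), node B6.6 (c): totality of the reduction of `X₀(qM)` from ONE level

* `total_fin_of_levelHyp`, `total_inf_of_levelHyp` (abstract, any `RedModular.ChartData`): a place
  integral on the chart has a reduction tested on the chart, as soon as ONE level model `C ⊇` chart
  satisfies helper24's `SmoothAssembly.LevelHyp` (then `LevelHyp.total` + restriction);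
* `integralAt_chartFin_or_chartInf` : every place of `F̄_{Mq}` is integral on the finite chart or on
  the chart at infinity (`j(P) ∈ B` or `(1/j)(P) ∈ B`);
* `integralAt_of_isIntegral_AJ`, `integralAt_of_isIntegral_AJinf` : a place integral on the
  `ℤ_(q)`-chart is integral on every ring integral over `B[j]` (resp. `B[1/j]`) — the `hint` of
  the level models;
* `total_f_modular`, `total_i_modular`, **`geomInputs_of_levels`** : `RedHyp.GeomInputs B hB hqM`
  from the separation (`sep_f`, `sep_i`) and one `LevelHyp` for the finite chart and one for the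
  chart at infinity (`no_cross_inf` is helper11's `NoCrossAtlas.no_cross_inf_modular`);
  `atlasHyp_of_levels`.
-/

set_option autoImplicit false
set_option linter.unusedSectionVars false
set_option linter.style.haveILetI false

noncomputable section

namespace Fermat.Agent.BR.S0.RedHyp

open ModularCurve ModularCurve.IgusaScheme AlgebraicCurve IsLocalRing
open Fermat.Agent.X0 Fermat.Agent.Val Fermat.Agent.Red Fermat.Agent.BR.Centre
open Fermat.Agent.BR.TwoVal Fermat.Agent.BR.TwoValInst Fermat.Agent.BR.TwoValQ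
open Fermat.Agent.BR.ConstRedTwo Fermat.Agent.BR.Inst Fermat.Agent.Good.Bridge
open Fermat.Agent.BR.S0.RedMap Fermat.Agent.BR.S0.RedModular Fermat.Agent.BR.S0.PointDict
open Fermat.Agent.BR.S0.SmoothAssembly Fermat.Agent.BR.S0.RedTotal

/-! ### abstract: totality on a chart from one level -/

section Abstract

variable {K F k Ft : Type*} [Field K] [Field F] [Algebra K F] [Field k] [Field Ft] [Algebra k Ft]
  {A : ValuationSubring K} {π : A →+* k}
  {Dk : Type*} [CommRing Dk] [IsDedekindDomain Dk] [Algebra Dk Ft] [IsFractionRing Dk Ft]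
  [Algebra k Dk] [IsScalarTower k Dk Ft]
  {D : ChartData A π Ft F} {C : Subring F} {ϖ : K} {P₀ P₁ : Ideal C} {red₀ red₁ : C →+* Dk}

/-- Totality on the finite chart from one level model containing it. -/
theorem total_fin_of_levelHyp (L : LevelHyp D C ϖ P₀ P₁ red₀ red₁) (hnf : ¬ IsField Dk)
    (hπ0 : ∀ a : A, A.valuation (a : K) < 1 → π a = 0)
    (hres : ∀ v (a : K) (ha : a ∈ A) (h : algebraMap K F a ∈ D.O v),
      D.res v ⟨algebraMap K F a, h⟩ = algebraMap k Ft (π ⟨a, ha⟩))
    (hRC : D.Rfin ≤ C)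
    (hint : ∀ P : Place K F, IntegralAt A D.Rfin P → IntegralAt A C P)
    (P : Place K F) (hP : IntegralAt A D.Rfin P) :
    ∃ (i : Fin 2) (Q : Place k Ft), IsRedOf A π D.Rfin (D.O i) (D.res i) (D.hfin i) P Q := by
  obtain ⟨v, Q, h⟩ := L.total hnf hπ0 hres P (hint P hP)
  exact ⟨v, Q, IsRedOf.of_le hRC h⟩

/-- Totality on the chart at infinity from one level model containing it. -/
theorem total_inf_of_levelHyp (L : LevelHyp D C ϖ P₀ P₁ red₀ red₁) (hnf : ¬ IsField Dk)
    (hπ0 : ∀ a : A, A.valuation (a : K) < 1 → π a = 0)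
    (hres : ∀ v (a : K) (ha : a ∈ A) (h : algebraMap K F a ∈ D.O v),
      D.res v ⟨algebraMap K F a, h⟩ = algebraMap k Ft (π ⟨a, ha⟩))
    (hRC : D.Rinf ≤ C)
    (hint : ∀ P : Place K F, IntegralAt A D.Rinf P → IntegralAt A C P)
    (P : Place K F) (hP : IntegralAt A D.Rinf P) :
    ∃ (i : Fin 2) (Q : Place k Ft), IsRedOf A π D.Rinf (D.O i) (D.res i) (D.hinf i) P Q := by
  obtain ⟨v, Q, h⟩ := L.total hnf hπ0 hres P (hint P hP)
  exact ⟨v, Q, IsRedOf.of_le hRC h⟩

end Abstract

/-! ### the modular instance -/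

section Modular

set_option synthInstance.maxHeartbeats 400000

variable {M q : ℕ} [NeZero M] [hqF : Fact q.Prime]
variable (B : ValuationSubring Kb) (hB : B.LiesOverPrime q) (hqM : ¬ q ∣ M)

local notation "kB" => IsLocalRing.ResidueField B
local notation "FtM" => modularFunctionFieldFullC (IsLocalRing.ResidueField B) M

include hB in
/-- **Every place is integral on the finite chart or on the chart at infinity.** -/
theorem integralAt_chartFin_or_chartInf (P : Place Kb (Fb (M * q))) :
    IntegralAt B (chartFin (M := M) (q := q)) P ∨ IntegralAt B (chartInf (M := M) (q := q)) P := by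
  have hdeg := place_deg_eq_one P
  have hinv : barEmb (M * q) (jFull (M * q))⁻¹ = (jx M q)⁻¹ := map_inv₀ _ _
  have key : ∀ c : Kb, IsValueAt P (jx M q) c →
      IntegralAt B (chartFin (M := M) (q := q)) P ∨
        IntegralAt B (chartInf (M := M) (q := q)) P := by
    intro c hc
    by_cases hcB : c ∈ B
    · exact Or.inl ((integralAt_chartBarFin_iff hB hdeg).mpr ⟨c, hcB, hc⟩)
    · have hc0 : c ≠ 0 := by
        rintro rfl
        exact hcB B.zero_mem
      have hcinv : c⁻¹ ∈ B := (B.mem_or_inv_mem c).resolve_left hcB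
      refine Or.inr ((integralAt_chartBarInf_iff hB hdeg).mpr ⟨c⁻¹, hcinv, ?_⟩)
      rw [hinv]
      exact IsValueAt.inv hc hc0
  by_cases hmem : jx M q ∈ P.toValuationSubring
  · obtain ⟨c, hc⟩ := exists_isValueAt P hdeg hmem
    exact key c hc
  · have hmem' : (jx M q)⁻¹ ∈ P.toValuationSubring :=
      (P.toValuationSubring.mem_or_inv_mem (jx M q)).resolve_left hmem
    obtain ⟨c, hc⟩ := exists_isValueAt P hdeg hmem'
    by_cases hc0 : c = 0
    · subst hc0
      refine Or.inr ((integralAt_chartBarInf_iff hB hdeg).mpr ⟨0, B.zero_mem, ?_⟩)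
      rw [hinv]
      exact hc
    · have h2 := IsValueAt.inv hc hc0
      rw [inv_inv] at h2
      exact absurd h2.mem hmem

/-- `B[j] ⊆` the `B`-span of the finite chart. -/
theorem AJ_le_constSpan_chartFin :
    SpecIso.AJ M q B ≤ constSpan B (chartFin (M := M) (q := q)) := by
  refine Subring.closure_le.2 ?_
  rintro y (⟨a, ha, rfl⟩ | hy)
  · exact algebraMap_mem_constSpan ha
  · rw [Set.mem_singleton_iff.mp hy, ← jx_eq_jOne]
    exact le_constSpan jx_mem_chartFin

/-- `B[1/j] ⊆` the `B`-span of the chart at infinity. -/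
theorem AJinf_le_constSpan_chartInf :
    SpecIsoInf.AJinf M q B ≤ constSpan B (chartInf (M := M) (q := q)) := by
  refine Subring.closure_le.2 ?_
  rintro y (⟨a, ha, rfl⟩ | hy)
  · exact algebraMap_mem_constSpan ha
  · rw [Set.mem_singleton_iff.mp hy, ← jx_eq_jOne]
    exact le_constSpan jx_inv_mem_chartInf

/-- A place integral on the finite `ℤ_(q)`-chart is integral on every ring integral over
`B[j]`. -/
theorem integralAt_of_isIntegral_AJ {C : Subring (Fb (M * q))}
    (hC : ∀ y ∈ C, IsIntegral ↥(SpecIso.AJ M q B) y) (P : Place Kb (Fb (M * q)))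
    (hP : IntegralAt B (chartFin (M := M) (q := q)) P) : IntegralAt B C P := by
  have h1 : IntegralAt B (SpecIso.AJ M q B) P :=
    (integralAt_constSpan hP).mono (AJ_le_constSpan_chartFin B)
  exact fun y hy => h1.of_isIntegral (place_deg_eq_one P) (hC y hy)

/-- A place integral on the `ℤ_(q)`-chart at infinity is integral on every ring integral over
`B[1/j]`. -/
theorem integralAt_of_isIntegral_AJinf {C : Subring (Fb (M * q))}
    (hC : ∀ y ∈ C, IsIntegral ↥(SpecIsoInf.AJinf M q B) y) (P : Place Kb (Fb (M * q)))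
    (hP : IntegralAt B (chartInf (M := M) (q := q)) P) : IntegralAt B C P := by
  have h1 : IntegralAt B (SpecIsoInf.AJinf M q B) P :=
    (integralAt_constSpan hP).mono (AJinf_le_constSpan_chartInf B)
  exact fun y hy => h1.of_isIntegral (place_deg_eq_one P) (hC y hy)

theorem res_algebraMap_modular (v : Fin 2) (a : Kb) (ha : a ∈ B)
    (h : algebraMap Kb (Fb (M * q)) a ∈ (chartDataModular B hB hqM).O v) :
    (chartDataModular B hB hqM).res v ⟨algebraMap Kb (Fb (M * q)) a, h⟩ =
      algebraMap kB FtM (IsLocalRing.residue B ⟨a, ha⟩) :=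
  (compW B hB hqM v).res_algebraMap a ha h

variable {Dk : Type*} [CommRing Dk] [IsDedekindDomain Dk]
  [Algebra Dk ↥(modularFunctionFieldFullC (IsLocalRing.ResidueField B) M)]
  [IsFractionRing Dk ↥(modularFunctionFieldFullC (IsLocalRing.ResidueField B) M)]
  [Algebra (IsLocalRing.ResidueField B) Dk]
  [IsScalarTower (IsLocalRing.ResidueField B) Dk
    ↥(modularFunctionFieldFullC (IsLocalRing.ResidueField B) M)]

/-- **`total_f`** of `GeomInputs` from one level model of the finite chart. -/
theorem total_f_modular {C : Subring (Fb (M * q))} {ϖ : Kb} {P₀ P₁ : Ideal C}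
    {red₀ red₁ : C →+* Dk} (L : LevelHyp (chartDataModular B hB hqM) C ϖ P₀ P₁ red₀ red₁)
    (hnf : ¬ IsField Dk) (hRC : chartFin (M := M) (q := q) ≤ C)
    (hC : ∀ y ∈ C, IsIntegral ↥(SpecIso.AJ M q B) y)
    (P : Place Kb (Fb (M * q))) (hP : IntegralAt B (chartFin (M := M) (q := q)) P) :
    ∃ (i : Fin 2) (Q : Place kB FtM), IsRedOf B (IsLocalRing.residue B) chartFin
      (compW B hB hqM i).O (compW B hB hqM i).res (chartFin_le B hB hqM i) P Q :=
  total_fin_of_levelHyp (D := chartDataModular B hB hqM) L hnf (pi_zero_modular B hB hqM)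
    (res_algebraMap_modular B hB hqM) hRC (integralAt_of_isIntegral_AJ B hC) P hP

variable {Dk' : Type*} [CommRing Dk'] [IsDedekindDomain Dk']
  [Algebra Dk' ↥(modularFunctionFieldFullC (IsLocalRing.ResidueField B) M)]
  [IsFractionRing Dk' ↥(modularFunctionFieldFullC (IsLocalRing.ResidueField B) M)]
  [Algebra (IsLocalRing.ResidueField B) Dk']
  [IsScalarTower (IsLocalRing.ResidueField B) Dk'
    ↥(modularFunctionFieldFullC (IsLocalRing.ResidueField B) M)]

/-- **`total_i`** of `GeomInputs` from one level model of the chart at infinity. -/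
theorem total_i_modular {C : Subring (Fb (M * q))} {ϖ : Kb} {P₀ P₁ : Ideal C}
    {red₀ red₁ : C →+* Dk'} (L : LevelHyp (chartDataModular B hB hqM) C ϖ P₀ P₁ red₀ red₁)
    (hnf : ¬ IsField Dk') (hRC : chartInf (M := M) (q := q) ≤ C)
    (hC : ∀ y ∈ C, IsIntegral ↥(SpecIsoInf.AJinf M q B) y)
    (P : Place Kb (Fb (M * q))) (hP : ¬ IntegralAt B (chartFin (M := M) (q := q)) P) :
    ∃ (i : Fin 2) (Q : Place kB FtM), IsRedOf B (IsLocalRing.residue B) chartInf
      (compW B hB hqM i).O (compW B hB hqM i).res (chartInf_le B hB hqM i) P Q :=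
  total_inf_of_levelHyp (D := chartDataModular B hB hqM) L hnf (pi_zero_modular B hB hqM)
    (res_algebraMap_modular B hB hqM) hRC (integralAt_of_isIntegral_AJinf B hC) P
    ((integralAt_chartFin_or_chartInf B hB P).resolve_left hP)

/-- **The geometric inputs of the atlas of `X₀(qM)` at `q`** from the separation of the two charts
and ONE level model of each chart satisfying `SmoothAssembly.LevelHyp`. -/
theorem geomInputs_of_levels
    (sep_f : ∀ i, Separates (k := kB) (chartFin (M := M) (q := q)) (compW B hB hqM i).O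
      (compW B hB hqM i).res (chartFin_le B hB hqM i))
    (sep_i : ∀ i, Separates (k := kB) (chartInf (M := M) (q := q)) (compW B hB hqM i).O
      (compW B hB hqM i).res (chartInf_le B hB hqM i))
    {C : Subring (Fb (M * q))} {ϖ : Kb} {P₀ P₁ : Ideal C} {red₀ red₁ : C →+* Dk}
    (L : LevelHyp (chartDataModular B hB hqM) C ϖ P₀ P₁ red₀ red₁) (hnf : ¬ IsField Dk)
    (hRC : chartFin (M := M) (q := q) ≤ C) (hC : ∀ y ∈ C, IsIntegral ↥(SpecIso.AJ M q B) y)
    {C' : Subring (Fb (M * q))} {ϖ' : Kb} {P₀' P₁' : Ideal C'} {red₀' red₁' : C' →+* Dk'}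
    (L' : LevelHyp (chartDataModular B hB hqM) C' ϖ' P₀' P₁' red₀' red₁') (hnf' : ¬ IsField Dk')
    (hRC' : chartInf (M := M) (q := q) ≤ C')
    (hC' : ∀ y ∈ C', IsIntegral ↥(SpecIsoInf.AJinf M q B) y) : GeomInputs B hB hqM :=
  Inf.NoCrossAtlas.geomInputs_of B hB hqM sep_f sep_i
    (total_f_modular B hB hqM L hnf hRC hC) (total_i_modular B hB hqM L' hnf' hRC' hC')

/-- **The atlas hypotheses of `X₀(qM)` at `q`** from the separation and one level of each chart. -/
theorem atlasHyp_of_levels
    (sep_f : ∀ i, Separates (k := kB) (chartFin (M := M) (q := q)) (compW B hB hqM i).O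
      (compW B hB hqM i).res (chartFin_le B hB hqM i))
    (sep_i : ∀ i, Separates (k := kB) (chartInf (M := M) (q := q)) (compW B hB hqM i).O
      (compW B hB hqM i).res (chartInf_le B hB hqM i))
    {C : Subring (Fb (M * q))} {ϖ : Kb} {P₀ P₁ : Ideal C} {red₀ red₁ : C →+* Dk}
    (L : LevelHyp (chartDataModular B hB hqM) C ϖ P₀ P₁ red₀ red₁) (hnf : ¬ IsField Dk)
    (hRC : chartFin (M := M) (q := q) ≤ C) (hC : ∀ y ∈ C, IsIntegral ↥(SpecIso.AJ M q B) y)
    {C' : Subring (Fb (M * q))} {ϖ' : Kb} {P₀' P₁' : Ideal C'} {red₀' red₁' : C' →+* Dk'}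
    (L' : LevelHyp (chartDataModular B hB hqM) C' ϖ' P₀' P₁' red₀' red₁') (hnf' : ¬ IsField Dk')
    (hRC' : chartInf (M := M) (q := q) ≤ C')
    (hC' : ∀ y ∈ C', IsIntegral ↥(SpecIsoInf.AJinf M q B) y) :
    AtlasHyp (chartDataModular B hB hqM) (jx M q) :=
  atlasHyp_modular B hB hqM
    (geomInputs_of_levels B hB hqM sep_f sep_i L hnf hRC hC L' hnf' hRC' hC')

end Modular

end Fermat.Agent.BR.S0.RedHyp
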