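import Mathlib
import Fermat.Agent.BR.S0.Thick
import Fermat.Agent.BR.S0.ThickGlue
import Fermat.Agent.BR.S0.PointDict
import Fermat.Agent.BR.S0.RedModularInst
import Fermat.Agent.BR.Inst.ModUnitNode
import Fermat.Agent.BR.Inst.SpecialIsoModel
import Fermat.Agent.BR.ZeroCount
import Fermat.Agent.FF.PlacesCoord

/-!
# Program B (BADRED), node B6.6-THICK, part 3a: the coordinate ring `Ck M A` and the two reductions
of a level model (base file of `BR/S0/ThickInst.lean`)

* generic: `isFractionRing_integralClosure_adjoin` (the integral closure of `K[x]` in a finite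
  extension `F` of `K(x)` has fraction field `F`), `mem_of_mem_integralClosure_adjoin` (a place at
  which `x` is regular is regular on the integral closure of `K[x]`);
* `Ck M A` (helper6: integral closure of `k[j̃]` in `F̃_M`): `isScalarTower_Ck`, `isFractionRing_Ck`,
  `mem_valuationSubring_Ck` (a zero of `G(j̃)` is regular on `Ck M A`);
* for `H : TwoCompInst.ModelHyp A hA hqM K' W π' C` (helper22): `ratLocalized_mem_W`
  (`ℤ_(q) ⊆ W`), `model_isIntegral`, `chartFin_le_model` (`chartFin ≤ C`), the reductions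
  `red₁ H`, `red₂ H : C →+* Ck M A` (helper6's `redOne`, `redTwo`), `ker_red₁ : ker = H.P1`,
  `ker_red₂`, `red₁_surjective`, `red₂_surjective` (from `hFull`: `W` has full residue field),
  `algebraMap_red₁` / `algebraMap_red₂` (the reductions are the residue maps of `constRedW1`,
  `constRedW2`), `algebraMap_red₁_TC` (`res₁ T = H(j̃)`), `exists_const`;
* `crossingInput'`, `isDedekindDomain_quot_P1'`, `isDedekindDomain_quot_P2'`,
  `crossing_transversal'` : helper6's `crossingInput` and helper28's `crossing_transversal` for the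
  primes `H.P1`, `H.P2` of helper22 (level `M` model := `ChartInModel.modelOf`).
-/

set_option autoImplicit false
set_option linter.unusedSectionVars false
set_option linter.style.haveILetI false
set_option synthInstance.maxHeartbeats 400000
set_option maxHeartbeats 1600000

noncomputable section

namespace Fermat.Agent.BR.S0.ThickInst

open ModularCurve ModularCurve.IgusaScheme AlgebraicCurve IsLocalRing Polynomial IsDedekindDomain
open Fermat.Agent.X0 Fermat.Agent.Val Fermat.Agent.Red Fermat.Agent.Good.Bridge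
open Fermat.Agent.BR.TwoVal Fermat.Agent.BR.TwoValInst Fermat.Agent.BR.ConstRedTwo
open Fermat.Agent.BR.Inst Fermat.Agent.BR.Inst.SpecIso Fermat.Agent.BR.Inst.TwoCompInst
open Fermat.Agent.BR.Inst.NormalGen Fermat.Agent.BR.Inst.NormalModel
open Fermat.Agent.BR.Inst.ChartInModel Fermat.Agent.BR.Inst.ModUnitNode
open Fermat.Agent.BR.ModUnit Fermat.Agent.BR.SpecialFibre
open Fermat.Agent.BR.S0.RedModular Fermat.Agent.BR.S0.PointDict Fermat.Agent.BR.S0.Thick

/-! ### Generic: the integral closure of `K[x]` in a function field -/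

section Generic

open IntermediateField

variable {K F : Type*} [Field K] [Field F] [Algebra K F]

open scoped algebraAdjoinAdjoin in
/-- The integral closure of `K[x]` in a finite extension `F` of `K(x)` has fraction field `F`. -/
theorem isFractionRing_integralClosure_adjoin (x : F) [FiniteDimensional K⟮x⟯ F] :
    IsFractionRing ↥(integralClosure ↥(Algebra.adjoin K {x}) F) F := by
  haveI : IsScalarTower ↥(Algebra.adjoin K {x}) ↥K⟮x⟯ F :=
    IsScalarTower.of_algebraMap_eq (fun _ => rfl)
  exact integralClosure.isFractionRing_of_finite_extension ↥K⟮x⟯ F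

/-- A place at which `x` is regular is regular on the integral closure of `K[x]`. -/
theorem mem_of_mem_integralClosure_adjoin (Q : Place K F) {x : F}
    (hx : x ∈ Q.toValuationSubring) (d : ↥(integralClosure ↥(Algebra.adjoin K {x}) F)) :
    (d : F) ∈ Q.toValuationSubring := by
  have hle : ∀ y ∈ Algebra.adjoin K {x}, y ∈ Q.toValuationSubring := by
    intro y hy
    induction hy using Algebra.adjoin_induction with
    | mem z hz => rw [Set.mem_singleton_iff.mp hz]; exact hx
    | algebraMap r => exact Q.algebraMap_mem' r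
    | add a b _ _ ha hb => exact Q.toValuationSubring.add_mem _ _ ha hb
    | mul a b _ _ ha hb => exact Q.toValuationSubring.mul_mem _ _ ha hb
  let f : ↥(Algebra.adjoin K {x}) →+* ↥Q.toValuationSubring :=
    { toFun := fun y => ⟨y, hle y y.2⟩
      map_one' := rfl
      map_mul' := fun _ _ => rfl
      map_zero' := rfl
      map_add' := fun _ _ => rfl }
  have h1 : IsIntegral ↥(Algebra.adjoin K {x}) (d : F) := d.2
  have h2 : IsIntegral ↥Q.toValuationSubring (d : F) :=
    h1.map_of_comp_eq f (RingHom.id F) (by ext z; rfl)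
  obtain ⟨z, hz⟩ := IsIntegrallyClosed.isIntegral_iff.mp h2
  rw [← hz]
  exact z.2

end Generic

variable {M q : ℕ} [NeZero M] [hq : Fact q.Prime]
variable {A : ValuationSubring Kb} {hA : A.LiesOverPrime q} {hqM : ¬ q ∣ M}

local notation "kA" => IsLocalRing.ResidueField A
local notation "FtM" => modularFunctionFieldFullC (IsLocalRing.ResidueField A) M

/-! ### The coordinate ring `Ck M A` of the components -/

variable (M A) in
theorem isScalarTower_Ck : IsScalarTower kA ↥(Ck M A) FtM :=
  IsScalarTower.of_algebraMap_eq (fun _ => rfl)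

variable (A hA hqM) in
include hA hqM in
/-- `F̃_M` is the fraction field of `Ck M A`. -/
theorem isFractionRing_Ck : IsFractionRing ↥(Ck M A) FtM := by
  have hsep := Val.isSepVarS_jFullC_residueField M hqM A hA
  haveI := hsep.finite
  exact isFractionRing_integralClosure_adjoin (Val.jFullC kA M)

variable (A hA hqM) in
include hA hqM in
/-- A zero of `G(j̃)` is a place at which `j̃`, hence `Ck M A`, is regular. -/
theorem mem_valuationSubring_Ck (Q : Place kA FtM) {G : kA[X]} (hG : G ≠ 0)
    (hpos : 0 < Q.ord (aeval (Val.jFullC kA M) G)) (d : ↥(Ck M A)) :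
    algebraMap ↥(Ck M A) FtM d ∈ Q.toValuationSubring := by
  have hsep := Val.isSepVarS_jFullC_residueField M hqM A hA
  refine mem_of_mem_integralClosure_adjoin Q (Fermat.Agent.X0.Place.mem_of_ord_nonneg Q ?_) d
  by_contra hneg
  rw [not_le] at hneg
  have h1 := ZeroCount.ord_aeval_eq_mul Q hneg hG
  have h2 : (G.natDegree : ℤ) * Q.ord (Val.jFullC kA M) ≤ 0 :=
    mul_nonpos_of_nonneg_of_nonpos (Int.natCast_nonneg _) hneg.le
  omega

/-! ### The two reductions of a level model -/

variable {K' : Subfield Kb} {W : Subring Kb} {π' : Kb} {C : Subring (Fb (M * q))}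

/-- `ℤ_(q) ⊆ W = A ∩ K'`. -/
theorem ratLocalized_mem_W (H : ModelHyp A hA hqM K' W π' C)
    (r : ↥(GaloisRep.ratLocalizedAt q)) :
    algebraMap ℚ Kb ((r : ↥(GaloisRep.ratLocalizedAt q)) : ℚ) ∈ W := by
  rw [H.hW]
  refine ⟨?_, ?_⟩
  · have := Fermat.Agent.Good.ResAlg.ratCast_mem_of_mem_ratLocalizedAt A hA r.2
    rwa [← eq_ratCast (algebraMap ℚ Kb)] at this
  · rw [eq_ratCast]
    exact SubfieldClass.ratCast_mem K' _

theorem model_isIntegral (H : ModelHyp A hA hqM K' W π' C) :
    ∀ x ∈ C, IsIntegral ↥(AJ M q A) x :=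
  model_isIntegral_AJ A H.W_le_A H.hC

/-- the finite chart `ℤ_(q)[j]~` lies in every level model -/
theorem chartFin_le_model (H : ModelHyp A hA hqM K' W π' C) :
    chartFin (M := M) (q := q) ≤ C := by
  intro y hy
  obtain ⟨b, hb, rfl⟩ := mem_chartBar_iff.mp hy
  exact barEmb_mem_model_of_mem_chartAlgFin (M * q) q (ratLocalized_mem_W H) H.hC hb

/-- the reduction of the model onto the component `0` -/
def red₁ (H : ModelHyp A hA hqM K' W π' C) : ↥C →+* ↥(Ck M A) :=
  redOne A hA hqM C (model_isIntegral H)

/-- the reduction of the model onto the component `1` -/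
def red₂ (H : ModelHyp A hA hqM K' W π' C) : ↥C →+* ↥(Ck M A) :=
  redTwo A hA hqM C (model_isIntegral H)

theorem ker_red₁ (H : ModelHyp A hA hqM K' W π' C) : RingHom.ker (red₁ H) = H.P1 := by
  ext x
  rw [red₁, mem_ker_redOne]
  exact H.mem_P1_iff.symm

theorem ker_red₂ (H : ModelHyp A hA hqM K' W π' C) : RingHom.ker (red₂ H) = H.P2 := by
  ext x
  rw [red₂, mem_ker_redTwo]
  exact H.mem_P2_iff.symm

variable (hFull : ∀ a ∈ A, ∃ a' ∈ (W : Set Kb), a - a' ∈ A.nonunits)

include hFull in
theorem red₁_surjective (H : ModelHyp A hA hqM K' W π' C) : Function.Surjective (red₁ H) :=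
  redOne_surjective A hA hqM C (model_isIntegral H) (W : Set Kb) hFull
    (alpha_GM_mem A hA H.hC (isModel_modelOf (modelBase M W) (modelField M K')) H.W_le_K
      (ratLocalized_mem_W H))

include hFull in
theorem red₂_surjective (H : ModelHyp A hA hqM K' W π' C) : Function.Surjective (red₂ H) :=
  redTwo_surjective A hA hqM C (model_isIntegral H) (W : Set Kb) hFull
    (beta_GM_mem A hA H.hC (isModel_modelOf (modelBase M W) (modelField M K')) H.W_le_K
      (ratLocalized_mem_W H))

/-- the residue of a chart function on the component `0` is its reduction -/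
theorem algebraMap_red₁ (H : ModelHyp A hA hqM K' W π' C) (x : ↥C) :
    algebraMap ↥(Ck M A) FtM (red₁ H x) =
      (constRedW1 A hA hqM).res ⟨x, H.le_O1 x⟩ := rfl

/-- the residue of a chart function on the component `1` is its reduction -/
theorem algebraMap_red₂ (H : ModelHyp A hA hqM K' W π' C) (x : ↥C) :
    algebraMap ↥(Ck M A) FtM (red₂ H x) =
      (constRedW2 A hA hqM).res ⟨x, H.le_O2 x⟩ := rfl

/-- `res₁ T = H(j̃)` -/
theorem algebraMap_red₁_TC (H : ModelHyp A hA hqM K' W π' C) :
    haveI := charP_res q A hA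
    algebraMap ↥(Ck M A) FtM (red₁ H (TC H)) = aeval (jFullC kA M) (TbarPolyK kA q) :=
  coe_redOne_TB M q A hA hqM C (model_isIntegral H) _

include hFull in
/-- the constants of the residue field lift to the model, compatibly with both reductions -/
theorem exists_const (H : ModelHyp A hA hqM K' W π' C) (c : kA) :
    ∃ a : ↥C, red₁ H a = algebraMap kA ↥(Ck M A) c ∧ red₂ H a = algebraMap kA ↥(Ck M A) c := by
  obtain ⟨a', ha'W, ha'A, rfl⟩ := exists_residue_eq A (W : Set Kb) hFull c
  refine ⟨⟨algebraMap Kb (Fb (M * q)) a', H.const_mem ha'W⟩, Subtype.ext ?_, Subtype.ext ?_⟩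
  · exact red1F_algebraMap A hA hqM ha'A
  · exact red2F_algebraMap A hA hqM ha'A

/-! ### The crossing lemma for the primes `H.P1`, `H.P2` -/

include hFull in
/-- helper6's `crossingInput` for the primes `H.P1`, `H.P2` of helper22. -/
theorem crossingInput' (H : ModelHyp A hA hqM K' W π' C) :
    CrossingFF.CrossingInput A hA hqM C (modelOf (modelBase M W) (modelField M K')) H.P1 H.P2 := by
  have hci := crossingInput A hA hqM H.W_le_A H.hC
    (isModel_modelOf (modelBase M W) (modelField M K')) H.W_le_K (ratLocalized_mem_W H) hFull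
  exact ⟨hci.le_OM, hci.alpha_mem, hci.beta_mem, fun x => H.mem_P1_iff, fun x => H.mem_P2_iff,
    hci.S1, hci.S2, hci.untwist⟩

include hFull in
theorem isDedekindDomain_quot_P1' (H : ModelHyp A hA hqM K' W π' C) :
    IsDedekindDomain (↥C ⧸ H.P1) := by
  haveI := isDedekindDomain_Ck A hA hqM
  exact isDedekindDomain_of_ringEquiv (S := ↥(Ck M A))
    ((Ideal.quotEquivOfEq (ker_red₁ H).symm).trans
      (RingHom.quotientKerEquivOfSurjective (red₁_surjective hFull H)))

include hFull in
theorem isDedekindDomain_quot_P2' (H : ModelHyp A hA hqM K' W π' C) :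
    IsDedekindDomain (↥C ⧸ H.P2) := by
  haveI := isDedekindDomain_Ck A hA hqM
  exact isDedekindDomain_of_ringEquiv (S := ↥(Ck M A))
    ((Ideal.quotEquivOfEq (ker_red₂ H).symm).trans
      (RingHom.quotientKerEquivOfSurjective (red₂_surjective hFull H)))

include hFull in
/-- **Transversality at a crossing point** of the level model (helper28's `crossing_transversal`)
for the primes `H.P1`, `H.P2`. -/
theorem crossing_transversal' (H : ModelHyp A hA hqM K' W π' C) (n : Ideal ↥C) [n.IsPrime]
    (hp1 : H.P1 ≤ n) (hp2 : H.P2 ≤ n) :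
    ∃ u v : ↥C, u ∈ H.P1 ∧ v ∈ H.P2 ∧
      (∀ x ∈ n, ∃ s, s ∉ n ∧ s * x ∈ H.P1 ⊔ Ideal.span {v}) ∧
      (∀ x ∈ n, ∃ s, s ∉ n ∧ s * x ∈ H.P2 ⊔ Ideal.span {u}) := by
  haveI := isDedekindDomain_quot_P1' hFull H
  haveI := isDedekindDomain_quot_P2' hFull H
  exact (crossingInput' hFull H).crossing_transversal n H.tKron_mem H.sKron_mem hp1 hp2

end Fermat.Agent.BR.S0.ThickInst
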