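import Mathlib
import Fermat.Agent.BR.S0.ThickInstBase
import Fermat.Agent.BR.S0.Thick
import Fermat.Agent.BR.S0.ThickGlue
import Fermat.Agent.BR.S0.PointDict
import Fermat.Agent.BR.S0.RedModularInst
import Fermat.Agent.BR.Inst.ModUnitNode
import Fermat.Agent.BR.Inst.SpecialIsoModel
import Fermat.Agent.BR.ZeroCount
import Fermat.Agent.FF.PlacesCoord

/-!
# Program B (BADRED), node B6.6-THICK, part 3: the inputs (Z)/(T) of the SANDWICH for `X₀(qM)`

The two pointwise inputs `hzero`, `hord` of helper12's `S0.Modular.twoCompDeliverable_of_atlas`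
(`BR/S0/Inst.lean`), in its shapes, from the data of ONE level of the normal models:

`H : TwoCompInst.ModelHyp A hA hqM K' W π' C` (helper22: `C` the normal model over `W = A ∩ K'`,
uniformizer `π'`), `hval` (`W` is a discrete valuation ring), `hFull` (`W` has full residue
field), `hu : QUnif W π' q e₀ ε` (`q = π'^e₀ ε`).

* `hzero_modular` : every zero `Q` of `T̄₁ = H(j̃)` on the component `0` is glued to a point of the
  component `1` on the finite chart (`PointDict.GluedF (chartDataModular A hA hqM) Q Q₂`);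
* `ord_le_twelve` : `ord_Q T̄₁ ≤ 12` at every place `Q` (for `e₀ = 1`, i.e. `π' = q` up to a unit);
* `hord_modular` : the same at the crossings `z₁ e`.

Route: `D = Ck M A` (helper6: integral closure of `k[j̃]` in `F̃_M`), `ρ₁ ρ₂ = redOne, redTwo`,
`T = TC H`, `T'' = TC'' H hu` (helper2), `Thick.exists_crossing_of_ord_pos`, `Thick.ord_le`,
helper28's `crossing_transversal` through helper6's `crossingInput`, `Thick.exists_glued` and the
restriction of the glued pair along `chartFin ≤ C`.
-/

set_option autoImplicit false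
set_option linter.unusedSectionVars false
set_option linter.style.haveILetI false
set_option synthInstance.maxHeartbeats 400000
set_option maxHeartbeats 1600000

noncomputable section

namespace Fermat.Agent.BR.S0.ThickInst

open ModularCurve ModularCurve.IgusaScheme AlgebraicCurve IsLocalRing Polynomial IsDedekindDomain
open Fermat.Agent.X0 Fermat.Agent.Val Fermat.Agent.Red Fermat.Agent.Good.Bridge
open Fermat.Agent.BR.TwoVal Fermat.Agent.BR.TwoValInst Fermat.Agent.BR.ConstRedTwo
open Fermat.Agent.BR.Inst Fermat.Agent.BR.Inst.SpecIso Fermat.Agent.BR.Inst.TwoCompInst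
open Fermat.Agent.BR.Inst.NormalGen Fermat.Agent.BR.Inst.NormalModel
open Fermat.Agent.BR.Inst.ChartInModel Fermat.Agent.BR.Inst.ModUnitNode
open Fermat.Agent.BR.ModUnit Fermat.Agent.BR.SpecialFibre
open Fermat.Agent.BR.S0.RedModular Fermat.Agent.BR.S0.PointDict Fermat.Agent.BR.S0.Thick

variable {M q : ℕ} [NeZero M] [hq : Fact q.Prime]
variable {A : ValuationSubring Kb} {hA : A.LiesOverPrime q} {hqM : ¬ q ∣ M}

local notation "kA" => IsLocalRing.ResidueField A
local notation "FtM" => modularFunctionFieldFullC (IsLocalRing.ResidueField A) M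

variable {K' : Subfield Kb} {W : Subring Kb} {π' : Kb} {C : Subring (Fb (M * q))}

variable (hFull : ∀ a ∈ A, ∃ a' ∈ (W : Set Kb), a - a' ∈ A.nonunits)

/-! ### (Z) and (T) -/

variable (hval : ∀ x ∈ K', x ≠ 0 → ∃ n : ℤ, A.valuation x = A.valuation π' ^ n)

include hFull hval in
/-- A zero `Q` of `T̄₁ = H(j̃)` is the place of a height-one prime `w` of `Ck M A` whose point of the
model is a crossing point. -/
theorem exists_crossing_of_zero (H : ModelHyp A hA hqM K' W π' C) {e₀ : ℕ} {ε : Kb}
    (hu : QUnif W π' q e₀ ε) :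
    haveI := charP_res q A hA
    haveI := isDedekindDomain_Ck A hA hqM
    haveI := isFractionRing_Ck A hA hqM
    haveI := isScalarTower_Ck M A
    ∀ Q : Place kA FtM, 0 < Q.ord (aeval (jFullC kA M) (TbarPolyK kA q)) →
      ∃ w : HeightOneSpectrum ↥(Ck M A),
        Place.ofHeightOneSpectrum (K := kA) (F := FtM) w = Q ∧
          H.P1 ⊔ H.P2 ≤ pointOf (red₁ H) w := by
  haveI := charP_res q A hA
  haveI := isDedekindDomain_Ck A hA hqM
  haveI := isFractionRing_Ck A hA hqM
  haveI := isScalarTower_Ck M A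
  haveI := H.isNoetherianRing hval
  haveI := H.isIntegrallyClosed hval
  intro Q hpos
  have hQreg : ∀ d : ↥(Ck M A), algebraMap ↥(Ck M A) FtM d ∈ Q.toValuationSubring :=
    mem_valuationSubring_Ck A hA hqM Q (TbarPolyK_ne_zero kA q) hpos
  refine exists_crossing_of_ord_pos (k := kA) H.twoComponents (ker_red₁ H) (TC_mul_TC'' H hu)
    (TC_notMem_P1 H) Q hQreg ?_
  rw [algebraMap_red₁_TC H]
  exact hpos

include hFull hval in
/-- **(T)** `ord_Q T̄₁ ≤ 12` at every place `Q` of the component `0` (level with `π' = q` up to a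
unit). -/
theorem ord_le_twelve (H : ModelHyp A hA hqM K' W π' C) {ε : Kb} (hu : QUnif W π' q 1 ε) :
    haveI := charP_res q A hA
    ∀ Q : Place kA FtM, Q.ord (aeval (jFullC kA M) (TbarPolyK kA q)) ≤ 12 := by
  haveI := charP_res q A hA
  intro Q
  by_cases hpos : 0 < Q.ord (aeval (jFullC kA M) (TbarPolyK kA q))
  swap
  · omega
  haveI := isDedekindDomain_Ck A hA hqM
  haveI := isFractionRing_Ck A hA hqM
  haveI := isScalarTower_Ck M A
  haveI := H.isNoetherianRing hval
  haveI := H.isIntegrallyClosed hval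
  obtain ⟨w, rfl, hcross⟩ := exists_crossing_of_zero hFull hval H hu Q hpos
  have hnP : (pointOf (red₁ H) w).IsPrime := pointOf_isPrime (red₁ H) w
  obtain ⟨u, v, hu1, hv2, hv1, hu2⟩ := crossing_transversal' hFull H _
    (le_sup_left.trans hcross) (le_sup_right.trans hcross)
  have hsurj : Function.Surjective (red₁ H) := red₁_surjective hFull H
  have hker : RingHom.ker (red₁ H) = H.P1 := ker_red₁ H
  have h := ord_le (k := kA) (Ft := FtM) H.twoComponents (hsurj) (hker) w
    (le_sup_right.trans hcross) hu1 hv2 hv1 hu2 (by norm_num) (TC_mul_TC'' H hu)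
    (TC_notMem_P1 H) (TC''_notMem_P2 H hu)
  rw [algebraMap_red₁_TC H] at h
  exact_mod_cast h

include hFull hval in
/-- **(T)** in the shape of `S0.Modular.twoCompDeliverable_of_atlas`. -/
theorem hord_modular (H : ModelHyp A hA hqM K' W π' C) {ε : Kb} (hu : QUnif W π' q 1 ε) :
    haveI := charP_res q A hA
    ∀ e : Crossing (chartDataModular A hA hqM),
      (z₁ (chartDataModular A hA hqM) e).ord (aeval (jFullC kA M) (TbarPolyK kA q)) ≤ 12 :=
  fun _ => ord_le_twelve hFull hval H hu _

set_option maxSynthPendingDepth 3 in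
include hFull hval in
/-- **(Z)** in the shape of `S0.Modular.twoCompDeliverable_of_atlas`: every zero of `T̄₁ = H(j̃)` on
the component `0` is glued to a point of the component `1`. -/
theorem hzero_modular (H : ModelHyp A hA hqM K' W π' C) {e₀ : ℕ} {ε : Kb}
    (hu : QUnif W π' q e₀ ε) :
    haveI := charP_res q A hA
    ∀ Q : Place kA FtM, 0 < Q.ord (aeval (jFullC kA M) (TbarPolyK kA q)) →
      ∃ Q₂, GluedF (chartDataModular A hA hqM) Q Q₂ := by
  haveI := charP_res q A hA
  haveI : IsAlgClosed kA := residueField_isAlgClosed A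
  haveI := isDedekindDomain_Ck A hA hqM
  haveI := isFractionRing_Ck A hA hqM
  haveI := isScalarTower_Ck M A
  intro Q hpos
  obtain ⟨w, rfl, hcross⟩ := exists_crossing_of_zero hFull hval H hu Q hpos
  have hsep := Val.isSepVarS_jFullC_residueField M hqM A hA
  have hres : ∀ d : ↥(Ck M A), ∃ c : kA, d - algebraMap kA ↥(Ck M A) c ∈ w.asIdeal := by
    intro d
    have hd : algebraMap ↥(Ck M A) FtM d ∈
        (Place.ofHeightOneSpectrum (K := kA) (F := FtM) w).toValuationSubring := by
      rw [Place.ofHeightOneSpectrum_toValuationSubring, Valuation.mem_valuationSubring_iff]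
      exact w.valuation_le_one d
    obtain ⟨c, hc⟩ := Fermat.Agent.FF.Place.exists_adicValuation_sub_lt_one_S hsep _ hd
    exact ⟨c, (isValueAt_ofHeightOneSpectrum_iff w d c).mp hc⟩
  have hsurj₂ : Function.Surjective (red₂ H) := red₂_surjective hFull H
  have hker₂ : RingHom.ker (red₂ H) = H.P2 := ker_red₂ H
  obtain ⟨w₂, -, hglue⟩ := exists_glued (ρ₁ := red₁ H) (k := kA) (Ft := FtM) hsurj₂
    hker₂ (exists_const hFull H) w hres (le_sup_right.trans hcross)
    ⟨TC' H, le_sup_left.trans hcross (TC'_mem_P1 H), TC'_notMem_P2 H⟩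
  refine ⟨Place.ofHeightOneSpectrum (K := kA) (F := FtM) w₂, fun y hy => ?_⟩
  obtain ⟨c, h1, h2⟩ := hglue ⟨y, chartFin_le_model H hy⟩
  exact ⟨c, h1, h2⟩

end Fermat.Agent.BR.S0.ThickInst
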