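import Mathlib
import Fermat.Agent.BR.S0.ThickInst
import Fermat.Agent.BR.Inst.LevelsInst
import Fermat.Agent.BR.UnramCyclo

/-!
# Program B (BADRED), node B6.6-THICK, part 4: (Z) and (T) for `X₀(qM)`, UNCONDITIONALLY

The closed forms of the two inputs `hzero`, `hord` of helper12's
`S0.Modular.twoCompDeliverable_of_atlas` (`BR/S0/Inst.lean`) = the fields `hzero`, `hord` of
helper14's `Final.ModularData`, with no hypothesis: `BR/S0/ThickInst.lean` at the base level

`K₀ = ℚ(μ_{prime to q})` (helper17's `UnramCyclo.cycloField`), `W₀ = B ∩ K₀`, `π' = q`,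

which is unramified at `q` (`isDVRField_cycloField`), has full residue field
(`fullRes_cycloField`) and satisfies `(★')` (helper4's `LevelsInst.levelHyp_of_frame`).

* `levelHyp_base B hB hqM : LevelsInst.LevelHyp B hB hqM (K0 q) (W0 B q) (q : Kb)`;
* `hzero_modular B hB hqM`, `hord_modular B hB hqM`, `ord_le_twelve B hB hqM`.
-/

set_option autoImplicit false
set_option linter.unusedSectionVars false
set_option linter.style.haveILetI false
set_option synthInstance.maxHeartbeats 400000
set_option maxHeartbeats 1600000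

noncomputable section

namespace Fermat.Agent.BR.S0.ThickFinal

open ModularCurve AlgebraicCurve IsLocalRing Polynomial
open Fermat.Agent.X0 Fermat.Agent.Val Fermat.Agent.Good.Bridge
open Fermat.Agent.BR.ModUnit Fermat.Agent.BR.UnramCyclo
open Fermat.Agent.BR.Inst.LevelsInst Fermat.Agent.BR.Inst.ModUnitNode
open Fermat.Agent.BR.S0.RedModular Fermat.Agent.BR.S0.PointDict

variable {M q : ℕ} [NeZero M] [hq : Fact q.Prime]

/-- the base coefficient field `K₀ = ℚ(μ_{prime to q})` -/
def K0 (q : ℕ) : Subfield Kb := (cycloField Kb q).toSubfield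

/-- `W₀ = B ∩ K₀` -/
def W0 (B : ValuationSubring Kb) (q : ℕ) : Subring Kb := B.toSubring ⊓ (K0 q).toSubring

variable (B : ValuationSubring Kb) (hB : B.LiesOverPrime q) (hqM : ¬ q ∣ M)

local notation "kB" => IsLocalRing.ResidueField B
local notation "FtM" => modularFunctionFieldFullC (IsLocalRing.ResidueField B) M

/-- **The base level** `(K₀, B ∩ K₀, q)` satisfies the hypotheses of a level. -/
theorem levelHyp_base : LevelHyp B hB hqM (K0 q) (W0 B q) (q : Kb) :=
  levelHyp_of_frame B hB hqM (fun _ => Iff.rfl) (isDVRField_cycloField B hq.out hB).1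
    (Nat.cast_ne_zero.mpr hq.out.ne_zero) (isDVRField_cycloField B hq.out hB).2.1
    (isDVRField_cycloField B hq.out hB).2.2
    (fun a ha => by
      obtain ⟨a', h1, h2, h3⟩ := fullRes_cycloField B hq.out hB a ha
      exact ⟨a', ⟨h2, h1⟩, h3⟩)

/-- **(Z)**, field `hzero` of `Final.ModularData`: every zero of `T̄₁ = H(j̃)` on the component `0`
is glued to a point of the component `1`. -/
theorem hzero_modular :
    haveI := charP_res q B hB
    ∀ Q : Place kB FtM, 0 < Q.ord (aeval (jFullC kB M) (TbarPolyK kB q)) →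
      ∃ Q₂, GluedF (chartDataModular B hB hqM) Q Q₂ :=
  ThickInst.hzero_modular (fun a ha => (levelHyp_base B hB hqM).full a ha)
    (levelHyp_base B hB hqM).hdvr (levelHyp_base B hB hqM).modelHyp (QUnif.self (W0 B q) q)

include hqM in
/-- **(T)** at every place: `ord_Q T̄₁ ≤ 12`. -/
theorem ord_le_twelve :
    haveI := charP_res q B hB
    ∀ Q : Place kB FtM, Q.ord (aeval (jFullC kB M) (TbarPolyK kB q)) ≤ 12 :=
  ThickInst.ord_le_twelve (fun a ha => (levelHyp_base B hB hqM).full a ha)
    (levelHyp_base B hB hqM).hdvr (levelHyp_base B hB hqM).modelHyp (QUnif.self (W0 B q) q)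

/-- **(T)**, field `hord` of `Final.ModularData`. -/
theorem hord_modular :
    haveI := charP_res q B hB
    ∀ e : Crossing (chartDataModular B hB hqM),
      (z₁ (chartDataModular B hB hqM) e).ord (aeval (jFullC kB M) (TbarPolyK kB q)) ≤ 12 :=
  fun _ => ord_le_twelve B hB hqM _

end Fermat.Agent.BR.S0.ThickFinal
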