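import Mathlib
import Fermat.Agent.BR.S0.AnnulusChartOfLevels
import Fermat.Agent.BR.S0.CrossingModel
import Fermat.Agent.BR.Inst.SmoothInstGen

/-!
# Program B (BADRED), block B7.5 (producer), part (iii): the branch data of the levels from the
global models at a crossing

`BR/S0/AnnulusChartOfLevels` turns a directed family of finite levels `L : AnnulusLevels A T ι` of
the tube of a node `e` together with its branch data `BranchData S₀ e L` into the contract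
`Circle.AnnulusChart S₀ e`.  Here the branch data are produced from the GLOBAL models at the
crossing (`S0.CrossingModel`, helper19 / helper23's `CrossingAssembly.crossingModel_of_level`) when
the levels are the local rings of the models at the point: `(L.level i).R = (M i).loc`.

* `exists_mem_ord_res_eq_one` : a model whose reduction on a component is ONTO a Dedekind chart of
  that component (fields `hred₀ / surj₀`, `hred₁ / surj₁` of `S0.SmoothAssembly.LevelHyp`) contains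
  a function whose reduction has order one at a given point where the reductions are regular
  (helper22's `exists_ord_eq_one_of_dedekind` lifted along the reduction);
* `branchData_of_models` : `BranchData S₀ e L` from the models: `le₁ le₂ := loc_le₁/₂`,
  `branch₁ branch₂ := loc_branch₁/₂`; `v_src`, `u_tgt`, `comp` and the two uniformizers (as elements
  of some model) stay named;
* `branchData_of_models_of_red` : the same with the two uniformizers produced from reductions onto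
  Dedekind charts at some level;
* `annulusChartOfModels`, `annulusChartOfModelsOfRed : Circle.AnnulusChart S₀ e`, with
  `u`/`thick` simp lemmas (`rfl`).
-/

set_option autoImplicit false
set_option linter.unusedSectionVars false

noncomputable section

namespace Fermat.Agent.BR.S0.BranchDataOfModels

open AlgebraicCurve IsLocalRing Fermat.Agent.Red Fermat.Agent.BR.Centre Fermat.Agent.BR.SS
  Fermat.Agent.BR.Refine Fermat.Agent.BR.Circle Fermat.Agent.BR.S0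
  Fermat.Agent.BR.S0.AnnulusChartOfLevels

/-! ### A uniformizer in a model which reduces onto a Dedekind chart -/

section Unif

variable {k Ft : Type*} [Field k] [Field Ft] [Algebra k Ft] {F : Type*} [Field F]
  {Dk : Type*} [CommRing Dk] [IsDedekindDomain Dk] [Algebra Dk Ft] [IsFractionRing Dk Ft]

/-- A Dedekind chart on which `Q` is finite contains a function of order one at `Q`
(`IsFractionRing` form of helper22's `exists_ord_eq_one_of_dedekind`). -/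
theorem exists_ord_algebraMap_eq_one (Q : Place k Ft)
    (hQD : ∀ d : Dk, Q.adicValuation (algebraMap Dk Ft d) ≤ 1) :
    ∃ τ : Dk, Q.ord (algebraMap Dk Ft τ) = 1 := by
  refine Inst.SmoothInstGen.exists_ord_eq_one_of_dedekind (algebraMap Dk Ft) Q
    (IsFractionRing.injective Dk Ft) (fun y => ?_) hQD
  obtain ⟨a, b, hb, hab⟩ := IsFractionRing.div_surjective (A := Dk) y
  have hb0 : b ≠ 0 := nonZeroDivisors.ne_zero hb
  have hb' : algebraMap Dk Ft b ≠ 0 := fun h =>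
    hb0 (IsFractionRing.injective Dk Ft (by rw [h, map_zero]))
  refine ⟨a, b, hb0, ?_⟩
  rw [← hab, div_mul_cancel₀ _ hb']

/-- **A uniformizer in the model.**  If the reduction of the model `C` on a component is onto a
Dedekind chart `Dk` of the component and the reductions are regular at `Q`, some function of `C`
reduces to a function of order one at `Q`. -/
theorem exists_mem_ord_res_eq_one {O : ValuationSubring F} {res : O →+* Ft} {C : Subring F}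
    (le : ∀ x ∈ C, x ∈ O) (Q : Place k Ft)
    (hreg : ∀ x : C, Q.adicValuation (res ⟨x, le x x.2⟩) ≤ 1)
    (red : C →+* Dk) (hred : ∀ x : C, algebraMap Dk Ft (red x) = res ⟨x, le x x.2⟩)
    (hsurj : Function.Surjective red) :
    ∃ t : C, Q.ord (res ⟨t, le t t.2⟩) = 1 := by
  have hQD : ∀ d : Dk, Q.adicValuation (algebraMap Dk Ft d) ≤ 1 := fun d => by
    obtain ⟨x, rfl⟩ := hsurj d
    rw [hred]
    exact hreg x
  obtain ⟨τ, hτ⟩ := exists_ord_algebraMap_eq_one Q hQD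
  obtain ⟨t, rfl⟩ := hsurj τ
  exact ⟨t, by rw [← hred]; exact hτ⟩

end Unif

/-! ### Transport of non-units along an equality of subrings -/

section Transport

variable {F : Type*} [Field F]

theorem not_isUnit_of_subring_eq {S S' : Subring F} (h : S = S') {y : S} (hy : ¬ IsUnit y) :
    ¬ IsUnit (⟨(y : F), h ▸ y.2⟩ : S') := by
  subst h
  exact hy

end Transport

/-! ### The branch data from the models -/

variable {K : Type} {F : Type*} [Field K] [Field F] [Algebra K F]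
  {A : ValuationSubring K} [IsAlgClosed (ResidueField A)]
  {ι₀ : Type} {Ft₀ : ι₀ → Type} [∀ v, Field (Ft₀ v)] [∀ v, Algebra (ResidueField A) (Ft₀ v)]
  {ν₀ : Type}
  {S₀ : SemistableSetup (F := F) A (residue A) ι₀ Ft₀ ν₀} {e : ν₀} {ι : Type*}
  {L : AnnulusLevels A (tube S₀ e) ι} {C : ι → Subring F} {ϖ : ι → K}

/-- `hres0` of `CrossingModel.loc_le₁` etc. for a component of a semistable setup. -/
theorem hres0_setup (w : ι₀) :
    ∀ x : S₀.O w, (x : F) ∈ (S₀.O w).nonunits → S₀.res w x = 0 :=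
  fun x hx => BranchData.res_eq_zero_of_mem_nonunits (S₀ := S₀) w hx x.2

/-- **The branch data of the levels from the global models at the crossing.** -/
theorem branchData_of_models
    (M : ∀ i, CrossingModel A (residue A) (S₀.O (S₀.src e)) (S₀.O (S₀.tgt e))
      (S₀.res (S₀.src e)) (S₀.res (S₀.tgt e)) (S₀.s₁ e) (S₀.s₂ e) (tube S₀ e) (C i) (ϖ i))
    (hR : ∀ i, (L.level i).R = (M i).loc)
    (v_src : L.v ∈ (S₀.O (S₀.src e)).nonunits) (u_tgt : L.u ∈ (S₀.O (S₀.tgt e)).nonunits)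
    (unif₁ : ∃ i, ∃ t : C i,
      (S₀.s₁ e).ord (S₀.res (S₀.src e) ⟨t, (M i).le₁ t t.2⟩) = 1)
    (unif₂ : ∃ i, ∃ t : C i,
      (S₀.s₂ e).ord (S₀.res (S₀.tgt e) ⟨t, (M i).le₂ t t.2⟩) = 1)
    (comp : ∀ v, v = S₀.src e ∨ v = S₀.tgt e) : BranchData S₀ e L where
  le₁ i y hy := (M i).loc_le₁ (hres0_setup (S₀ := S₀) (S₀.src e)) y (hR i ▸ hy)
  le₂ i y hy := (M i).loc_le₂ (hres0_setup (S₀ := S₀) (S₀.tgt e)) y (hR i ▸ hy)
  branch₁ i y hy := (M i).loc_branch₁ ⟨(y : F), hR i ▸ y.2⟩ (not_isUnit_of_subring_eq (hR i) hy) _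
  branch₂ i y hy := (M i).loc_branch₂ ⟨(y : F), hR i ▸ y.2⟩ (not_isUnit_of_subring_eq (hR i) hy) _
  v_src := v_src
  u_tgt := u_tgt
  unif₁ := by
    obtain ⟨i, t, ht⟩ := unif₁
    exact ⟨i, ⟨(t : F), (hR i).symm ▸ (M i).le_loc t.2⟩, ht⟩
  unif₂ := by
    obtain ⟨i, t, ht⟩ := unif₂
    exact ⟨i, ⟨(t : F), (hR i).symm ▸ (M i).le_loc t.2⟩, ht⟩
  comp := comp

/-- **The branch data of the levels from the global models**, the two uniformizers being produced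
from reductions of some models onto Dedekind charts of the two components (fields `hred / surj` of
`S0.SmoothAssembly.LevelHyp`). -/
theorem branchData_of_models_of_red
    (M : ∀ i, CrossingModel A (residue A) (S₀.O (S₀.src e)) (S₀.O (S₀.tgt e))
      (S₀.res (S₀.src e)) (S₀.res (S₀.tgt e)) (S₀.s₁ e) (S₀.s₂ e) (tube S₀ e) (C i) (ϖ i))
    (hR : ∀ i, (L.level i).R = (M i).loc)
    (v_src : L.v ∈ (S₀.O (S₀.src e)).nonunits) (u_tgt : L.u ∈ (S₀.O (S₀.tgt e)).nonunits)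
    {Dk₁ : Type*} [CommRing Dk₁] [IsDedekindDomain Dk₁] [Algebra Dk₁ (Ft₀ (S₀.src e))]
    [IsFractionRing Dk₁ (Ft₀ (S₀.src e))]
    {Dk₂ : Type*} [CommRing Dk₂] [IsDedekindDomain Dk₂] [Algebra Dk₂ (Ft₀ (S₀.tgt e))]
    [IsFractionRing Dk₂ (Ft₀ (S₀.tgt e))]
    (i₁ : ι) (red₁ : C i₁ →+* Dk₁)
    (hred₁ : ∀ x : C i₁, algebraMap Dk₁ (Ft₀ (S₀.src e)) (red₁ x) =
      S₀.res (S₀.src e) ⟨x, (M i₁).le₁ x x.2⟩)
    (hsurj₁ : Function.Surjective red₁)
    (i₂ : ι) (red₂ : C i₂ →+* Dk₂)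
    (hred₂ : ∀ x : C i₂, algebraMap Dk₂ (Ft₀ (S₀.tgt e)) (red₂ x) =
      S₀.res (S₀.tgt e) ⟨x, (M i₂).le₂ x x.2⟩)
    (hsurj₂ : Function.Surjective red₂)
    (comp : ∀ v, v = S₀.src e ∨ v = S₀.tgt e) : BranchData S₀ e L :=
  branchData_of_models M hR v_src u_tgt
    ⟨i₁, exists_mem_ord_res_eq_one (M i₁).le₁ (S₀.s₁ e) (M i₁).regular₁ red₁ hred₁ hsurj₁⟩
    ⟨i₂, exists_mem_ord_res_eq_one (M i₂).le₂ (S₀.s₂ e) (M i₂).regular₂ red₂ hred₂ hsurj₂⟩ comp

/-! ### The annulus chart from the models -/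

/-- **The annulus chart of the node `e` from the global models at the crossing.** -/
def annulusChartOfModels
    (M : ∀ i, CrossingModel A (residue A) (S₀.O (S₀.src e)) (S₀.O (S₀.tgt e))
      (S₀.res (S₀.src e)) (S₀.res (S₀.tgt e)) (S₀.s₁ e) (S₀.s₂ e) (tube S₀ e) (C i) (ϖ i))
    (hR : ∀ i, (L.level i).R = (M i).loc)
    (v_src : L.v ∈ (S₀.O (S₀.src e)).nonunits) (u_tgt : L.u ∈ (S₀.O (S₀.tgt e)).nonunits)
    (unif₁ : ∃ i, ∃ t : C i,
      (S₀.s₁ e).ord (S₀.res (S₀.src e) ⟨t, (M i).le₁ t t.2⟩) = 1)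
    (unif₂ : ∃ i, ∃ t : C i,
      (S₀.s₂ e).ord (S₀.res (S₀.tgt e) ⟨t, (M i).le₂ t t.2⟩) = 1)
    (comp : ∀ v, v = S₀.src e ∨ v = S₀.tgt e) : AnnulusChart S₀ e :=
  (branchData_of_models M hR v_src u_tgt unif₁ unif₂ comp).annulusChartOfLevels

@[simp] theorem annulusChartOfModels_u
    (M : ∀ i, CrossingModel A (residue A) (S₀.O (S₀.src e)) (S₀.O (S₀.tgt e))
      (S₀.res (S₀.src e)) (S₀.res (S₀.tgt e)) (S₀.s₁ e) (S₀.s₂ e) (tube S₀ e) (C i) (ϖ i))
    (hR : ∀ i, (L.level i).R = (M i).loc)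
    (v_src : L.v ∈ (S₀.O (S₀.src e)).nonunits) (u_tgt : L.u ∈ (S₀.O (S₀.tgt e)).nonunits)
    (unif₁ : ∃ i, ∃ t : C i,
      (S₀.s₁ e).ord (S₀.res (S₀.src e) ⟨t, (M i).le₁ t t.2⟩) = 1)
    (unif₂ : ∃ i, ∃ t : C i,
      (S₀.s₂ e).ord (S₀.res (S₀.tgt e) ⟨t, (M i).le₂ t t.2⟩) = 1)
    (comp : ∀ v, v = S₀.src e ∨ v = S₀.tgt e) :
    (annulusChartOfModels M hR v_src u_tgt unif₁ unif₂ comp).u = L.u := rfl

@[simp] theorem annulusChartOfModels_thick
    (M : ∀ i, CrossingModel A (residue A) (S₀.O (S₀.src e)) (S₀.O (S₀.tgt e))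
      (S₀.res (S₀.src e)) (S₀.res (S₀.tgt e)) (S₀.s₁ e) (S₀.s₂ e) (tube S₀ e) (C i) (ϖ i))
    (hR : ∀ i, (L.level i).R = (M i).loc)
    (v_src : L.v ∈ (S₀.O (S₀.src e)).nonunits) (u_tgt : L.u ∈ (S₀.O (S₀.tgt e)).nonunits)
    (unif₁ : ∃ i, ∃ t : C i,
      (S₀.s₁ e).ord (S₀.res (S₀.src e) ⟨t, (M i).le₁ t t.2⟩) = 1)
    (unif₂ : ∃ i, ∃ t : C i,
      (S₀.s₂ e).ord (S₀.res (S₀.tgt e) ⟨t, (M i).le₂ t t.2⟩) = 1)
    (comp : ∀ v, v = S₀.src e ∨ v = S₀.tgt e) :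
    (annulusChartOfModels M hR v_src u_tgt unif₁ unif₂ comp).thick = L.thick := rfl

/-- **The annulus chart of the node `e` from the global models at the crossing**, the uniformizers
at the two branches coming from reductions of some models onto Dedekind charts. -/
def annulusChartOfModelsOfRed
    (M : ∀ i, CrossingModel A (residue A) (S₀.O (S₀.src e)) (S₀.O (S₀.tgt e))
      (S₀.res (S₀.src e)) (S₀.res (S₀.tgt e)) (S₀.s₁ e) (S₀.s₂ e) (tube S₀ e) (C i) (ϖ i))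
    (hR : ∀ i, (L.level i).R = (M i).loc)
    (v_src : L.v ∈ (S₀.O (S₀.src e)).nonunits) (u_tgt : L.u ∈ (S₀.O (S₀.tgt e)).nonunits)
    {Dk₁ : Type*} [CommRing Dk₁] [IsDedekindDomain Dk₁] [Algebra Dk₁ (Ft₀ (S₀.src e))]
    [IsFractionRing Dk₁ (Ft₀ (S₀.src e))]
    {Dk₂ : Type*} [CommRing Dk₂] [IsDedekindDomain Dk₂] [Algebra Dk₂ (Ft₀ (S₀.tgt e))]
    [IsFractionRing Dk₂ (Ft₀ (S₀.tgt e))]
    (i₁ : ι) (red₁ : C i₁ →+* Dk₁)
    (hred₁ : ∀ x : C i₁, algebraMap Dk₁ (Ft₀ (S₀.src e)) (red₁ x) =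
      S₀.res (S₀.src e) ⟨x, (M i₁).le₁ x x.2⟩)
    (hsurj₁ : Function.Surjective red₁)
    (i₂ : ι) (red₂ : C i₂ →+* Dk₂)
    (hred₂ : ∀ x : C i₂, algebraMap Dk₂ (Ft₀ (S₀.tgt e)) (red₂ x) =
      S₀.res (S₀.tgt e) ⟨x, (M i₂).le₂ x x.2⟩)
    (hsurj₂ : Function.Surjective red₂)
    (comp : ∀ v, v = S₀.src e ∨ v = S₀.tgt e) : AnnulusChart S₀ e :=
  (branchData_of_models_of_red M hR v_src u_tgt i₁ red₁ hred₁ hsurj₁ i₂ red₂ hred₂ hsurj₂
    comp).annulusChartOfLevels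

@[simp] theorem annulusChartOfModelsOfRed_u
    (M : ∀ i, CrossingModel A (residue A) (S₀.O (S₀.src e)) (S₀.O (S₀.tgt e))
      (S₀.res (S₀.src e)) (S₀.res (S₀.tgt e)) (S₀.s₁ e) (S₀.s₂ e) (tube S₀ e) (C i) (ϖ i))
    (hR : ∀ i, (L.level i).R = (M i).loc)
    (v_src : L.v ∈ (S₀.O (S₀.src e)).nonunits) (u_tgt : L.u ∈ (S₀.O (S₀.tgt e)).nonunits)
    {Dk₁ : Type*} [CommRing Dk₁] [IsDedekindDomain Dk₁] [Algebra Dk₁ (Ft₀ (S₀.src e))]
    [IsFractionRing Dk₁ (Ft₀ (S₀.src e))]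
    {Dk₂ : Type*} [CommRing Dk₂] [IsDedekindDomain Dk₂] [Algebra Dk₂ (Ft₀ (S₀.tgt e))]
    [IsFractionRing Dk₂ (Ft₀ (S₀.tgt e))]
    (i₁ : ι) (red₁ : C i₁ →+* Dk₁)
    (hred₁ : ∀ x : C i₁, algebraMap Dk₁ (Ft₀ (S₀.src e)) (red₁ x) =
      S₀.res (S₀.src e) ⟨x, (M i₁).le₁ x x.2⟩)
    (hsurj₁ : Function.Surjective red₁)
    (i₂ : ι) (red₂ : C i₂ →+* Dk₂)
    (hred₂ : ∀ x : C i₂, algebraMap Dk₂ (Ft₀ (S₀.tgt e)) (red₂ x) =
      S₀.res (S₀.tgt e) ⟨x, (M i₂).le₂ x x.2⟩)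
    (hsurj₂ : Function.Surjective red₂)
    (comp : ∀ v, v = S₀.src e ∨ v = S₀.tgt e) :
    (annulusChartOfModelsOfRed M hR v_src u_tgt i₁ red₁ hred₁ hsurj₁ i₂ red₂ hred₂ hsurj₂
      comp).u = L.u := rfl

@[simp] theorem annulusChartOfModelsOfRed_thick
    (M : ∀ i, CrossingModel A (residue A) (S₀.O (S₀.src e)) (S₀.O (S₀.tgt e))
      (S₀.res (S₀.src e)) (S₀.res (S₀.tgt e)) (S₀.s₁ e) (S₀.s₂ e) (tube S₀ e) (C i) (ϖ i))
    (hR : ∀ i, (L.level i).R = (M i).loc)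
    (v_src : L.v ∈ (S₀.O (S₀.src e)).nonunits) (u_tgt : L.u ∈ (S₀.O (S₀.tgt e)).nonunits)
    {Dk₁ : Type*} [CommRing Dk₁] [IsDedekindDomain Dk₁] [Algebra Dk₁ (Ft₀ (S₀.src e))]
    [IsFractionRing Dk₁ (Ft₀ (S₀.src e))]
    {Dk₂ : Type*} [CommRing Dk₂] [IsDedekindDomain Dk₂] [Algebra Dk₂ (Ft₀ (S₀.tgt e))]
    [IsFractionRing Dk₂ (Ft₀ (S₀.tgt e))]
    (i₁ : ι) (red₁ : C i₁ →+* Dk₁)
    (hred₁ : ∀ x : C i₁, algebraMap Dk₁ (Ft₀ (S₀.src e)) (red₁ x) =
      S₀.res (S₀.src e) ⟨x, (M i₁).le₁ x x.2⟩)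
    (hsurj₁ : Function.Surjective red₁)
    (i₂ : ι) (red₂ : C i₂ →+* Dk₂)
    (hred₂ : ∀ x : C i₂, algebraMap Dk₂ (Ft₀ (S₀.tgt e)) (red₂ x) =
      S₀.res (S₀.tgt e) ⟨x, (M i₂).le₂ x x.2⟩)
    (hsurj₂ : Function.Surjective red₂)
    (comp : ∀ v, v = S₀.src e ∨ v = S₀.tgt e) :
    (annulusChartOfModelsOfRed M hR v_src u_tgt i₁ red₁ hred₁ hsurj₁ i₂ red₂ hred₂ hsurj₂
      comp).thick = L.thick := rfl

end Fermat.Agent.BR.S0.BranchDataOfModels
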