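/-
Program B (bad reduction), block B7, node (C6)-INST, instance layer (helper20): best approximation
for the circle rings of an annulus (`Circle.ApproxAt`, the field `approx` of
`Circle.CircleInputs`) from helper21's level data `S0.AnnulusLevels` of the tube of a crossing
point, the full residue field of the coefficient fields of the levels and `IsRankOne A`.

* `isDVRSubfield_of_unif_max` : `IsDVRSubfield A K' ϖ` from `ϖ ∈ K'`, `0 < |ϖ| < 1`,
  `|c| < 1 → |c| ≤ |ϖ|` on `K'` and rank one;
* `fracField R : Subfield F` : the fraction field of a subring of `F` inside `F`;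
* `NodeLevel.toCover` : helper21's `S0.NodeLevel` gives `Cover.NodeLevel`;
* `exists_levels_of_annulusLevels` : the hypothesis `hlev` of `Cover.circleRing_approx_of_levels`;
* `approxAt_of_annulusLevels` : `ApproxAt C a ha1 ha2` for every admissible gauge `a`.
-/
import Mathlib
import Fermat.Agent.BR.Circle.CoverLocal
import Fermat.Agent.BR.S0.AnnulusLevels

set_option autoImplicit false

noncomputable section

namespace Fermat.Agent.BR.Circle.Cover

open AlgebraicCurve IsLocalRing Fermat.Agent.Red Fermat.Agent.BR Fermat.Agent.BR.Centre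
  Fermat.Agent.BR.DVRLattice Fermat.Agent.BR.ApproxAssembly Fermat.Agent.BR.Circle
  Fermat.Agent.BR.CircleApprox

variable {K F : Type*} [Field K] [Field F] [Algebra K F]

section DVR

variable {A : ValuationSubring K}

/-- A subfield whose non-units are dominated by `ϖ` is discretely valued (rank one). -/
theorem isDVRSubfield_of_unif_max (hA : IsRankOne A) {K' : Subfield K} {ϖ : K} (hϖK : ϖ ∈ K')
    (hϖ0 : ϖ ≠ 0) (hϖ1 : A.valuation ϖ < 1)
    (hmax : ∀ c ∈ K', A.valuation c < 1 → A.valuation c ≤ A.valuation ϖ) :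
    IsDVRSubfield A K' ϖ := by
  have hmod : IsModulus A ϖ := isModulus_iff_valuation.mpr ⟨hϖ0, hϖ1⟩
  have hϖpos : 0 < A.valuation ϖ := lt_of_le_of_ne zero_le
    (Ne.symm ((Valuation.ne_zero_iff _).mpr hϖ0))
  refine ⟨hϖK, hmod, ?_⟩
  have key : ∀ N : ℕ, ∀ c ∈ K', c ∈ A → A.valuation ϖ ^ N < A.valuation c →
      ∃ m : ℕ, ∃ e : K, e ∈ A ∧ e⁻¹ ∈ A ∧ c = ϖ ^ m * e := by
    intro N
    induction N with
    | zero =>
      intro c _ hcA hlt
      rw [pow_zero] at hlt
      exact absurd ((A.valuation_le_one_iff _).mpr hcA) (not_le.mpr hlt)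
    | succ N ih =>
      intro c hcK hcA hlt
      rcases lt_or_ge (A.valuation c) 1 with hc1 | hc1
      · have hle := hmax c hcK hc1
        have hc'A : c / ϖ ∈ A := by
          rw [← A.valuation_le_one_iff, map_div₀]
          exact div_le_one_of_le₀ hle zero_le
        have hlt' : A.valuation ϖ ^ N < A.valuation (c / ϖ) := by
          have h1 : A.valuation c = A.valuation ϖ * A.valuation (c / ϖ) := by
            rw [← map_mul, mul_div_cancel₀ _ hϖ0]
          rw [h1, pow_succ'] at hlt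
          exact lt_of_mul_lt_mul_left' hlt
        obtain ⟨m, e, heA, heiA, hce⟩ := ih (c / ϖ) (K'.div_mem hcK hϖK) hc'A hlt'
        refine ⟨m + 1, e, heA, heiA, ?_⟩
        rw [pow_succ', mul_assoc, ← hce, mul_div_cancel₀ _ hϖ0]
      · have hc1' : A.valuation c = 1 := le_antisymm ((A.valuation_le_one_iff _).mpr hcA) hc1
        refine ⟨0, c, hcA, ?_, by rw [pow_zero, one_mul]⟩
        rw [← A.valuation_le_one_iff, map_inv₀, hc1', inv_one]
  intro c hcK hcA hc0
  obtain ⟨N, hN⟩ := exists_pow_lt_of_isRankOne hA hmod hc0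
  exact key N c hcK hcA hN

end DVR

section Frac

/-- The fraction field of a subring of a field, inside the field. -/
def fracField (R : Subring F) : Subfield F := Subfield.closure (R : Set F)

theorem mem_fracField_iff {R : Subring F} {x : F} :
    x ∈ fracField R ↔ ∃ y1 ∈ R, ∃ y2 ∈ R, y2 ≠ 0 ∧ x = y1 / y2 := by
  unfold fracField
  rw [Subfield.mem_closure_iff, Subring.closure_eq]
  constructor
  · rintro ⟨y, hy, z, hz, rfl⟩
    rcases eq_or_ne z 0 with rfl | hz0
    · exact ⟨0, R.zero_mem, 1, R.one_mem, one_ne_zero, by rw [div_zero, zero_div]⟩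
    · exact ⟨y, hy, z, hz, hz0, rfl⟩
  · rintro ⟨y1, hy1, y2, hy2, -, rfl⟩
    exact ⟨y1, hy1, y2, hy2, rfl⟩

theorem le_fracField (R : Subring F) : R ≤ (fracField R).toSubring :=
  fun _ hx => Subfield.subset_closure hx

theorem fracField_mono {R R' : Subring F} (h : R ≤ R') : fracField R ≤ fracField R' :=
  Subfield.closure_mono h

theorem mem_fracField_of_mul_eq {R : Subring F} {y : F} {a b : R} (hb : b ≠ 0)
    (h : y * (b : F) = (a : F)) : y ∈ fracField R := by
  rw [mem_fracField_iff]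
  have hb0 : (b : F) ≠ 0 := fun h0 => hb (Subtype.ext h0)
  exact ⟨a, a.2, b, b.2, hb0, by rw [← h, mul_div_cancel_right₀ _ hb0]⟩

end Frac

section Levels

open Fermat.Agent.BR.S0

variable {A : ValuationSubring K} {T : Set (Place K F)}

/-- helper21's level of a crossing point gives the node data of `Cover`. -/
theorem NodeLevel.ofS0 (hA : IsRankOne A) (C : AnnulusCore A T) {u v ε₀ : F} {thick : K}
    (hu : C.u = u) (huv : u * v = thick • ε₀) (hth0 : thick ≠ 0) (hth1 : A.valuation thick < 1)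
    (hε0 : ε₀ ≠ 0) (N : S0.NodeLevel A T u v ε₀ thick) :
    IsDVRSubfield A N.K' N.ϖ ∧ Cover.NodeLevel C N.K' N.ϖ N.R := by
  have dvr : IsDVRSubfield A N.K' N.ϖ :=
    isDVRSubfield_of_unif_max hA N.unif_mem N.unif_ne N.unif_lt N.unif_max
  refine ⟨dvr, ?_⟩
  have := N.isLocal
  refine nodeLevel_of_thick (C := C) dvr N.const_mem ⟨algebraMap K F N.ϖ, N.unif_memR⟩
    ⟨u, N.u_mem⟩ ⟨v, N.v_mem⟩ rfl hu.symm ?_ N.ε₀_mem N.ε₀_inv_mem hε0 N.thick_mem
    ((A.valuation_le_one_iff _).mp hth1.le) hth0 (by rw [hu]; exact huv) N.centred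
  apply le_antisymm
  · intro x hx
    exact N.nonunit_mem x ((mem_maximalIdeal _).mp hx)
  · rw [Ideal.span_le]
    intro x hx
    simp only [Set.mem_insert_iff, Set.mem_singleton_iff] at hx
    rw [SetLike.mem_coe, mem_maximalIdeal, mem_nonunits_iff]
    rcases hx with rfl | rfl | rfl
    · intro hunit
      exact N.prime1.ne_top (Ideal.eq_top_of_isUnit_mem _ N.unif_mem_p1 hunit)
    · intro hunit
      exact N.prime1.ne_top (Ideal.eq_top_of_isUnit_mem _ N.u_mem_p1 hunit)
    · intro hunit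
      exact N.prime2.ne_top (Ideal.eq_top_of_isUnit_mem _ N.v_mem_p2 hunit)

variable [IsAlgClosed (ResidueField A)] {ι : Type*}

omit [IsAlgClosed (ResidueField A)] in
/-- **The levels of `Cover.circleRing_approx_of_levels` from `S0.AnnulusLevels`.** -/
theorem exists_levels_of_annulusLevels (hA : IsRankOne A) (L : AnnulusLevels A T ι)
    (C : AnnulusCore A T) (hu : C.u = L.u)
    (hfull : ∀ i, ∀ (c : K) (hc : c ∈ A), ∃ (c' : K) (hc' : c' ∈ A), c' ∈ (L.level i).K' ∧
      residue A ⟨c', hc'⟩ = residue A ⟨c, hc⟩) (a : K) :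
    ∀ s : Finset F, ∃ (K' : Subfield K) (F' : Subfield F) (ϖ : K) (O : Subring F),
      IsDVRSubfield A K' ϖ ∧
      (∀ (c : K) (hc : c ∈ A), ∃ (c' : K) (hc' : c' ∈ A), c' ∈ K' ∧
        residue A ⟨c', hc'⟩ = residue A ⟨c, hc⟩) ∧
      (∀ c ∈ K', algebraMap K F c ∈ F') ∧ a ∈ K' ∧
      (∀ x ∈ F', ∃ y1 ∈ O, ∃ y2 ∈ O, y2 ≠ 0 ∧ x = y1 / y2) ∧
      Cover.NodeLevel C K' ϖ O ∧ ∀ x ∈ s, x ∈ F' := by
  classical
  have hε0 : L.ε₀ ≠ 0 := by
    intro h0
    obtain ⟨i, -⟩ := L.const a
    -- `u v = 0` is impossible: `u`, `v` are nonzero ... use the vertical primes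
    have N := L.level i
    have huv := L.uv
    rw [h0, smul_zero] at huv
    rcases mul_eq_zero.mp huv with h | h
    · apply N.u_notMem_p2
      have : (⟨L.u, N.u_mem⟩ : N.R) = 0 := Subtype.ext h
      rw [this]
      exact N.p2.zero_mem
    · apply N.v_notMem_p1
      have : (⟨L.v, N.v_mem⟩ : N.R) = 0 := Subtype.ext h
      rw [this]
      exact N.p1.zero_mem
  -- a level containing `a` and the finite set `s`
  have hlevel : ∀ s : Finset F, ∃ i, a ∈ (L.level i).K' ∧ ∀ x ∈ s, x ∈ fracField (L.level i).R := by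
    intro s
    induction s using Finset.induction_on with
    | empty =>
      obtain ⟨i, hi⟩ := L.const a
      exact ⟨i, hi, fun x hx => absurd hx (Finset.notMem_empty x)⟩
    | insert y s _ ih =>
      obtain ⟨i, hai, hsi⟩ := ih
      obtain ⟨j, p, q, hq, hpq⟩ := L.frac y
      obtain ⟨l, hil, hjl, hKil, -⟩ := L.directed i j
      refine ⟨l, hKil hai, fun x hx => ?_⟩
      rcases Finset.mem_insert.mp hx with rfl | hxs
      · exact fracField_mono hjl (mem_fracField_of_mul_eq hq hpq)
      · exact fracField_mono hil (hsi x hxs)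
  intro s
  obtain ⟨i, hai, hsi⟩ := hlevel s
  obtain ⟨dvr, hN⟩ := NodeLevel.ofS0 hA C hu L.uv L.thick_ne L.thick_lt hε0 (L.level i)
  refine ⟨(L.level i).K', fracField (L.level i).R, (L.level i).ϖ, (L.level i).R, dvr, hfull i,
    ?_, hai, fun x hx => mem_fracField_iff.mp hx, hN, hsi⟩
  intro c hcK
  rcases A.mem_or_inv_mem c with hcA | hcA
  · exact le_fracField _ ((L.level i).const_mem c hcK hcA)
  · have h1 : algebraMap K F c⁻¹ ∈ fracField (L.level i).R :=
      le_fracField _ ((L.level i).const_mem c⁻¹ ((L.level i).K'.inv_mem hcK) hcA)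
    have h2 := (fracField (L.level i).R).inv_mem h1
    rwa [← map_inv₀, inv_inv] at h2

/-- **`approx` for the circle rings of the annulus of a crossing point** from the level data. -/
theorem approxAt_of_annulusLevels (hA : IsRankOne A) (L : AnnulusLevels A T ι)
    (C : AnnulusCore A T) (hu : C.u = L.u)
    (hfull : ∀ i, ∀ (c : K) (hc : c ∈ A), ∃ (c' : K) (hc' : c' ∈ A), c' ∈ (L.level i).K' ∧
      residue A ⟨c', hc'⟩ = residue A ⟨c, hc⟩) (a : K)
    (ha1 : A.valuation C.thick < A.valuation a) (ha2 : A.valuation a < 1) :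
    ∀ V : Submodule K F, Module.Finite K V → ∀ y : F, y ∉ V →
      ∃ w ∈ V, ∃ c : K, c ≠ 0 ∧ ∃ h : c • (y - w) ∈ circleRing C a ha1 ha2,
        ∀ z : circleRing C a ha1 ha2, (z : F) ∈ V →
          circleRes C a ha1 ha2 z ≠ circleRes C a ha1 ha2 ⟨c • (y - w), h⟩ :=
  circleRing_approx_of_levels C a ha1 ha2 hA
    (exists_levels_of_annulusLevels hA L C hu hfull a)

end Levels

end Fermat.Agent.BR.Circle.Cover
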