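/-
Program B (bad reduction), level data of the tube of a crossing point (helper19): the ORIENTATION
SWAP.  The structures `NodeLevel A T u v ε₀ thick` and `AnnulusLevels A T ι` of
`BR/S0/AnnulusLevels` are symmetric in the two coordinates; the Circle contract wants the annulus
parameter `L.u` to be a unit on the SOURCE component (and `≡ 0` on the target), while the natural
orientation of the crossing lemma has `u ∈ P1` (`≡ 0` on the source).  So one produces the levels
in the natural orientation and swaps.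

* `NodeLevel.swap : NodeLevel A T u v ε₀ thick → NodeLevel A T v u ε₀ thick` (`p1 ↔ p2`; the
  engine field `n2` for the new first coordinate is helper5's `AnnulusN2Level.n2_of_level`);
* `AnnulusLevels.swap : AnnulusLevels A T ι → AnnulusLevels A T ι` (`u ↔ v`), with `rfl`-lemmas;
* `CrossingFamily.annulusLevelsSwap` : the swapped level data of a `CrossingFamily`
  (`BR/S0/CrossingModelLevel`).
-/
import Mathlib
import Fermat.Agent.BR.S0.AnnulusN2Level
import Fermat.Agent.BR.S0.CrossingModelLevel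

set_option autoImplicit false
set_option linter.unusedSectionVars false

namespace Fermat.Agent.BR.S0

open AlgebraicCurve IsLocalRing Fermat.Agent.Red Fermat.Agent.BR.Centre

variable {K F : Type*} [Field K] [Field F] [Algebra K F]
  {A : ValuationSubring K} {T : Set (Place K F)}

/-- **The level with the two coordinates exchanged.** -/
noncomputable def NodeLevel.swap {u v ε₀ : F} {thick : K} (L : NodeLevel A T u v ε₀ thick)
    (thick_ne : thick ≠ 0) (thick_lt : A.valuation thick < 1) (uv : u * v = thick • ε₀) :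
    NodeLevel A T v u ε₀ thick :=
  AnnulusN2Level.nodeLevelOfFields A T thick_ne thick_lt
    (show v * u = thick • ε₀ by rw [mul_comm]; exact uv) L.R L.K' L.ϖ L.noeth L.intClosed
    L.isLocal L.const_mem L.unif_mem L.unif_ne L.unif_lt L.unif_max L.thick_mem L.unif_memR L.v_mem
    L.u_mem L.ε₀_mem L.ε₀_inv_mem
    (fun x hx => by
      have h := L.nonunit_mem x hx
      have e : ({(⟨algebraMap K F L.ϖ, L.unif_memR⟩ : L.R), ⟨v, L.v_mem⟩, ⟨u, L.u_mem⟩} :
          Set L.R) = {⟨algebraMap K F L.ϖ, L.unif_memR⟩, ⟨u, L.u_mem⟩, ⟨v, L.v_mem⟩} := by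
        rw [Set.pair_comm]
      rw [e]
      exact h)
    L.p2 L.p1 L.prime2 L.prime1 L.unif_mem_p2 L.unif_mem_p1 L.v_mem_p2 L.u_mem_p1 L.u_notMem_p2
    L.v_notMem_p1 (fun Q hQ hht hϖ => (L.vertical Q hQ hht hϖ).symm) L.residue L.centred L.horiz

section

variable {u v ε₀ : F} {thick : K} (L : NodeLevel A T u v ε₀ thick)
  (thick_ne : thick ≠ 0) (thick_lt : A.valuation thick < 1) (uv : u * v = thick • ε₀)

@[simp] theorem NodeLevel.swap_R : (L.swap thick_ne thick_lt uv).R = L.R := rfl

@[simp] theorem NodeLevel.swap_K' : (L.swap thick_ne thick_lt uv).K' = L.K' := rfl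

@[simp] theorem NodeLevel.swap_ϖ : (L.swap thick_ne thick_lt uv).ϖ = L.ϖ := rfl

@[simp] theorem NodeLevel.swap_p1 : (L.swap thick_ne thick_lt uv).p1 = L.p2 := rfl

@[simp] theorem NodeLevel.swap_p2 : (L.swap thick_ne thick_lt uv).p2 = L.p1 := rfl

end

/-- **The level data of the tube with the two coordinates exchanged.** -/
noncomputable def AnnulusLevels.swap {ι : Type*} (L : AnnulusLevels A T ι) :
    AnnulusLevels A T ι where
  u := L.v
  v := L.u
  ε₀ := L.ε₀
  thick := L.thick
  thick_ne := L.thick_ne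
  thick_lt := L.thick_lt
  uv := by rw [mul_comm]; exact L.uv
  level i := (L.level i).swap L.thick_ne L.thick_lt L.uv
  directed := L.directed
  frac := L.frac
  const := L.const
  finite_div := L.finite_div

section

variable {ι : Type*} (L : AnnulusLevels A T ι)

@[simp] theorem AnnulusLevels.swap_u : L.swap.u = L.v := rfl

@[simp] theorem AnnulusLevels.swap_v : L.swap.v = L.u := rfl

@[simp] theorem AnnulusLevels.swap_ε₀ : L.swap.ε₀ = L.ε₀ := rfl

@[simp] theorem AnnulusLevels.swap_thick : L.swap.thick = L.thick := rfl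

@[simp] theorem AnnulusLevels.swap_level_R (i : ι) : (L.swap.level i).R = (L.level i).R := rfl

@[simp] theorem AnnulusLevels.swap_level_K' (i : ι) : (L.swap.level i).K' = (L.level i).K' := rfl

@[simp] theorem AnnulusLevels.swap_level_ϖ (i : ι) : (L.swap.level i).ϖ = (L.level i).ϖ := rfl

@[simp] theorem AnnulusLevels.swap_level_p1 (i : ι) : (L.swap.level i).p1 = (L.level i).p2 := rfl

@[simp] theorem AnnulusLevels.swap_level_p2 (i : ι) : (L.swap.level i).p2 = (L.level i).p1 := rfl

end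

/-! ### The swapped level data of a `CrossingFamily` -/

namespace CrossingFamily

variable {k : Type*} [Field k] {Ft₁ Ft₂ : Type*} [Field Ft₁] [Algebra k Ft₁] [Field Ft₂]
  [Algebra k Ft₂] {π : A →+* k} {O₁ O₂ : ValuationSubring F} {res₁ : O₁ →+* Ft₁}
  {res₂ : O₂ →+* Ft₂} {Q₁ : Place k Ft₁} {Q₂ : Place k Ft₂} {ι : Type*} {C : ι → Subring F}
  {ϖ : ι → K} {i₀ : ι} {u v ε₀ : F} {thick : K}

/-- **The level data of the tube with annulus parameter `v`** (the coordinate which is a unit on
the first component `O₁` and `≡ 0` on the second component `O₂`). -/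
noncomputable def annulusLevelsSwap
    (H : CrossingFamily A π O₁ O₂ res₁ res₂ Q₁ Q₂ T C ϖ i₀ u v ε₀ thick) :
    AnnulusLevels A T ι :=
  H.annulusLevels.swap

@[simp] theorem annulusLevelsSwap_u
    (H : CrossingFamily A π O₁ O₂ res₁ res₂ Q₁ Q₂ T C ϖ i₀ u v ε₀ thick) :
    H.annulusLevelsSwap.u = v := rfl

@[simp] theorem annulusLevelsSwap_v
    (H : CrossingFamily A π O₁ O₂ res₁ res₂ Q₁ Q₂ T C ϖ i₀ u v ε₀ thick) :
    H.annulusLevelsSwap.v = u := rfl

@[simp] theorem annulusLevelsSwap_ε₀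
    (H : CrossingFamily A π O₁ O₂ res₁ res₂ Q₁ Q₂ T C ϖ i₀ u v ε₀ thick) :
    H.annulusLevelsSwap.ε₀ = ε₀ := rfl

@[simp] theorem annulusLevelsSwap_thick
    (H : CrossingFamily A π O₁ O₂ res₁ res₂ Q₁ Q₂ T C ϖ i₀ u v ε₀ thick) :
    H.annulusLevelsSwap.thick = thick := rfl

@[simp] theorem annulusLevelsSwap_level_R
    (H : CrossingFamily A π O₁ O₂ res₁ res₂ Q₁ Q₂ T C ϖ i₀ u v ε₀ thick) (i : ι) :
    (H.annulusLevelsSwap.level i).R = (H.model i).loc := rfl

@[simp] theorem annulusLevelsSwap_level_K'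
    (H : CrossingFamily A π O₁ O₂ res₁ res₂ Q₁ Q₂ T C ϖ i₀ u v ε₀ thick) (i : ι) :
    (H.annulusLevelsSwap.level i).K' = constField K (H.model i).loc := rfl

@[simp] theorem annulusLevelsSwap_level_ϖ
    (H : CrossingFamily A π O₁ O₂ res₁ res₂ Q₁ Q₂ T C ϖ i₀ u v ε₀ thick) (i : ι) :
    (H.annulusLevelsSwap.level i).ϖ = ϖ i := rfl

/-- The hypothesis `hfull` of `Circle.Cover.approxAt_of_annulusLevels` for the swapped levels. -/
theorem annulusLevelsSwap_fullRes
    (H : CrossingFamily A π O₁ O₂ res₁ res₂ Q₁ Q₂ T C ϖ i₀ u v ε₀ thick)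
    (hfull : ∀ i, ∀ (c : K) (hc : c ∈ A), ∃ (c' : K) (hc' : c' ∈ A),
      algebraMap K F c' ∈ C i ∧ residue A ⟨c', hc'⟩ = residue A ⟨c, hc⟩) :
    ∀ i, ∀ (c : K) (hc : c ∈ A), ∃ (c' : K) (hc' : c' ∈ A),
      c' ∈ (H.annulusLevelsSwap.level i).K' ∧ residue A ⟨c', hc'⟩ = residue A ⟨c, hc⟩ :=
  H.annulusLevels_fullRes hfull

end CrossingFamily

end Fermat.Agent.BR.S0
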