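import Fermat.Agent.BR.Inst.CentreFin
import Fermat.Agent.BR.Inst.DegenModel

/-!
# Program B (BADRED), node B6.6 (c): the degeneracy maps on the `ℤ_(q)`-charts

* `isIntegral_of_map_injective` : pullback of integrality along an injective ring homomorphism;
* `mem_chartBar_of_isIntegral` : an element of the image of `barEmb N` which is integral over the
  image of `ℤ_(ℓ)[S]` lies in the chart `chartBar N ℓ S`;
* `isIntegral_map_of_forall` : a ring homomorphism mapping `R₁` to elements integral over `R₂` maps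
  elements integral over `R₁` to elements integral over `R₂`;
* `alpha_mem_chartBarFin`, `beta_mem_chartBarFin` : `α` and `β` map the finite chart of level `M`
  into the finite chart of level `M q` (over `ℤ_(ℓ)`, any prime `ℓ`).
-/

set_option autoImplicit false
set_option linter.unusedSectionVars false

noncomputable section

namespace Fermat.Agent.BR.S0.ChartDegen

open ModularCurve ModularCurve.IgusaScheme Fermat.Agent.X0 Fermat.Agent.Good.Bridge
  Fermat.Agent.BR.Inst Fermat.Agent.BR.Inst.DegenModel Polynomial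

/-! ### generic integrality lemmas -/

section Generic

variable {Ω₁ Ω₂ : Type*} [CommRing Ω₁] [CommRing Ω₂] [Nontrivial Ω₂]

/-- Pullback of integrality along an injective ring homomorphism. -/
theorem isIntegral_of_map_injective (φ : Ω₁ →+* Ω₂) (hφ : Function.Injective φ) (R : Subring Ω₁)
    {x : Ω₁} (hx : IsIntegral ↥(R.map φ) (φ x)) : IsIntegral ↥R x := by
  obtain ⟨p, hp, hroot⟩ := hx
  let φ₀ : ↥R →+* ↥(R.map φ) := φ.restrict R (R.map φ) fun y hy => Subring.mem_map.mpr ⟨y, hy, rfl⟩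
  have hφ₀ : Function.Surjective φ₀ := by
    rintro ⟨y, hy⟩
    obtain ⟨z, hz, rfl⟩ := Subring.mem_map.mp hy
    exact ⟨⟨z, hz⟩, rfl⟩
  have : Nontrivial ↥(R.map φ) := ⟨⟨0, 1, fun h => zero_ne_one (congrArg Subtype.val h)⟩⟩
  obtain ⟨p', hmap, -, hmonic⟩ :=
    lifts_and_degree_eq_and_monic (mem_lifts_of_surjective hφ₀ p) hp
  refine ⟨p', hmonic, hφ ?_⟩
  rw [map_zero, Polynomial.hom_eval₂]
  have hcomp : φ.comp (algebraMap ↥R Ω₁) = (algebraMap ↥(R.map φ) Ω₂).comp φ₀ := by
    ext y
    rfl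
  rw [hcomp, ← Polynomial.eval₂_map, hmap]
  exact hroot

end Generic

section Generic2

variable {Ω₁ Ω₂ : Type*} [Field Ω₁] [Field Ω₂]

/-- A ring homomorphism mapping the elements of `R₁` to elements integral over `R₂` maps the
elements integral over `R₁` to elements integral over `R₂`. -/
theorem isIntegral_map_of_forall (φ : Ω₁ →+* Ω₂) (R₁ : Subring Ω₁) (R₂ : Subring Ω₂)
    (h : ∀ y ∈ R₁, IsIntegral ↥R₂ (φ y)) {x : Ω₁} (hx : IsIntegral ↥R₁ x) :
    IsIntegral ↥R₂ (φ x) := by
  let I : Subalgebra ↥R₂ Ω₂ := integralClosure ↥R₂ Ω₂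
  let f : ↥R₁ →+* ↥I := φ.restrict R₁ I.toSubring h
  have h1 : IsIntegral ↥I (φ x) := hx.map_of_comp_eq f φ (by ext y; rfl)
  exact isIntegral_trans (R := ↥R₂) (A := ↥I) _ h1

end Generic2

/-! ### membership in a chart -/

section Chart

variable {N : ℕ} [NeZero N] {ℓ : ℕ} [hℓ : Fact ℓ.Prime]

/-- An element of the image of `barEmb N` which is integral over the image of `ℤ_(ℓ)[S]` lies in
the chart. -/
theorem mem_chartBar_of_isIntegral {S : Set ↥(modularFunctionFieldFull N)}
    {x : ↥(modularFunctionFieldFull N)}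
    (h : IsIntegral ↥(adjoinBar N ℓ S) (barEmb N x)) : barEmb N x ∈ Inst.chartBar N ℓ S := by
  have h1 : IsIntegral ↥(Algebra.adjoin ↥(GaloisRep.ratLocalizedAt ℓ) S).toSubring x :=
    isIntegral_of_map_injective (barEmb N) (barEmb_injective N) _ h
  exact barEmb_mem_chartBar (N := N) (ℓ := ℓ) (S := S) h1

/-- the image of `ℤ_(ℓ)[S]` is integral over itself -/
theorem isIntegral_of_mem_adjoinBar {S : Set ↥(modularFunctionFieldFull N)} {y : Fb N}
    (hy : y ∈ adjoinBar N ℓ S) : IsIntegral ↥(adjoinBar N ℓ S) y :=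
  isIntegral_of_mem _ hy

theorem jBar_mem_adjoinBar : jBar N ∈ adjoinBar N ℓ {jFull N} :=
  Subring.mem_map.mpr ⟨jFull N, Algebra.subset_adjoin (Set.mem_singleton _), rfl⟩

end Chart

/-! ### the degeneracy maps on the finite charts -/

section Degen

variable (M q : ℕ) [NeZero M] [NeZero q] [NeZero (M * q)] {ℓ : ℕ} [hℓ : Fact ℓ.Prime]

/-- a `Kb`-algebra map `φ : F̄_M → F̄_{Mq}` with `φ j` integral over `ℤ_(ℓ)[j]` maps the image of
`ℤ_(ℓ)[j]` to elements integral over the image of `ℤ_(ℓ)[j]` -/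
theorem isIntegral_algHom_of_mem_adjoinBar (φ : Fb M →ₐ[Kb] Fb (M * q))
    (hj : IsIntegral ↥(adjoinBar (M * q) ℓ {jFull (M * q)}) (φ (jBar M)))
    {y : Fb M} (hy : y ∈ adjoinBar M ℓ {jFull M}) :
    IsIntegral ↥(adjoinBar (M * q) ℓ {jFull (M * q)}) (φ y) := by
  have key : ∀ x ∈ Algebra.adjoin ↥(GaloisRep.ratLocalizedAt ℓ) {jFull M},
      IsIntegral ↥(adjoinBar (M * q) ℓ {jFull (M * q)}) (φ (barEmb M x)) := by
    intro x hx
    induction hx using Algebra.adjoin_induction with
    | mem s hs =>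
      rw [Set.mem_singleton_iff.mp hs, barEmb_jFull]
      exact hj
    | algebraMap r =>
      rw [barEmb_algebraMap_zl, AlgHom.commutes, ← barEmb_algebraMap_zl (M * q)]
      exact isIntegral_of_mem _ (Subring.mem_map.mpr ⟨_, Subalgebra.algebraMap_mem _ r, rfl⟩)
    | add a b _ _ iha ihb =>
      rw [map_add, map_add]
      exact iha.add ihb
    | mul a b _ _ iha ihb =>
      rw [map_mul, map_mul]
      exact iha.mul ihb
  obtain ⟨x, hx, rfl⟩ := Subring.mem_map.mp hy
  exact key x hx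

/-- a `Kb`-algebra map `φ : F̄_M → F̄_{Mq}` with `φ j` integral over `ℤ_(ℓ)[j]`, mapping the image
of `barEmb M` into the image of `barEmb (M q)`, maps the finite chart of level `M` into the finite
chart of level `M q` -/
theorem algHom_mem_chartBarFin (φ : Fb M →ₐ[Kb] Fb (M * q))
    (hj : IsIntegral ↥(adjoinBar (M * q) ℓ {jFull (M * q)}) (φ (jBar M)))
    (hφ : ∀ b : ↥(modularFunctionFieldFull M), ∃ b' : ↥(modularFunctionFieldFull (M * q)),
      φ (barEmb M b) = barEmb (M * q) b')
    {y : Fb M} (hy : y ∈ Inst.chartBar M ℓ {jFull M}) :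
    φ y ∈ Inst.chartBar (M * q) ℓ {jFull (M * q)} := by
  have hint : IsIntegral ↥(adjoinBar (M * q) ℓ {jFull (M * q)}) (φ y) :=
    isIntegral_map_of_forall (φ : Fb M →+* Fb (M * q)) (adjoinBar M ℓ {jFull M}) _
      (fun z hz => isIntegral_algHom_of_mem_adjoinBar M q φ hj hz)
      (isIntegral_adjoinBar_of_mem_chartBar hy)
  obtain ⟨b, -, rfl⟩ := mem_chartBar_iff.mp hy
  obtain ⟨b', hb'⟩ := hφ b
  rw [hb'] at hint ⊢
  exact mem_chartBar_of_isIntegral hint

/-- **`α` maps the finite chart of level `M` into the finite chart of level `M q`.** -/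
theorem alpha_mem_chartBarFin {y : Fb M} (hy : y ∈ Inst.chartBar M ℓ {jFull M}) :
    heckeAlphaBar Kb M q y ∈ Inst.chartBar (M * q) ℓ {jFull (M * q)} := by
  refine algHom_mem_chartBarFin M q (heckeAlphaBar Kb M q) ?_ (fun b => ⟨_, alpha_barEmb M q b⟩) hy
  rw [alpha_jBar]
  exact isIntegral_of_mem _ jBar_mem_adjoinBar

/-- **`β` maps the finite chart of level `M` into the finite chart of level `M q`** (`q` prime:
modular equation). -/
theorem beta_mem_chartBarFin (hq : q.Prime) {y : Fb M} (hy : y ∈ Inst.chartBar M ℓ {jFull M}) :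
    heckeBetaBar Kb M q y ∈ Inst.chartBar (M * q) ℓ {jFull (M * q)} := by
  refine algHom_mem_chartBarFin M q (heckeBetaBar Kb M q) ?_ (fun b => ⟨_, beta_barEmb M q b⟩) hy
  rw [beta_jBar]
  exact isIntegral_jBarD_prime (M * q) q hq (dvd_mul_left q M) _ jBar_mem_adjoinBar

end Degen

end Fermat.Agent.BR.S0.ChartDegen
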