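/-
Program B (bad reduction), level-data assembly, slice (S2b) (helper19): the per-level structure
`NodeLevel` and the family `AnnulusLevels` of `BR/S0/AnnulusLevels` (helper21; consumers
`BR/S0/AnnulusDescent`, `BR/S0/AnnulusCover`) at a crossing point, from the GLOBAL normal models
`CrossingModel` of `BR/S0/CrossingModel`.

* `nonunit_mem_span_of_base` : LEVEL INDEPENDENCE of the coordinates (abstract, valuation
  theoretic).  `R₀ ≤ R` local subrings of `F` inside `O₁ ∩ O₂`, `u`, `v ∈ R₀` with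
  `𝔪(R₀) = p₁ + (v) = p₂ + (u)` (`p_i` the centres of `O_i`); if the reductions of `R` are those
  of `R₀` (the special fibre does not change with the level) and `p₁ ∩ p₂ = (ϖ)` in `R`, then
  `𝔪(R) = (ϖ, u, v)`.  So the coordinates of the BASE level serve at every level.
* `constField K R` : the constants of `K` in the fraction field of a subring `R ⊆ F`.
* `CrossingModel.p₁`, `p₂` (the vertical primes of `M.loc`: the centres of `O₁`, `O₂`),
  `loc_vertical`, `loc_full₁`, `loc_full₂`, `loc_inter`, `loc_nonunit_mem`, `loc_const_mem`.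
* `CrossingModel.nodeLevel` (arbitrary constant field `K'`, named hypotheses),
  `CrossingModel.nodeLevelConst` (`K' := constField K M.loc`: nothing about the constants of the
  function field of the level is needed; the uniformizer property `unif_max` is derived from
  `p₁ ∩ p₂ = (ϖ)`), `CrossingModel.nodeLevelOfBase` (coordinates of a base level); the field
  `n2` is helper5's `AnnulusN2.n2_of_fields`.
* `CrossingModel.map_eq_p₁`, `map_eq_p₂`, `CrossingModel.base_of_nodeData` : the base-level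
  inputs from `NodeLemma.NodeData` in `O := M.loc` (the output of `SpecialFibre.exists_node`).
* `annulusLevelsOfModels : AnnulusLevels A T ι`.
* `CrossingFamily … C ϖ i₀ u v ε₀ thick` : ALL the inputs at a crossing point, bundled;
  `CrossingFamily.nodeChart : NodeChart …`, `CrossingFamily.annulusLevels : AnnulusLevels A T ι`
  (+ `rfl`-lemmas, `annulusLevels_fullRes`).
-/
import Mathlib
import Fermat.Agent.BR.S0.CrossingModel
import Fermat.Agent.BR.S0.AnnulusLevels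
import Fermat.Agent.BR.S0.AnnulusN2

set_option autoImplicit false
set_option linter.style.haveILetI false
set_option linter.unusedSectionVars false

namespace Fermat.Agent.BR.S0

open AlgebraicCurve IsLocalRing Fermat.Agent.Red Fermat.Agent.X0 Fermat.Agent.BR
  Fermat.Agent.BR.Centre Fermat.Agent.BR.Inst.LocSub

section Transfer

variable {F : Type*} [Field F]

theorem nonunits_add_mem (O : ValuationSubring F) {x y : F} (hx : x ∈ O.nonunits)
    (hy : y ∈ O.nonunits) : x + y ∈ O.nonunits := by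
  rw [O.mem_nonunits_iff] at hx hy ⊢
  exact lt_of_le_of_lt (O.valuation.map_add _ _) (max_lt hx hy)

theorem nonunits_sub_mem (O : ValuationSubring F) {x y : F} (hx : x ∈ O.nonunits)
    (hy : y ∈ O.nonunits) : x - y ∈ O.nonunits := by
  rw [O.mem_nonunits_iff] at hx hy ⊢
  exact lt_of_le_of_lt (Valuation.map_sub _ _ _) (max_lt hx hy)

theorem nonunits_mul_mem (O : ValuationSubring F) {x y : F} (hx : x ∈ O)
    (hy : y ∈ O.nonunits) : x * y ∈ O.nonunits := by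
  rw [O.mem_nonunits_iff] at hy ⊢
  rw [map_mul]
  exact mul_lt_one_of_nonneg_of_lt_one_right ((O.valuation_le_one_iff _).mpr hx) zero_le hy

/-- a non-unit of a valuation ring `O ⊇ R` lying in `R` is a non-unit of `R` -/
theorem not_isUnit_of_mem_nonunits (O : ValuationSubring F) {R : Subring F}
    (hR : ∀ x ∈ R, x ∈ O) {x : R} (hx : (x : F) ∈ O.nonunits) : ¬ IsUnit x := by
  intro hu
  obtain ⟨y, hy⟩ := hu.exists_right_inv
  have h1 : (x : F) * (y : F) = 1 := congrArg (fun t : R => (t : F)) hy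
  have h2 := nonunits_mul_mem O (hR y y.2) hx
  rw [mul_comm, h1, O.mem_nonunits_iff, map_one] at h2
  exact lt_irrefl _ h2

/-- **Level independence of the coordinates at a crossing point.**  `R₀ ≤ R` local subrings of
`F` inside `O₁ ∩ O₂`; `u`, `v ∈ R₀` with `𝔪(R₀) = p₁ + (v) = p₂ + (u)` (`p_i` the centre of
`O_i`); the reductions of `R` are those of `R₀`, and `p₁ ∩ p₂ = (ϖ)` in `R`.  Then
`𝔪(R) = (ϖ, u, v)`. -/
theorem nonunit_mem_span_of_base (O₁ O₂ : ValuationSubring F) {R₀ R : Subring F} [IsLocalRing R]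
    (h₀ : R₀ ≤ R) (hR₁ : ∀ x ∈ R, x ∈ O₁) (hR₂ : ∀ x ∈ R, x ∈ O₂)
    {ϖ u v : F} (hϖ : ϖ ∈ R) (hu : u ∈ R₀) (hv : v ∈ R₀)
    (hu₁ : u ∈ O₁.nonunits)
    (max1 : ∀ x : R₀, ¬ IsUnit x → ∃ c : R₀, (x : F) - (c : F) * v ∈ O₁.nonunits)
    (max2 : ∀ x : R₀, ¬ IsUnit x → ∃ c : R₀, (x : F) - (c : F) * u ∈ O₂.nonunits)
    (full₁ : ∀ x : R, ∃ x₀ : R₀, (x : F) - (x₀ : F) ∈ O₁.nonunits)
    (full₂ : ∀ x : R, ∃ x₀ : R₀, (x : F) - (x₀ : F) ∈ O₂.nonunits)
    (inter : ∀ z : R, (z : F) ∈ O₁.nonunits → (z : F) ∈ O₂.nonunits →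
      ∃ c : R, (z : F) = ϖ * (c : F))
    (x : R) (hx : ¬ IsUnit x) :
    x ∈ Ideal.span {(⟨ϖ, hϖ⟩ : R), ⟨u, h₀ hu⟩, ⟨v, h₀ hv⟩} := by
  -- a non-unit of `R` lying in `R₀` is a non-unit of `R₀`
  have hdown : ∀ (y : R) (y₀ : R₀), (y : F) = (y₀ : F) → ¬ IsUnit y → ¬ IsUnit y₀ := by
    intro y y₀ hy hny hu0
    apply hny
    have h1 : IsUnit (Subring.inclusion h₀ y₀) := hu0.map (Subring.inclusion h₀)
    have h2 : Subring.inclusion h₀ y₀ = y := Subtype.ext hy.symm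
    rwa [h2] at h1
  have hsub : ∀ a b : R, ¬ IsUnit a → ¬ IsUnit b → ¬ IsUnit (a - b) := by
    intro a b ha hb
    have ha' : a ∈ maximalIdeal R := (mem_maximalIdeal a).mpr ha
    have hb' : b ∈ maximalIdeal R := (mem_maximalIdeal b).mpr hb
    exact (mem_maximalIdeal _).mp (Ideal.sub_mem _ ha' hb')
  -- Step A: the first branch lies in `(ϖ, u)`
  have stepA : ∀ y : R, (y : F) ∈ O₁.nonunits →
      ∃ c b : R, (y : F) = ϖ * (c : F) + (b : F) * u := by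
    intro y hy
    obtain ⟨y₀, hy₀⟩ := full₂ y
    have hyn : ¬ IsUnit y := not_isUnit_of_mem_nonunits O₁ hR₁ hy
    have hdn : ¬ IsUnit (y - Subring.inclusion h₀ y₀) :=
      not_isUnit_of_mem_nonunits O₂ hR₂ hy₀
    have hy₀n : ¬ IsUnit y₀ := by
      apply hdown (y - (y - Subring.inclusion h₀ y₀)) y₀ _ (hsub _ _ hyn hdn)
      show (y : F) - ((y : F) - (y₀ : F)) = (y₀ : F)
      ring
    obtain ⟨b, hb⟩ := max2 y₀ hy₀n
    have hz₁ : (y : F) - (b : F) * u ∈ O₁.nonunits :=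
      nonunits_sub_mem O₁ hy (nonunits_mul_mem O₁ (hR₁ _ (h₀ b.2)) hu₁)
    have hz₂ : (y : F) - (b : F) * u ∈ O₂.nonunits := by
      have : (y : F) - (b : F) * u = ((y : F) - (y₀ : F)) + ((y₀ : F) - (b : F) * u) := by ring
      rw [this]
      exact nonunits_add_mem O₂ hy₀ hb
    obtain ⟨c, hc⟩ := inter (y - Subring.inclusion h₀ b * (⟨u, h₀ hu⟩ : R)) hz₁ hz₂
    refine ⟨c, Subring.inclusion h₀ b, ?_⟩
    have hc' : (y : F) - (b : F) * u = ϖ * (c : F) := hc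
    show (y : F) = ϖ * (c : F) + (b : F) * u
    rw [← hc']
    ring
  -- Step B
  obtain ⟨x₀, hx₀⟩ := full₁ x
  have hdn : ¬ IsUnit (x - Subring.inclusion h₀ x₀) := not_isUnit_of_mem_nonunits O₁ hR₁ hx₀
  have hx₀n : ¬ IsUnit x₀ := by
    apply hdown (x - (x - Subring.inclusion h₀ x₀)) x₀ _ (hsub _ _ hx hdn)
    show (x : F) - ((x : F) - (x₀ : F)) = (x₀ : F)
    ring
  obtain ⟨a, ha⟩ := max1 x₀ hx₀n
  have hy : ((x - Subring.inclusion h₀ a * ⟨v, h₀ hv⟩ : R) : F) ∈ O₁.nonunits := by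
    show (x : F) - (a : F) * v ∈ O₁.nonunits
    have : (x : F) - (a : F) * v = ((x : F) - (x₀ : F)) + ((x₀ : F) - (a : F) * v) := by ring
    rw [this]
    exact nonunits_add_mem O₁ hx₀ ha
  obtain ⟨c, b, hcb⟩ := stepA _ hy
  have hx' : x = c * ⟨ϖ, hϖ⟩ + b * ⟨u, h₀ hu⟩ + Subring.inclusion h₀ a * ⟨v, h₀ hv⟩ := by
    apply Subtype.ext
    have h1 : (x : F) - (a : F) * v = ϖ * (c : F) + (b : F) * u := hcb
    show (x : F) = (c : F) * ϖ + (b : F) * u + (a : F) * v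
    rw [mul_comm (c : F) ϖ, ← h1]
    ring
  rw [hx']
  refine Ideal.add_mem _ (Ideal.add_mem _ ?_ ?_) ?_
  · exact Ideal.mul_mem_left _ _ (Ideal.subset_span (by simp))
  · exact Ideal.mul_mem_left _ _ (Ideal.subset_span (by simp))
  · exact Ideal.mul_mem_left _ _ (Ideal.subset_span (by simp))

end Transfer

variable {K F k : Type*} [Field K] [Field F] [Algebra K F] [Field k]
  {Ft₁ Ft₂ : Type*} [Field Ft₁] [Algebra k Ft₁] [Field Ft₂] [Algebra k Ft₂]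

/-! ### The constants of the fraction field of a subring -/

/-- The constants of `K` lying in the fraction field (inside `F`) of a subring `R` of `F`. -/
def constField (K : Type*) {F : Type*} [Field K] [Field F] [Algebra K F] (R : Subring F) :
    Subfield K :=
  (Subfield.closure (R : Set F)).comap (algebraMap K F)

theorem mem_constField_iff {R : Subring F} {c : K} :
    c ∈ constField K R ↔ ∃ a b : R, b ≠ 0 ∧ algebraMap K F c * (b : F) = (a : F) := by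
  unfold constField
  rw [Subfield.mem_comap, Subfield.mem_closure_iff, Subring.closure_eq]
  constructor
  · rintro ⟨y, hy, z, hz, hyz⟩
    rcases eq_or_ne z 0 with rfl | hz0
    · refine ⟨0, 1, one_ne_zero, ?_⟩
      rw [← hyz, div_zero, zero_mul]
      rfl
    · refine ⟨⟨y, hy⟩, ⟨z, hz⟩, fun h0 => hz0 (congrArg (fun t : R => (t : F)) h0), ?_⟩
      show algebraMap K F c * z = y
      rw [← hyz, div_mul_cancel₀ _ hz0]
  · rintro ⟨a, b, hb, hab⟩
    have hb0 : (b : F) ≠ 0 := fun h0 => hb (Subtype.ext h0)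
    exact ⟨a, a.2, b, b.2, by rw [← hab, mul_div_cancel_right₀ _ hb0]⟩

theorem mem_constField_of_mem {R : Subring F} {c : K} (hc : algebraMap K F c ∈ R) :
    c ∈ constField K R :=
  mem_constField_iff.mpr ⟨⟨_, hc⟩, 1, one_ne_zero, by
    show algebraMap K F c * ((1 : R) : F) = algebraMap K F c
    rw [Subring.coe_one, mul_one]⟩

theorem constField_mono {R R' : Subring F} (h : R ≤ R') : constField K R ≤ constField K R' :=
  fun _ hc => Subfield.closure_mono (show (R : Set F) ⊆ (R' : Set F) from h) hc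

namespace CrossingModel

variable {A : ValuationSubring K} {π : A →+* k} {O₁ O₂ : ValuationSubring F}
  {res₁ : O₁ →+* Ft₁} {res₂ : O₂ →+* Ft₂} {Q₁ : Place k Ft₁} {Q₂ : Place k Ft₂}
  {T : Set (Place K F)} {C C₀ : Subring F} {ϖ ϖ₀ : K}

/-- The first vertical prime of the local ring: the centre of `O₁`. -/
def p₁ (M : CrossingModel A π O₁ O₂ res₁ res₂ Q₁ Q₂ T C ϖ)
    (hres0₁ : ∀ x : O₁, (x : F) ∈ O₁.nonunits → res₁ x = 0) : Ideal M.loc :=
  Inst.LocVal.centre O₁ (fun z : M.loc => M.loc_le₁ hres0₁ z z.2)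

/-- The second vertical prime of the local ring: the centre of `O₂`. -/
def p₂ (M : CrossingModel A π O₁ O₂ res₁ res₂ Q₁ Q₂ T C ϖ)
    (hres0₂ : ∀ x : O₂, (x : F) ∈ O₂.nonunits → res₂ x = 0) : Ideal M.loc :=
  Inst.LocVal.centre O₂ (fun z : M.loc => M.loc_le₂ hres0₂ z z.2)

theorem mem_p₁_iff (M : CrossingModel A π O₁ O₂ res₁ res₂ Q₁ Q₂ T C ϖ)
    (hres0₁ : ∀ x : O₁, (x : F) ∈ O₁.nonunits → res₁ x = 0) (z : M.loc) :
    z ∈ M.p₁ hres0₁ ↔ (z : F) ∈ O₁.nonunits := Iff.rfl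

theorem mem_p₂_iff (M : CrossingModel A π O₁ O₂ res₁ res₂ Q₁ Q₂ T C ϖ)
    (hres0₂ : ∀ x : O₂, (x : F) ∈ O₂.nonunits → res₂ x = 0) (z : M.loc) :
    z ∈ M.p₂ hres0₂ ↔ (z : F) ∈ O₂.nonunits := Iff.rfl

theorem p₁_isPrime (M : CrossingModel A π O₁ O₂ res₁ res₂ Q₁ Q₂ T C ϖ)
    (hres0₁ : ∀ x : O₁, (x : F) ∈ O₁.nonunits → res₁ x = 0) : (M.p₁ hres0₁).IsPrime :=
  Inst.LocVal.centre_isPrime O₁ _

theorem p₂_isPrime (M : CrossingModel A π O₁ O₂ res₁ res₂ Q₁ Q₂ T C ϖ)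
    (hres0₂ : ∀ x : O₂, (x : F) ∈ O₂.nonunits → res₂ x = 0) : (M.p₂ hres0₂).IsPrime :=
  Inst.LocVal.centre_isPrime O₂ _

/-- **`vertical`**: the vertical height-one primes of the local ring are `p₁` and `p₂`. -/
theorem loc_vertical (M : CrossingModel A π O₁ O₂ res₁ res₂ Q₁ Q₂ T C ϖ)
    (hres0₁ : ∀ x : O₁, (x : F) ∈ O₁.nonunits → res₁ x = 0)
    (hres0₂ : ∀ x : O₂, (x : F) ∈ O₂.nonunits → res₂ x = 0)
    (p : Ideal M.loc) (hp : p.IsPrime) (hht : p.height = 1)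
    (hϖ : (⟨algebraMap K F ϖ, M.le_loc M.unif_mem⟩ : M.loc) ∈ p) :
    p = M.p₁ hres0₁ ∨ p = M.p₂ hres0₂ := by
  haveI := hp
  have hpu : (p.under C).IsPrime := Ideal.IsPrime.under C p
  have hhtu : (p.under C).height = 1 := by
    rw [show p.under C = Ideal.under C (p : Ideal (locSub C M.point)) from rfl,
      Inst.LocSub.height_under]
    exact hht
  have hle : ∀ x ∈ p.under C, Q₁.adicValuation (res₁ ⟨x, M.le₁ x x.2⟩) < 1 := fun x hx =>
    (M.mem_point_iff x).mp (Inst.LocSub.under_le (p : Ideal (locSub C M.point)) hx)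
  have hϖu : (⟨algebraMap K F ϖ, M.unif_mem⟩ : C) ∈ p.under C := hϖ
  rcases M.vertical (p.under C) hpu hhtu hle hϖu with h | h
  · left
    have h1 := forall_mem_iff_nonunits (p : Ideal (locSub C M.point)) O₁ (fun x => M.le₁ x x.2)
      (M.mem_point_of_nonunits₁ hres0₁) h
    ext z
    rw [M.mem_p₁_iff hres0₁]
    exact h1 z
  · right
    have h1 := forall_mem_iff_nonunits (p : Ideal (locSub C M.point)) O₂ (fun x => M.le₂ x x.2)
      (M.mem_point_of_nonunits₂ hres0₂) h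
    ext z
    rw [M.mem_p₂_iff hres0₂]
    exact h1 z

/-- an element of `O₁` with zero reduction is a non-unit -/
theorem mem_nonunits_of_res_eq_zero {O : ValuationSubring F} {Ft : Type*} [Field Ft]
    (res : O →+* Ft) {x : O} (hx : res x = 0) : (x : F) ∈ O.nonunits := by
  rw [ValuationSubring.mem_nonunits_iff_exists_mem_maximalIdeal]
  refine ⟨x.2, ?_⟩
  rw [mem_maximalIdeal, mem_nonunits_iff]
  intro hu
  have := hu.map res
  rw [hx] at this
  exact not_isUnit_zero this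

/-- an element of `O` with zero reduction is a non-unit; an element of `O` is a non-unit iff its
reduction vanishes -/
theorem mem_nonunits_iff_res_eq_zero {O : ValuationSubring F} {Ft : Type*} [Field Ft]
    (res : O →+* Ft) (hres0 : ∀ x : O, (x : F) ∈ O.nonunits → res x = 0) (x : O) :
    (x : F) ∈ O.nonunits ↔ res x = 0 :=
  ⟨hres0 x, mem_nonunits_of_res_eq_zero res⟩

/-- **The reductions of the local ring at a level are those of the base level** (first branch). -/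
theorem loc_full₁ (M : CrossingModel A π O₁ O₂ res₁ res₂ Q₁ Q₂ T C ϖ)
    (M₀ : CrossingModel A π O₁ O₂ res₁ res₂ Q₁ Q₂ T C₀ ϖ₀)
    (hres0₁ : ∀ x : O₁, (x : F) ∈ O₁.nonunits → res₁ x = 0)
    (full₁ : ∀ x : C, ∃ x₀ : C₀, res₁ ⟨x, M.le₁ x x.2⟩ = res₁ ⟨x₀, M₀.le₁ x₀ x₀.2⟩)
    (z : M.loc) : ∃ z₀ : M₀.loc, (z : F) - (z₀ : F) ∈ O₁.nonunits := by
  obtain ⟨a, b, hb, hab⟩ := M.mem_loc_iff.mp z.2
  obtain ⟨a₀, ha₀⟩ := full₁ a
  obtain ⟨b₀, hb₀⟩ := full₁ b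
  have hb₀p : b₀ ∉ M₀.point := by
    intro h
    apply hb
    rw [M.mem_point_iff, hb₀]
    exact (M₀.mem_point_iff b₀).mp h
  have hz₀ : (a₀ : F) / (b₀ : F) ∈ M₀.loc := div_mem_locSub a₀ hb₀p
  refine ⟨⟨_, hz₀⟩, ?_⟩
  have hzO : (z : F) ∈ O₁ := M.loc_le₁ hres0₁ z z.2
  have hz₀O : (a₀ : F) / (b₀ : F) ∈ O₁ := M₀.loc_le₁ hres0₁ _ hz₀
  have hsub : (z : F) - (a₀ : F) / (b₀ : F) ∈ O₁ := sub_mem hzO hz₀O
  have key : res₁ ⟨(z : F) - (a₀ : F) / (b₀ : F), hsub⟩ = 0 := by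
    have e : (⟨(z : F) - (a₀ : F) / (b₀ : F), hsub⟩ : O₁) =
        ⟨(z : F), hzO⟩ - ⟨(a₀ : F) / (b₀ : F), hz₀O⟩ := rfl
    rw [e, map_sub, sub_eq_zero]
    have h1 := M.res₁_mul_red₁ hzO hab
    have h2 := M₀.res₁_mul_red₁ (z := (a₀ : F) / (b₀ : F)) (a := a₀) (b := b₀) hz₀O
      (div_mul_cancel₀ _ (M₀.coe_ne_zero_of_notMem hb₀p))
    rw [red₁_apply, red₁_apply] at h1 h2
    rw [ha₀, hb₀] at h1
    have hne : res₁ ⟨b₀, M₀.le₁ b₀ b₀.2⟩ ≠ 0 := by
      intro h0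
      have := M₀.adicValuation₁_eq_one_of_notMem hb₀p
      rw [red₁_apply, h0, map_zero] at this
      exact zero_ne_one this
    exact mul_right_cancel₀ hne (h1.trans h2.symm)
  exact mem_nonunits_of_res_eq_zero res₁ key

/-- **The reductions of the local ring at a level are those of the base level** (second branch). -/
theorem loc_full₂ (M : CrossingModel A π O₁ O₂ res₁ res₂ Q₁ Q₂ T C ϖ)
    (M₀ : CrossingModel A π O₁ O₂ res₁ res₂ Q₁ Q₂ T C₀ ϖ₀)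
    (hres0₂ : ∀ x : O₂, (x : F) ∈ O₂.nonunits → res₂ x = 0)
    (full₂ : ∀ x : C, ∃ x₀ : C₀, res₂ ⟨x, M.le₂ x x.2⟩ = res₂ ⟨x₀, M₀.le₂ x₀ x₀.2⟩)
    (z : M.loc) : ∃ z₀ : M₀.loc, (z : F) - (z₀ : F) ∈ O₂.nonunits := by
  obtain ⟨a, b, hb, hab⟩ := M.mem_loc_iff.mp z.2
  obtain ⟨a₀, ha₀⟩ := full₂ a
  obtain ⟨b₀, hb₀⟩ := full₂ b
  have hb₀p : b₀ ∉ M₀.point := by
    intro h
    apply hb
    rw [M.mem_point_iff₂, hb₀]
    exact (M₀.mem_point_iff₂ b₀).mp h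
  have hz₀ : (a₀ : F) / (b₀ : F) ∈ M₀.loc := div_mem_locSub a₀ hb₀p
  refine ⟨⟨_, hz₀⟩, ?_⟩
  have hzO : (z : F) ∈ O₂ := M.loc_le₂ hres0₂ z z.2
  have hz₀O : (a₀ : F) / (b₀ : F) ∈ O₂ := M₀.loc_le₂ hres0₂ _ hz₀
  have hsub : (z : F) - (a₀ : F) / (b₀ : F) ∈ O₂ := sub_mem hzO hz₀O
  have key : res₂ ⟨(z : F) - (a₀ : F) / (b₀ : F), hsub⟩ = 0 := by
    have e : (⟨(z : F) - (a₀ : F) / (b₀ : F), hsub⟩ : O₂) =
        ⟨(z : F), hzO⟩ - ⟨(a₀ : F) / (b₀ : F), hz₀O⟩ := rfl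
    rw [e, map_sub, sub_eq_zero]
    have h1 := M.res₂_mul_red₂ hzO hab
    have h2 := M₀.res₂_mul_red₂ (z := (a₀ : F) / (b₀ : F)) (a := a₀) (b := b₀) hz₀O
      (div_mul_cancel₀ _ (M₀.coe_ne_zero_of_notMem hb₀p))
    rw [red₂_apply, red₂_apply] at h1 h2
    rw [ha₀, hb₀] at h1
    have hne : res₂ ⟨b₀, M₀.le₂ b₀ b₀.2⟩ ≠ 0 := by
      intro h0
      have := M₀.adicValuation₂_eq_one_of_notMem hb₀p
      rw [red₂_apply, h0, map_zero] at this
      exact zero_ne_one this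
    exact mul_right_cancel₀ hne (h1.trans h2.symm)
  exact mem_nonunits_of_res_eq_zero res₂ key

/-- **`p₁ ∩ p₂ = (ϖ)` in the local ring**, from the same property of the model. -/
theorem loc_inter (M : CrossingModel A π O₁ O₂ res₁ res₂ Q₁ Q₂ T C ϖ)
    (inter : ∀ z : C, (z : F) ∈ O₁.nonunits → (z : F) ∈ O₂.nonunits →
      ∃ c : C, (z : F) = algebraMap K F ϖ * (c : F))
    (z : M.loc) (h₁ : (z : F) ∈ O₁.nonunits) (h₂ : (z : F) ∈ O₂.nonunits) :
    ∃ c : M.loc, (z : F) = algebraMap K F ϖ * (c : F) := by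
  obtain ⟨a, b, hb, hab⟩ := M.mem_loc_iff.mp z.2
  have ha₁ : (a : F) ∈ O₁.nonunits := by
    rw [← hab, mul_comm]
    exact nonunits_mul_mem O₁ (M.le₁ b b.2) h₁
  have ha₂ : (a : F) ∈ O₂.nonunits := by
    rw [← hab, mul_comm]
    exact nonunits_mul_mem O₂ (M.le₂ b b.2) h₂
  obtain ⟨c, hc⟩ := inter a ha₁ ha₂
  refine ⟨⟨(c : F) / (b : F), div_mem_locSub c hb⟩, ?_⟩
  show (z : F) = algebraMap K F ϖ * ((c : F) / (b : F))
  rw [← mul_div_assoc, ← hc, ← hab, mul_div_cancel_right₀ _ (M.coe_ne_zero_of_notMem hb)]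

/-- **The maximal ideal of the local ring at every level is `(ϖ, u, v)`** for the coordinates
`u`, `v` of the base level. -/
theorem loc_nonunit_mem (M : CrossingModel A π O₁ O₂ res₁ res₂ Q₁ Q₂ T C ϖ)
    (M₀ : CrossingModel A π O₁ O₂ res₁ res₂ Q₁ Q₂ T C₀ ϖ₀) (hC : C₀ ≤ C)
    (hres0₁ : ∀ x : O₁, (x : F) ∈ O₁.nonunits → res₁ x = 0)
    (hres0₂ : ∀ x : O₂, (x : F) ∈ O₂.nonunits → res₂ x = 0)
    (full₁ : ∀ x : C, ∃ x₀ : C₀, res₁ ⟨x, M.le₁ x x.2⟩ = res₁ ⟨x₀, M₀.le₁ x₀ x₀.2⟩)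
    (full₂ : ∀ x : C, ∃ x₀ : C₀, res₂ ⟨x, M.le₂ x x.2⟩ = res₂ ⟨x₀, M₀.le₂ x₀ x₀.2⟩)
    (inter : ∀ z : C, (z : F) ∈ O₁.nonunits → (z : F) ∈ O₂.nonunits →
      ∃ c : C, (z : F) = algebraMap K F ϖ * (c : F))
    {u v : F} (hu : u ∈ M₀.loc) (hv : v ∈ M₀.loc) (hu₁ : u ∈ O₁.nonunits)
    (max1 : ∀ x : M₀.loc, ¬ IsUnit x → ∃ c : M₀.loc, (x : F) - (c : F) * v ∈ O₁.nonunits)
    (max2 : ∀ x : M₀.loc, ¬ IsUnit x → ∃ c : M₀.loc, (x : F) - (c : F) * u ∈ O₂.nonunits)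
    (x : M.loc) (hx : ¬ IsUnit x) :
    x ∈ Ideal.span {(⟨algebraMap K F ϖ, M.le_loc M.unif_mem⟩ : M.loc),
      ⟨u, M₀.loc_mono M hC hu⟩, ⟨v, M₀.loc_mono M hC hv⟩} := by
  haveI := M.isLocalRing_loc
  exact nonunit_mem_span_of_base O₁ O₂ (M₀.loc_mono M hC) (M.loc_le₁ hres0₁) (M.loc_le₂ hres0₂)
    (M.le_loc M.unif_mem) hu hv hu₁ max1 max2 (M.loc_full₁ M₀ hres0₁ full₁)
    (M.loc_full₂ M₀ hres0₂ full₂) (M.loc_inter inter) x hx

/-- **The level of `BR/S0/AnnulusLevels` at a crossing point** from the global normal model: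
`R := M.loc`, with an arbitrary constant field `K'` satisfying the named hypotheses. -/
noncomputable def nodeLevel (M : CrossingModel A π O₁ O₂ res₁ res₂ Q₁ Q₂ T C ϖ)
    (hres₁ : ∀ (a : K) (ha : a ∈ A) (h : algebraMap K F a ∈ O₁),
      res₁ ⟨algebraMap K F a, h⟩ = algebraMap k Ft₁ (π ⟨a, ha⟩))
    (hres0₁ : ∀ x : O₁, (x : F) ∈ O₁.nonunits → res₁ x = 0)
    (hres0₂ : ∀ x : O₂, (x : F) ∈ O₂.nonunits → res₂ x = 0)
    (hπ : ∀ a : A, π a ≠ 0 → (a : K)⁻¹ ∈ A)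
    (hϖ₁ : algebraMap K F ϖ ∈ O₁.nonunits) (hϖ₂ : algebraMap K F ϖ ∈ O₂.nonunits)
    {u v ε₀ : F} {thick : K} (thick_ne : thick ≠ 0) (thick_lt : A.valuation thick < 1)
    (uv : u * v = thick • ε₀)
    (hu : u ∈ M.loc) (hv : v ∈ M.loc) (hε : ε₀ ∈ M.loc) (hε' : ε₀⁻¹ ∈ M.loc)
    (hu₁ : u ∈ O₁.nonunits) (hv₂ : v ∈ O₂.nonunits) (hv₁ : v ∉ O₁.nonunits)
    (hu₂ : u ∉ O₂.nonunits)
    (hmax : ∀ x : M.loc, ¬ IsUnit x →
      x ∈ Ideal.span {(⟨algebraMap K F ϖ, M.le_loc M.unif_mem⟩ : M.loc), ⟨u, hu⟩, ⟨v, hv⟩})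
    (horiz : ∀ p : Ideal M.loc, p.IsPrime → p.height = 1 →
      (⟨algebraMap K F ϖ, M.le_loc M.unif_mem⟩ : M.loc) ∉ p →
      ∃ P : Place K F, CentredAt A M.loc P ∧ ∀ y : M.loc, evalAt P (y : F) = 0 ↔ y ∈ p)
    (K' : Subfield K) (hK' : ∀ c : K, algebraMap K F c ∈ M.loc ↔ c ∈ K' ∧ c ∈ A)
    (hϖK' : ϖ ∈ K')
    (hmaxK' : ∀ c ∈ K', A.valuation c < 1 → A.valuation c ≤ A.valuation ϖ)
    (hthick : thick ∈ K') : NodeLevel A T u v ε₀ thick :=
  have hloc := M.isLocalRing_loc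
  have hnoeth := M.isNoetherianRing_loc
  have hic := M.isIntegrallyClosed_loc
  have hres : ∀ y : M.loc, ∃ (a : A) (h : algebraMap K F a ∈ M.loc),
      ¬ IsUnit (y - ⟨algebraMap K F a, h⟩) := M.loc_residue hres₁ hπ
  have hπn : ¬ IsUnit (⟨algebraMap K F ϖ, M.le_loc M.unif_mem⟩ : M.loc) :=
    not_isUnit_of_mem_nonunits O₁ (M.loc_le₁ hres0₁) hϖ₁
  have hun : ¬ IsUnit (⟨u, hu⟩ : M.loc) := not_isUnit_of_mem_nonunits O₁ (M.loc_le₁ hres0₁) hu₁
  have hvn : ¬ IsUnit (⟨v, hv⟩ : M.loc) := not_isUnit_of_mem_nonunits O₂ (M.loc_le₂ hres0₂) hv₂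
  have hmaxeq : maximalIdeal M.loc =
      Ideal.span {(⟨algebraMap K F ϖ, M.le_loc M.unif_mem⟩ : M.loc), ⟨u, hu⟩, ⟨v, hv⟩} := by
    apply le_antisymm
    · intro x hx
      exact hmax x ((mem_maximalIdeal x).mp hx)
    · rw [Ideal.span_le]
      intro x hx
      rcases hx with rfl | rfl | rfl
      · exact (mem_maximalIdeal _).mpr hπn
      · exact (mem_maximalIdeal _).mpr hun
      · exact (mem_maximalIdeal _).mpr hvn
  { R := M.loc
    K' := K'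
    ϖ := ϖ
    noeth := hnoeth
    intClosed := hic
    isLocal := hloc
    const_mem := fun c hc hcA => (hK' c).mpr ⟨hc, hcA⟩
    unif_mem := hϖK'
    unif_ne := M.unif_ne
    unif_lt := M.unif_lt
    unif_max := hmaxK'
    thick_mem := hthick
    unif_memR := M.le_loc M.unif_mem
    u_mem := hu
    v_mem := hv
    ε₀_mem := hε
    ε₀_inv_mem := hε'
    nonunit_mem := hmax
    p1 := M.p₁ hres0₁
    p2 := M.p₂ hres0₂
    prime1 := M.p₁_isPrime hres0₁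
    prime2 := M.p₂_isPrime hres0₂
    unif_mem_p1 := hϖ₁
    unif_mem_p2 := hϖ₂
    u_mem_p1 := hu₁
    v_mem_p2 := hv₂
    v_notMem_p1 := hv₁
    u_notMem_p2 := hu₂
    vertical := M.loc_vertical hres0₁ hres0₂
    residue := hres
    centred := fun P hP => M.loc_centred hP
    horiz := fun Q hQ hht hϖQ => by
      obtain ⟨P, hcen, hev⟩ := horiz Q hQ hht hϖQ
      exact ⟨P, M.mem_tube_of_centredAt hcen, fun x => (hev x).symm⟩
    n2 := by
      haveI := hloc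
      haveI := hnoeth
      haveI := hic
      exact AnnulusN2.n2_of_fields A thick_ne thick_lt uv M.loc K' ϖ hK' hϖK' M.unif_ne M.unif_lt
        hmaxK' hthick ⟨algebraMap K F ϖ, M.le_loc M.unif_mem⟩ ⟨u, hu⟩ ⟨v, hv⟩ rfl rfl rfl hε hε'
        hmaxeq (M.p₁ hres0₁) (M.p₂ hres0₂) (M.p₁_isPrime hres0₁) (M.p₂_isPrime hres0₂)
        hϖ₁ hϖ₂ hu₁ hv₂ hv₁ hu₂
        (fun y => by
          obtain ⟨a, h, hnu⟩ := hres y
          exact ⟨a, a.2, h, hnu⟩) }

/-- **The constants of the local ring.**  A constant of `A` lying in the fraction field of the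
local ring lies in the local ring (the local ring is the intersection of its localisations at
the height-one primes, which are the centres of `O₁`, `O₂` and of the places of the tube). -/
theorem loc_const_mem (M : CrossingModel A π O₁ O₂ res₁ res₂ Q₁ Q₂ T C ϖ)
    (hres0₁ : ∀ x : O₁, (x : F) ∈ O₁.nonunits → res₁ x = 0)
    (hres0₂ : ∀ x : O₂, (x : F) ∈ O₂.nonunits → res₂ x = 0)
    (hAO₁ : ∀ c ∈ A, algebraMap K F c ∈ O₁) (hAO₂ : ∀ c ∈ A, algebraMap K F c ∈ O₂)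
    (horiz : ∀ p : Ideal M.loc, p.IsPrime → p.height = 1 →
      (⟨algebraMap K F ϖ, M.le_loc M.unif_mem⟩ : M.loc) ∉ p →
      ∃ P : Place K F, CentredAt A M.loc P ∧ ∀ y : M.loc, evalAt P (y : F) = 0 ↔ y ∈ p)
    {c : K} (hcK : c ∈ constField K M.loc) (hcA : c ∈ A) : algebraMap K F c ∈ M.loc := by
  haveI := M.isNoetherianRing_loc
  haveI := M.isIntegrallyClosed_loc
  obtain ⟨a, b, hb, hab⟩ := mem_constField_iff.mp hcK
  let 𝒱 : Set (ValuationSubring F) := {V | V = O₁ ∨ V = O₂ ∨ ∃ P ∈ T, V = P.toValuationSubring}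
  refine mem_of_dominated M.loc 𝒱 ?_ ?_ hb hab ?_
  · rintro V (rfl | rfl | ⟨P, hP, rfl⟩) x hx
    · exact M.loc_le₁ hres0₁ x hx
    · exact M.loc_le₂ hres0₂ x hx
    · exact (M.loc_centred hP).choose.mem_toValuationSubring hx
  · intro p hp hht
    rcases M.loc_primes hres0₁ hres0₂ horiz p hp hht with h | h | ⟨P, hP, h⟩
    · exact ⟨O₁, Or.inl rfl, h⟩
    · exact ⟨O₂, Or.inr (Or.inl rfl), h⟩
    · exact ⟨P.toValuationSubring, Or.inr (Or.inr ⟨P, hP, rfl⟩), h⟩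
  · rintro V (rfl | rfl | ⟨P, hP, rfl⟩)
    · exact hAO₁ c hcA
    · exact hAO₂ c hcA
    · exact P.algebraMap_mem' c

/-- **The level of `BR/S0/AnnulusLevels` at a crossing point**, with constant field the constants
of the fraction field of the local ring (no knowledge of the constants of the function field of
the level is needed). -/
noncomputable def nodeLevelConst (M : CrossingModel A π O₁ O₂ res₁ res₂ Q₁ Q₂ T C ϖ)
    (hres₁ : ∀ (a : K) (ha : a ∈ A) (h : algebraMap K F a ∈ O₁),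
      res₁ ⟨algebraMap K F a, h⟩ = algebraMap k Ft₁ (π ⟨a, ha⟩))
    (hres0₁ : ∀ x : O₁, (x : F) ∈ O₁.nonunits → res₁ x = 0)
    (hres0₂ : ∀ x : O₂, (x : F) ∈ O₂.nonunits → res₂ x = 0)
    (hπ : ∀ a : A, π a ≠ 0 → (a : K)⁻¹ ∈ A)
    (hAO₁ : ∀ c : K, algebraMap K F c ∈ O₁ ↔ c ∈ A) (hAO₂ : ∀ c ∈ A, algebraMap K F c ∈ O₂)
    (hnon₁ : ∀ c : K, A.valuation c < 1 → algebraMap K F c ∈ O₁.nonunits)
    (hnon₂ : ∀ c : K, A.valuation c < 1 → algebraMap K F c ∈ O₂.nonunits)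
    (inter : ∀ z : C, (z : F) ∈ O₁.nonunits → (z : F) ∈ O₂.nonunits →
      ∃ c : C, (z : F) = algebraMap K F ϖ * (c : F))
    {u v ε₀ : F} {thick : K} (thick_ne : thick ≠ 0) (thick_lt : A.valuation thick < 1)
    (uv : u * v = thick • ε₀)
    (hu : u ∈ M.loc) (hv : v ∈ M.loc) (hε : ε₀ ∈ M.loc) (hε' : ε₀⁻¹ ∈ M.loc)
    (hu₁ : u ∈ O₁.nonunits) (hv₂ : v ∈ O₂.nonunits) (hv₁ : v ∉ O₁.nonunits)
    (hu₂ : u ∉ O₂.nonunits)
    (hmax : ∀ x : M.loc, ¬ IsUnit x →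
      x ∈ Ideal.span {(⟨algebraMap K F ϖ, M.le_loc M.unif_mem⟩ : M.loc), ⟨u, hu⟩, ⟨v, hv⟩})
    (horiz : ∀ p : Ideal M.loc, p.IsPrime → p.height = 1 →
      (⟨algebraMap K F ϖ, M.le_loc M.unif_mem⟩ : M.loc) ∉ p →
      ∃ P : Place K F, CentredAt A M.loc P ∧ ∀ y : M.loc, evalAt P (y : F) = 0 ↔ y ∈ p) :
    NodeLevel A T u v ε₀ thick :=
  have hconst : ∀ c : K, algebraMap K F c ∈ M.loc ↔ c ∈ constField K M.loc ∧ c ∈ A := fun c =>
    ⟨fun h => ⟨mem_constField_of_mem h, (hAO₁ c).mp (M.loc_le₁ hres0₁ _ h)⟩,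
      fun h => M.loc_const_mem hres0₁ hres0₂ (fun c hc => (hAO₁ c).mpr hc) hAO₂ horiz h.1 h.2⟩
  have hϖF : algebraMap K F ϖ ≠ 0 := (map_ne_zero _).mpr M.unif_ne
  have hmaxK : ∀ c ∈ constField K M.loc, A.valuation c < 1 → A.valuation c ≤ A.valuation ϖ := by
    intro c hcK hc
    have hcA : c ∈ A := (A.valuation_le_one_iff c).mp hc.le
    have hcR : algebraMap K F c ∈ M.loc := (hconst c).mpr ⟨hcK, hcA⟩
    obtain ⟨r, hr⟩ := M.loc_inter inter ⟨_, hcR⟩ (hnon₁ c hc) (hnon₂ c hc)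
    have hr' : (r : F) = algebraMap K F (c / ϖ) := by
      have h1 : algebraMap K F c = algebraMap K F ϖ * (r : F) := hr
      rw [map_div₀, h1, mul_div_cancel_left₀ _ hϖF]
    have hdiv : c / ϖ ∈ A := (hAO₁ _).mp (hr' ▸ M.loc_le₁ hres0₁ _ r.2)
    have h2 := (A.valuation_le_one_iff _).mpr hdiv
    rw [map_div₀] at h2
    have hϖ0 : 0 < A.valuation ϖ := zero_lt_iff.mpr ((A.valuation).ne_zero_iff.mpr M.unif_ne)
    exact (div_le_one₀ hϖ0).mp h2
  have hthick : thick ∈ constField K M.loc := by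
    apply mem_constField_of_mem
    have hε0 : ε₀ ≠ 0 := by
      rintro rfl
      rw [smul_zero, mul_eq_zero] at uv
      rcases uv with rfl | rfl
      · apply hu₂
        rw [O₂.mem_nonunits_iff, map_zero]
        exact zero_lt_one
      · apply hv₁
        rw [O₁.mem_nonunits_iff, map_zero]
        exact zero_lt_one
    have h1 : algebraMap K F thick = u * v * ε₀⁻¹ := by
      rw [uv, Algebra.smul_def, mul_assoc, mul_inv_cancel₀ hε0, mul_one]
    rw [h1]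
    exact M.loc.mul_mem (M.loc.mul_mem hu hv) hε'
  M.nodeLevel hres₁ hres0₁ hres0₂ hπ (hnon₁ ϖ M.unif_lt) (hnon₂ ϖ M.unif_lt) thick_ne thick_lt uv
    hu hv hε hε' hu₁ hv₂ hv₁ hu₂ hmax horiz (constField K M.loc) hconst
    (mem_constField_of_mem (M.le_loc M.unif_mem)) hmaxK hthick

/-- **The level with the coordinates of a base level.** -/
noncomputable def nodeLevelOfBase (M : CrossingModel A π O₁ O₂ res₁ res₂ Q₁ Q₂ T C ϖ)
    (M₀ : CrossingModel A π O₁ O₂ res₁ res₂ Q₁ Q₂ T C₀ ϖ₀) (hC : C₀ ≤ C)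
    (hres₁ : ∀ (a : K) (ha : a ∈ A) (h : algebraMap K F a ∈ O₁),
      res₁ ⟨algebraMap K F a, h⟩ = algebraMap k Ft₁ (π ⟨a, ha⟩))
    (hres0₁ : ∀ x : O₁, (x : F) ∈ O₁.nonunits → res₁ x = 0)
    (hres0₂ : ∀ x : O₂, (x : F) ∈ O₂.nonunits → res₂ x = 0)
    (hπ : ∀ a : A, π a ≠ 0 → (a : K)⁻¹ ∈ A)
    (hAO₁ : ∀ c : K, algebraMap K F c ∈ O₁ ↔ c ∈ A) (hAO₂ : ∀ c ∈ A, algebraMap K F c ∈ O₂)
    (hnon₁ : ∀ c : K, A.valuation c < 1 → algebraMap K F c ∈ O₁.nonunits)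
    (hnon₂ : ∀ c : K, A.valuation c < 1 → algebraMap K F c ∈ O₂.nonunits)
    (full₁ : ∀ x : C, ∃ x₀ : C₀, res₁ ⟨x, M.le₁ x x.2⟩ = res₁ ⟨x₀, M₀.le₁ x₀ x₀.2⟩)
    (full₂ : ∀ x : C, ∃ x₀ : C₀, res₂ ⟨x, M.le₂ x x.2⟩ = res₂ ⟨x₀, M₀.le₂ x₀ x₀.2⟩)
    (inter : ∀ z : C, (z : F) ∈ O₁.nonunits → (z : F) ∈ O₂.nonunits →
      ∃ c : C, (z : F) = algebraMap K F ϖ * (c : F))
    {u v ε₀ : F} {thick : K} (thick_ne : thick ≠ 0) (thick_lt : A.valuation thick < 1)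
    (uv : u * v = thick • ε₀)
    (hu : u ∈ M₀.loc) (hv : v ∈ M₀.loc) (hε : ε₀ ∈ M₀.loc) (hε' : ε₀⁻¹ ∈ M₀.loc)
    (hu₁ : u ∈ O₁.nonunits) (hv₂ : v ∈ O₂.nonunits) (hv₁ : v ∉ O₁.nonunits)
    (hu₂ : u ∉ O₂.nonunits)
    (max1 : ∀ x : M₀.loc, ¬ IsUnit x → ∃ c : M₀.loc, (x : F) - (c : F) * v ∈ O₁.nonunits)
    (max2 : ∀ x : M₀.loc, ¬ IsUnit x → ∃ c : M₀.loc, (x : F) - (c : F) * u ∈ O₂.nonunits)
    (horiz : ∀ p : Ideal M.loc, p.IsPrime → p.height = 1 →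
      (⟨algebraMap K F ϖ, M.le_loc M.unif_mem⟩ : M.loc) ∉ p →
      ∃ P : Place K F, CentredAt A M.loc P ∧ ∀ y : M.loc, evalAt P (y : F) = 0 ↔ y ∈ p) :
    NodeLevel A T u v ε₀ thick :=
  M.nodeLevelConst hres₁ hres0₁ hres0₂ hπ hAO₁ hAO₂ hnon₁ hnon₂ inter thick_ne thick_lt uv
    (M₀.loc_mono M hC hu) (M₀.loc_mono M hC hv) (M₀.loc_mono M hC hε) (M₀.loc_mono M hC hε')
    hu₁ hv₂ hv₁ hu₂
    (M.loc_nonunit_mem M₀ hC hres0₁ hres0₂ full₁ full₂ inter hu hv hu₁ max1 max2) horiz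

/-! ### The base-level node data from `NodeLemma.NodeData` -/

/-- The extension to the local ring of the centre of `O₁` on the model is the centre of `O₁`. -/
theorem map_eq_p₁ (M : CrossingModel A π O₁ O₂ res₁ res₂ Q₁ Q₂ T C ϖ)
    (hres0₁ : ∀ x : O₁, (x : F) ∈ O₁.nonunits → res₁ x = 0) {P1 : Ideal C}
    (hP1 : ∀ x : C, x ∈ P1 ↔ (x : F) ∈ O₁.nonunits) :
    P1.map (algebraMap C M.loc) = M.p₁ hres0₁ := by
  have hprime : P1.IsPrime := by
    have : P1 = Inst.LocVal.centre O₁ (fun x : C => M.le₁ x x.2) := by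
      ext x
      exact hP1 x
    rw [this]
    exact Inst.LocVal.centre_isPrime O₁ _
  have hle : P1 ≤ M.point := fun x hx => M.mem_point_of_nonunits₁ hres0₁ x ((hP1 x).mp hx)
  have hdisj : Disjoint (M.point.primeCompl : Set C) (P1 : Set C) :=
    Set.disjoint_left.mpr fun _ hx hxI => hx (hle hxI)
  haveI : (P1.map (algebraMap C M.loc)).IsPrime :=
    IsLocalization.isPrime_of_isPrime_disjoint M.point.primeCompl M.loc P1 hprime hdisj
  have hunder : (P1.map (algebraMap C M.loc)).under C = P1 :=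
    IsLocalization.under_map_of_isPrime_disjoint M.point.primeCompl M.loc hprime hdisj
  ext z
  rw [M.mem_p₁_iff hres0₁]
  refine forall_mem_iff_nonunits (P1.map (algebraMap C (locSub C M.point))) O₁
    (fun x => M.le₁ x x.2) (M.mem_point_of_nonunits₁ hres0₁) (fun x => ?_) z
  rw [show Ideal.under C (P1.map (algebraMap C (locSub C M.point))) = P1 from hunder]
  exact hP1 x

/-- The extension to the local ring of the centre of `O₂` on the model is the centre of `O₂`. -/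
theorem map_eq_p₂ (M : CrossingModel A π O₁ O₂ res₁ res₂ Q₁ Q₂ T C ϖ)
    (hres0₂ : ∀ x : O₂, (x : F) ∈ O₂.nonunits → res₂ x = 0) {P2 : Ideal C}
    (hP2 : ∀ x : C, x ∈ P2 ↔ (x : F) ∈ O₂.nonunits) :
    P2.map (algebraMap C M.loc) = M.p₂ hres0₂ := by
  have hprime : P2.IsPrime := by
    have : P2 = Inst.LocVal.centre O₂ (fun x : C => M.le₂ x x.2) := by
      ext x
      exact hP2 x
    rw [this]
    exact Inst.LocVal.centre_isPrime O₂ _
  have hle : P2 ≤ M.point := fun x hx => M.mem_point_of_nonunits₂ hres0₂ x ((hP2 x).mp hx)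
  have hdisj : Disjoint (M.point.primeCompl : Set C) (P2 : Set C) :=
    Set.disjoint_left.mpr fun _ hx hxI => hx (hle hxI)
  haveI : (P2.map (algebraMap C M.loc)).IsPrime :=
    IsLocalization.isPrime_of_isPrime_disjoint M.point.primeCompl M.loc P2 hprime hdisj
  have hunder : (P2.map (algebraMap C M.loc)).under C = P2 :=
    IsLocalization.under_map_of_isPrime_disjoint M.point.primeCompl M.loc hprime hdisj
  ext z
  rw [M.mem_p₂_iff hres0₂]
  refine forall_mem_iff_nonunits (P2.map (algebraMap C (locSub C M.point))) O₂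
    (fun x => M.le₂ x x.2) (M.mem_point_of_nonunits₂ hres0₂) (fun x => ?_) z
  rw [show Ideal.under C (P2.map (algebraMap C (locSub C M.point))) = P2 from hunder]
  exact hP2 x

/-- **The base-level inputs of `nodeLevelOfBase` from `NodeLemma.NodeData`** in the local ring
`M.loc` (the output of `SpecialFibre.TwoComponents.nodeData` / `exists_node` with
`O := M.loc`). -/
theorem base_of_nodeData (M : CrossingModel A π O₁ O₂ res₁ res₂ Q₁ Q₂ T C ϖ) [IsLocalRing M.loc]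
    (hres0₁ : ∀ x : O₁, (x : F) ∈ O₁.nonunits → res₁ x = 0)
    (hres0₂ : ∀ x : O₂, (x : F) ∈ O₂.nonunits → res₂ x = 0) {P1 P2 : Ideal C}
    (hP1 : ∀ x : C, x ∈ P1 ↔ (x : F) ∈ O₁.nonunits)
    (hP2 : ∀ x : C, x ∈ P2 ↔ (x : F) ∈ O₂.nonunits) {q u v : M.loc}
    (h : NodeLemma.NodeData q u v (P1.map (algebraMap C M.loc)) (P2.map (algebraMap C M.loc)))
    (hne1 : P1.map (algebraMap C M.loc) ≠ maximalIdeal M.loc)
    (hne2 : P2.map (algebraMap C M.loc) ≠ maximalIdeal M.loc) :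
    (u : F) ∈ O₁.nonunits ∧ (v : F) ∈ O₂.nonunits ∧ (v : F) ∉ O₁.nonunits ∧
      (u : F) ∉ O₂.nonunits ∧
      (∀ x : M.loc, ¬ IsUnit x → ∃ c : M.loc, (x : F) - (c : F) * (v : F) ∈ O₁.nonunits) ∧
      (∀ x : M.loc, ¬ IsUnit x → ∃ c : M.loc, (x : F) - (c : F) * (u : F) ∈ O₂.nonunits) := by
  have e1 := M.map_eq_p₁ hres0₁ hP1
  have e2 := M.map_eq_p₂ hres0₂ hP2
  rw [e1, e2] at h
  rw [e1] at hne1
  rw [e2] at hne2
  refine ⟨h.hu, h.hv, ?_, ?_, ?_, ?_⟩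
  · intro hv
    apply hne1
    have hv' : v ∈ M.p₁ hres0₁ := hv
    rw [h.max1, eq_comm, sup_eq_left, Ideal.span_singleton_le_iff_mem]
    exact hv'
  · intro hu
    apply hne2
    have hu' : u ∈ M.p₂ hres0₂ := hu
    rw [h.max2, eq_comm, sup_eq_left, Ideal.span_singleton_le_iff_mem]
    exact hu'
  · intro x hx
    have hxm : x ∈ maximalIdeal M.loc := (mem_maximalIdeal x).mpr hx
    rw [h.max1] at hxm
    obtain ⟨y, hy, w, hw, rfl⟩ := Submodule.mem_sup.mp hxm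
    obtain ⟨c, rfl⟩ := Ideal.mem_span_singleton'.mp hw
    refine ⟨c, ?_⟩
    have : ((y + c * v : M.loc) : F) - (c : F) * (v : F) = (y : F) := by
      show (y : F) + (c : F) * (v : F) - (c : F) * (v : F) = (y : F)
      ring
    rw [this]
    exact hy
  · intro x hx
    have hxm : x ∈ maximalIdeal M.loc := (mem_maximalIdeal x).mpr hx
    rw [h.max2] at hxm
    obtain ⟨y, hy, w, hw, rfl⟩ := Submodule.mem_sup.mp hxm
    obtain ⟨c, rfl⟩ := Ideal.mem_span_singleton'.mp hw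
    refine ⟨c, ?_⟩
    have : ((y + c * u : M.loc) : F) - (c : F) * (u : F) = (y : F) := by
      show (y : F) + (c : F) * (u : F) - (c : F) * (u : F) = (y : F)
      ring
    rw [this]
    exact hy

end CrossingModel

variable {A : ValuationSubring K} {π : A →+* k} {O₁ O₂ : ValuationSubring F}
  {res₁ : O₁ →+* Ft₁} {res₂ : O₂ →+* Ft₂} {Q₁ : Place k Ft₁} {Q₂ : Place k Ft₂}
  {T : Set (Place K F)}

/-- **The level data of the tube of a crossing point from a directed family of global models**,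
with the coordinates `u`, `v`, `ε₀`, `thick` of a base level `i₀`. -/
noncomputable def annulusLevelsOfModels {ι : Type*} {C : ι → Subring F} {ϖ : ι → K}
    (M : ∀ i, CrossingModel A π O₁ O₂ res₁ res₂ Q₁ Q₂ T (C i) (ϖ i)) (i₀ : ι)
    (hbase : ∀ i, C i₀ ≤ C i)
    (hdir : ∀ i j, ∃ l, C i ≤ C l ∧ C j ≤ C l)
    (hfrac : ∀ y : F, ∃ i, ∃ a b : C i, b ≠ 0 ∧ y * (b : F) = (a : F))
    (hconst : ∀ a ∈ A, ∃ i, algebraMap K F a ∈ C i)
    (hres₁ : ∀ (a : K) (ha : a ∈ A) (h : algebraMap K F a ∈ O₁),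
      res₁ ⟨algebraMap K F a, h⟩ = algebraMap k Ft₁ (π ⟨a, ha⟩))
    (hres0₁ : ∀ x : O₁, (x : F) ∈ O₁.nonunits → res₁ x = 0)
    (hres0₂ : ∀ x : O₂, (x : F) ∈ O₂.nonunits → res₂ x = 0)
    (hπ : ∀ a : A, π a ≠ 0 → (a : K)⁻¹ ∈ A)
    (hAO₁ : ∀ c : K, algebraMap K F c ∈ O₁ ↔ c ∈ A) (hAO₂ : ∀ c ∈ A, algebraMap K F c ∈ O₂)
    (hnon₁ : ∀ c : K, A.valuation c < 1 → algebraMap K F c ∈ O₁.nonunits)
    (hnon₂ : ∀ c : K, A.valuation c < 1 → algebraMap K F c ∈ O₂.nonunits)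
    (full₁ : ∀ i (x : C i), ∃ x₀ : C i₀,
      res₁ ⟨x, (M i).le₁ x x.2⟩ = res₁ ⟨x₀, (M i₀).le₁ x₀ x₀.2⟩)
    (full₂ : ∀ i (x : C i), ∃ x₀ : C i₀,
      res₂ ⟨x, (M i).le₂ x x.2⟩ = res₂ ⟨x₀, (M i₀).le₂ x₀ x₀.2⟩)
    (inter : ∀ i (z : C i), (z : F) ∈ O₁.nonunits → (z : F) ∈ O₂.nonunits →
      ∃ c : C i, (z : F) = algebraMap K F (ϖ i) * (c : F))
    {u v ε₀ : F} {thick : K} (thick_ne : thick ≠ 0) (thick_lt : A.valuation thick < 1)
    (uv : u * v = thick • ε₀)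
    (hu : u ∈ (M i₀).loc) (hv : v ∈ (M i₀).loc) (hε : ε₀ ∈ (M i₀).loc)
    (hε' : ε₀⁻¹ ∈ (M i₀).loc)
    (hu₁ : u ∈ O₁.nonunits) (hv₂ : v ∈ O₂.nonunits) (hv₁ : v ∉ O₁.nonunits)
    (hu₂ : u ∉ O₂.nonunits)
    (max1 : ∀ x : (M i₀).loc, ¬ IsUnit x →
      ∃ c : (M i₀).loc, (x : F) - (c : F) * v ∈ O₁.nonunits)
    (max2 : ∀ x : (M i₀).loc, ¬ IsUnit x →
      ∃ c : (M i₀).loc, (x : F) - (c : F) * u ∈ O₂.nonunits)
    (horiz : ∀ i, ∀ p : Ideal (M i).loc, p.IsPrime → p.height = 1 →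
      (⟨algebraMap K F (ϖ i), (M i).le_loc (M i).unif_mem⟩ : (M i).loc) ∉ p →
      ∃ P : Place K F, CentredAt A (M i).loc P ∧ ∀ y : (M i).loc, evalAt P (y : F) = 0 ↔ y ∈ p)
    (hfin : ∀ y : F, y ≠ 0 → {P : Place K F | P.ord y ≠ 0}.Finite) :
    AnnulusLevels A T ι where
  u := u
  v := v
  ε₀ := ε₀
  thick := thick
  thick_ne := thick_ne
  thick_lt := thick_lt
  uv := uv
  level i := (M i).nodeLevelOfBase (M i₀) (hbase i) hres₁ hres0₁ hres0₂ hπ hAO₁ hAO₂ hnon₁ hnon₂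
    (full₁ i) (full₂ i) (inter i) thick_ne thick_lt uv hu hv hε hε' hu₁ hv₂ hv₁ hu₂ max1 max2
    (horiz i)
  directed i j := by
    obtain ⟨l, hil, hjl⟩ := hdir i j
    exact ⟨l, (M i).loc_mono (M l) hil, (M j).loc_mono (M l) hjl,
      constField_mono ((M i).loc_mono (M l) hil), constField_mono ((M j).loc_mono (M l) hjl)⟩
  frac y := by
    obtain ⟨i, a, b, hb, hab⟩ := hfrac y
    refine ⟨i, ⟨a, (M i).le_loc a.2⟩, ⟨b, (M i).le_loc b.2⟩, ?_, hab⟩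
    intro h0
    apply hb
    apply Subtype.ext
    exact congrArg (fun x : (M i).loc => (x : F)) h0
  const c := by
    rcases A.mem_or_inv_mem c with hc | hc
    · obtain ⟨i, hi⟩ := hconst c hc
      exact ⟨i, mem_constField_of_mem ((M i).le_loc hi)⟩
    · obtain ⟨i, hi⟩ := hconst c⁻¹ hc
      refine ⟨i, ?_⟩
      have h1 : c⁻¹ ∈ constField K (M i).loc := mem_constField_of_mem ((M i).le_loc hi)
      have h2 := (constField K (M i).loc).inv_mem h1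
      rwa [inv_inv] at h2
  finite_div := hfin

/-! ### The bundled input: a family of global models at a crossing point -/

/-- **All the inputs at a crossing point, bundled**: a directed family of global normal models
`C i` exhausting `F` and `A`, with a base level `i₀` carrying the coordinates `u`, `v`
(`u * v = thick • ε₀`).  Output: `CrossingFamily.nodeChart` (the node chart of
`BR/S0/NodeFields`) and `CrossingFamily.annulusLevels` (the level data of the tube of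
`BR/S0/AnnulusLevels`). -/
structure CrossingFamily (A : ValuationSubring K) (π : A →+* k) (O₁ O₂ : ValuationSubring F)
    (res₁ : O₁ →+* Ft₁) (res₂ : O₂ →+* Ft₂) (Q₁ : Place k Ft₁) (Q₂ : Place k Ft₂)
    (T : Set (Place K F)) {ι : Type*} (C : ι → Subring F) (ϖ : ι → K) (i₀ : ι) (u v ε₀ : F)
    (thick : K) : Prop where
  model : ∀ i, CrossingModel A π O₁ O₂ res₁ res₂ Q₁ Q₂ T (C i) (ϖ i)
  base : ∀ i, C i₀ ≤ C i
  dir : ∀ i j, ∃ l, C i ≤ C l ∧ C j ≤ C l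
  frac : ∀ y : F, ∃ i, ∃ a b : C i, b ≠ 0 ∧ y * (b : F) = (a : F)
  const : ∀ a ∈ A, ∃ i, algebraMap K F a ∈ C i
  /-- the reduction of a constant is the constant -/
  res_const : ∀ (a : K) (ha : a ∈ A) (h : algebraMap K F a ∈ O₁),
    res₁ ⟨algebraMap K F a, h⟩ = algebraMap k Ft₁ (π ⟨a, ha⟩)
  res_zero₁ : ∀ x : O₁, (x : F) ∈ O₁.nonunits → res₁ x = 0
  res_zero₂ : ∀ x : O₂, (x : F) ∈ O₂.nonunits → res₂ x = 0
  inv_mem : ∀ a : A, π a ≠ 0 → (a : K)⁻¹ ∈ A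
  /-- the constants of `O₁` are `A` -/
  const_mem₁ : ∀ c : K, algebraMap K F c ∈ O₁ ↔ c ∈ A
  const_mem₂ : ∀ c ∈ A, algebraMap K F c ∈ O₂
  const_nonunit₁ : ∀ c : K, A.valuation c < 1 → algebraMap K F c ∈ O₁.nonunits
  const_nonunit₂ : ∀ c : K, A.valuation c < 1 → algebraMap K F c ∈ O₂.nonunits
  /-- the first reduction of every model is that of the base model -/
  full₁ : ∀ i (x : C i), ∃ x₀ : C i₀,
    res₁ ⟨x, (model i).le₁ x x.2⟩ = res₁ ⟨x₀, (model i₀).le₁ x₀ x₀.2⟩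
  /-- the second reduction of every model is that of the base model -/
  full₂ : ∀ i (x : C i), ∃ x₀ : C i₀,
    res₂ ⟨x, (model i).le₂ x x.2⟩ = res₂ ⟨x₀, (model i₀).le₂ x₀ x₀.2⟩
  /-- the special fibre of every model is reduced: `P1 ⊓ P2 = (ϖ)` -/
  inter : ∀ i (z : C i), (z : F) ∈ O₁.nonunits → (z : F) ∈ O₂.nonunits →
    ∃ c : C i, (z : F) = algebraMap K F (ϖ i) * (c : F)
  thick_ne : thick ≠ 0
  thick_lt : A.valuation thick < 1
  uv : u * v = thick • ε₀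
  u_mem : u ∈ (model i₀).loc
  v_mem : v ∈ (model i₀).loc
  ε₀_mem : ε₀ ∈ (model i₀).loc
  ε₀_inv_mem : ε₀⁻¹ ∈ (model i₀).loc
  u_nonunit₁ : u ∈ O₁.nonunits
  v_nonunit₂ : v ∈ O₂.nonunits
  v_unit₁ : v ∉ O₁.nonunits
  u_unit₂ : u ∉ O₂.nonunits
  /-- `𝔪 = p₁ + (v)` in the local ring of the base level -/
  max1 : ∀ x : (model i₀).loc, ¬ IsUnit x →
    ∃ c : (model i₀).loc, (x : F) - (c : F) * v ∈ O₁.nonunits
  /-- `𝔪 = p₂ + (u)` in the local ring of the base level -/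
  max2 : ∀ x : (model i₀).loc, ¬ IsUnit x →
    ∃ c : (model i₀).loc, (x : F) - (c : F) * u ∈ O₂.nonunits
  /-- the places over the horizontal height-one primes of the local rings (shape (L5)) -/
  horiz : ∀ i, ∀ p : Ideal (model i).loc, p.IsPrime → p.height = 1 →
    (⟨algebraMap K F (ϖ i), (model i).le_loc (model i).unif_mem⟩ : (model i).loc) ∉ p →
    ∃ P : Place K F, CentredAt A (model i).loc P ∧
      ∀ y : (model i).loc, evalAt P (y : F) = 0 ↔ y ∈ p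
  finite_div : ∀ y : F, y ≠ 0 → {P : Place K F | P.ord y ≠ 0}.Finite

namespace CrossingFamily

variable {ι : Type*} {C : ι → Subring F} {ϖ : ι → K} {i₀ : ι} {u v ε₀ : F} {thick : K}

/-- The finite levels of the node chart. -/
theorem nodeLevels (H : CrossingFamily A π O₁ O₂ res₁ res₂ Q₁ Q₂ T C ϖ i₀ u v ε₀ thick) :
    NodeLevels A O₁ O₂ res₁ res₂ Q₁ Q₂ T (fun i => (H.model i).loc) :=
  NodeLevels.ofModels H.model H.dir H.frac H.const H.res_const H.res_zero₁ H.res_zero₂ H.inv_mem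
    H.horiz

/-- **The node chart of the crossing point.** -/
noncomputable def nodeChart
    (H : CrossingFamily A π O₁ O₂ res₁ res₂ Q₁ Q₂ T C ϖ i₀ u v ε₀ thick) :
    NodeChart A O₁ O₂ res₁ res₂ Q₁ Q₂ T :=
  H.nodeLevels.nodeChart

/-- **The level data of the tube of the crossing point.** -/
noncomputable def annulusLevels
    (H : CrossingFamily A π O₁ O₂ res₁ res₂ Q₁ Q₂ T C ϖ i₀ u v ε₀ thick) :
    AnnulusLevels A T ι :=
  annulusLevelsOfModels H.model i₀ H.base H.dir H.frac H.const H.res_const H.res_zero₁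
    H.res_zero₂ H.inv_mem H.const_mem₁ H.const_mem₂ H.const_nonunit₁ H.const_nonunit₂ H.full₁
    H.full₂ H.inter H.thick_ne H.thick_lt H.uv H.u_mem H.v_mem H.ε₀_mem H.ε₀_inv_mem
    H.u_nonunit₁ H.v_nonunit₂ H.v_unit₁ H.u_unit₂ H.max1 H.max2 H.horiz H.finite_div

@[simp] theorem annulusLevels_u
    (H : CrossingFamily A π O₁ O₂ res₁ res₂ Q₁ Q₂ T C ϖ i₀ u v ε₀ thick) :
    H.annulusLevels.u = u := rfl

@[simp] theorem annulusLevels_v
    (H : CrossingFamily A π O₁ O₂ res₁ res₂ Q₁ Q₂ T C ϖ i₀ u v ε₀ thick) :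
    H.annulusLevels.v = v := rfl

@[simp] theorem annulusLevels_ε₀
    (H : CrossingFamily A π O₁ O₂ res₁ res₂ Q₁ Q₂ T C ϖ i₀ u v ε₀ thick) :
    H.annulusLevels.ε₀ = ε₀ := rfl

@[simp] theorem annulusLevels_thick
    (H : CrossingFamily A π O₁ O₂ res₁ res₂ Q₁ Q₂ T C ϖ i₀ u v ε₀ thick) :
    H.annulusLevels.thick = thick := rfl

@[simp] theorem annulusLevels_level_R
    (H : CrossingFamily A π O₁ O₂ res₁ res₂ Q₁ Q₂ T C ϖ i₀ u v ε₀ thick) (i : ι) :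
    (H.annulusLevels.level i).R = (H.model i).loc := rfl

@[simp] theorem annulusLevels_level_K'
    (H : CrossingFamily A π O₁ O₂ res₁ res₂ Q₁ Q₂ T C ϖ i₀ u v ε₀ thick) (i : ι) :
    (H.annulusLevels.level i).K' = constField K (H.model i).loc := rfl

@[simp] theorem annulusLevels_level_ϖ
    (H : CrossingFamily A π O₁ O₂ res₁ res₂ Q₁ Q₂ T C ϖ i₀ u v ε₀ thick) (i : ι) :
    (H.annulusLevels.level i).ϖ = ϖ i := rfl

/-- The constant fields of the levels have full residue field as soon as the constants of the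
models do (the hypothesis `hfull` of `Circle.Cover.approxAt_of_annulusLevels`). -/
theorem annulusLevels_fullRes
    (H : CrossingFamily A π O₁ O₂ res₁ res₂ Q₁ Q₂ T C ϖ i₀ u v ε₀ thick)
    (hfull : ∀ i, ∀ (c : K) (hc : c ∈ A), ∃ (c' : K) (hc' : c' ∈ A),
      algebraMap K F c' ∈ C i ∧ residue A ⟨c', hc'⟩ = residue A ⟨c, hc⟩) :
    ∀ i, ∀ (c : K) (hc : c ∈ A), ∃ (c' : K) (hc' : c' ∈ A),
      c' ∈ (H.annulusLevels.level i).K' ∧ residue A ⟨c', hc'⟩ = residue A ⟨c, hc⟩ := by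
  intro i c hc
  obtain ⟨c', hc', hmem, hres⟩ := hfull i c hc
  exact ⟨c', hc', mem_constField_of_mem ((H.model i).le_loc hmem), hres⟩

end CrossingFamily

end Fermat.Agent.BR.S0
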