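/-
Program B (bad reduction), per-crossing assembly (helper19): the bundle `CrossingFamily` of
`BR/S0/CrossingModelLevel` at a crossing of the point dictionary, from the SAME named facts
`SmoothAssembly.LevelHyp` (helper24) which feed the smooth charts and helper23's crossing models.

* `crossingFamily_of_levelHyp` : crossing models `M i` + `LevelHyp` at every level + family
  hypotheses + node coordinates of a base level `⟹ CrossingFamily …` (`full₁/full₂` from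
  `surj/hred` — the Dedekind chart `Dk` is the same at every level —, `inter` from
  `TwoComponents.inf_eq`, the constants from `hAO`, `hres`, `hπ0`);
* `exists_crossingFamily_of_node` : the node coordinates are produced from the output of the node
  lemma (`NodeLemma.NodeData` + `u' v' = ϖ ^ n η`) in `O := (M i₀).loc`;
* `exists_crossingFamily_at_crossing` : ONE call at a crossing `e` of `D` with atlas hypotheses
  `H : PointDict.AtlasHyp D x` (models := `CrossingAssembly.crossingModel_of_levelHyp`);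
* `levelsOfExists : AnnulusLevels A T ι` (annulus parameter = the coordinate which is a unit on
  the first component), `levelsOfExists_level_R`, `levelsOfExists_u_mem`,
  `annulusLevelsSwap_u_mem`;
* `branchData_of_crossingFamily`, `branchData_levelsOfExists : BranchData S₀ e _` (helper5's
  `branchData_of_models_of_red`).
-/
import Mathlib
import Fermat.Agent.BR.S0.CrossingLevel
import Fermat.Agent.BR.S0.CrossingModelLevel
import Fermat.Agent.BR.S0.AnnulusSwap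
import Fermat.Agent.BR.S0.BranchDataOfModels

set_option autoImplicit false
set_option linter.style.haveILetI false
set_option linter.unusedSectionVars false

namespace Fermat.Agent.BR.S0.CrossingFamilyAssembly

open AlgebraicCurve IsLocalRing Fermat.Agent.Red Fermat.Agent.X0 Fermat.Agent.Val
  Fermat.Agent.BR.Centre Fermat.Agent.BR.SpecialFibre Fermat.Agent.BR.S0.RedModular
  Fermat.Agent.BR.S0.PointDict Fermat.Agent.BR.S0.SmoothAssembly Fermat.Agent.BR.S0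

variable {K F k Ft : Type*} [Field K] [Field F] [Algebra K F] [Field k] [Field Ft] [Algebra k Ft]
  {A : ValuationSubring K} {π : A →+* k}
  {Dk : Type*} [CommRing Dk] [IsDedekindDomain Dk] [Algebra Dk Ft] [IsFractionRing Dk Ft]
  [Algebra k Dk] [IsScalarTower k Dk Ft]

section Family

variable {D : ChartData A π Ft F} {Q₁ Q₂ : Place k Ft} {T : Set (Place K F)}
  {ι : Type*} {C : ι → Subring F} {ϖ : ι → K} {P₀ P₁ : ∀ i, Ideal (C i)}
  {red₀ red₁ : ∀ i, C i →+* Dk}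

/-- **The bundle `CrossingFamily` from a directed family of levels with the named facts
`SmoothAssembly.LevelHyp`**, the crossing models `M i` (e.g.
`CrossingAssembly.crossingModel_of_levelHyp`) and the node coordinates of a base level. -/
theorem crossingFamily_of_levelHyp
    (M : ∀ i, CrossingModel A π (D.O 0) (D.O 1) (D.res 0) (D.res 1) Q₁ Q₂ T (C i) (ϖ i))
    (L : ∀ i, LevelHyp D (C i) (ϖ i) (P₀ i) (P₁ i) (red₀ i) (red₁ i))
    (hπ0 : ∀ a : A, A.valuation (a : K) < 1 → π a = 0)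
    (hres : ∀ v (a : K) (ha : a ∈ A) (h : algebraMap K F a ∈ D.O v),
      D.res v ⟨algebraMap K F a, h⟩ = algebraMap k Ft (π ⟨a, ha⟩))
    (hres0₀ : ∀ y : D.O 0, D.res 0 y = 0 ↔ (y : F) ∈ (D.O 0).nonunits)
    (hres0₁ : ∀ y : D.O 1, D.res 1 y = 0 ↔ (y : F) ∈ (D.O 1).nonunits)
    (hAO : ∀ v (c : K), algebraMap K F c ∈ D.O v ↔ c ∈ A)
    (i₀ : ι) (hbase : ∀ i, C i₀ ≤ C i)
    (hdir : ∀ i j, ∃ l, C i ≤ C l ∧ C j ≤ C l)
    (hfrac : ∀ y : F, ∃ i, ∃ a b : C i, b ≠ 0 ∧ y * (b : F) = (a : F))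
    (hconst : ∀ a ∈ A, ∃ i, algebraMap K F a ∈ C i)
    (horiz : ∀ i, ∀ p : Ideal (M i).loc, p.IsPrime → p.height = 1 →
      (⟨algebraMap K F (ϖ i), (M i).le_loc (M i).unif_mem⟩ : (M i).loc) ∉ p →
      ∃ P : Place K F, CentredAt A (M i).loc P ∧ ∀ y : (M i).loc, evalAt P (y : F) = 0 ↔ y ∈ p)
    (hfin : ∀ y : F, y ≠ 0 → {P : Place K F | P.ord y ≠ 0}.Finite)
    {u v ε₀ : F} {thick : K} (thick_ne : thick ≠ 0) (thick_lt : A.valuation thick < 1)
    (uv : u * v = thick • ε₀)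
    (hu : u ∈ (M i₀).loc) (hv : v ∈ (M i₀).loc) (hε : ε₀ ∈ (M i₀).loc)
    (hε' : ε₀⁻¹ ∈ (M i₀).loc)
    (hu₁ : u ∈ (D.O 0).nonunits) (hv₂ : v ∈ (D.O 1).nonunits) (hv₁ : v ∉ (D.O 0).nonunits)
    (hu₂ : u ∉ (D.O 1).nonunits)
    (max1 : ∀ x : (M i₀).loc, ¬ IsUnit x →
      ∃ c : (M i₀).loc, (x : F) - (c : F) * v ∈ (D.O 0).nonunits)
    (max2 : ∀ x : (M i₀).loc, ¬ IsUnit x →
      ∃ c : (M i₀).loc, (x : F) - (c : F) * u ∈ (D.O 1).nonunits) :
    CrossingFamily A π (D.O 0) (D.O 1) (D.res 0) (D.res 1) Q₁ Q₂ T C ϖ i₀ u v ε₀ thick where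
  model := M
  base := hbase
  dir := hdir
  frac := hfrac
  const := hconst
  res_const := hres 0
  res_zero₁ := fun y hy => (hres0₀ y).mpr hy
  res_zero₂ := fun y hy => (hres0₁ y).mpr hy
  inv_mem := SmoothAssembly.inv_mem_of_pi_ne_zero hπ0
  const_mem₁ := hAO 0
  const_mem₂ := fun c hc => (hAO 1 c).mpr hc
  const_nonunit₁ := fun c hc => by
    have hcA : c ∈ A := (A.valuation_le_one_iff c).mp hc.le
    have h1 : algebraMap K F c ∈ D.O 0 := (hAO 0 c).mpr hcA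
    have h2 := hres 0 c hcA h1
    rw [hπ0 ⟨c, hcA⟩ hc, map_zero] at h2
    exact (hres0₀ _).mp h2
  const_nonunit₂ := fun c hc => by
    have hcA : c ∈ A := (A.valuation_le_one_iff c).mp hc.le
    have h1 : algebraMap K F c ∈ D.O 1 := (hAO 1 c).mpr hcA
    have h2 := hres 1 c hcA h1
    rw [hπ0 ⟨c, hcA⟩ hc, map_zero] at h2
    exact (hres0₁ _).mp h2
  full₁ := fun i x => by
    obtain ⟨x₀, hx₀⟩ := (L i₀).surj₀ (red₀ i x)
    refine ⟨x₀, ?_⟩
    have h1 := (L i).hred₀ x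
    have h2 := (L i₀).hred₀ x₀
    rw [hx₀] at h2
    exact h1.symm.trans h2
  full₂ := fun i x => by
    obtain ⟨x₀, hx₀⟩ := (L i₀).surj₁ (red₁ i x)
    refine ⟨x₀, ?_⟩
    have h1 := (L i).hred₁ x
    have h2 := (L i₀).hred₁ x₀
    rw [hx₀] at h2
    exact h1.symm.trans h2
  inter := fun i z hz₀ hz₁ => by
    haveI := (L i).noeth
    haveI := (L i).intClosed
    have h0 : z ∈ P₀ i := by
      rw [(L i).mem_P₀]
      apply IsFractionRing.injective Dk Ft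
      rw [(L i).hred₀, map_zero]
      exact (hres0₀ _).mpr hz₀
    have h1 : z ∈ P₁ i := by
      rw [(L i).mem_P₁]
      apply IsFractionRing.injective Dk Ft
      rw [(L i).hred₁, map_zero]
      exact (hres0₁ _).mpr hz₁
    have h2 : z ∈ P₀ i ⊓ P₁ i := Ideal.mem_inf.mpr ⟨h0, h1⟩
    rw [(L i).twoComp.inf_eq, Ideal.mem_span_singleton'] at h2
    obtain ⟨c, hc⟩ := h2
    refine ⟨c, ?_⟩
    have := congrArg (fun t : C i => (t : F)) hc
    simp only [Subring.coe_mul] at this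
    rw [← this, mul_comm]
  thick_ne := thick_ne
  thick_lt := thick_lt
  uv := uv
  u_mem := hu
  v_mem := hv
  ε₀_mem := hε
  ε₀_inv_mem := hε'
  u_nonunit₁ := hu₁
  v_nonunit₂ := hv₂
  v_unit₁ := hv₁
  u_unit₂ := hu₂
  max1 := max1
  max2 := max2
  horiz := horiz
  finite_div := hfin

end Family

/-- `P₀` is the trace of `𝔪_{O₀}` on the model. -/
theorem mem_P₀_iff_nonunits {D : ChartData A π Ft F} {C : Subring F} {ϖ : K} {P₀ P₁ : Ideal C}
    {red₀ red₁ : C →+* Dk} (L : LevelHyp D C ϖ P₀ P₁ red₀ red₁)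
    (hres0₀ : ∀ y : D.O 0, D.res 0 y = 0 ↔ (y : F) ∈ (D.O 0).nonunits) (y : C) :
    y ∈ P₀ ↔ (y : F) ∈ (D.O 0).nonunits := by
  rw [L.mem_P₀, ← hres0₀ ⟨y, L.hCO 0 y.2⟩, ← L.hred₀]
  exact ⟨fun h => by rw [h, map_zero], fun h => IsFractionRing.injective Dk Ft (by
    rw [h, map_zero])⟩

/-- `P₁` is the trace of `𝔪_{O₁}` on the model. -/
theorem mem_P₁_iff_nonunits {D : ChartData A π Ft F} {C : Subring F} {ϖ : K} {P₀ P₁ : Ideal C}
    {red₀ red₁ : C →+* Dk} (L : LevelHyp D C ϖ P₀ P₁ red₀ red₁)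
    (hres0₁ : ∀ y : D.O 1, D.res 1 y = 0 ↔ (y : F) ∈ (D.O 1).nonunits) (y : C) :
    y ∈ P₁ ↔ (y : F) ∈ (D.O 1).nonunits := by
  rw [L.mem_P₁, ← hres0₁ ⟨y, L.hCO 1 y.2⟩, ← L.hred₁]
  exact ⟨fun h => by rw [h, map_zero], fun h => IsFractionRing.injective Dk Ft (by
    rw [h, map_zero])⟩

section Node

variable {D : ChartData A π Ft F} {Q₁ Q₂ : Place k Ft} {T : Set (Place K F)}
  {ι : Type*} {C : ι → Subring F} {ϖ : ι → K} {P₀ P₁ : ∀ i, Ideal (C i)}
  {red₀ red₁ : ∀ i, C i →+* Dk}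

/-- **The bundle `CrossingFamily` with the node coordinates of the base level produced by the
node lemma**: `hnode` is the output of `SpecialFibre.TwoComponents.exists_node` (or
`ModUnitNode.exists_node`) in the local ring `O := (M i₀).loc` of the base level, together with
`P_v O ≠ 𝔪_O` (`SpecialFibre.map_ne_maximalIdeal_of_ne`). -/
theorem exists_crossingFamily_of_node
    (M : ∀ i, CrossingModel A π (D.O 0) (D.O 1) (D.res 0) (D.res 1) Q₁ Q₂ T (C i) (ϖ i))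
    (L : ∀ i, LevelHyp D (C i) (ϖ i) (P₀ i) (P₁ i) (red₀ i) (red₁ i))
    (hπ0 : ∀ a : A, A.valuation (a : K) < 1 → π a = 0)
    (hres : ∀ v (a : K) (ha : a ∈ A) (h : algebraMap K F a ∈ D.O v),
      D.res v ⟨algebraMap K F a, h⟩ = algebraMap k Ft (π ⟨a, ha⟩))
    (hres0₀ : ∀ y : D.O 0, D.res 0 y = 0 ↔ (y : F) ∈ (D.O 0).nonunits)
    (hres0₁ : ∀ y : D.O 1, D.res 1 y = 0 ↔ (y : F) ∈ (D.O 1).nonunits)
    (hAO : ∀ v (c : K), algebraMap K F c ∈ D.O v ↔ c ∈ A)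
    (i₀ : ι) (hbase : ∀ i, C i₀ ≤ C i)
    (hdir : ∀ i j, ∃ l, C i ≤ C l ∧ C j ≤ C l)
    (hfrac : ∀ y : F, ∃ i, ∃ a b : C i, b ≠ 0 ∧ y * (b : F) = (a : F))
    (hconst : ∀ a ∈ A, ∃ i, algebraMap K F a ∈ C i)
    (horiz : ∀ i, ∀ p : Ideal (M i).loc, p.IsPrime → p.height = 1 →
      (⟨algebraMap K F (ϖ i), (M i).le_loc (M i).unif_mem⟩ : (M i).loc) ∉ p →
      ∃ P : Place K F, CentredAt A (M i).loc P ∧ ∀ y : (M i).loc, evalAt P (y : F) = 0 ↔ y ∈ p)
    (hfin : ∀ y : F, y ≠ 0 → {P : Place K F | P.ord y ≠ 0}.Finite)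
    [IsLocalRing (M i₀).loc]
    (hnode : ∃ (e : ℕ) (u' v' η : (M i₀).loc), 1 ≤ e ∧
      NodeLemma.NodeData
        (algebraMap (C i₀) (M i₀).loc ⟨algebraMap K F (ϖ i₀), (M i₀).unif_mem⟩) u' v'
        ((P₀ i₀).map (algebraMap (C i₀) (M i₀).loc))
        ((P₁ i₀).map (algebraMap (C i₀) (M i₀).loc)) ∧
      IsUnit η ∧
      u' * v' =
        algebraMap (C i₀) (M i₀).loc ⟨algebraMap K F (ϖ i₀), (M i₀).unif_mem⟩ ^ e * η ∧
      (P₀ i₀).map (algebraMap (C i₀) (M i₀).loc) ≠ maximalIdeal (M i₀).loc ∧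
      (P₁ i₀).map (algebraMap (C i₀) (M i₀).loc) ≠ maximalIdeal (M i₀).loc) :
    ∃ (u v ε₀ : F) (thick : K),
      CrossingFamily A π (D.O 0) (D.O 1) (D.res 0) (D.res 1) Q₁ Q₂ T C ϖ i₀ u v ε₀ thick := by
  obtain ⟨e, u', v', η, he, hN, hη, huv, hne0, hne1⟩ := hnode
  have hr0₀ : ∀ x : D.O 0, (x : F) ∈ (D.O 0).nonunits → D.res 0 x = 0 :=
    fun y hy => (hres0₀ y).mpr hy
  have hr0₁ : ∀ x : D.O 1, (x : F) ∈ (D.O 1).nonunits → D.res 1 x = 0 :=
    fun y hy => (hres0₁ y).mpr hy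
  obtain ⟨hu₁, hv₂, hv₁, hu₂, max1, max2⟩ := (M i₀).base_of_nodeData hr0₀ hr0₁
    (mem_P₀_iff_nonunits (L i₀) hres0₀) (mem_P₁_iff_nonunits (L i₀) hres0₁) hN hne0 hne1
  refine ⟨(u' : F), (v' : F), (η : F), ϖ i₀ ^ e, ?_⟩
  have hthick_ne : ϖ i₀ ^ e ≠ 0 := pow_ne_zero _ (M i₀).unif_ne
  have hthick_lt : A.valuation (ϖ i₀ ^ e) < 1 := by
    rw [map_pow]
    exact pow_lt_one₀ zero_le (M i₀).unif_lt (by omega)
  have huvF : (u' : F) * (v' : F) = (ϖ i₀ ^ e) • (η : F) := by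
    have h1 := congrArg (fun t : (M i₀).loc => (t : F)) huv
    simp only [Subring.coe_mul, SubmonoidClass.coe_pow] at h1
    rw [h1, Algebra.smul_def, map_pow]
    rfl
  have hηinv : ((η : F))⁻¹ ∈ (M i₀).loc := by
    obtain ⟨η', hη'⟩ := hη.exists_right_inv
    have h1 : (η : F) * (η' : F) = 1 := congrArg (fun t : (M i₀).loc => (t : F)) hη'
    have h2 : ((η : F))⁻¹ = (η' : F) := by
      rw [eq_comm, ← mul_eq_one_iff_eq_inv₀ ?_, mul_comm]
      · exact h1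
      · intro h0
        rw [h0, zero_mul] at h1
        exact zero_ne_one h1
    rw [h2]
    exact η'.2
  exact crossingFamily_of_levelHyp M L hπ0 hres hres0₀ hres0₁ hAO i₀ hbase hdir hfrac hconst horiz
    hfin hthick_ne hthick_lt huvF u'.2 v'.2 η.2 hηinv hu₁ hv₂ hv₁ hu₂ max1 max2

end Node

/-! ### At a crossing of the point dictionary -/

section Atlas

open Fermat.Agent.BR.S0.CrossingAssembly

variable {D : ChartData A π Ft F} {x : F} (H : AtlasHyp D x)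
  {ι : Type*} {C : ι → Subring F} {ϖ : ι → K} {P₀ P₁ : ∀ i, Ideal (C i)}
  {red₀ red₁ : ∀ i, C i →+* Dk}

include H in
/-- **The bundle `CrossingFamily` at a crossing `e` of the point dictionary**, from a directed
family of levels with the named facts `SmoothAssembly.LevelHyp` (the crossing models are
`CrossingAssembly.crossingModel_of_levelHyp`), `horiz` and the output `hnode` of the node lemma
in the local ring of the base level (both quantified over the crossing model, as in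
`CrossingAssembly.nodeChart_of_levels`). -/
theorem exists_crossingFamily_at_crossing
    (L : ∀ i, LevelHyp D (C i) (ϖ i) (P₀ i) (P₁ i) (red₀ i) (red₁ i)) (hnf : ¬ IsField Dk)
    (hres : ∀ v (a : K) (ha : a ∈ A) (h : algebraMap K F a ∈ D.O v),
      D.res v ⟨algebraMap K F a, h⟩ = algebraMap k Ft (π ⟨a, ha⟩))
    (hres0₀ : ∀ y : D.O 0, D.res 0 y = 0 ↔ (y : F) ∈ (D.O 0).nonunits)
    (hres0₁ : ∀ y : D.O 1, D.res 1 y = 0 ↔ (y : F) ∈ (D.O 1).nonunits)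
    (hAO : ∀ v (c : K), algebraMap K F c ∈ D.O v ↔ c ∈ A)
    (hRC : ∀ i, D.Rfin ≤ C i)
    (hint : ∀ i (P : Place K F), IntegralAt A D.Rfin P → IntegralAt A (C i) P)
    (i₀ : ι) (hbase : ∀ i, C i₀ ≤ C i)
    (hdir : ∀ i j, ∃ l, C i ≤ C l ∧ C j ≤ C l)
    (hfrac : ∀ y : F, ∃ i, ∃ a b : C i, b ≠ 0 ∧ y * (b : F) = (a : F))
    (hconst : ∀ a ∈ A, ∃ i, algebraMap K F a ∈ C i)
    (e : Crossing D)
    (hQD₀ : ∀ d : Dk, (z₁ D e).adicValuation (algebraMap Dk Ft d) ≤ 1)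
    (hQD₁ : ∀ d : Dk, (z₂ D e).adicValuation (algebraMap Dk Ft d) ≤ 1)
    (hdeg : (z₁ D e).deg = 1)
    {T : F} (hTR : T ∈ D.Rfin) (T' : ∀ i, C i) (m : ι → ℕ)
    (hTT' : ∀ i, (⟨T, hRC i hTR⟩ : C i) * T' i =
      (⟨algebraMap K F (ϖ i), (L i).unif_mem⟩ : C i) ^ m i)
    (hT0 : D.res 0 ⟨T, D.hfin 0 hTR⟩ ≠ 0) (hT1 : D.res 1 ⟨T, D.hfin 1 hTR⟩ = 0)
    (horiz : ∀ i (M : CrossingModel A π (D.O 0) (D.O 1) (D.res 0) (D.res 1) (z₁ D e) (z₂ D e)
        {P | H.r P = ⟨0, z₁ D e⟩} (C i) (ϖ i)),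
      ∀ p : Ideal M.loc, p.IsPrime → p.height = 1 →
      (⟨algebraMap K F (ϖ i), M.le_loc M.unif_mem⟩ : M.loc) ∉ p →
      ∃ P : Place K F, CentredAt A M.loc P ∧ ∀ y : M.loc, evalAt P (y : F) = 0 ↔ y ∈ p)
    (hfin : ∀ y : F, y ≠ 0 → {P : Place K F | P.ord y ≠ 0}.Finite)
    (hnode : ∀ (M₀ : CrossingModel A π (D.O 0) (D.O 1) (D.res 0) (D.res 1) (z₁ D e) (z₂ D e)
        {P | H.r P = ⟨0, z₁ D e⟩} (C i₀) (ϖ i₀)) [IsLocalRing M₀.loc],
      ∃ (n : ℕ) (u' v' η : M₀.loc), 1 ≤ n ∧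
        NodeLemma.NodeData
          (algebraMap (C i₀) M₀.loc ⟨algebraMap K F (ϖ i₀), M₀.unif_mem⟩) u' v'
          ((P₀ i₀).map (algebraMap (C i₀) M₀.loc)) ((P₁ i₀).map (algebraMap (C i₀) M₀.loc)) ∧
        IsUnit η ∧
        u' * v' = algebraMap (C i₀) M₀.loc ⟨algebraMap K F (ϖ i₀), M₀.unif_mem⟩ ^ n * η ∧
        (P₀ i₀).map (algebraMap (C i₀) M₀.loc) ≠ maximalIdeal M₀.loc ∧
        (P₁ i₀).map (algebraMap (C i₀) M₀.loc) ≠ maximalIdeal M₀.loc) :
    ∃ (u v ε₀ : F) (thick : K),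
      CrossingFamily A π (D.O 0) (D.O 1) (D.res 0) (D.res 1) (z₁ D e) (z₂ D e)
        {P | H.r P = ⟨0, z₁ D e⟩} C ϖ i₀ u v ε₀ thick := by
  have M : ∀ i, CrossingModel A π (D.O 0) (D.O 1) (D.res 0) (D.res 1) (z₁ D e) (z₂ D e)
      {P | H.r P = ⟨0, z₁ D e⟩} (C i) (ϖ i) := fun i =>
    crossingModel_of_levelHyp H (L i) hnf hres hres0₀ hres0₁ (hRC i) (hint i) e hQD₀ hQD₁ hdeg
      hTR (hTT' i) hT0 hT1
  haveI := (M i₀).isLocalRing_loc
  exact exists_crossingFamily_of_node M L H.pi_zero hres hres0₀ hres0₁ hAO i₀ hbase hdir hfrac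
    hconst (fun i => horiz i (M i)) hfin (hnode (M i₀))

end Atlas

/-! ### From the bundle to the data of the chain provider -/

section Data

variable {k' : Type*} [Field k'] {Ft₁ Ft₂ : Type*} [Field Ft₁] [Algebra k' Ft₁] [Field Ft₂]
  [Algebra k' Ft₂] {π' : A →+* k'} {O₁ O₂ : ValuationSubring F} {res₁ : O₁ →+* Ft₁}
  {res₂ : O₂ →+* Ft₂} {Q₁ : Place k' Ft₁} {Q₂ : Place k' Ft₂} {T : Set (Place K F)}
  {ι : Type*} {C : ι → Subring F} {ϖ : ι → K} {i₀ : ι}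

/-- The annulus parameter of the swapped levels lies in every subfield of `F` containing the
model of the base level. -/
theorem annulusLevelsSwap_u_mem {u v ε₀ : F} {thick : K}
    (H : CrossingFamily A π' O₁ O₂ res₁ res₂ Q₁ Q₂ T C ϖ i₀ u v ε₀ thick) (E : Subfield F)
    (hE : ∀ x ∈ C i₀, x ∈ E) : H.annulusLevelsSwap.u ∈ E := by
  show v ∈ E
  obtain ⟨a, b, hb, hab⟩ := (H.model i₀).mem_loc_iff.mp H.v_mem
  have hb0 : (b : F) ≠ 0 := (H.model i₀).coe_ne_zero_of_notMem hb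
  have hv : v = (a : F) / (b : F) := by
    rw [eq_div_iff hb0]
    exact hab
  rw [hv]
  exact E.div_mem (hE _ a.2) (hE _ b.2)

/-- **The level data of the tube** (annulus parameter: the coordinate which is a unit on `O₁`)
from the existence of node coordinates. -/
noncomputable def levelsOfExists
    (h : ∃ (u v ε₀ : F) (thick : K),
      CrossingFamily A π' O₁ O₂ res₁ res₂ Q₁ Q₂ T C ϖ i₀ u v ε₀ thick) :
    AnnulusLevels A T ι :=
  (Classical.choose_spec (Classical.choose_spec (Classical.choose_spec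
    (Classical.choose_spec h)))).annulusLevelsSwap

theorem levelsOfExists_level_R
    (h : ∃ (u v ε₀ : F) (thick : K),
      CrossingFamily A π' O₁ O₂ res₁ res₂ Q₁ Q₂ T C ϖ i₀ u v ε₀ thick)
    (M : ∀ i, CrossingModel A π' O₁ O₂ res₁ res₂ Q₁ Q₂ T (C i) (ϖ i)) (i : ι) :
    ((levelsOfExists h).level i).R = (M i).loc := rfl

theorem levelsOfExists_u_mem
    (h : ∃ (u v ε₀ : F) (thick : K),
      CrossingFamily A π' O₁ O₂ res₁ res₂ Q₁ Q₂ T C ϖ i₀ u v ε₀ thick)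
    (E : Subfield F) (hE : ∀ x ∈ C i₀, x ∈ E) : (levelsOfExists h).u ∈ E :=
  annulusLevelsSwap_u_mem _ E hE

end Data

/-! ### The branch data of the swapped levels -/

section Branch

open Fermat.Agent.BR.SS Fermat.Agent.BR.Refine Fermat.Agent.BR.S0.AnnulusChartOfLevels
  Fermat.Agent.BR.S0.BranchDataOfModels

variable {K : Type} {F : Type*} [Field K] [Field F] [Algebra K F]
  {A : ValuationSubring K} [IsAlgClosed (ResidueField A)]
  {ι₀ : Type} {Ft₀ : ι₀ → Type} [∀ v, Field (Ft₀ v)] [∀ v, Algebra (ResidueField A) (Ft₀ v)]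
  {ν₀ : Type}
  {S₀ : SemistableSetup (F := F) A (residue A) ι₀ Ft₀ ν₀} {e : ν₀} {ι : Type*}
  {C : ι → Subring F} {ϖ : ι → K} {i₀ : ι}

/-- **The branch data of the swapped levels of a `CrossingFamily`** at a node `e` of a
semistable setup (`O₁ = O (src e)`, `O₂ = O (tgt e)`), the two uniformizers being produced from
reductions of the base model onto Dedekind charts of the two components. -/
theorem branchData_of_crossingFamily {u v ε₀ : F} {thick : K}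
    (H : CrossingFamily A (residue A) (S₀.O (S₀.src e)) (S₀.O (S₀.tgt e))
      (S₀.res (S₀.src e)) (S₀.res (S₀.tgt e)) (S₀.s₁ e) (S₀.s₂ e) (tube S₀ e) C ϖ i₀ u v ε₀
      thick)
    {Dk₁ : Type*} [CommRing Dk₁] [IsDedekindDomain Dk₁] [Algebra Dk₁ (Ft₀ (S₀.src e))]
    [IsFractionRing Dk₁ (Ft₀ (S₀.src e))]
    {Dk₂ : Type*} [CommRing Dk₂] [IsDedekindDomain Dk₂] [Algebra Dk₂ (Ft₀ (S₀.tgt e))]
    [IsFractionRing Dk₂ (Ft₀ (S₀.tgt e))]
    (red₁ : C i₀ →+* Dk₁)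
    (hred₁ : ∀ x : C i₀, algebraMap Dk₁ (Ft₀ (S₀.src e)) (red₁ x) =
      S₀.res (S₀.src e) ⟨x, (H.model i₀).le₁ x x.2⟩)
    (hsurj₁ : Function.Surjective red₁)
    (red₂ : C i₀ →+* Dk₂)
    (hred₂ : ∀ x : C i₀, algebraMap Dk₂ (Ft₀ (S₀.tgt e)) (red₂ x) =
      S₀.res (S₀.tgt e) ⟨x, (H.model i₀).le₂ x x.2⟩)
    (hsurj₂ : Function.Surjective red₂)
    (comp : ∀ w, w = S₀.src e ∨ w = S₀.tgt e) : BranchData S₀ e H.annulusLevelsSwap :=
  branchData_of_models_of_red H.model (fun _ => rfl) H.u_nonunit₁ H.v_nonunit₂ i₀ red₁ hred₁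
    hsurj₁ i₀ red₂ hred₂ hsurj₂ comp

/-- The same for the levels chosen from the existence of node coordinates. -/
theorem branchData_levelsOfExists
    (h : ∃ (u v ε₀ : F) (thick : K),
      CrossingFamily A (residue A) (S₀.O (S₀.src e)) (S₀.O (S₀.tgt e))
        (S₀.res (S₀.src e)) (S₀.res (S₀.tgt e)) (S₀.s₁ e) (S₀.s₂ e) (tube S₀ e) C ϖ i₀ u v ε₀
        thick)
    (M₀ : CrossingModel A (residue A) (S₀.O (S₀.src e)) (S₀.O (S₀.tgt e))
        (S₀.res (S₀.src e)) (S₀.res (S₀.tgt e)) (S₀.s₁ e) (S₀.s₂ e) (tube S₀ e) (C i₀) (ϖ i₀))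
    {Dk₁ : Type*} [CommRing Dk₁] [IsDedekindDomain Dk₁] [Algebra Dk₁ (Ft₀ (S₀.src e))]
    [IsFractionRing Dk₁ (Ft₀ (S₀.src e))]
    {Dk₂ : Type*} [CommRing Dk₂] [IsDedekindDomain Dk₂] [Algebra Dk₂ (Ft₀ (S₀.tgt e))]
    [IsFractionRing Dk₂ (Ft₀ (S₀.tgt e))]
    (red₁ : C i₀ →+* Dk₁)
    (hred₁ : ∀ x : C i₀, algebraMap Dk₁ (Ft₀ (S₀.src e)) (red₁ x) =
      S₀.res (S₀.src e) ⟨x, M₀.le₁ x x.2⟩)
    (hsurj₁ : Function.Surjective red₁)
    (red₂ : C i₀ →+* Dk₂)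
    (hred₂ : ∀ x : C i₀, algebraMap Dk₂ (Ft₀ (S₀.tgt e)) (red₂ x) =
      S₀.res (S₀.tgt e) ⟨x, M₀.le₂ x x.2⟩)
    (hsurj₂ : Function.Surjective red₂)
    (comp : ∀ w, w = S₀.src e ∨ w = S₀.tgt e) : BranchData S₀ e (levelsOfExists h) :=
  branchData_of_crossingFamily _ red₁ hred₁ hsurj₁ red₂ hred₂ hsurj₂ comp

end Branch

end Fermat.Agent.BR.S0.CrossingFamilyAssembly
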