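import Fermat.Agent.BR.S0.HorizModels
import Fermat.Agent.BR.Inst.NormalModel

/-!
# Program B, node B6.6-HORIZ (adapters, part 2): `horiz` for `R = locSub C n`, `C` a level model

* `frameHyp_of_isModel` : the frame facts `HorizModels.FrameHyp` for a normal model
  `C = NormalGen.IsModel (modelBase N W) (modelField N K')`, `W = A ∩ K'`, the valuation of `A`
  discrete on `K'`;
* `locSub_exists_centredAt` : every nonzero prime `p ∌ ϖ` of `locSub C n` (`n ∋ ϖ` a prime of `C`)
  is the kernel of the evaluation at a place centred at `locSub C n`;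
* `locSub_horiz_centred`, `locSub_horiz_eval`, `locSub_horiz_nonunits`, `locSub_horiz_horizPrime` :
  the four consumer shapes (`NodeLevels.ofModels` / `SmoothFamily.ofModels`; `NodeLevel.horiz` /
  `SmoothLevel.horiz`; third disjunct of `NodeLevels.primes`; `Q = horizPrime h`).
-/

set_option autoImplicit false
set_option linter.style.haveILetI false

open IsLocalRing AlgebraicCurve ModularCurve

namespace Fermat.Agent.BR.S0.HorizAdapters

open Fermat.Agent.Red Fermat.Agent.X0 Fermat.Agent.BR.Centre Fermat.Agent.BR.Inst.FKCover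
  Fermat.Agent.BR.S0.HorizProvider Fermat.Agent.BR.S0.HorizModels Fermat.Agent.BR.Inst.LocSub
  Fermat.Agent.BR.Inst.NormalModel Fermat.Agent.BR.Inst.NormalGen

variable {N : ℕ} [NeZero N] {A : ValuationSubring Kb}

omit [NeZero N] in
/-- The function field of the level in the two notations. -/
theorem modelField_eq_FK (K' : Subfield Kb) : modelField N K' = FK (ofSubfield K') N := rfl

/-- **The frame facts of a normal model.** -/
theorem frameHyp_of_isModel {W : Subring Kb} {K' : Subfield Kb} {C : Subring (Fb N)}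
    (hC : IsModel (modelBase N W) (modelField N K') C)
    (hW : ∀ x, x ∈ W ↔ x ∈ A ∧ x ∈ K') {ϖ : Kb} (hϖK : ϖ ∈ K')
    (hdvr : ∀ x ∈ K', x ≠ 0 → ∃ n : ℤ, A.valuation x = A.valuation ϖ ^ n) :
    FrameHyp A (ofSubfield K') C ϖ where
  le_FK := fun _ hx => hC.le_field hx
  const_mem := fun c hc hcA =>
    hC.base_le (modelBase_le_modelField N (fun x hx => ((hW x).mp hx).2))
      (const_mem_modelBase N W ((hW c).mpr ⟨hcA, hc⟩))
  unif_mem := hϖK
  dvr := hdvr

variable {K' : IntermediateField ℚ Kb} {C : Subring (Fb N)} {ϖ : Kb}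

/-- **`horiz` for the localisation of a model at a point.**  `C` a model at the level `K'`
(`FrameHyp`), `n` a prime of `C` containing the uniformizer `ϖ`; every nonzero prime `p` of
`locSub C n` not containing `ϖ` is the kernel of the evaluation at a place centred at
`locSub C n`. -/
theorem locSub_exists_centredAt (H : FrameHyp A K' C ϖ) (hϖ0 : ϖ ≠ 0) (hϖ1 : A.valuation ϖ < 1)
    (n : Ideal C) [n.IsPrime] (hϖC : algebraMap Kb (Fb N) ϖ ∈ C)
    (hϖn : (⟨algebraMap Kb (Fb N) ϖ, hϖC⟩ : C) ∈ n)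
    (p : Ideal (locSub C n)) [p.IsPrime] (hp : p ≠ ⊥)
    (hϖp : (⟨algebraMap Kb (Fb N) ϖ, le_locSub C n hϖC⟩ : locSub C n) ∉ p) :
    letI : IsLocalRing (locSub C n) := isLocalRing_locSub C n
    ∃ P : Place Kb (Fb N), CentredAt A (locSub C n) P ∧
      (∀ y : locSub C n, (y : Fb N) ∈ P.toValuationSubring.nonunits ↔ y ∈ p) ∧
      ∀ y : locSub C n, evalAt P (y : Fb N) = 0 ↔ y ∈ p := by
  haveI : IsLocalRing (locSub C n) := isLocalRing_locSub C n
  have hnu : ¬ IsUnit (⟨algebraMap Kb (Fb N) ϖ, le_locSub C n hϖC⟩ : locSub C n) := by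
    rw [isUnit_coe_iff (n := n) ⟨algebraMap Kb (Fb N) ϖ, hϖC⟩, not_not]
    exact hϖn
  exact exists_centredAt_of_horizontal A K' (locSub C n)
    (fun y hy => by
      obtain ⟨a, b, hb, hab⟩ := mem_locSub_iff.mp hy
      have hb0 : (b : Fb N) ≠ 0 := by
        intro h0
        apply hb
        have : b = 0 := Subtype.ext h0
        rw [this]
        exact Ideal.zero_mem _
      exact H.mem_FK_of_mul_eq hb0 hab)
    (fun c hc hcA => le_locSub C n (H.const_mem c hc hcA))
    ϖ H.unif_mem hϖ0 hϖ1 H.dvr (le_locSub C n hϖC) hnu p hp hϖp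

section Shapes

variable (H : FrameHyp A K' C ϖ) (hϖ0 : ϖ ≠ 0) (hϖ1 : A.valuation ϖ < 1)
  (n : Ideal C) [n.IsPrime] (hϖC : algebraMap Kb (Fb N) ϖ ∈ C)
  (hϖn : (⟨algebraMap Kb (Fb N) ϖ, hϖC⟩ : C) ∈ n)

include H hϖ0 hϖ1 hϖn

/-- Shape of the hypothesis `horiz` of `NodeLevels.ofModels` / `SmoothFamily.ofModels`. -/
theorem locSub_horiz_centred :
    ∀ p : Ideal (locSub C n), p.IsPrime → p.height = 1 →
      (⟨algebraMap Kb (Fb N) ϖ, le_locSub C n hϖC⟩ : locSub C n) ∉ p →
      ∃ P : Place Kb (Fb N), CentredAt A (locSub C n) P ∧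
        ∀ y : locSub C n, evalAt P (y : Fb N) = 0 ↔ y ∈ p := by
  intro p hp hht hϖp
  haveI := hp
  haveI : IsLocalRing (locSub C n) := isLocalRing_locSub C n
  obtain ⟨P, hcen, -, hev⟩ := locSub_exists_centredAt H hϖ0 hϖ1 n hϖC hϖn p
    (ne_bot_of_height_eq_one hht) hϖp
  exact ⟨P, hcen, hev⟩

variable {T : Set (Place Kb (Fb N))}
  (hT : ∀ P : Place Kb (Fb N), CentredAt A (locSub C n) P → P ∈ T)

include hT

/-- Shape of the fields `NodeLevel.horiz` (annulus) and `SmoothLevel.horiz` (smooth). -/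
theorem locSub_horiz_eval :
    ∀ Q : Ideal (locSub C n), Q.IsPrime → Q.height = 1 →
      (⟨algebraMap Kb (Fb N) ϖ, le_locSub C n hϖC⟩ : locSub C n) ∉ Q →
      ∃ P ∈ T, ∀ x : locSub C n, x ∈ Q ↔ evalAt P (x : Fb N) = 0 := by
  intro p hp hht hϖp
  haveI := hp
  haveI : IsLocalRing (locSub C n) := isLocalRing_locSub C n
  obtain ⟨P, hcen, -, hev⟩ := locSub_exists_centredAt H hϖ0 hϖ1 n hϖC hϖn p
    (ne_bot_of_height_eq_one hht) hϖp
  exact ⟨P, hT P hcen, fun x => (hev x).symm⟩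

/-- Shape of the third disjunct of `NodeLevels.primes`. -/
theorem locSub_horiz_nonunits :
    ∀ Q : Ideal (locSub C n), Q.IsPrime → Q.height = 1 →
      (⟨algebraMap Kb (Fb N) ϖ, le_locSub C n hϖC⟩ : locSub C n) ∉ Q →
      ∃ P ∈ T, ∀ x : locSub C n, x ∈ Q ↔ (x : Fb N) ∈ P.toValuationSubring.nonunits := by
  intro p hp hht hϖp
  haveI := hp
  haveI : IsLocalRing (locSub C n) := isLocalRing_locSub C n
  obtain ⟨P, hcen, hnu, -⟩ := locSub_exists_centredAt H hϖ0 hϖ1 n hϖC hϖn p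
    (ne_bot_of_height_eq_one hht) hϖp
  exact ⟨P, hT P hcen, fun x => (hnu x).symm⟩

/-- Shape `Q = horizPrime h`. -/
theorem locSub_horiz_horizPrime :
    ∀ Q : Ideal (locSub C n), Q.IsPrime → Q.height = 1 →
      (⟨algebraMap Kb (Fb N) ϖ, le_locSub C n hϖC⟩ : locSub C n) ∉ Q →
      ∃ P ∈ T, ∃ h : IntegralAt A (locSub C n) P, Q = horizPrime h := by
  intro p hp hht hϖp
  haveI := hp
  haveI : IsLocalRing (locSub C n) := isLocalRing_locSub C n
  obtain ⟨P, hcen, -, hev⟩ := locSub_exists_centredAt H hϖ0 hϖ1 n hϖC hϖn p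
    (ne_bot_of_height_eq_one hht) hϖp
  exact ⟨P, hT P hcen, hcen.choose, eq_horizPrime_of_forall hcen.choose hev⟩

end Shapes

end Fermat.Agent.BR.S0.HorizAdapters
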