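import Fermat.Agent.BR.S0.HorizProvider
import Fermat.Agent.BR.S0.SmoothModelFamily
import Fermat.Agent.BR.S0.CrossingModel

/-!
# Program B, node B6.6-HORIZ (adapters): the hypothesis `horiz` of the model-level constructors

`SmoothModel.level_of_horiz` / `SmoothFamily.ofModels` / `smoothChartOfModels` (smooth points) and
`CrossingModel.loc_primes` / `NodeLevels.ofModels` / `nodeChartOfModels` (crossing points) take the
hypothesis

  `horiz : ∀ p : Ideal M.loc, p.IsPrime → p.height = 1 → ϖ ∉ p →`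
  `  ∃ P : Place K F, CentredAt A M.loc P ∧ ∀ y : M.loc, evalAt P (y : F) = 0 ↔ y ∈ p`.

In the concrete frame (`K = ℚ̄`, `F = F̄_N`) it follows from `HorizProvider` and the frame facts
`FrameHyp A K' C ϖ` about the model `C` at the level `K'`:

* `C ≤ FK K' N`, `A ∩ K' ⊆ C`, `ϖ ∈ K'`, and the valuation of `A` is discrete on `K'` with
  uniformizer `ϖ`.

* `smoothModel_horiz`, `crossingModel_horiz` : the hypothesis `horiz`, verbatim.
-/

set_option autoImplicit false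
set_option linter.style.haveILetI false

open IsLocalRing AlgebraicCurve ModularCurve

namespace Fermat.Agent.BR.S0.HorizModels

open Fermat.Agent.Red Fermat.Agent.X0 Fermat.Agent.BR.Centre Fermat.Agent.BR.Inst.FKCover
  Fermat.Agent.BR.S0.HorizProvider Fermat.Agent.BR.S0 Fermat.Agent.BR.Inst.LocSub

variable {N : ℕ} [NeZero N] {k : Type*} [Field k]

/-- The frame facts about a model `C ⊆ F̄_N` at the level `K'`: it lies in the function field of
the level, contains the constants `A ∩ K'`, and the valuation of `A` is discrete on `K'` with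
uniformizer `ϖ`. -/
structure FrameHyp (A : ValuationSubring Kb) (K' : IntermediateField ℚ Kb) (C : Subring (Fb N))
    (ϖ : Kb) : Prop where
  le_FK : ∀ x ∈ C, x ∈ FK K' N
  const_mem : ∀ c ∈ K', c ∈ A → algebraMap Kb (Fb N) c ∈ C
  unif_mem : ϖ ∈ K'
  dvr : ∀ x ∈ K', x ≠ 0 → ∃ n : ℤ, A.valuation x = A.valuation ϖ ^ n

variable {A : ValuationSubring Kb} {K' : IntermediateField ℚ Kb} {C : Subring (Fb N)} {ϖ : Kb}

omit [NeZero N] in
/-- A quotient of elements of `C` lies in the function field of the level. -/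
theorem FrameHyp.mem_FK_of_mul_eq (H : FrameHyp A K' C ϖ) {x : Fb N} {a b : C}
    (hb : (b : Fb N) ≠ 0) (hab : x * (b : Fb N) = (a : Fb N)) : x ∈ FK K' N := by
  have hx : x = (a : Fb N) * (b : Fb N)⁻¹ := by
    rw [← hab, mul_assoc, mul_inv_cancel₀ hb, mul_one]
  rw [hx]
  exact mul_mem (H.le_FK a a.2) (inv_mem (H.le_FK b b.2))

/-- The residue of a constant of valuation `< 1` vanishes. -/
theorem pi_eq_zero_of_lt_one {π : A →+* k} (hπ : ∀ a : A, π a ≠ 0 → (a : Kb)⁻¹ ∈ A) {c : Kb}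
    (hc : c ∈ A) (hlt : A.valuation c < 1) : π ⟨c, hc⟩ = 0 := by
  by_contra h0
  have h1 : c⁻¹ ∈ A := hπ ⟨c, hc⟩ h0
  rw [← A.valuation_le_one_iff, map_inv₀] at h1
  by_cases hc0 : c = 0
  · apply h0
    have : (⟨c, hc⟩ : A) = 0 := Subtype.ext hc0
    rw [this, map_zero]
  · have h2 : (1 : _) < (A.valuation c)⁻¹ :=
      (one_lt_inv₀ (zero_lt_iff.mpr ((Valuation.ne_zero_iff _).mpr hc0))).mpr hlt
    exact absurd h1 (not_le.mpr h2)

section Smooth

variable {Ft : Type*} [Field Ft] [Algebra k Ft] {π : A →+* k} {O : ValuationSubring (Fb N)}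
  {res : O →+* Ft} {Q : Place k Ft} {T : Set (Place Kb (Fb N))} {t : Fb N}

/-- **The hypothesis `horiz` of `SmoothModel.level_of_horiz` / `SmoothFamily.ofModels` /
`smoothChartOfModels`, in the concrete frame.** -/
theorem smoothModel_horiz
    (M : SmoothModel A π O res Q T t C ϖ) (H : FrameHyp A K' C ϖ)
    (hres : ∀ (a : Kb) (ha : a ∈ A) (h : algebraMap Kb (Fb N) a ∈ O),
      res ⟨algebraMap Kb (Fb N) a, h⟩ = algebraMap k Ft (π ⟨a, ha⟩))
    (hπ : ∀ a : A, π a ≠ 0 → (a : Kb)⁻¹ ∈ A) :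
    ∀ p : Ideal M.loc, p.IsPrime → p.height = 1 →
      (⟨algebraMap Kb (Fb N) ϖ, M.le_loc M.unif_mem⟩ : M.loc) ∉ p →
      ∃ P : Place Kb (Fb N), CentredAt A M.loc P ∧
        ∀ y : M.loc, evalAt P (y : Fb N) = 0 ↔ y ∈ p := by
  intro p hp hht hϖp
  haveI := hp
  have hϖA : ϖ ∈ A := (A.valuation_le_one_iff ϖ).mp M.unif_lt.le
  have hnu : ¬ IsUnit (⟨algebraMap Kb (Fb N) ϖ, M.le_loc M.unif_mem⟩ : M.loc) := by
    rw [M.isUnit_coe_iff ⟨algebraMap Kb (Fb N) ϖ, M.unif_mem⟩, not_not, M.mem_point_iff,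
      hres ϖ hϖA, pi_eq_zero_of_lt_one hπ hϖA M.unif_lt, map_zero, map_zero]
    exact zero_lt_one
  obtain ⟨P, hcen, -, hev⟩ := exists_centredAt_of_horizontal A K' M.loc
    (fun y hy => by
      obtain ⟨a, b, hb, hab⟩ := M.mem_loc_iff.mp hy
      exact H.mem_FK_of_mul_eq (M.coe_ne_zero_of_notMem hb) hab)
    (fun c hc hcA => M.le_loc (H.const_mem c hc hcA))
    ϖ H.unif_mem M.unif_ne M.unif_lt H.dvr (M.le_loc M.unif_mem) hnu p
    (ne_bot_of_height_eq_one hht) hϖp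
  exact ⟨P, hcen, hev⟩

end Smooth

section Crossing

variable {Ft₁ Ft₂ : Type*} [Field Ft₁] [Algebra k Ft₁] [Field Ft₂] [Algebra k Ft₂]
  {π : A →+* k} {O₁ O₂ : ValuationSubring (Fb N)} {res₁ : O₁ →+* Ft₁} {res₂ : O₂ →+* Ft₂}
  {Q₁ : Place k Ft₁} {Q₂ : Place k Ft₂} {T : Set (Place Kb (Fb N))}

/-- **The hypothesis `horiz` of `CrossingModel.loc_primes` / `NodeLevels.ofModels` /
`nodeChartOfModels`, in the concrete frame.** -/
theorem crossingModel_horiz
    (M : CrossingModel A π O₁ O₂ res₁ res₂ Q₁ Q₂ T C ϖ) (H : FrameHyp A K' C ϖ)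
    (hres₁ : ∀ (a : Kb) (ha : a ∈ A) (h : algebraMap Kb (Fb N) a ∈ O₁),
      res₁ ⟨algebraMap Kb (Fb N) a, h⟩ = algebraMap k Ft₁ (π ⟨a, ha⟩))
    (hπ : ∀ a : A, π a ≠ 0 → (a : Kb)⁻¹ ∈ A) :
    ∀ p : Ideal M.loc, p.IsPrime → p.height = 1 →
      (⟨algebraMap Kb (Fb N) ϖ, M.le_loc M.unif_mem⟩ : M.loc) ∉ p →
      ∃ P : Place Kb (Fb N), CentredAt A M.loc P ∧
        ∀ y : M.loc, evalAt P (y : Fb N) = 0 ↔ y ∈ p := by
  intro p hp hht hϖp
  haveI := hp
  haveI : IsLocalRing M.loc := M.isLocalRing_loc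
  have hϖA : ϖ ∈ A := (A.valuation_le_one_iff ϖ).mp M.unif_lt.le
  have hnu : ¬ IsUnit (⟨algebraMap Kb (Fb N) ϖ, M.le_loc M.unif_mem⟩ : M.loc) := by
    rw [isUnit_coe_iff (n := M.point) ⟨algebraMap Kb (Fb N) ϖ, M.unif_mem⟩, not_not,
      M.mem_point_iff, hres₁ ϖ hϖA, pi_eq_zero_of_lt_one hπ hϖA M.unif_lt, map_zero, map_zero]
    exact zero_lt_one
  obtain ⟨P, hcen, -, hev⟩ := exists_centredAt_of_horizontal A K' M.loc
    (fun y hy => by
      obtain ⟨a, b, hb, hab⟩ := M.mem_loc_iff.mp hy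
      exact H.mem_FK_of_mul_eq (M.coe_ne_zero_of_notMem hb) hab)
    (fun c hc hcA => M.le_loc (H.const_mem c hc hcA))
    ϖ H.unif_mem M.unif_ne M.unif_lt H.dvr (M.le_loc M.unif_mem) hnu p
    (ne_bot_of_height_eq_one hht) hϖp
  exact ⟨P, hcen, hev⟩

end Crossing

end Fermat.Agent.BR.S0.HorizModels
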