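/-
Program B (bad reduction), node B6.6-SEP (helper12): separation of two crossings of the
two-component model by a function, from the point dictionary (`BR/S0/PointDict.lean`) alone.

For two different crossings `e ≠ e'` of an atlas `D` with `H : AtlasHyp D x`, the points
`z₁ D e ≠ z₁ D e'` of the component `0` are separated by the residue of a function `y` of the
finite chart (`H.sep_f 0`): it takes two different values `c ≠ c'` there. Subtracting a constant
`a ∈ A` lifting `c` gives a function `f = y - a` of `F` which is small on the tube of `e` and of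
absolute value one on the tube of `e'` — the constant need not lie in the chart ring, so that
crossings conjugate over the prime field are separated as well.

* `AtlasHyp.exists_separator` : the statement for the tubes `{P | H.r P = ⟨0, z₁ D e⟩}`;
* `separated_modularInput` : `Circle.Separated (modularInput …).toSetup e e'` for `X₀(qM)` at `q`
  (the input `sep` of helper16's `Circle.CircleInputs`).
-/
import Mathlib
import Fermat.Agent.BR.S0.PointDict
import Fermat.Agent.BR.S0.Inst
import Fermat.Agent.BR.Circle.Chart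

set_option autoImplicit false
set_option synthInstance.maxHeartbeats 400000
set_option linter.unusedSectionVars false

namespace Fermat.Agent.BR.S0.PointDict

open AlgebraicCurve Fermat.Agent.Red Fermat.Agent.Val Fermat.Agent.BR.Centre
  Fermat.Agent.BR.S0.RedModular

variable {K F k Ft : Type*} [Field K] [Field F] [Algebra K F] [Field k] [Field Ft] [Algebra k Ft]
  {A : ValuationSubring K} {π : A →+* k} {D : ChartData A π Ft F} {x : F}

/-- **Separation of two crossings by a function**: small on the tube of `e`, of absolute value one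
on the tube of `e'`. -/
theorem AtlasHyp.exists_separator (H : AtlasHyp D x) (hπ : Function.Surjective π)
    {e e' : Crossing D} (hne : e ≠ e') :
    ∃ f : F, (∀ P : Place K F, H.r P = ⟨0, z₁ D e⟩ → ∃ d : K, IsValueAt P f d ∧ A.valuation d < 1) ∧
      (∀ P : Place K F, H.r P = ⟨0, z₁ D e'⟩ → ∃ d : K, IsValueAt P f d ∧ A.valuation d = 1) := by
  have hz : z₁ D e ≠ z₁ D e' := fun h => hne (H.z₁_injective h)
  -- a function of the finite chart with different values at the two points
  have hex : ∃ (y : F) (hy : y ∈ D.Rfin) (c c' : k), c ≠ c' ∧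
      IsValueAt (z₁ D e) (D.res 0 ⟨y, D.hfin 0 hy⟩) c ∧
      IsValueAt (z₁ D e') (D.res 0 ⟨y, D.hfin 0 hy⟩) c' := by
    by_contra hcon
    apply hz
    apply H.sep_f 0
    intro y hy
    obtain ⟨c, hc, -⟩ := glued D e y hy
    obtain ⟨c', hc', -⟩ := glued D e' y hy
    by_cases hcc : c = c'
    · exact ⟨c, hc, hcc ▸ hc'⟩
    · exact absurd ⟨y, hy, c, c', hcc, hc, hc'⟩ hcon
  obtain ⟨y, hy, c, c', hcc, hc, hc'⟩ := hex
  obtain ⟨a, ha⟩ := hπ c
  have key : ∀ (P : Place K F) (Q : Place k Ft) (cQ : k),
      IsValueAt Q (D.res 0 ⟨y, D.hfin 0 hy⟩) cQ →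
      IsRedOf A π D.Rfin (D.O 0) (D.res 0) (D.hfin 0) P Q →
      ∃ d : A, IsValueAt P (y - algebraMap K F (a : K)) (d : K) ∧ π d = cQ - c := by
    intro P Q cQ hQ hred
    refine ⟨evHom A D.Rfin P hred.integralAt ⟨y, hy⟩ - a, ?_, ?_⟩
    · have h1 : IsValueAt P y (evalAt P y) := hred.integralAt.isValueAt_evalAt hy
      have h2 := h1.sub (isValueAt_algebraMap P (a : K))
      have e1 : ((evHom A D.Rfin P hred.integralAt ⟨y, hy⟩ - a : A) : K) =
          evalAt P y - (a : K) := by
        show ((evHom A D.Rfin P hred.integralAt ⟨y, hy⟩ : A) : K) - (a : K) = _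
        rw [coe_evHom]
      rw [e1]
      exact h2
    · rw [map_sub, ha]
      congr 1
      exact (hred.isValueAt hy).unique hQ
  refine ⟨y - algebraMap K F (a : K), fun P hP => ?_, fun P hP => ?_⟩
  · obtain ⟨d, hd, hπd⟩ := key P (z₁ D e) c hc ((H.r_eq_z₁_iff e).mp hP)
    refine ⟨d, hd, ?_⟩
    rw [sub_self] at hπd
    by_contra hlt
    have h1 : A.valuation (d : K) = 1 :=
      le_antisymm ((A.valuation_le_one_iff _).mpr d.2) (not_lt.mp hlt)
    -- `d` is a unit of `A`, so `π d ≠ 0`
    have hu : IsUnit d := (A.valuation_eq_one_iff d).mpr h1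
    obtain ⟨u, rfl⟩ := hu
    have : π (u : A) * π ((u⁻¹ : Aˣ) : A) = 1 := by
      rw [← map_mul, Units.mul_inv, map_one]
    rw [hπd, zero_mul] at this
    exact zero_ne_one this
  · obtain ⟨d, hd, hπd⟩ := key P (z₁ D e') c' hc' ((H.r_eq_z₁_iff e').mp hP)
    refine ⟨d, hd, ?_⟩
    by_contra hne1
    have hlt : A.valuation (d : K) < 1 :=
      lt_of_le_of_ne ((A.valuation_le_one_iff _).mpr d.2) hne1
    have h0 := H.pi_zero d hlt
    rw [hπd, sub_eq_zero] at h0
    exact hcc h0.symm

end Fermat.Agent.BR.S0.PointDict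

namespace Fermat.Agent.BR.S0.Modular

open AlgebraicCurve ModularCurve IsLocalRing
open Fermat.Agent.Red Fermat.Agent.Val Fermat.Agent.X0 Fermat.Agent.BR.SS Fermat.Agent.BR.Refine
open Fermat.Agent.BR.S0.RedModular Fermat.Agent.BR.S0.PointDict

variable {M q : ℕ} [NeZero M] [hq : Fact q.Prime]
variable {B : ValuationSubring (AlgebraicClosure ℚ)} {hB : B.LiesOverPrime q} {hqM : ¬ q ∣ M}

local notation "kB" => IsLocalRing.ResidueField B
local notation "FtM" => modularFunctionFieldFullC (IsLocalRing.ResidueField B) M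

/-- **Two different crossings of `X₀(qM)` at `q` are separated by a function** (the input `sep` of
helper16's `Circle.CircleInputs`, for the setup of `modularInput`). -/
theorem separated_modularInput [IsAlgClosed (ResidueField B)] {x : Fb (M * q)}
    (H : AtlasHyp (chartDataModular B hB hqM) x)
    (hne : Nonempty (Crossing (chartDataModular B hB hqM)))
    (smooth₀ : ∀ Q : Place kB FtM, (∀ e, Q ≠ z₁ (chartDataModular B hB hqM) e) →
      SmoothChart B (compW B hB hqM 0).O (compW B hB hqM 0).res Q {P | H.r P = ⟨0, Q⟩})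
    (smooth₁ : ∀ Q : Place kB FtM, (∀ e, Q ≠ z₂ (chartDataModular B hB hqM) e) →
      SmoothChart B (compW B hB hqM 1).O (compW B hB hqM 1).res Q {P | H.r P = ⟨1, Q⟩})
    (chart : ∀ e, NodeChart B (compW B hB hqM 0).O (compW B hB hqM 1).O (compW B hB hqM 0).res
      (compW B hB hqM 1).res (z₁ (chartDataModular B hB hqM) e)
      (z₂ (chartDataModular B hB hqM) e)
      {P | H.r P = ⟨0, z₁ (chartDataModular B hB hqM) e⟩})
    {e e' : Crossing (chartDataModular B hB hqM)} (h : e ≠ e') :
    Fermat.Agent.BR.Circle.Separated (modularInput H hne smooth₀ smooth₁ chart).toSetup e e' := by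
  obtain ⟨f, h1, h2⟩ := H.exists_separator IsLocalRing.residue_surjective h
  exact ⟨f, fun P hP => h1 P hP, fun P hP => h2 P hP⟩

/-- The tube of a crossing in the setup of `modularInput` is the tube of the reduction map. -/
theorem tube_modularInput [IsAlgClosed (ResidueField B)] {x : Fb (M * q)}
    (H : AtlasHyp (chartDataModular B hB hqM) x)
    (hne : Nonempty (Crossing (chartDataModular B hB hqM)))
    (smooth₀ : ∀ Q : Place kB FtM, (∀ e, Q ≠ z₁ (chartDataModular B hB hqM) e) →
      SmoothChart B (compW B hB hqM 0).O (compW B hB hqM 0).res Q {P | H.r P = ⟨0, Q⟩})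
    (smooth₁ : ∀ Q : Place kB FtM, (∀ e, Q ≠ z₂ (chartDataModular B hB hqM) e) →
      SmoothChart B (compW B hB hqM 1).O (compW B hB hqM 1).res Q {P | H.r P = ⟨1, Q⟩})
    (chart : ∀ e, NodeChart B (compW B hB hqM 0).O (compW B hB hqM 1).O (compW B hB hqM 0).res
      (compW B hB hqM 1).res (z₁ (chartDataModular B hB hqM) e)
      (z₂ (chartDataModular B hB hqM) e)
      {P | H.r P = ⟨0, z₁ (chartDataModular B hB hqM) e⟩})
    (e : Crossing (chartDataModular B hB hqM)) :
    tube (modularInput H hne smooth₀ smooth₁ chart).toSetup e =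
      {P | H.r P = ⟨0, z₁ (chartDataModular B hB hqM) e⟩} := rfl

end Fermat.Agent.BR.S0.Modular
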