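/-
Program B (bad reduction), node B6.6-ASSEMBLY-CIRCLE (helper12): the two-component deliverable
`S0.TwoCompDeliverable M q B` of `X₀(qM)` at `q` from the named outputs of the provider blocks,
with the circle machinery (B7) plugged in.

`BR/S0/Inst.lean` proves `twoCompDeliverable_of_atlas` from an abstract chain provider. Here

* `hT` is helper2's `ModUnit.TB_mem_chartFin`;
* the chain provider is helper16's `Circle.CircleInputs.chainProvider`, its annulus coordinates
  are `(I.ch e).u`, and the invariance under inertia is helper17's
  `Inst.InertiaBase.hu_of_mem_modelField_base` (a function of the base level field of the tower of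
  models is fixed by inertia);
* the atlas hypotheses come from helper29's `RedHyp.GeomInputs` (second form).

* `twoCompDeliverable_of_circleInputs` : `H : AtlasHyp D x` arbitrary;
* `twoCompDeliverable_of_geomInputs` : `H := RedHyp.atlasHyp_modular B hB hqM G`;
* `circleInputs_modular` : a `Circle.CircleInputs` for the modular setup from its fields other
  than `sep`, which is `separated_modularInput` (`BR/S0/SeparatedDict.lean`).
-/
import Mathlib
import Fermat.Agent.BR.S0.Inst
import Fermat.Agent.BR.S0.SeparatedDict
import Fermat.Agent.BR.S0.RedHyp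
import Fermat.Agent.BR.Circle.Assembly
import Fermat.Agent.BR.Inst.InertiaBase
import Fermat.Agent.BR.ModUnitChart

set_option autoImplicit false
set_option synthInstance.maxHeartbeats 400000
set_option linter.unusedSectionVars false

namespace Fermat.Agent.BR.S0.Modular

open AlgebraicCurve ModularCurve IsLocalRing Polynomial
open Fermat.Agent.Red Fermat.Agent.Val Fermat.Agent.X0 Fermat.Agent.BR.SS Fermat.Agent.BR.Refine
open Fermat.Agent.BR.Centre Fermat.Agent.BR.ConstRedTwo Fermat.Agent.BR.ModUnit
open Fermat.Agent.BR.S0.RedModular Fermat.Agent.BR.S0.PointDict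
open Fermat.Agent.BR.Inst.NormalModel Fermat.Agent.BR.Inst.FKCover
open Fermat.Agent.BR.UnramCycloTower

variable {M q : ℕ} [NeZero M] [hq : Fact q.Prime]
variable {B : ValuationSubring (AlgebraicClosure ℚ)} {hB : B.LiesOverPrime q} {hqM : ¬ q ∣ M}

local notation "kB" => IsLocalRing.ResidueField B
local notation "FtM" => modularFunctionFieldFullC (IsLocalRing.ResidueField B) M
local notation "Kb" => AlgebraicClosure ℚ

section Main

variable {x : Fb (M * q)} (H : AtlasHyp (chartDataModular B hB hqM) x)

/-- **`TwoCompDeliverable M q B` with the circle machinery plugged in**: the chain provider is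
`Circle.CircleInputs.chainProvider`, and the annulus coordinates, functions of the base level
field of the tower of models, are fixed by inertia. -/
theorem twoCompDeliverable_of_circleInputs [IsAlgClosed (ResidueField B)]
    (hzero : haveI := charP_res q B hB
      ∀ Q : Place kB FtM, 0 < Q.ord (aeval (jFullC kB M) (TbarPolyK kB q)) →
        ∃ Q₂, GluedF (chartDataModular B hB hqM) Q Q₂)
    (hord : haveI := charP_res q B hB
      ∀ e : Crossing (chartDataModular B hB hqM),
        (z₁ (chartDataModular B hB hqM) e).ord (aeval (jFullC kB M) (TbarPolyK kB q)) ≤ 12)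
    (smooth₀ : ∀ Q : Place kB FtM, (∀ e, Q ≠ z₁ (chartDataModular B hB hqM) e) →
      SmoothChart B (compW B hB hqM 0).O (compW B hB hqM 0).res Q {P | H.r P = ⟨0, Q⟩})
    (smooth₁ : ∀ Q : Place kB FtM, (∀ e, Q ≠ z₂ (chartDataModular B hB hqM) e) →
      SmoothChart B (compW B hB hqM 1).O (compW B hB hqM 1).res Q {P | H.r P = ⟨1, Q⟩})
    (chart : ∀ e, NodeChart B (compW B hB hqM 0).O (compW B hB hqM 1).O (compW B hB hqM 0).res
      (compW B hB hqM 1).res (z₁ (chartDataModular B hB hqM) e)
      (z₂ (chartDataModular B hB hqM) e)
      {P | H.r P = ⟨0, z₁ (chartDataModular B hB hqM) e⟩})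
    (I : ∀ hne : Nonempty (Crossing (chartDataModular B hB hqM)),
      Circle.CircleInputs (modularInput H hne smooth₀ smooth₁ chart).toSetup)
    (hu : ∀ (hne : Nonempty (Crossing (chartDataModular B hB hqM))) e,
      ((I hne).ch e).u ∈ modelField (M * q) (coeffField q (∅ : Finset Kb)).toSubfield) :
    TwoCompDeliverable M q B :=
  twoCompDeliverable_of_atlas H (TB_mem_chartFin M q) hzero hord smooth₀ smooth₁ chart
    (fun hne => ⟨(I hne).chainProvider,
      Fermat.Agent.BR.Inst.InertiaBase.hu_of_mem_modelField_base B hq.out hB
        (fun e => ((I hne).ch e).u) (hu hne)⟩)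

end Main

section Geom

open Fermat.Agent.BR.S0.RedHyp

/-- **`TwoCompDeliverable M q B` from the geometric inputs of the atlas** (helper29's
`RedHyp.GeomInputs`: separation and totality on the two charts, no crossing at infinity), (Z)/(T),
a chart at every point, and the circle inputs with annulus coordinates in the base level field. -/
theorem twoCompDeliverable_of_geomInputs [IsAlgClosed (ResidueField B)]
    (G : GeomInputs B hB hqM)
    (hzero : haveI := charP_res q B hB
      ∀ Q : Place kB FtM, 0 < Q.ord (aeval (jFullC kB M) (TbarPolyK kB q)) →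
        ∃ Q₂, GluedF (chartDataModular B hB hqM) Q Q₂)
    (hord : haveI := charP_res q B hB
      ∀ e : Crossing (chartDataModular B hB hqM),
        (z₁ (chartDataModular B hB hqM) e).ord (aeval (jFullC kB M) (TbarPolyK kB q)) ≤ 12)
    (smooth₀ : ∀ Q : Place kB FtM, (∀ e, Q ≠ z₁ (chartDataModular B hB hqM) e) →
      SmoothChart B (compW B hB hqM 0).O (compW B hB hqM 0).res Q
        {P | (atlasHyp_modular B hB hqM G).r P = ⟨0, Q⟩})
    (smooth₁ : ∀ Q : Place kB FtM, (∀ e, Q ≠ z₂ (chartDataModular B hB hqM) e) →
      SmoothChart B (compW B hB hqM 1).O (compW B hB hqM 1).res Q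
        {P | (atlasHyp_modular B hB hqM G).r P = ⟨1, Q⟩})
    (chart : ∀ e, NodeChart B (compW B hB hqM 0).O (compW B hB hqM 1).O (compW B hB hqM 0).res
      (compW B hB hqM 1).res (z₁ (chartDataModular B hB hqM) e)
      (z₂ (chartDataModular B hB hqM) e)
      {P | (atlasHyp_modular B hB hqM G).r P = ⟨0, z₁ (chartDataModular B hB hqM) e⟩})
    (I : ∀ hne : Nonempty (Crossing (chartDataModular B hB hqM)),
      Circle.CircleInputs
        (modularInput (atlasHyp_modular B hB hqM G) hne smooth₀ smooth₁ chart).toSetup)
    (hu : ∀ (hne : Nonempty (Crossing (chartDataModular B hB hqM))) e,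
      ((I hne).ch e).u ∈ modelField (M * q) (coeffField q (∅ : Finset Kb)).toSubfield) :
    TwoCompDeliverable M q B :=
  twoCompDeliverable_of_circleInputs (atlasHyp_modular B hB hqM G) hzero hord smooth₀ smooth₁
    chart I hu

end Geom

end Fermat.Agent.BR.S0.Modular
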