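/-
Program B (bad reduction), node B6.6-NODE, adapter (helper19): the two-component bundle
`TwoCompInput` (`BR/S0/TwoCompInput`) with the node fields `node_match`, `node_unit` supplied by a
family of local charts at the crossing points (`NodeChart`, `BR/S0/NodeFields`).
-/
import Mathlib
import Fermat.Agent.BR.S0.TwoCompInput
import Fermat.Agent.BR.S0.NodeFields

set_option autoImplicit false

namespace Fermat.Agent.BR.S0

open AlgebraicCurve Fermat.Agent.Red Fermat.Agent.Val Fermat.Agent.BR.SS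

variable {K F k : Type*} [Field K] [Field F] [Algebra K F] [Field k]
  {A : ValuationSubring K} {π : A →+* k} {Ft : Type*} [Field Ft] [Algebra k Ft] {ν : Type*}

/-- a constant with nonzero residue is a unit of `A` -/
theorem ConstRed_inv_mem_of_pi_ne_zero (C : ConstRed (F := F) (Ft := Ft) A π) (a : A)
    (ha : π a ≠ 0) : (a : K)⁻¹ ∈ A := by
  have h1 : (a : K) ∉ A.nonunits := fun h => ha ((C.pi_eq_zero_iff a).mpr h)
  rw [ValuationSubring.mem_nonunits_iff_or] at h1
  push Not at h1
  exact h1.2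

/-- The two-component bundle from local charts at the crossing points: the fields `node_match`
and `node_unit` of `TwoCompInput` are replaced by a `NodeChart` at every crossing `e`, for the
tube `{P | r P = ⟨0, z₁ e⟩}`. -/
def TwoCompInput.ofCharts (C : Fin 2 → ConstRed (F := F) (Ft := Ft) A π)
    (O_ne : (C 0).O ≠ (C 1).O) (z₁ z₂ : ν → Place k Ft) (z₁_injective : Function.Injective z₁)
    (z₂_injective : Function.Injective z₂) (nonempty_ν : Nonempty ν)
    (r : Place K F → Σ _ : Fin 2, Place k Ft) (r_ne_tgt : ∀ P e, r P ≠ ⟨1, z₂ e⟩)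
    (conservation₀ : ∀ y : (C 0).O, (C 0).res y ≠ 0 → ∀ D : Divisor K F,
      (∀ P, D P = P.ord (y : F)) → ∀ Q : Place k Ft, (∀ e, Q ≠ z₁ e) →
        Finsupp.mapDomain r D ⟨0, Q⟩ = Q.ord ((C 0).res y))
    (conservation₁ : ∀ y : (C 1).O, (C 1).res y ≠ 0 → ∀ D : Divisor K F,
      (∀ P, D P = P.ord (y : F)) → ∀ Q : Place k Ft, (∀ e, Q ≠ z₂ e) →
        Finsupp.mapDomain r D ⟨1, Q⟩ = Q.ord ((C 1).res y))
    (chart : ∀ e, NodeChart A (C 0).O (C 1).O (C 0).res (C 1).res (z₁ e) (z₂ e)
      {P | r P = ⟨0, z₁ e⟩}) :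
    TwoCompInput (F := F) A π Ft ν where
  C := C
  O_ne := O_ne
  z₁ := z₁
  z₂ := z₂
  z₁_injective := z₁_injective
  z₂_injective := z₂_injective
  nonempty_ν := nonempty_ν
  r := r
  r_ne_tgt := r_ne_tgt
  conservation₀ := conservation₀
  conservation₁ := conservation₁
  node_match e y h₁ h₂ hT :=
    (chart e).node_match (C 0).res_algebraMap (C 1).res_algebraMap y h₁ h₂ hT
  node_unit e y h₁ h₂ hT hc :=
    (chart e).node_unit (C 0).res_algebraMap (C 1).res_algebraMap
      (ConstRed_inv_mem_of_pi_ne_zero (C 0)) y h₁ h₂ hT hc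

end Fermat.Agent.BR.S0
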