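import Fermat.Agent.BR.CentreRed

/-!
# Program B, node B6.6 (field `r` of the two-component setup): the reduction map of places from
two integral charts, and its invariance under inertia

`F / K` a function field, `A ⊆ K` a valuation ring with residue map `π : A →+* k`,
`O 0`, `O 1` the valuation rings of the two components of the special fibre with residue maps
`res v : O v →+* Ft`.

* `RedCharts A π O res` : two rings of functions `R true` (the affine chart, for `X₀(N)`: the
  functions integral over `ℤ_(q)[j]`) and `R false` (the chart at infinity, integral over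
  `ℤ_(q)[1/j]`), contained in `O 0 ∩ O 1`, such that every place is integral on one of them,
  every place integral on a chart has a reduction on one of the two components in the relational
  sense `Centre.IsRedOf` of `BR/CentreRed` (the value of `res v y` at `Q` is `π (y(P))` for all
  `y` of the chart), and this reduction is unique on each component;
* `RedCharts.ch P` : the chart used for `P` (the affine chart if `P` is integral on it, the chart
  at infinity otherwise); `RedCharts.IsRedAt v P Q` : `Q` is the reduction of `P` on the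
  component `v`, in the chart `ch P`;
* `RedCharts.red : Place K F → Σ _ : Fin 2, Place k Ft` : **the reduction map**; the component
  `0` has priority, so that the places of the tube of a crossing point are sent to the branch on
  the component `0` (orientation of `S0.TwoCompInput`: all nodes go from `0` to `1`);
  `red_eq_zero_iff`, `red_eq_one_iff` : description of its fibres (the tubes);
* `RedCharts.red_ne_tgt` : the field `r_ne_tgt` of `TwoCompInput`, from the fact that the second
  branch of a crossing point lies on the component `0` as well;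
* `RedCharts.red_smul`, `RedCharts.red_smul_of_inertiaLike` : **`r (g • P) = r P`** for a
  semilinear automorphism `g` fixing the two charts pointwise whose base automorphism preserves
  `A` and commutes with `π` (input `hr₀` of `Refine.hasNodalReductions_of_chainProvider`,
  = `Compat` with `α = 1` on the two big components, tube stability included).
-/

set_option autoImplicit false

open IsLocalRing AlgebraicCurve

namespace Fermat.Agent.BR.RedMap

open Fermat.Agent.Red Fermat.Agent.BR.Centre Fermat.Agent.BR.InertiaRed

variable {K F k Ft : Type*} [Field K] [Field F] [Algebra K F] [Field k] [Field Ft] [Algebra k Ft]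

/-- Two integral charts of a model with two components: the data from which the reduction map of
places is defined. -/
structure RedCharts (A : ValuationSubring K) (π : A →+* k) (O : Fin 2 → ValuationSubring F)
    (res : ∀ v, O v →+* Ft) where
  /-- the two charts: `R true` the affine chart, `R false` the chart at infinity -/
  R : Bool → Subring F
  /-- the functions of the charts are integral on both components -/
  le : ∀ c v, R c ≤ (O v).toSubring
  /-- every place is integral on one of the two charts -/
  cover : ∀ P : Place K F, IntegralAt A (R true) P ∨ IntegralAt A (R false) P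
  /-- a place integral on a chart has a reduction on one of the two components -/
  exists_red : ∀ (P : Place K F) (c : Bool), IntegralAt A (R c) P →
    ∃ (v : Fin 2) (Q : Place k Ft), IsRedOf A π (R c) (O v) (res v) (le c v) P Q
  /-- the reduction on a component is unique -/
  unique : ∀ (c : Bool) (v : Fin 2) (P : Place K F) (Q Q' : Place k Ft),
    IsRedOf A π (R c) (O v) (res v) (le c v) P Q →
    IsRedOf A π (R c) (O v) (res v) (le c v) P Q' → Q = Q'

namespace RedCharts

variable {A : ValuationSubring K} {π : A →+* k} {O : Fin 2 → ValuationSubring F}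
  {res : ∀ v, O v →+* Ft} (X : RedCharts A π O res)

/-! ### the chart of a place -/

open Classical in
/-- The chart used for the place `P`: the affine chart if `P` is integral on it, the chart at
infinity otherwise. -/
noncomputable def ch (P : Place K F) : Bool :=
  if IntegralAt A (X.R true) P then true else false

theorem ch_eq_true_iff {P : Place K F} : X.ch P = true ↔ IntegralAt A (X.R true) P := by
  unfold ch
  split_ifs with h
  · exact ⟨fun _ => h, fun _ => rfl⟩
  · exact ⟨fun h' => absurd h' (by simp), fun h' => absurd h' h⟩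

theorem ch_eq_false_iff {P : Place K F} : X.ch P = false ↔ ¬ IntegralAt A (X.R true) P := by
  rw [← X.ch_eq_true_iff]
  cases X.ch P <;> simp

theorem integralAt_ch (P : Place K F) : IntegralAt A (X.R (X.ch P)) P := by
  cases h : X.ch P
  · rcases X.cover P with h1 | h1
    · exact absurd h1 (X.ch_eq_false_iff.mp h)
    · exact h1
  · exact X.ch_eq_true_iff.mp h

/-- The chart of a place is determined by integrality on the affine chart. -/
theorem ch_congr {P P' : Place K F}
    (h : IntegralAt A (X.R true) P ↔ IntegralAt A (X.R true) P') : X.ch P = X.ch P' := by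
  cases h' : X.ch P'
  · rw [X.ch_eq_false_iff] at h' ⊢
    rwa [h]
  · rw [X.ch_eq_true_iff] at h' ⊢
    rwa [h]

/-! ### the reduction relation -/

/-- `Q` is the reduction of `P` on the component `v`, in the chart of `P`. -/
def IsRedAt (v : Fin 2) (P : Place K F) (Q : Place k Ft) : Prop :=
  IsRedOf A π (X.R (X.ch P)) (O v) (res v) (X.le (X.ch P) v) P Q

theorem isRedAt_iff_of_ch_eq {v : Fin 2} {P : Place K F} {Q : Place k Ft} {c : Bool}
    (hc : X.ch P = c) :
    X.IsRedAt v P Q ↔ IsRedOf A π (X.R c) (O v) (res v) (X.le c v) P Q := by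
  subst hc
  rfl

/-- A place with a reduction in the affine chart uses the affine chart. -/
theorem ch_eq_true_of_isRedOf {v : Fin 2} {P : Place K F} {Q : Place k Ft}
    (h : IsRedOf A π (X.R true) (O v) (res v) (X.le true v) P Q) : X.ch P = true :=
  X.ch_eq_true_iff.mpr h.integralAt

/-- Reductions in the affine chart are reductions. -/
theorem isRedAt_of_isRedOf_true {v : Fin 2} {P : Place K F} {Q : Place k Ft}
    (h : IsRedOf A π (X.R true) (O v) (res v) (X.le true v) P Q) : X.IsRedAt v P Q :=
  (X.isRedAt_iff_of_ch_eq (X.ch_eq_true_of_isRedOf h)).mpr h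

/-- Reductions in the chart at infinity of a place which is not integral on the affine chart are
reductions. -/
theorem isRedAt_of_isRedOf_false {v : Fin 2} {P : Place K F} {Q : Place k Ft}
    (hP : ¬ IntegralAt A (X.R true) P)
    (h : IsRedOf A π (X.R false) (O v) (res v) (X.le false v) P Q) : X.IsRedAt v P Q :=
  (X.isRedAt_iff_of_ch_eq (X.ch_eq_false_iff.mpr hP)).mpr h

theorem IsRedAt.unique {v : Fin 2} {P : Place K F} {Q Q' : Place k Ft}
    (h : X.IsRedAt v P Q) (h' : X.IsRedAt v P Q') : Q = Q' :=
  X.unique _ v P Q Q' h h'

theorem exists_isRedAt (P : Place K F) : ∃ (v : Fin 2) (Q : Place k Ft), X.IsRedAt v P Q :=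
  X.exists_red P (X.ch P) (X.integralAt_ch P)

theorem fin2_cases (v : Fin 2) : v = 0 ∨ v = 1 := by
  fin_cases v
  · exact Or.inl rfl
  · exact Or.inr rfl

/-- A place without reduction on the component `0` has a reduction on the component `1`. -/
theorem exists_isRedAt_one {P : Place K F} (h : ¬ ∃ Q, X.IsRedAt 0 P Q) :
    ∃ Q, X.IsRedAt 1 P Q := by
  obtain ⟨v, Q, hQ⟩ := X.exists_isRedAt P
  rcases fin2_cases v with rfl | rfl
  · exact absurd ⟨Q, hQ⟩ h
  · exact ⟨Q, hQ⟩

/-! ### the reduction map -/

open Classical in
/-- **The reduction map of places.** The reduction on the component `0` if there is one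
(in particular for the places of the tubes of the crossing points), the reduction on the
component `1` otherwise. -/
noncomputable def red (P : Place K F) : Σ _ : Fin 2, Place k Ft :=
  if h : ∃ Q, X.IsRedAt 0 P Q then ⟨0, h.choose⟩ else ⟨1, (X.exists_isRedAt_one h).choose⟩

theorem red_eq_zero_iff {P : Place K F} {Q : Place k Ft} :
    X.red P = ⟨0, Q⟩ ↔ X.IsRedAt 0 P Q := by
  unfold red
  split_ifs with h
  · constructor
    · intro e
      have e2 : h.choose = Q := by
        simpa only [Sigma.mk.injEq, heq_eq_eq, true_and] using e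
      rw [← e2]
      exact h.choose_spec
    · intro hQ
      rw [X.unique _ 0 P _ _ h.choose_spec hQ]
  · constructor
    · intro e
      have e1 : (1 : Fin 2) = 0 := congrArg Sigma.fst e
      exact absurd e1 (by decide)
    · intro hQ
      exact absurd ⟨Q, hQ⟩ h

theorem red_eq_one_iff {P : Place K F} {Q : Place k Ft} :
    X.red P = ⟨1, Q⟩ ↔ (¬ ∃ Q', X.IsRedAt 0 P Q') ∧ X.IsRedAt 1 P Q := by
  unfold red
  split_ifs with h
  · constructor
    · intro e
      have e1 : (0 : Fin 2) = 1 := congrArg Sigma.fst e
      exact absurd e1 (by decide)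
    · rintro ⟨h', -⟩
      exact absurd h h'
  · constructor
    · intro e
      have e2 : (X.exists_isRedAt_one h).choose = Q := by
        simpa only [Sigma.mk.injEq, heq_eq_eq, true_and] using e
      rw [← e2]
      exact ⟨h, (X.exists_isRedAt_one h).choose_spec⟩
    · rintro ⟨-, hQ⟩
      rw [X.unique _ 1 P _ _ (X.exists_isRedAt_one h).choose_spec hQ]

/-- The value of the reduction map is a reduction. -/
theorem isRedAt_red (P : Place K F) : X.IsRedAt (X.red P).1 P (X.red P).2 := by
  rcases hr : X.red P with ⟨v, Q⟩
  rcases fin2_cases v with rfl | rfl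
  · exact X.red_eq_zero_iff.mp hr
  · exact (X.red_eq_one_iff.mp hr).2

/-- A map with the fibres of `red` is `red`. -/
theorem red_eq_of_forall {P P' : Place K F}
    (h : ∀ v Q, X.IsRedAt v P' Q ↔ X.IsRedAt v P Q) : X.red P' = X.red P := by
  rcases hr : X.red P with ⟨v, Q⟩
  rcases fin2_cases v with rfl | rfl
  · rw [X.red_eq_zero_iff] at hr ⊢
    exact (h 0 Q).mpr hr
  · rw [X.red_eq_one_iff] at hr ⊢
    refine ⟨?_, (h 1 Q).mpr hr.2⟩
    rintro ⟨Q', hQ'⟩
    exact hr.1 ⟨Q', (h 0 Q').mp hQ'⟩

/-- The tube of a point of the component `0` in the affine chart. -/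
theorem red_eq_zero_of_isRedOf_true {P : Place K F} {Q : Place k Ft}
    (h : IsRedOf A π (X.R true) (O 0) (res 0) (X.le true 0) P Q) : X.red P = ⟨0, Q⟩ :=
  X.red_eq_zero_iff.mpr (X.isRedAt_of_isRedOf_true h)

/-- The places of a fibre of `red` over the component `0` are regular on the chart, and the
functions of the chart reduce to their values. -/
theorem isRedOf_of_red_eq_zero {P : Place K F} {Q : Place k Ft} {c : Bool} (hc : X.ch P = c)
    (h : X.red P = ⟨0, Q⟩) : IsRedOf A π (X.R c) (O 0) (res 0) (X.le c 0) P Q :=
  (X.isRedAt_iff_of_ch_eq hc).mp (X.red_eq_zero_iff.mp h)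

theorem isRedOf_of_red_eq_one {P : Place K F} {Q : Place k Ft} {c : Bool} (hc : X.ch P = c)
    (h : X.red P = ⟨1, Q⟩) : IsRedOf A π (X.R c) (O 1) (res 1) (X.le c 1) P Q :=
  (X.isRedAt_iff_of_ch_eq hc).mp (X.red_eq_one_iff.mp h).2

/-! ### the field `r_ne_tgt` -/

/-- **`r_ne_tgt`**: if every place reducing to the point `Q₂` of the component `1` also has a
reduction on the component `0` (`Q₂` is the second branch of a crossing point), then no place
is sent to `⟨1, Q₂⟩`. -/
theorem red_ne_tgt {Q₂ : Place k Ft}
    (hcross : ∀ P : Place K F, X.IsRedAt 1 P Q₂ → ∃ Q₁, X.IsRedAt 0 P Q₁) (P : Place K F) :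
    X.red P ≠ ⟨1, Q₂⟩ := by
  intro h
  obtain ⟨h0, h1⟩ := X.red_eq_one_iff.mp h
  exact h0 (hcross P h1)

/-- The hypothesis of `red_ne_tgt` from the matching of the values of the chart functions at the
two branches `Q₁`, `Q₂` of a crossing point. -/
theorem exists_isRedAt_zero_of_match {Q₁ Q₂ : Place k Ft}
    (hmatch : ∀ (c : Bool) (y : F) (hy : y ∈ X.R c) (a : k),
      IsValueAt Q₂ (res 1 ⟨y, X.le c 1 hy⟩) a → IsValueAt Q₁ (res 0 ⟨y, X.le c 0 hy⟩) a)
    (P : Place K F) (h : X.IsRedAt 1 P Q₂) : ∃ Q, X.IsRedAt 0 P Q :=
  ⟨Q₁, h.integralAt, fun y hy => hmatch _ y hy _ (h.isValueAt hy)⟩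

/-- **The field `r_ne_tgt` of `S0.TwoCompInput`** for the reduction map `red`, from the matching
of the values of the chart functions at the two branches `z₁ e`, `z₂ e` of every crossing point. -/
theorem red_ne_tgt_of_match {ν : Type*} (z₁ z₂ : ν → Place k Ft)
    (hmatch : ∀ (e : ν) (c : Bool) (y : F) (hy : y ∈ X.R c) (a : k),
      IsValueAt (z₂ e) (res 1 ⟨y, X.le c 1 hy⟩) a → IsValueAt (z₁ e) (res 0 ⟨y, X.le c 0 hy⟩) a)
    (P : Place K F) (e : ν) : X.red P ≠ ⟨1, z₂ e⟩ :=
  X.red_ne_tgt (fun P' h => X.exists_isRedAt_zero_of_match (hmatch e) P' h) P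

/-- The places of the tube of the crossing point with first branch `Q₁` (the fibre of `red` over
`⟨0, Q₁⟩`) also reduce to the second branch `Q₂` on the component `1`, if the values of the chart
functions at the two branches match. -/
theorem isRedAt_one_of_red_eq_zero {Q₁ Q₂ : Place k Ft}
    (hmatch : ∀ (c : Bool) (y : F) (hy : y ∈ X.R c) (a : k),
      IsValueAt Q₁ (res 0 ⟨y, X.le c 0 hy⟩) a → IsValueAt Q₂ (res 1 ⟨y, X.le c 1 hy⟩) a)
    {P : Place K F} (h : X.red P = ⟨0, Q₁⟩) : X.IsRedAt 1 P Q₂ := by
  have h0 := X.red_eq_zero_iff.mp h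
  exact ⟨h0.integralAt, fun y hy => hmatch _ y hy _ (h0.isValueAt hy)⟩

/-! ### invariance under inertia -/

section Equivariance

variable (g : SemilinearAut K F)
  (hmem : ∀ c : K, SemilinearAut.baseAut g c ∈ A ↔ c ∈ A)
  (hπ : ∀ (c : K) (hc : c ∈ A), π ⟨SemilinearAut.baseAut g c, (hmem c).mpr hc⟩ = π ⟨c, hc⟩)
  (hfix : ∀ (c : Bool), ∀ y ∈ X.R c, g • y = y)

include hmem hfix in
theorem integralAt_smul_iff (c : Bool) (P : Place K F) :
    IntegralAt A (X.R c) (g • P) ↔ IntegralAt A (X.R c) P := by
  refine ⟨fun h => ?_, integralAt_smul_of_fixed (fun a ha => (hmem a).mpr ha) (hfix c)⟩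
  have key : ∀ a : K, SemilinearAut.baseAut g (SemilinearAut.baseAut g⁻¹ a) = a := by
    intro a
    rw [SemilinearAut.baseAut_inv]
    exact (SemilinearAut.baseAut g).apply_symm_apply a
  have hmem' : ∀ a : K, a ∈ A → SemilinearAut.baseAut g⁻¹ a ∈ A := by
    intro a ha
    rw [← hmem (SemilinearAut.baseAut g⁻¹ a), key]
    exact ha
  have hfix' : ∀ y ∈ X.R c, g⁻¹ • y = y := by
    intro y hy
    conv_lhs => rw [← hfix c y hy]
    exact inv_smul_smul g y
  have := integralAt_smul_of_fixed hmem' hfix' h
  rwa [inv_smul_smul] at this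

include hmem hfix in
/-- `g • P` and `P` use the same chart. -/
theorem ch_smul (P : Place K F) : X.ch (g • P) = X.ch P :=
  X.ch_congr (X.integralAt_smul_iff g hmem hfix true P)

include hmem hπ hfix in
/-- `g • P` and `P` have the same reductions on both components. -/
theorem isRedAt_smul_iff (v : Fin 2) (P : Place K F) (Q : Place k Ft) :
    X.IsRedAt v (g • P) Q ↔ X.IsRedAt v P Q := by
  rw [X.isRedAt_iff_of_ch_eq (X.ch_smul g hmem hfix P), X.isRedAt_iff_of_ch_eq rfl]
  exact isRedOf_smul_iff_of_fixed g hmem hπ (hfix _)

include hmem hπ hfix in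
/-- **Invariance of the reduction map**: `r (g • P) = r P` for a semilinear automorphism `g`
fixing the two charts pointwise, whose base automorphism preserves `A` and commutes with `π`. -/
theorem red_smul (P : Place K F) : X.red (g • P) = X.red P :=
  X.red_eq_of_forall fun v Q => X.isRedAt_smul_iff g hmem hπ hfix v P Q

end Equivariance

end RedCharts

/-- **Invariance of the reduction map under inertia** (`π` the residue map of `A`): input `hr₀` of
`Refine.hasNodalReductions_of_chainProvider`. -/
theorem RedCharts.red_smul_of_inertiaLike {A : ValuationSubring K}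
    {Ft : Type*} [Field Ft] [Algebra (ResidueField A) Ft]
    {O : Fin 2 → ValuationSubring F} {res : ∀ v, O v →+* Ft}
    (X : RedCharts A (residue A) O res) {g : SemilinearAut K F} (hg : InertiaLike A g)
    (hfix : ∀ (c : Bool), ∀ y ∈ X.R c, g • y = y) (P : Place K F) :
    X.red (g • P) = X.red P := by
  apply X.red_smul g hg.mem_iff _ hfix
  intro c hc
  have h1 := hg.res c hc
  rw [resOf_of_mem A hc, resOf_of_mem A (hg.mem c hc)] at h1
  exact h1

end Fermat.Agent.BR.RedMap
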