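import Mathlib
import Fermat.Agent.BR.S0.RedModular

/-!
# Program B (BADRED), node B6.6 (h2): equivariance of the reduction for STABLE charts

Generalisation of `Centre.isRedOf_residue_smul_iff_of_fixed` (helper25) from charts fixed
*pointwise* by `g` to charts which are only *stable* under `g` and on which the residue map of the
component is `g`-invariant (`res (g • y) = res y`): this is the situation of the level-free chart
`R_A` (integral closure of `A[j]` in `Fb (M*q)`): an element `σ` of the inertia group moves the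
constants of `A`, but `σ R_A = R_A`, `σ O_i = O_i` and `res_i ∘ σ = res_i` (`BR/GaloisTwo`).

* `integralAt_smul_iff_of_stable`, `isRedOf_smul_iff_of_stable`;
* `red_smul_iff_of_stable`, `r_smul_of_stable` : the relation `RedModular.Red` and the reduction
  map `(redRel H).r` are invariant under `g`.
-/

set_option autoImplicit false

namespace Fermat.Agent.BR.S0.RedModular

open AlgebraicCurve IsLocalRing Fermat.Agent.Red Fermat.Agent.BR.Centre Fermat.Agent.BR.S0.RedMap
  Fermat.Agent.BR Fermat.Agent.BR.InertiaRed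

variable {K F : Type*} [Field K] [Field F] [Algebra K F]
variable {A : ValuationSubring K} {R : Subring F} {g : SemilinearAut K F}

/-- A chart stable under `g`: `g R ⊆ R` and `g⁻¹ R ⊆ R`. -/
structure StableUnder (g : SemilinearAut K F) (R : Subring F) : Prop where
  smul_mem : ∀ y ∈ R, g • y ∈ R
  inv_smul_mem : ∀ y ∈ R, g⁻¹ • y ∈ R

theorem StableUnder.inv (h : StableUnder g R) : StableUnder g⁻¹ R :=
  ⟨h.inv_smul_mem, fun y hy => by rw [inv_inv]; exact h.smul_mem y hy⟩

theorem StableUnder.of_fixed (hfix : ∀ y ∈ R, g • y = y) : StableUnder g R :=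
  ⟨fun y hy => by rw [hfix y hy]; exact hy, fun y hy => by
    have : g⁻¹ • y = y := by
      conv_lhs => rw [← hfix y hy]
      exact inv_smul_smul g y
    rw [this]; exact hy⟩

/-- On a `g`-stable chart, `g • P` is integral if `P` is. -/
theorem integralAt_smul_of_stable (hA : ∀ c : K, c ∈ A → SemilinearAut.baseAut g c ∈ A)
    (hR : StableUnder g R) {P : Place K F} (h : IntegralAt A R P) : IntegralAt A R (g • P) := by
  intro y hy
  obtain ⟨c, hcA, hc⟩ := h (g⁻¹ • y) (hR.inv_smul_mem y hy)
  refine ⟨SemilinearAut.baseAut g c, hA c hcA, ?_⟩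
  have := AnnulusRed.isValueAt_smul g hc
  rwa [smul_inv_smul] at this

theorem integralAt_smul_iff_of_stable (hg : InertiaLike A g) (hR : StableUnder g R)
    {P : Place K F} : IntegralAt A R (g • P) ↔ IntegralAt A R P := by
  refine ⟨fun h => ?_, integralAt_smul_of_stable hg.mem hR⟩
  have := integralAt_smul_of_stable hg.inv.mem hR.inv h
  rwa [inv_smul_smul] at this

variable {Ft : Type*} [Field Ft] [Algebra (ResidueField A) Ft] {O : ValuationSubring F}
  {res : O →+* Ft} {hRO : R ≤ O.toSubring}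

/-- On a `g`-stable chart with `g`-invariant residue map, the reduction of `g • P` is the
reduction of `P` (one direction). -/
theorem isRedOf_smul_of_stable (hg : InertiaLike A g) (hR : StableUnder g R)
    (hres : ∀ (y : F) (hy : y ∈ R), res ⟨g⁻¹ • y, hRO (hR.inv_smul_mem y hy)⟩ = res ⟨y, hRO hy⟩)
    {P : Place K F} {Q : Place (ResidueField A) Ft}
    (h : IsRedOf A (residue A) R O res hRO P Q) :
    IsRedOf A (residue A) R O res hRO (g • P) Q := by
  refine ⟨integralAt_smul_of_stable hg.mem hR h.integralAt, fun y hy => ?_⟩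
  have hy' : g⁻¹ • y ∈ R := hR.inv_smul_mem y hy
  have h1 := h.isValueAt hy'
  rw [hres y hy] at h1
  have e : residue A (evHom A R (g • P) (integralAt_smul_of_stable hg.mem hR h.integralAt)
      ⟨y, hy⟩) = residue A (evHom A R P h.integralAt ⟨g⁻¹ • y, hy'⟩) := by
    have hev : evalAt (g • P) y = SemilinearAut.baseAut g (evalAt P (g⁻¹ • y)) :=
      evalAt_smul_mem g P y
    have hc : evalAt P (g⁻¹ • y) ∈ A := h.integralAt.evalAt_mem hy'
    have h2 := hg.res _ hc
    rw [resOf_of_mem A hc, resOf_of_mem A (hg.mem _ hc)] at h2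
    have e1 : evHom A R (g • P) (integralAt_smul_of_stable hg.mem hR h.integralAt) ⟨y, hy⟩ =
        ⟨SemilinearAut.baseAut g (evalAt P (g⁻¹ • y)), hg.mem _ hc⟩ := Subtype.ext hev
    have e2 : evHom A R P h.integralAt ⟨g⁻¹ • y, hy'⟩ = ⟨evalAt P (g⁻¹ • y), hc⟩ :=
      Subtype.ext rfl
    rw [e1, e2, h2]
  rw [e]
  exact h1

theorem isRedOf_smul_iff_of_stable (hg : InertiaLike A g) (hR : StableUnder g R)
    (hres : ∀ (y : F) (hy : y ∈ R), res ⟨g • y, hRO (hR.smul_mem y hy)⟩ = res ⟨y, hRO hy⟩)
    {P : Place K F} {Q : Place (ResidueField A) Ft} :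
    IsRedOf A (residue A) R O res hRO (g • P) Q ↔ IsRedOf A (residue A) R O res hRO P Q := by
  have hres' : ∀ (y : F) (hy : y ∈ R),
      res ⟨g⁻¹ • y, hRO (hR.inv_smul_mem y hy)⟩ = res ⟨y, hRO hy⟩ := by
    intro y hy
    have h1 := hres (g⁻¹ • y) (hR.inv_smul_mem y hy)
    rw [← h1]
    congr 1
    exact Subtype.ext (smul_inv_smul g y)
  refine ⟨fun h => ?_, isRedOf_smul_of_stable hg hR hres'⟩
  have hres'' : ∀ (y : F) (hy : y ∈ R),
      res ⟨g⁻¹⁻¹ • y, hRO (hR.inv.inv_smul_mem y hy)⟩ = res ⟨y, hRO hy⟩ := by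
    intro y hy
    have h1 := hres y hy
    rw [← h1]
    congr 1
  have := isRedOf_smul_of_stable hg.inv hR.inv hres'' h
  rwa [inv_smul_smul] at this

/-! ### the relation `Red` and the reduction map -/

variable {D : ChartData A (residue A) Ft F}

/-- An inertia-like automorphism stabilising both charts, with invariant residue maps, preserves
the relation `Red`. -/
theorem red_smul_iff_of_stable (hg : InertiaLike A g) (hfin : StableUnder g D.Rfin)
    (hinf : StableUnder g D.Rinf)
    (hresfin : ∀ v (y : F) (hy : y ∈ D.Rfin),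
      D.res v ⟨g • y, D.hfin v (hfin.smul_mem y hy)⟩ = D.res v ⟨y, D.hfin v hy⟩)
    (hresinf : ∀ v (y : F) (hy : y ∈ D.Rinf),
      D.res v ⟨g • y, D.hinf v (hinf.smul_mem y hy)⟩ = D.res v ⟨y, D.hinf v hy⟩)
    (v : Fin 2) (P : Place K F) (Q : Place (ResidueField A) Ft) :
    Red D v (g • P) Q ↔ Red D v P Q := by
  unfold Red
  rw [isRedOf_smul_iff_of_stable hg hfin (hresfin v),
    isRedOf_smul_iff_of_stable hg hinf (hresinf v), integralAt_smul_iff_of_stable hg hfin]

/-- **(h2)** for stable charts: `r (g • P) = r P` for every place `P`. -/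
theorem r_smul_of_stable {ν : Type*} {z₁ z₂ : ν → Place (ResidueField A) Ft}
    (H : ChartHyp D z₁ z₂) (hg : InertiaLike A g) (hfin : StableUnder g D.Rfin)
    (hinf : StableUnder g D.Rinf)
    (hresfin : ∀ v (y : F) (hy : y ∈ D.Rfin),
      D.res v ⟨g • y, D.hfin v (hfin.smul_mem y hy)⟩ = D.res v ⟨y, D.hfin v hy⟩)
    (hresinf : ∀ v (y : F) (hy : y ∈ D.Rinf),
      D.res v ⟨g • y, D.hinf v (hinf.smul_mem y hy)⟩ = D.res v ⟨y, D.hinf v hy⟩)
    (P : Place K F) : (redRel H).r (g • P) = (redRel H).r P :=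
  (redRel H).r_smul g (fun v P Q => red_smul_iff_of_stable hg hfin hinf hresfin hresinf v P Q) P

end Fermat.Agent.BR.S0.RedModular
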