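import Mathlib
import Fermat.Agent.BR.Circle.Chart
import Fermat.Agent.BR.CentreOrd

/-!
# Program B (BADRED), node B7.5 (C7): separation of two crossings by a function of a chart

`Circle.Separated S₀ e e'` (the producer obligation of `Circle/Chart.lean`, which makes the rings
of the circles of two DIFFERENT crossings different) from the point dictionary: if the places of
the tubes of `e`, `e'` are integral on ONE ring of functions `R` with centres containing two
comaximal ideals `n`, `n'` (two distinct maximal ideals of an affine chart), then a function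
`f ∈ n` with `1 - f ∈ n'` (Chinese remainder theorem) has small values on the tube of `e` and
values of absolute value one on the tube of `e'`.

* `exists_separator` : the statement for two sets of places `T`, `T'`;
* `separated_of_comaximal`, `separated_of_isMaximal` : `Circle.Separated S₀ e e'`.
-/

set_option autoImplicit false

namespace Fermat.Agent.BR.S0.Sep

open AlgebraicCurve IsLocalRing Fermat.Agent.Red Fermat.Agent.BR.Centre Fermat.Agent.BR.SS
  Fermat.Agent.BR.Refine

section General

variable {K F : Type*} [Field K] [Field F] [Algebra K F] {A : ValuationSubring K}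
  {R : Subring F}

/-- Two comaximal ideals of a ring of functions are separated by a function: small on the places
centred on the first one, of absolute value one on the places centred on the second one. -/
theorem exists_separator {n n' : Ideal R} (hnn' : n ⊔ n' = ⊤) {T T' : Set (Place K F)}
    (hT : ∀ P ∈ T, ∃ h : IntegralAt A R P, n ≤ centre h)
    (hT' : ∀ P ∈ T', ∃ h : IntegralAt A R P, n' ≤ centre h) :
    ∃ f : F, (∀ P ∈ T, ∃ d : K, IsValueAt P f d ∧ A.valuation d < 1) ∧
      (∀ P ∈ T', ∃ d : K, IsValueAt P f d ∧ A.valuation d = 1) := by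
  have h1 : (1 : R) ∈ n ⊔ n' := by
    rw [hnn']
    exact Submodule.mem_top
  obtain ⟨f, hf, g, hg, hfg⟩ := Submodule.mem_sup.1 h1
  refine ⟨(f : F), fun P hP => ?_, fun P hP => ?_⟩
  · obtain ⟨h, hn⟩ := hT P hP
    exact ⟨evalAt P (f : F), h.isValueAt_evalAt f.2, (mem_centre_iff h f).1 (hn hf)⟩
  · obtain ⟨h, hn⟩ := hT' P hP
    refine ⟨evalAt P (f : F), h.isValueAt_evalAt f.2, ?_⟩
    have hg1 : A.valuation (evalAt P (g : F)) < 1 := (mem_centre_iff h g).1 (hn hg)
    have hsum : evalAt P (f : F) + evalAt P (g : F) = 1 := by
      have h2 : IsValueAt P (((f + g : R) : R) : F) (evalAt P (f : F) + evalAt P (g : F)) := by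
        rw [Subring.coe_add]
        exact (h.isValueAt_evalAt f.2).add (h.isValueAt_evalAt g.2)
      rw [hfg, Subring.coe_one] at h2
      exact h2.unique (isValueAt_one P)
    have hf1 : evalAt P (f : F) = 1 - evalAt P (g : F) := by
      rw [← hsum]
      ring
    rw [hf1]
    have h3 : A.valuation (1 - evalAt P (g : F)) = A.valuation (1 : K) := by
      rw [sub_eq_add_neg]
      apply Valuation.map_add_eq_of_lt_left
      rw [Valuation.map_neg, map_one]
      exact hg1
    rw [h3, map_one]

end General

variable {K : Type} {F : Type*} [Field K] [Field F] [Algebra K F]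
  {A : ValuationSubring K} [IsAlgClosed (ResidueField A)]
  {ι₀ : Type} {Ft₀ : ι₀ → Type} [∀ v, Field (Ft₀ v)] [∀ v, Algebra (ResidueField A) (Ft₀ v)]
  {ν₀ : Type} {R : Subring F}

omit [IsAlgClosed (ResidueField A)] in
/-- **Separation of two crossings** whose tubes are centred on two comaximal ideals of one ring
of functions. -/
theorem separated_of_comaximal (S₀ : SemistableSetup (F := F) A (residue A) ι₀ Ft₀ ν₀)
    (e e' : ν₀) {n n' : Ideal R} (hnn' : n ⊔ n' = ⊤)
    (hT : ∀ P ∈ tube S₀ e, ∃ h : IntegralAt A R P, n ≤ centre h)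
    (hT' : ∀ P ∈ tube S₀ e', ∃ h : IntegralAt A R P, n' ≤ centre h) :
    Fermat.Agent.BR.Circle.Separated S₀ e e' :=
  exists_separator hnn' hT hT'

omit [IsAlgClosed (ResidueField A)] in
/-- **Separation of two crossings** whose tubes are centred on two distinct maximal ideals of one
ring of functions. -/
theorem separated_of_isMaximal (S₀ : SemistableSetup (F := F) A (residue A) ι₀ Ft₀ ν₀)
    (e e' : ν₀) {n n' : Ideal R} (hn : n.IsMaximal) (hn' : n'.IsMaximal) (hne : n ≠ n')
    (hT : ∀ P ∈ tube S₀ e, ∃ h : IntegralAt A R P, n ≤ centre h)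
    (hT' : ∀ P ∈ tube S₀ e', ∃ h : IntegralAt A R P, n' ≤ centre h) :
    Fermat.Agent.BR.Circle.Separated S₀ e e' :=
  separated_of_comaximal S₀ e e' (Ideal.IsMaximal.coprime_of_ne hn hn' hne) hT hT'

end Fermat.Agent.BR.S0.Sep
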