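/-
Program B (bad reduction), node B6.6 TUBE DICTIONARY (helper26).

`F / K` a function field, `A ⊆ K` a valuation ring, `D : RedModular.ChartData A π Ft F` the two
components `(D.O v, D.res v)` with the two charts `D.Rfin`, `D.Rinf` (for `X₀(qM)`: the images of
the `ℤ_(q)`-charts, which lie BELOW every level), `H : PointDict.AtlasHyp D x`, tubes
`{P | H.r P = ⟨v, Q⟩}` (helper12's `PointDict`).  A LEVEL is a ring `C ⊇ D.Rfin` (resp. `D.Rinf`)
contained in both component rings (the normal model over `W' = A ∩ K'`, helper27's `CS base S`);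
`p = {x ∈ C | res_v x vanishes at Q}` is the point of `C` below `(v, Q)` and `locSub C p ⊆ F` the
local ring of the level at the point (`BR/Inst/LocSub`).  The tube is read at EVERY level:

  `H.r P = ⟨v, Q⟩  ↔  IsRedOf … C … P Q  ↔  (P integral on C with centre p)  ↔  CentredAt A (locSub C p) P`.

* Part A : localisation. `centredAt_iff_of_frac`, `centredAt_locSub_iff` : `P` is centred at the
  localisation of `C` at `p` iff `P` is integral on `C` with centre `p`.
* Part B : transfer of the relational reduction between two rings `S ≤ B` of functions: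
  `isRedOf_mono` (big ⇒ small), `isRedOf_zero_of_le` / `isRedOf_one_of_le` (small ⇒ big: needs
  totality on `B`, separation on `S`, and that a crossing of `S` through the point is a crossing of
  `B` — NOT formal: a crossing could a priori separate in the bigger ring), `separates_of_surj`,
  `gluedOn_of_zero` (crossings persist, from a function vanishing on the component `1` only, all
  of whose zeros on the component `0` are crossings of `B`: the modular unit + `BR/S0/Thick`).
* Part C : `LevelAbove D R₀ C`; the tubes of `PointDict` read at the level: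
  `r_eq_zero_iff_level`, `r_eq_z₁_iff_level`, `r_eq_one_iff_level` (finite chart),
  `r_eq_zero_iff_level_inf`, `r_eq_one_iff_level_inf` (cusps).
* Part D : `PointHyp`; centre form, local form (`isRedOf_iff_centredAt`), and the consumer shapes
  `tube_centred`, `tube_of_centred` (`SmoothModel`, `CrossingModel`), `mem_tube_iff_centredAt`,
  `centred` (`NodeLevel.centred`, `SmoothLevel.centred`), `mem_tube_of_centredAt` (`hT`),
  `integral` (`Cover.NodeLevel.integral`), `regular` (`NodeLevels.regular`); at a crossing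
  `regular_of_gluedOn`, `same_point_of_gluedOn` (`CrossingModel.regular₁/₂`, `same_point`).
-/
import Mathlib
import Fermat.Agent.BR.S0.PointDict
import Fermat.Agent.BR.S0.SmoothTube
import Fermat.Agent.BR.Inst.LocSub

set_option autoImplicit false

namespace Fermat.Agent.BR.S0.TubeDict

open AlgebraicCurve Fermat.Agent.Red Fermat.Agent.Val Fermat.Agent.BR.Centre
  Fermat.Agent.BR.Inst.LocSub Fermat.Agent.BR.S0.PointDict Fermat.Agent.BR.S0.RedModular

variable {K F k Ft : Type*} [Field K] [Field F] [Algebra K F] [Field k] [Field Ft] [Algebra k Ft]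

/-! ### Part A: the centre on a ring and on its localisation -/

section Loc

variable {A : ValuationSubring K} {C : Subring F} {p : Ideal C} {P : Place K F}

/-- The value at `P` of a function outside the centre is a unit of `A`. -/
theorem valuation_evalAt_eq_one (h : IntegralAt A C P) {b : C} (hb : b ∉ centre h) :
    A.valuation (evalAt P (b : F)) = 1 := by
  rw [mem_centre_iff, not_lt] at hb
  exact le_antisymm ((A.valuation_le_one_iff _).mpr (h.evalAt_mem b.2)) hb

/-- A quotient `a / b` of functions of `C` with `b` outside the centre of `P` has an integral value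
at `P`, of valuation `|a(P)|`. -/
theorem exists_isValueAt_of_frac (h : IntegralAt A C P) {x : F} {a b : C} (hb : b ∉ centre h)
    (hab : x * (b : F) = (a : F)) :
    ∃ c : K, c ∈ A ∧ IsValueAt P x c ∧ A.valuation c = A.valuation (evalAt P (a : F)) := by
  have hb1 := valuation_evalAt_eq_one h hb
  have hb0 : evalAt P (b : F) ≠ 0 := by
    intro h0
    rw [h0, map_zero] at hb1
    exact zero_ne_one hb1
  have hbF : (b : F) ≠ 0 := by
    intro h0
    apply hb0
    rw [h0]
    exact evalAt_eq_of_isValueAt (isValueAt_zero P)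
  have hbi : IsValueAt P ((b : F))⁻¹ (evalAt P (b : F))⁻¹ :=
    IsValueAt.inv (h.isValueAt_evalAt b.2) hb0
  have hx : x = (a : F) * ((b : F))⁻¹ := by
    rw [← hab, mul_assoc, mul_inv_cancel₀ hbF, mul_one]
  have hval : IsValueAt P x (evalAt P (a : F) * (evalAt P (b : F))⁻¹) := by
    rw [hx]
    exact (h.isValueAt_evalAt a.2).mul hbi
  have hv : A.valuation (evalAt P (a : F) * (evalAt P (b : F))⁻¹) =
      A.valuation (evalAt P (a : F)) := by
    rw [map_mul, map_inv₀, hb1, inv_one, mul_one]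
  refine ⟨_, ?_, hval, hv⟩
  rw [← A.valuation_le_one_iff, hv]
  exact (A.valuation_le_one_iff _).mpr (h.evalAt_mem a.2)

/-- **Localisation, (⇐).** Let `R'` be a ring of quotients `a / b`, `a b ∈ C`, `b ∉ p`, whose
non-units are the quotients with `a ∈ p`. A place integral on `C` with centre `p` is centred at
`R'`. -/
theorem centredAt_of_frac {R' : Subring F}
    (hmem : ∀ x ∈ R', ∃ a b : C, b ∉ p ∧ x * (b : F) = (a : F))
    (hnu : ∀ x : R', ¬ IsUnit x → ∃ a b : C, a ∈ p ∧ b ∉ p ∧ (x : F) * (b : F) = (a : F))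
    (h : IntegralAt A C P) (hc : ∀ x : C, x ∈ centre h ↔ x ∈ p) : CentredAt A R' P := by
  have hint : IntegralAt A R' P := by
    intro x hx
    obtain ⟨a, b, hb, hab⟩ := hmem x hx
    obtain ⟨c, hcA, hcv, -⟩ := exists_isValueAt_of_frac h (fun hb' => hb ((hc b).mp hb')) hab
    exact ⟨c, hcA, hcv⟩
  refine ⟨hint, fun x hx => ?_⟩
  obtain ⟨a, b, ha, hb, hab⟩ := hnu x hx
  obtain ⟨c, -, hcv, hval⟩ := exists_isValueAt_of_frac h (fun hb' => hb ((hc b).mp hb')) hab
  rw [mem_centre_iff, evalAt_eq_of_isValueAt hcv, hval, ← mem_centre_iff h a]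
  exact (hc a).mpr ha

/-- **Localisation, (⇒).** If the functions of `C` outside `p` are units of `R' ⊇ C` and those of
`p` are non-units, a place centred at `R'` is integral on `C` with centre `p`. -/
theorem exists_centre_of_centredAt {R' : Subring F} (hle : C ≤ R')
    (hunit : ∀ b : C, IsUnit (⟨(b : F), hle b.2⟩ : R') ↔ b ∉ p) (h' : CentredAt A R' P) :
    ∃ h : IntegralAt A C P, ∀ x : C, x ∈ centre h ↔ x ∈ p := by
  obtain ⟨hint, hcen⟩ := h'
  refine ⟨hint.mono hle, fun x => ?_⟩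
  have e : x ∈ centre (hint.mono hle) ↔ (⟨(x : F), hle x.2⟩ : R') ∈ centre hint := by
    rw [mem_centre_iff, mem_centre_iff]
  rw [e]
  constructor
  · intro hx
    by_contra hxp
    exact hint.not_mem_centre_of_isUnit ((hunit x).mpr hxp) hx
  · intro hx
    exact hcen _ (fun hu => (hunit x).mp hu hx)

/-- **Localisation.** `P` is centred at `R' = C_p` iff it is integral on `C` with centre `p`. -/
theorem centredAt_iff_of_frac {R' : Subring F} (hle : C ≤ R')
    (hmem : ∀ x ∈ R', ∃ a b : C, b ∉ p ∧ x * (b : F) = (a : F))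
    (hnu : ∀ x : R', ¬ IsUnit x → ∃ a b : C, a ∈ p ∧ b ∉ p ∧ (x : F) * (b : F) = (a : F))
    (hunit : ∀ b : C, IsUnit (⟨(b : F), hle b.2⟩ : R') ↔ b ∉ p) :
    CentredAt A R' P ↔ ∃ h : IntegralAt A C P, ∀ x : C, x ∈ centre h ↔ x ∈ p :=
  ⟨exists_centre_of_centredAt hle hunit, fun ⟨h, hc⟩ => centredAt_of_frac hmem hnu h hc⟩

/-- **Localisation**, for `locSub C p` of `BR/Inst/LocSub`. -/
theorem centredAt_locSub_iff [p.IsPrime] :
    CentredAt A (locSub C p) P ↔ ∃ h : IntegralAt A C P, ∀ x : C, x ∈ centre h ↔ x ∈ p := by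
  refine centredAt_iff_of_frac (le_locSub C p) (fun _ hx => mem_locSub_iff.mp hx)
    (fun x hx => ?_) (fun b => isUnit_coe_iff b)
  obtain ⟨a, b, hb, hab⟩ := mem_locSub_iff.mp x.2
  exact ⟨a, b, num_mem_of_not_isUnit x.2 hx hb hab, hb, hab⟩

end Loc

/-! ### Part B: transfer of the relational reduction between two rings of functions -/

section Transfer

variable {A : ValuationSubring K} {π : A →+* k} {P : Place K F} {Q : Place k Ft}

/-- **Big ⇒ small**: the relational reduction restricts to a smaller ring of functions. -/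
theorem isRedOf_mono {B S : Subring F} (hSB : S ≤ B) {O : ValuationSubring F} {res : O →+* Ft}
    {hBO : B ≤ O.toSubring} (h : IsRedOf A π B O res hBO P Q) :
    IsRedOf A π S O res (hSB.trans hBO) P Q :=
  ⟨h.integralAt.mono hSB, fun _ hy => h.isValueAt (hSB hy)⟩

/-- Gluing restricts to a smaller ring of functions. -/
theorem gluedOn_mono {B S : Subring F} (hSB : S ≤ B) {O₀ O₁ : ValuationSubring F}
    {res₀ : O₀ →+* Ft} {res₁ : O₁ →+* Ft} {h₀ : B ≤ O₀.toSubring} {h₁ : B ≤ O₁.toSubring}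
    {Q₁ Q₂ : Place k Ft} (hg : GluedOn (k := k) res₀ res₁ B h₀ h₁ Q₁ Q₂) :
    GluedOn (k := k) res₀ res₁ S (hSB.trans h₀) (hSB.trans h₁) Q₁ Q₂ :=
  fun y hy => hg y (hSB hy)

/-- If the small ring has the same residues as the big one, its residues separate the places as
soon as those of the big one do. -/
theorem separates_of_surj {B S : Subring F} (hSB : S ≤ B) {O : ValuationSubring F}
    {res : O →+* Ft} {hBO : B ≤ O.toSubring}
    (hsurj : ∀ (y : F) (hy : y ∈ B), ∃ (x : F) (hx : x ∈ S),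
      res ⟨y, hBO hy⟩ = res ⟨x, hBO (hSB hx)⟩)
    (hsep : Separates (k := k) B O res hBO) : Separates (k := k) S O res (hSB.trans hBO) := by
  intro Q₁ Q₂ hval
  apply hsep
  intro y hy
  obtain ⟨x, hx, e⟩ := hsurj y hy
  rw [e]
  exact hval x hx

/-- The residues of a bigger ring separate the places as soon as those of a smaller one do. -/
theorem separates_of_le {B S : Subring F} (hSB : S ≤ B) {O : ValuationSubring F}
    {res : O →+* Ft} {hBO : B ≤ O.toSubring}
    (hsep : Separates (k := k) S O res (hSB.trans hBO)) : Separates (k := k) B O res hBO :=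
  fun Q₁ Q₂ hval => hsep Q₁ Q₂ fun y hy => hval y (hSB hy)

variable {B S : Subring F} {O₀ O₁ : ValuationSubring F} {res₀ : O₀ →+* Ft} {res₁ : O₁ →+* Ft}
  {h₀ : B ≤ O₀.toSubring} {h₁ : B ≤ O₁.toSubring}

/-- A place of degree one integral on `S` is integral on `B`, if `B` is integral over `S`. -/
theorem integralAt_of_isIntegral (hdeg : P.deg = 1) (hint : ∀ y ∈ B, IsIntegral S y)
    (h : IntegralAt A S P) : IntegralAt A B P :=
  fun y hy => h.of_isIntegral hdeg (hint y hy)

/-- **Small ⇒ big, component `0`.** `S ≤ B` two rings of functions; a place integral on `S` is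
integral on `B`; every place integral on `B` has a reduction tested on `B`; the residues of `S`
separate the places of the component `0`; every crossing of `S` through `Q` is a crossing of `B`.
Then a reduction tested on `S` is a reduction tested on `B`. -/
theorem isRedOf_zero_of_le (hSB : S ≤ B) (hint : IntegralAt A S P → IntegralAt A B P)
    (total : IntegralAt A B P →
      (∃ Q₁, IsRedOf A π B O₀ res₀ h₀ P Q₁) ∨ ∃ Q₂, IsRedOf A π B O₁ res₁ h₁ P Q₂)
    (sep : Separates (k := k) S O₀ res₀ (hSB.trans h₀))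
    (glue : ∀ Q₂, GluedOn (k := k) res₀ res₁ S (hSB.trans h₀) (hSB.trans h₁) Q Q₂ →
      GluedOn (k := k) res₀ res₁ B h₀ h₁ Q Q₂)
    (h : IsRedOf A π S O₀ res₀ (hSB.trans h₀) P Q) : IsRedOf A π B O₀ res₀ h₀ P Q := by
  rcases total (hint h.integralAt) with ⟨Q₁, h'⟩ | ⟨Q₂, h'⟩
  · have e : Q = Q₁ := isRedOf_unique sep h (isRedOf_mono hSB h')
    rw [e]
    exact h'
  · exact (glue Q₂ (gluedOn_of_isRedOf h (isRedOf_mono hSB h'))).isRedOf_zero h'

/-- **Small ⇒ big, component `1`.** -/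
theorem isRedOf_one_of_le (hSB : S ≤ B) (hint : IntegralAt A S P → IntegralAt A B P)
    (total : IntegralAt A B P →
      (∃ Q₁, IsRedOf A π B O₀ res₀ h₀ P Q₁) ∨ ∃ Q₂, IsRedOf A π B O₁ res₁ h₁ P Q₂)
    (sep : Separates (k := k) S O₁ res₁ (hSB.trans h₁))
    (glue : ∀ Q₁, GluedOn (k := k) res₀ res₁ S (hSB.trans h₀) (hSB.trans h₁) Q₁ Q →
      GluedOn (k := k) res₀ res₁ B h₀ h₁ Q₁ Q)
    (h : IsRedOf A π S O₁ res₁ (hSB.trans h₁) P Q) : IsRedOf A π B O₁ res₁ h₁ P Q := by
  rcases total (hint h.integralAt) with ⟨Q₁, h'⟩ | ⟨Q₂, h'⟩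
  · exact (glue Q₁ (gluedOn_of_isRedOf (isRedOf_mono hSB h') h)).isRedOf_one h'
  · have e : Q = Q₂ := isRedOf_unique sep h (isRedOf_mono hSB h')
    rw [e]
    exact h'

/-- **Crossings persist**: a crossing of the small ring `S` is a crossing of the big ring `B`,
given a function `t ∈ S` vanishing identically on the component `1` (the modular unit) all of
whose zeros on the component `0` are crossings of `B` (`BR/S0/Thick`: `zero_imp_crossing` +
`exists_glued` at the level `B`). -/
theorem gluedOn_of_zero (hSB : S ≤ B) {t : F} (ht : t ∈ S)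
    (ht1 : res₁ ⟨t, h₁ (hSB ht)⟩ = 0)
    (hzero : ∀ Q₁ : Place k Ft, IsValueAt Q₁ (res₀ ⟨t, h₀ (hSB ht)⟩) 0 →
      ∃ Q₂, GluedOn (k := k) res₀ res₁ B h₀ h₁ Q₁ Q₂)
    (sep : Separates (k := k) S O₁ res₁ (hSB.trans h₁)) {Q₁ Q₂ : Place k Ft}
    (hg : GluedOn (k := k) res₀ res₁ S (hSB.trans h₀) (hSB.trans h₁) Q₁ Q₂) :
    GluedOn (k := k) res₀ res₁ B h₀ h₁ Q₁ Q₂ := by
  obtain ⟨c, hc₁, hc₂⟩ := hg t ht
  rw [ht1] at hc₂
  have hc0 : c = 0 := hc₂.unique (isValueAt_zero _)
  rw [hc0] at hc₁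
  obtain ⟨Q₂', hg'⟩ := hzero Q₁ hc₁
  have e : Q₂ = Q₂' := GluedOn.snd_unique sep hg (gluedOn_mono hSB hg')
  rw [e]
  exact hg'

/-- At a glued pair the residues are regular at both points. -/
theorem regular_of_gluedOn {Q₁ Q₂ : Place k Ft}
    (hg : GluedOn (k := k) res₀ res₁ B h₀ h₁ Q₁ Q₂) (y : B) :
    Q₁.adicValuation (res₀ ⟨y, h₀ y.2⟩) ≤ 1 ∧ Q₂.adicValuation (res₁ ⟨y, h₁ y.2⟩) ≤ 1 := by
  obtain ⟨c, hc₁, hc₂⟩ := hg y y.2
  exact ⟨hc₁.adicValuation_le_one, hc₂.adicValuation_le_one⟩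

/-- At a glued pair the two points are the same point of the ring: a function vanishes at the
first one iff it vanishes at the second one (`CrossingModel.same_point`). -/
theorem same_point_of_gluedOn {Q₁ Q₂ : Place k Ft}
    (hg : GluedOn (k := k) res₀ res₁ B h₀ h₁ Q₁ Q₂) (y : B) :
    Q₁.adicValuation (res₀ ⟨y, h₀ y.2⟩) < 1 ↔ Q₂.adicValuation (res₁ ⟨y, h₁ y.2⟩) < 1 := by
  obtain ⟨c, hc₁, hc₂⟩ := hg y y.2
  rw [← isValueAt_zero_iff, ← isValueAt_zero_iff]
  constructor
  · intro h
    rw [hc₁.unique h] at hc₂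
    exact hc₂
  · intro h
    rw [hc₂.unique h] at hc₁
    exact hc₁

end Transfer

/-! ### Part C: the tubes of `PointDict`, read at a level above the chart -/

section Atlas

variable {A : ValuationSubring K} {π : A →+* k}

theorem fin_two_cases (v : Fin 2) : v = 0 ∨ v = 1 := by
  fin_cases v
  · exact Or.inl rfl
  · exact Or.inr rfl

/-- A level `C` above the chart `R₀` (`R₀ = D.Rfin` or `D.Rinf`) of the chart data `D`: a ring of
functions `R₀ ≤ C` contained in both component rings, such that a place integral on the chart is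
integral on the level (`C` is integral over the ring generated by `R₀` and constants of `A`) and
every place integral on the level has a reduction tested on the level (the special fibre of the
level is the union of the two components). -/
structure LevelAbove (D : ChartData A π Ft F) (R₀ C : Subring F) : Prop where
  le : R₀ ≤ C
  leO : ∀ v, C ≤ (D.O v).toSubring
  integral : ∀ P : Place K F, IntegralAt A R₀ P → IntegralAt A C P
  total : ∀ P : Place K F, IntegralAt A C P →
    ∃ (v : Fin 2) (Q' : Place k Ft), IsRedOf A π C (D.O v) (D.res v) (leO v) P Q'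

namespace LevelAbove

variable {D : ChartData A π Ft F} {R₀ C : Subring F} (L : LevelAbove D R₀ C)
  {P : Place K F} {Q : Place k Ft}

theorem total' (P : Place K F) (hP : IntegralAt A C P) :
    (∃ Q₁, IsRedOf A π C (D.O 0) (D.res 0) (L.leO 0) P Q₁) ∨
      ∃ Q₂, IsRedOf A π C (D.O 1) (D.res 1) (L.leO 1) P Q₂ := by
  obtain ⟨v, Q', h'⟩ := L.total P hP
  rcases fin_two_cases v with rfl | rfl
  · exact Or.inl ⟨Q', h'⟩
  · exact Or.inr ⟨Q', h'⟩

/-- **Chart ⇔ level, component `0`**: if the residues of the chart separate the places and every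
crossing of the chart through `Q` is a crossing of the level. -/
theorem isRedOf_zero_iff
    (sep : Separates (k := k) R₀ (D.O 0) (D.res 0) (L.le.trans (L.leO 0)))
    (glue : ∀ Q₂, GluedOn (k := k) (D.res 0) (D.res 1) R₀ (L.le.trans (L.leO 0))
      (L.le.trans (L.leO 1)) Q Q₂ →
      GluedOn (k := k) (D.res 0) (D.res 1) C (L.leO 0) (L.leO 1) Q Q₂) :
    IsRedOf A π R₀ (D.O 0) (D.res 0) (L.le.trans (L.leO 0)) P Q ↔
      IsRedOf A π C (D.O 0) (D.res 0) (L.leO 0) P Q :=
  ⟨isRedOf_zero_of_le L.le (L.integral P) (L.total' P) sep glue, isRedOf_mono L.le⟩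

/-- **Chart ⇔ level, component `1`.** -/
theorem isRedOf_one_iff
    (sep : Separates (k := k) R₀ (D.O 1) (D.res 1) (L.le.trans (L.leO 1)))
    (glue : ∀ Q₁, GluedOn (k := k) (D.res 0) (D.res 1) R₀ (L.le.trans (L.leO 0))
      (L.le.trans (L.leO 1)) Q₁ Q →
      GluedOn (k := k) (D.res 0) (D.res 1) C (L.leO 0) (L.leO 1) Q₁ Q) :
    IsRedOf A π R₀ (D.O 1) (D.res 1) (L.le.trans (L.leO 1)) P Q ↔
      IsRedOf A π C (D.O 1) (D.res 1) (L.leO 1) P Q :=
  ⟨isRedOf_one_of_le L.le (L.integral P) (L.total' P) sep glue, isRedOf_mono L.le⟩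

end LevelAbove

/-! #### the finite chart -/

section Fin

variable {D : ChartData A π Ft F} {x : F} (H : AtlasHyp D x) {C : Subring F}
  (L : LevelAbove D D.Rfin C) {P : Place K F} {Q : Place k Ft}

include H

/-- **Tube of a finite point of the component `0`** (crossing or not), read at the level `C`:
`glue` asks that the crossings of the chart through `Q` persist at the level (vacuous if `Q` is
not a crossing). -/
theorem r_eq_zero_iff_level {c : k} (hx : IsValueAt Q (D.res 0 ⟨x, D.hfin 0 H.x_mem⟩) c)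
    (glue : ∀ Q₂, GluedF D Q Q₂ →
      GluedOn (k := k) (D.res 0) (D.res 1) C (L.leO 0) (L.leO 1) Q Q₂) :
    H.r P = ⟨0, Q⟩ ↔ IsRedOf A π C (D.O 0) (D.res 0) (L.leO 0) P Q := by
  rw [H.r_eq_zero_iff, H.red_iff_fin hx]
  exact L.isRedOf_zero_iff (H.sep_f 0) glue

/-- **Tube of a point of the component `0` which is not a crossing**, read at the level. -/
theorem r_eq_zero_iff_level_of_not_crossing {c : k}
    (hx : IsValueAt Q (D.res 0 ⟨x, D.hfin 0 H.x_mem⟩) c) (hQ : ∀ e, Q ≠ z₁ D e) :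
    H.r P = ⟨0, Q⟩ ↔ IsRedOf A π C (D.O 0) (D.res 0) (L.leO 0) P Q :=
  r_eq_zero_iff_level H L hx fun Q₂ hg => absurd rfl (hQ ⟨(Q, Q₂), hg⟩)

/-- **Tube of a crossing**, read at a level at which the crossing persists. -/
theorem r_eq_z₁_iff_level (e : Crossing D)
    (hg : GluedOn (k := k) (D.res 0) (D.res 1) C (L.leO 0) (L.leO 1) (z₁ D e) (z₂ D e)) :
    H.r P = ⟨0, z₁ D e⟩ ↔ IsRedOf A π C (D.O 0) (D.res 0) (L.leO 0) P (z₁ D e) := by
  obtain ⟨c, hc, -⟩ := glued D e x H.x_mem
  refine r_eq_zero_iff_level H L hc fun Q₂ hg₂ => ?_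
  have e₂ : z₂ D e = Q₂ := GluedOn.snd_unique (H.sep_f 1) (glued D e) hg₂
  rw [← e₂]
  exact hg

/-- The same tube, read on the component `1`. -/
theorem r_eq_z₁_iff_level' (e : Crossing D)
    (hg : GluedOn (k := k) (D.res 0) (D.res 1) C (L.leO 0) (L.leO 1) (z₁ D e) (z₂ D e)) :
    H.r P = ⟨0, z₁ D e⟩ ↔ IsRedOf A π C (D.O 1) (D.res 1) (L.leO 1) P (z₂ D e) := by
  rw [r_eq_z₁_iff_level H L e hg]
  exact ⟨hg.isRedOf_one, hg.isRedOf_zero⟩

/-- **Tube of a finite point of the component `1` which is not a crossing**, read at the level. -/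
theorem r_eq_one_iff_level {c : k} (hx : IsValueAt Q (D.res 1 ⟨x, D.hfin 1 H.x_mem⟩) c)
    (hQ : ∀ e, Q ≠ z₂ D e) :
    H.r P = ⟨1, Q⟩ ↔ IsRedOf A π C (D.O 1) (D.res 1) (L.leO 1) P Q := by
  rw [H.r_eq_one_iff_of_not_crossing hQ, H.red_iff_fin hx]
  exact L.isRedOf_one_iff (H.sep_f 1) fun Q₁ hg => absurd rfl (hQ ⟨(Q₁, Q), hg⟩)

/-- **Crossings persist at the level**, from the modular unit: `t` a function of the chart
vanishing identically on the component `1`, all of whose zeros on the component `0` are crossings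
of the level. -/
theorem gluedOn_level_of_zero {t : F} (ht : t ∈ D.Rfin)
    (ht1 : D.res 1 ⟨t, D.hfin 1 ht⟩ = 0)
    (hzero : ∀ Q₁ : Place k Ft, IsValueAt Q₁ (D.res 0 ⟨t, D.hfin 0 ht⟩) 0 →
      ∃ Q₂, GluedOn (k := k) (D.res 0) (D.res 1) C (L.leO 0) (L.leO 1) Q₁ Q₂)
    (e : Crossing D) :
    GluedOn (k := k) (D.res 0) (D.res 1) C (L.leO 0) (L.leO 1) (z₁ D e) (z₂ D e) :=
  gluedOn_of_zero (B := C) (S := D.Rfin) (res₀ := D.res 0) (res₁ := D.res 1) (h₀ := L.leO 0)
    (h₁ := L.leO 1) L.le ht ht1 hzero (H.sep_f 1) (glued D e)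

end Fin

/-! #### the chart at infinity -/

section Inf

variable {D : ChartData A π Ft F} {x : F} (H : AtlasHyp D x) {C : Subring F}
  (L : LevelAbove D D.Rinf C) {P : Place K F} {Q : Place k Ft}

include H

/-- **Tube of a cusp of the component `0`** (a zero of the residue of `1/x`), read at a level of
the chart at infinity. -/
theorem r_eq_zero_iff_level_inf (hi : IsValueAt Q (D.res 0 ⟨x⁻¹, D.hinf 0 H.inv_mem⟩) 0) :
    H.r P = ⟨0, Q⟩ ↔ IsRedOf A π C (D.O 0) (D.res 0) (L.leO 0) P Q := by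
  rw [H.r_eq_zero_iff, H.red_iff_inf hi]
  exact L.isRedOf_zero_iff (H.sep_i 0) fun Q₂ hg => absurd hi (H.no_cross_inf Q Q₂ hg)

/-- A zero of the residue of `1/x` on the component `1` is not a crossing. -/
theorem ne_z₂_of_inv_zero (hi : IsValueAt Q (D.res 1 ⟨x⁻¹, D.hinf 1 H.inv_mem⟩) 0)
    (e : Crossing D) : Q ≠ z₂ D e := by
  rintro rfl
  obtain ⟨c, -, hc⟩ := glued D e x H.x_mem
  exact H.not_isValueAt_inv_zero hc hi

/-- **Tube of a cusp of the component `1`**, read at a level of the chart at infinity. -/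
theorem r_eq_one_iff_level_inf (hi : IsValueAt Q (D.res 1 ⟨x⁻¹, D.hinf 1 H.inv_mem⟩) 0) :
    H.r P = ⟨1, Q⟩ ↔ IsRedOf A π C (D.O 1) (D.res 1) (L.leO 1) P Q := by
  rw [H.r_eq_one_iff_of_not_crossing (ne_z₂_of_inv_zero H hi), H.red_iff_inf hi]
  refine L.isRedOf_one_iff (H.sep_i 1) fun Q₁ hg => ?_
  exfalso
  obtain ⟨c, hc₁, hc₂⟩ := hg x⁻¹ H.inv_mem
  have hc0 : c = 0 := hc₂.unique hi
  rw [hc0] at hc₁
  exact H.no_cross_inf Q₁ Q hg hc₁

end Inf

end Atlas

/-! ### Part D: centre form, local form and the consumer shapes -/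

section Shapes

open Fermat.Agent.BR.S0.SmoothTube

variable {A : ValuationSubring K} {π : A →+* k} {C : Subring F} {O : ValuationSubring F}
  {res : O →+* Ft}

/-- The standing hypotheses on a level `C ⊆ O` at a point `Q` of the component `(O, res)` (in the
shapes of `BR/S0/SmoothTube`): `π` kills the maximal ideal of `A`, the residues of constants are
constants, and the residue field of `C` at `Q` is full (the values at `Q` are residues of
constants of `C`; NOT `A ⊆ C`). -/
structure PointHyp (A : ValuationSubring K) (π : A →+* k) (C : Subring F) (O : ValuationSubring F)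
    (res : O →+* Ft) (le : ∀ x ∈ C, x ∈ O) (Q : Place k Ft) : Prop where
  pi_zero : ∀ a : A, A.valuation (a : K) < 1 → π a = 0
  res_const : ∀ (a : K) (ha : a ∈ A) (h : algebraMap K F a ∈ O),
    res ⟨algebraMap K F a, h⟩ = algebraMap k Ft (π ⟨a, ha⟩)
  fullRes : ∀ y : C, ∃ (a : A) (_ : algebraMap K F (a : K) ∈ C),
    Q.adicValuation (res ⟨y, le y y.2⟩ - algebraMap k Ft (π a)) < 1

/-- `PointHyp` for a component given by a constant reduction. -/
theorem PointHyp.of_constRed (Cr : ConstRed (F := F) (Ft := Ft) A π) {le : ∀ x ∈ C, x ∈ Cr.O}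
    {Q : Place k Ft}
    (fullRes : ∀ y : C, ∃ (a : A) (_ : algebraMap K F (a : K) ∈ C),
      Q.adicValuation (Cr.res ⟨y, le y y.2⟩ - algebraMap k Ft (π a)) < 1) :
    PointHyp A π C Cr.O Cr.res le Q where
  pi_zero := pi_zero_of_constRed Cr
  res_const a ha h := Cr.res_algebraMap a ha h
  fullRes := fullRes

variable {le : ∀ x ∈ C, x ∈ O} {hCO : C ≤ O.toSubring} {Q : Place k Ft} {T : Set (Place K F)}

/-- **Centre form**: the reduction of `P` tested on the level is `Q` iff `P` is integral on the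
level with centre the point of `Q`. -/
theorem PointHyp.isRedOf_iff_centre (hyp : PointHyp A π C O res le Q) {P : Place K F} :
    IsRedOf A π C O res hCO P Q ↔
      ∃ h : IntegralAt A C P, ∀ x : C, x ∈ centre h ↔ Q.adicValuation (res ⟨x, le x x.2⟩) < 1 :=
  ⟨centre_iff_of_isRedOf hyp.pi_zero le,
    isRedOf_of_centre_iff hyp.pi_zero le hyp.res_const hyp.fullRes⟩

/-- **Local form**: the reduction of `P` tested on the level is `Q` iff `P` is centred at the
local ring of the level at the point of `Q`. -/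
theorem PointHyp.isRedOf_iff_centredAt (hyp : PointHyp A π C O res le Q) {p : Ideal C}
    [p.IsPrime] (hp : ∀ x : C, x ∈ p ↔ Q.adicValuation (res ⟨x, le x x.2⟩) < 1) {P : Place K F} :
    IsRedOf A π C O res hCO P Q ↔ CentredAt A (locSub C p) P := by
  rw [hyp.isRedOf_iff_centre, centredAt_locSub_iff]
  constructor
  · rintro ⟨h, hc⟩
    exact ⟨h, fun x => (hc x).trans (hp x).symm⟩
  · rintro ⟨h, hc⟩
    exact ⟨h, fun x => (hc x).trans (hp x)⟩

/-- **Local form, any realisation `R'` of the localisation** (e.g. `LocalSubring.ofPrime`,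
`SmoothModel.loc`, `CrossingModel.loc`). -/
theorem PointHyp.isRedOf_iff_centredAt_of_frac (hyp : PointHyp A π C O res le Q) {p : Ideal C}
    (hp : ∀ x : C, x ∈ p ↔ Q.adicValuation (res ⟨x, le x x.2⟩) < 1) {R' : Subring F}
    (hle : C ≤ R')
    (hmem : ∀ x ∈ R', ∃ a b : C, b ∉ p ∧ x * (b : F) = (a : F))
    (hnu : ∀ x : R', ¬ IsUnit x → ∃ a b : C, a ∈ p ∧ b ∉ p ∧ (x : F) * (b : F) = (a : F))
    (hunit : ∀ b : C, IsUnit (⟨(b : F), hle b.2⟩ : R') ↔ b ∉ p) {P : Place K F} :
    IsRedOf A π C O res hCO P Q ↔ CentredAt A R' P := by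
  rw [hyp.isRedOf_iff_centre, centredAt_iff_of_frac hle hmem hnu hunit]
  constructor
  · rintro ⟨h, hc⟩
    exact ⟨h, fun x => (hc x).trans (hp x).symm⟩
  · rintro ⟨h, hc⟩
    exact ⟨h, fun x => (hc x).trans (hp x)⟩

/-! #### the consumer shapes: `T` is the tube, `hT` the output of Part C -/

variable (hyp : PointHyp A π C O res le Q)
  (hT : ∀ P : Place K F, P ∈ T ↔ IsRedOf A π C O res hCO P Q)

include hyp hT

/-- `SmoothModel.tube_centred` (`BR/S0/SmoothModel`) / `CrossingModel.tube_centred`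
(`BR/S0/CrossingModel`), verbatim. -/
theorem tube_centred : ∀ P ∈ T, ∃ h : IntegralAt A C P,
    ∀ x : C, x ∈ centre h ↔ Q.adicValuation (res ⟨x, le x x.2⟩) < 1 :=
  fun P hP => hyp.isRedOf_iff_centre.mp ((hT P).mp hP)

/-- `SmoothModel.tube_of_centred` / `CrossingModel.tube_of_centred`, verbatim. -/
theorem tube_of_centred : ∀ P : Place K F, (∃ h : IntegralAt A C P,
    ∀ x : C, x ∈ centre h ↔ Q.adicValuation (res ⟨x, le x x.2⟩) < 1) → P ∈ T :=
  fun P h => (hT P).mpr (hyp.isRedOf_iff_centre.mpr h)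

variable {p : Ideal C} [p.IsPrime]
  (hp : ∀ x : C, x ∈ p ↔ Q.adicValuation (res ⟨x, le x x.2⟩) < 1)

include hp

/-- **The tube is the set of places centred at the local ring of the level at the point.** -/
theorem mem_tube_iff_centredAt (P : Place K F) : P ∈ T ↔ CentredAt A (locSub C p) P :=
  (hT P).trans (hyp.isRedOf_iff_centredAt hp)

/-- `NodeLevel.centred` (`BR/S0/AnnulusLevels`) / `SmoothLevel.centred` (`BR/S0/SmoothDescent`),
verbatim. -/
theorem centred : ∀ P ∈ T, CentredAt A (locSub C p) P :=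
  fun P hP => (mem_tube_iff_centredAt hyp hT hp P).mp hP

/-- `hT` of the K-point existence lemma (`PlaceLift` ⇒ `horiz` / `primes`): a place centred at the
local ring of the level lies in the tube. -/
theorem mem_tube_of_centredAt : ∀ P : Place K F, CentredAt A (locSub C p) P → P ∈ T :=
  fun P hP => (mem_tube_iff_centredAt hyp hT hp P).mpr hP

/-- `Cover.NodeLevel.integral` (`BR/Circle/Cover`), verbatim. -/
theorem integral : ∀ P ∈ T, ∀ y ∈ locSub C p, ∃ d : K, d ∈ A ∧ IsValueAt P y d :=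
  fun P hP y hy => (centred hyp hT hp P hP).1 y hy

/-- `NodeLevels.regular` (`BR/S0/NodeDescent`), verbatim. -/
theorem regular : ∀ P ∈ T, ∀ y ∈ locSub C p, y ∈ P.toValuationSubring :=
  fun P hP _ hy => (centred hyp hT hp P hP).1.mem_toValuationSubring hy

end Shapes

/-! ### Part E: end to end — the tubes of `PointDict` are the places centred at the local rings of
the levels -/

section EndToEnd

variable {A : ValuationSubring K} {π : A →+* k} {D : ChartData A π Ft F} {x : F}
  (H : AtlasHyp D x) {C : Subring F} {Q : Place k Ft}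

include H

/-- **Crossing tube**: at a level `C ⊇ D.Rfin` at which the crossing `e` persists, the tube of `e`
is the set of places centred at the local ring of `C` at the crossing point. -/
theorem crossing_tube_iff_centredAt (L : LevelAbove D D.Rfin C) (e : Crossing D)
    (hg : GluedOn (k := k) (D.res 0) (D.res 1) C (L.leO 0) (L.leO 1) (z₁ D e) (z₂ D e))
    {le : ∀ y ∈ C, y ∈ D.O 0} (hyp : PointHyp A π C (D.O 0) (D.res 0) le (z₁ D e))
    {p : Ideal C} [p.IsPrime]
    (hp : ∀ y : C, y ∈ p ↔ (z₁ D e).adicValuation (D.res 0 ⟨y, le y y.2⟩) < 1)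
    (P : Place K F) : H.r P = ⟨0, z₁ D e⟩ ↔ CentredAt A (locSub C p) P :=
  (r_eq_z₁_iff_level H L e hg).trans (hyp.isRedOf_iff_centredAt hp)

/-- **Tube of a finite point of the component `0` which is not a crossing.** -/
theorem smooth_tube_zero_iff_centredAt (L : LevelAbove D D.Rfin C) {c : k}
    (hx : IsValueAt Q (D.res 0 ⟨x, D.hfin 0 H.x_mem⟩) c) (hQ : ∀ e, Q ≠ z₁ D e)
    {le : ∀ y ∈ C, y ∈ D.O 0} (hyp : PointHyp A π C (D.O 0) (D.res 0) le Q)
    {p : Ideal C} [p.IsPrime]
    (hp : ∀ y : C, y ∈ p ↔ Q.adicValuation (D.res 0 ⟨y, le y y.2⟩) < 1)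
    (P : Place K F) : H.r P = ⟨0, Q⟩ ↔ CentredAt A (locSub C p) P :=
  (r_eq_zero_iff_level_of_not_crossing H L hx hQ).trans (hyp.isRedOf_iff_centredAt hp)

/-- **Tube of a finite point of the component `1` which is not a crossing.** -/
theorem smooth_tube_one_iff_centredAt (L : LevelAbove D D.Rfin C) {c : k}
    (hx : IsValueAt Q (D.res 1 ⟨x, D.hfin 1 H.x_mem⟩) c) (hQ : ∀ e, Q ≠ z₂ D e)
    {le : ∀ y ∈ C, y ∈ D.O 1} (hyp : PointHyp A π C (D.O 1) (D.res 1) le Q)
    {p : Ideal C} [p.IsPrime]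
    (hp : ∀ y : C, y ∈ p ↔ Q.adicValuation (D.res 1 ⟨y, le y y.2⟩) < 1)
    (P : Place K F) : H.r P = ⟨1, Q⟩ ↔ CentredAt A (locSub C p) P :=
  (r_eq_one_iff_level H L hx hQ).trans (hyp.isRedOf_iff_centredAt hp)

/-- **Tube of a cusp of the component `0`** (level of the chart at infinity). -/
theorem cusp_tube_zero_iff_centredAt (L : LevelAbove D D.Rinf C)
    (hi : IsValueAt Q (D.res 0 ⟨x⁻¹, D.hinf 0 H.inv_mem⟩) 0)
    {le : ∀ y ∈ C, y ∈ D.O 0} (hyp : PointHyp A π C (D.O 0) (D.res 0) le Q)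
    {p : Ideal C} [p.IsPrime]
    (hp : ∀ y : C, y ∈ p ↔ Q.adicValuation (D.res 0 ⟨y, le y y.2⟩) < 1)
    (P : Place K F) : H.r P = ⟨0, Q⟩ ↔ CentredAt A (locSub C p) P :=
  (r_eq_zero_iff_level_inf H L hi).trans (hyp.isRedOf_iff_centredAt hp)

/-- **Tube of a cusp of the component `1`** (level of the chart at infinity). -/
theorem cusp_tube_one_iff_centredAt (L : LevelAbove D D.Rinf C)
    (hi : IsValueAt Q (D.res 1 ⟨x⁻¹, D.hinf 1 H.inv_mem⟩) 0)
    {le : ∀ y ∈ C, y ∈ D.O 1} (hyp : PointHyp A π C (D.O 1) (D.res 1) le Q)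
    {p : Ideal C} [p.IsPrime]
    (hp : ∀ y : C, y ∈ p ↔ Q.adicValuation (D.res 1 ⟨y, le y y.2⟩) < 1)
    (P : Place K F) : H.r P = ⟨1, Q⟩ ↔ CentredAt A (locSub C p) P :=
  (r_eq_one_iff_level_inf H L hi).trans (hyp.isRedOf_iff_centredAt hp)

/-- **The fields `regular₁`, `regular₂`, `same_point`, `tube_centred`, `tube_of_centred` of
`CrossingModel` (`BR/S0/CrossingModel`)** at a crossing `e`, for the tube of `PointDict`, at a
level `C ⊇ D.Rfin` at which the crossing persists. -/
theorem crossing_fields (L : LevelAbove D D.Rfin C) (e : Crossing D)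
    (hg : GluedOn (k := k) (D.res 0) (D.res 1) C (L.leO 0) (L.leO 1) (z₁ D e) (z₂ D e))
    (le₁ : ∀ y ∈ C, y ∈ D.O 0) (le₂ : ∀ y ∈ C, y ∈ D.O 1)
    (hyp : PointHyp A π C (D.O 0) (D.res 0) le₁ (z₁ D e)) :
    (∀ y : C, (z₁ D e).adicValuation (D.res 0 ⟨y, le₁ y y.2⟩) ≤ 1) ∧
    (∀ y : C, (z₂ D e).adicValuation (D.res 1 ⟨y, le₂ y y.2⟩) ≤ 1) ∧
    (∀ y : C, (z₁ D e).adicValuation (D.res 0 ⟨y, le₁ y y.2⟩) < 1 ↔
      (z₂ D e).adicValuation (D.res 1 ⟨y, le₂ y y.2⟩) < 1) ∧
    (∀ P ∈ {P | H.r P = ⟨0, z₁ D e⟩}, ∃ h : IntegralAt A C P,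
      ∀ y : C, y ∈ centre h ↔ (z₁ D e).adicValuation (D.res 0 ⟨y, le₁ y y.2⟩) < 1) ∧
    (∀ P : Place K F, (∃ h : IntegralAt A C P,
      ∀ y : C, y ∈ centre h ↔ (z₁ D e).adicValuation (D.res 0 ⟨y, le₁ y y.2⟩) < 1) →
      P ∈ {P | H.r P = ⟨0, z₁ D e⟩}) :=
  ⟨fun y => (regular_of_gluedOn hg y).1, fun y => (regular_of_gluedOn hg y).2,
    fun y => same_point_of_gluedOn hg y,
    tube_centred hyp (fun _ => r_eq_z₁_iff_level H L e hg),
    tube_of_centred hyp (fun _ => r_eq_z₁_iff_level H L e hg)⟩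

end EndToEnd

end Fermat.Agent.BR.S0.TubeDict
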